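/-
PROGRAMME ORD (S33), chapter IFACE-N (O6b "smooth discs", helper8): **from the disc systems at the
one-branch closed points to the fields `compat` and `good` of `SemiRedDatum9.SemiRedDatum`**.

* `exists_frac_rep` : on a disc system `C ⊂ G_v`, every `g ∈ G_v` with `red_v g ≠ 0` is a fraction
  `a / b`, `a, b ∈ C` with nonzero reductions, and `red_v g = red a / red b`;
* `sum_ord_eq_ord_red` : (S) for the elements of the Gauss ring of the component;
* `SmoothAtlas` : the abstract atlas — components `side v`, one-branch closed points `x : Pt` with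
  their component `comp x`, local ring `C x ⊂ G_{comp x}`, residue map, place `Q x` and disc system;
  nodes `e : E`; the centre map `centre : Place L F → Pt ⊕ E` with
  `centre P = inl x ↔ C x ⊂ O_P`; distinct one-branch points of a component have distinct places;
* `SmoothAtlas.r`, `r_eq_inl_iff`, **`compat`**, **`good`**, `exists_r_eq` : the specialisation map and
  the two fields of `SemiRedDatum`, literally in its shapes.
-/
import Mathlib
import Fermat.Agent.ORD.IFACEN.DiscSum8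
import Fermat.Agent.ORD.ANN.Side3

set_option autoImplicit false
set_option linter.unusedSectionVars false
set_option linter.style.longLine false

namespace Fermat.Agent.ORD.IFACEN.SmoothAtlas8

open AlgebraicCurve Fermat.Agent.X0.FF Fermat.Agent.RR.LSpace
open Fermat.Agent.ORD.ANN.Side3
open Fermat.Agent.ORD.IFACEN.DiscSys8 Fermat.Agent.ORD.IFACEN.DiscPlaces8
  Fermat.Agent.ORD.IFACEN.DiscSum8

variable {L F k Ft : Type*} [Field L] [Field F] [Algebra L F] [Field k] [Field Ft] [Algebra k Ft]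
variable {B : Base L k}

/-! ### fractions -/

section FracRep

variable (S : Side B F Ft) {C : Subring F} (hle : C ≤ S.G) {χ : C →+* k} {Q : Place k Ft}

/-- the reduction of the component restricted to the local ring. -/
def redOn : C →+* Ft := S.red.comp (Subring.inclusion hle)

theorem redOn_apply (c : C) : redOn S hle c = S.red ⟨(c : F), hle c.2⟩ := rfl

variable (h : DiscSys B.A B.res C (redOn S hle) χ Q)
include h

/-- every Gauss unit of the component is a fraction of elements of the local ring with nonzero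
reductions. -/
theorem exists_frac_rep (g : S.G) (hg : S.red g ≠ 0) :
    ∃ a b : C, redOn S hle a ≠ 0 ∧ redOn S hle b ≠ 0 ∧ (g : F) * (b : F) = (a : F) ∧
      S.red g * redOn S hle b = redOn S hle a := by
  have hg0 : (g : F) ≠ 0 := S.coe_ne_zero_of_red_ne_zero hg
  obtain ⟨a₀, b₀, hb₀, e⟩ := h.frac (g : F)
  have ha₀ : a₀ ≠ 0 := by
    rintro rfl
    have : (g : F) * (b₀ : F) = 0 := by rw [e]; rfl
    rcases mul_eq_zero.mp this with h1 | h1
    · exact hg0 h1
    · exact h.coe_ne_zero hb₀ h1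
  obtain ⟨α, a, ea, hra⟩ := h.content a₀ ha₀
  obtain ⟨β, b, eb, hrb⟩ := h.content b₀ hb₀
  have hβ : (β : L) ≠ 0 := by
    intro h0
    rw [h0, map_zero, zero_mul] at eb
    exact h.coe_ne_zero hb₀ eb
  have hα : (α : L) ≠ 0 := by
    intro h0
    rw [h0, map_zero, zero_mul] at ea
    exact h.coe_ne_zero ha₀ ea
  -- `g * b = (α / β) * a`
  set lam : L := (α : L) / (β : L) with hlam
  have hlam0 : lam ≠ 0 := div_ne_zero hα hβ
  have hβF : algebraMap L F (β : L) ≠ 0 := by rwa [Ne, map_eq_zero]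
  have e1 : (g : F) * (b : F) = algebraMap L F lam * (a : F) := by
    rw [ea, eb] at e
    rw [hlam, map_div₀, div_mul_eq_mul_div, eq_div_iff hβF]
    rw [← e]; ring
  have hgb : S.red (g * ⟨(b : F), hle b.2⟩) ≠ 0 := by
    rw [map_mul]; exact mul_ne_zero hg hrb
  -- `lam` is a unit of `A`
  have hlamA : lam ∈ B.A := by
    by_contra hnot
    have hinv : lam⁻¹ ∈ B.A := (B.A.mem_or_inv_mem lam).resolve_left hnot
    have hnu : ¬ IsUnit (⟨lam⁻¹, hinv⟩ : B.A) := by
      intro hu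
      obtain ⟨c, hc⟩ := isUnit_iff_exists_inv.mp hu
      have h1 : lam⁻¹ * (c : L) = 1 := congrArg Subtype.val hc
      have h2 : (c : L) = lam := ((inv_mul_eq_one₀ hlam0).mp h1).symm
      exact hnot (h2 ▸ c.2)
    have e2 : (⟨(a : F), hle a.2⟩ : S.G) = S.const ⟨lam⁻¹, hinv⟩ * (g * ⟨(b : F), hle b.2⟩) := by
      apply Subtype.ext
      show (a : F) = algebraMap L F lam⁻¹ * ((g : F) * (b : F))
      rw [e1, ← mul_assoc, ← map_mul, inv_mul_cancel₀ hlam0, map_one, one_mul]
    have h3 := congrArg S.red e2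
    rw [map_mul, S.red_const', (B.res_eq_zero_iff _).mpr hnu, map_zero, zero_mul] at h3
    exact hra h3
  have e3 : g * ⟨(b : F), hle b.2⟩ = S.const ⟨lam, hlamA⟩ * ⟨(a : F), hle a.2⟩ := Subtype.ext e1
  have hres : B.res ⟨lam, hlamA⟩ ≠ 0 := by
    intro h0
    apply hgb
    rw [e3, map_mul, S.red_const', h0, map_zero, zero_mul]
  refine ⟨h.const ⟨lam, hlamA⟩ * a, b, ?_, hrb, ?_, ?_⟩
  · rw [map_mul, h.red_const']
    exact mul_ne_zero (by rwa [Ne, map_eq_zero]) hra
  · rw [e1]; rfl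
  · have := congrArg S.red e3
    rw [map_mul, map_mul, S.red_const'] at this
    rw [map_mul, h.red_const']
    exact this

/-- **(S)** for the Gauss units of the component. -/
theorem sum_ord_eq_ord_red (HL : LHyp L F) (g : S.G) (hg : S.red g ≠ 0) (W : Finset (Place L F))
    (hW : ∀ P ∈ W, InDisc C P)
    (hzero : ∀ P : Place L F, InDisc C P → P.ord (g : F) ≠ 0 → P ∈ W) :
    ∑ P ∈ W, P.ord (g : F) = Q.ord (S.red g) := by
  obtain ⟨a, b, hra, hrb, e, ered⟩ := exists_frac_rep S hle h g hg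
  rw [sum_ord_frac_eq h HL (g : F) a b hra hrb e W hW hzero]
  have := Q.ord_mul hg hrb
  rw [ered] at this
  linarith

end FracRep

/-! ### the atlas -/

/-- **The smooth atlas**: the one-branch closed points of the model with their disc systems, and the
centre map. -/
structure SmoothAtlas (B : Base L k) (F Ft : Type*) [Field F] [Algebra L F] [Field Ft]
    [Algebra k Ft] (ι E : Type*) where
  HL : LHyp L F
  side : ι → Side B F Ft
  /-- the one-branch closed points -/
  Pt : Type*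
  comp : Pt → ι
  C : Pt → Subring F
  le_G : ∀ x, C x ≤ (side (comp x)).G
  χ : ∀ x, C x →+* k
  Q : Pt → Place k Ft
  sys : ∀ x, DiscSys B.A B.res (C x) (redOn (side (comp x)) (le_G x)) (χ x) (Q x)
  /-- the centre of a place: a one-branch point or a node -/
  centre : Place L F → Pt ⊕ E
  centre_inl : ∀ P x, centre P = Sum.inl x ↔ InDisc (C x) P
  Q_inj : ∀ x y, comp x = comp y → Q x = Q y → x = y

namespace SmoothAtlas

variable {ι E : Type*} (𝔸 : SmoothAtlas B F Ft ι E)

/-- **the specialisation map.** -/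
def r (P : Place L F) : (ι × Place k Ft) ⊕ E :=
  Sum.map (fun x => (𝔸.comp x, 𝔸.Q x)) id (𝔸.centre P)

theorem r_eq_inr_iff (P : Place L F) (e : E) : 𝔸.r P = Sum.inr e ↔ 𝔸.centre P = Sum.inr e := by
  unfold r
  rcases 𝔸.centre P with x | e' <;> simp

theorem r_of_centre_inl {P : Place L F} {x : 𝔸.Pt} (h : 𝔸.centre P = Sum.inl x) :
    𝔸.r P = Sum.inl (𝔸.comp x, 𝔸.Q x) := by
  unfold r
  rw [h]; rfl

/-- the fibre of `r` over the point `(comp x, Q x)` is the disc of `x`. -/
theorem r_eq_inl_iff (P : Place L F) (x : 𝔸.Pt) :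
    𝔸.r P = Sum.inl (𝔸.comp x, 𝔸.Q x) ↔ InDisc (𝔸.C x) P := by
  rw [← 𝔸.centre_inl]
  constructor
  · intro h
    unfold r at h
    rcases hc : 𝔸.centre P with y | e
    · rw [hc] at h
      have h1 : (𝔸.comp y, 𝔸.Q y) = (𝔸.comp x, 𝔸.Q x) := Sum.inl.inj h
      have h2 : 𝔸.comp y = 𝔸.comp x := congrArg Prod.fst h1
      have h3 : 𝔸.Q y = 𝔸.Q x := congrArg Prod.snd h1
      rw [𝔸.Q_inj y x h2 h3]
    · rw [hc] at h
      exact absurd h (by simp)
  · exact 𝔸.r_of_centre_inl

/-- every smooth point in the image of `r` is the point of a one-branch closed point. -/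
theorem exists_pt_of_r {P : Place L F} {v : ι} {Q : Place k Ft} (h : 𝔸.r P = Sum.inl (v, Q)) :
    ∃ x : 𝔸.Pt, 𝔸.comp x = v ∧ 𝔸.Q x = Q ∧ InDisc (𝔸.C x) P := by
  unfold r at h
  rcases hc : 𝔸.centre P with y | e
  · rw [hc] at h
    have h1 : (𝔸.comp y, 𝔸.Q y) = (v, Q) := Sum.inl.inj h
    exact ⟨y, congrArg Prod.fst h1, congrArg Prod.snd h1, (𝔸.centre_inl P y).mp hc⟩
  · rw [hc] at h
    exact absurd h (by simp)

/-- **every one-branch closed point carries a non-empty disc.** -/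
theorem exists_r_eq (x : 𝔸.Pt) : ∃ P : Place L F, 𝔸.r P = Sum.inl (𝔸.comp x, 𝔸.Q x) := by
  obtain ⟨P, hP⟩ := disc_nonempty (𝔸.sys x)
  exact ⟨P, (𝔸.r_eq_inl_iff P x).mpr hP⟩

open Classical in
/-- `mapDomain` evaluated at a point: the sum over the fibre. -/
theorem mapDomain_apply_eq_sum {α β : Type*} (f : α → β) (v : α →₀ ℤ) (b : β) :
    Finsupp.mapDomain f v b = ∑ a ∈ v.support.filter (fun a => f a = b), v a := by
  rw [Finsupp.mapDomain, Finsupp.sum_apply, Finsupp.sum, Finset.sum_filter]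
  refine Finset.sum_congr rfl fun a _ => ?_
  rw [Finsupp.single_apply]

/-- **(S)**: the field `compat` of `SemiRedDatum`. -/
theorem compat (v : ι) (g : (𝔸.side v).G) (hg : (𝔸.side v).red g ≠ 0) (D : Divisor L F)
    (hD : ∀ P, D P = P.ord (g : F)) (Q : Place k Ft) (hQ : ∃ P, 𝔸.r P = Sum.inl (v, Q)) :
    Finsupp.mapDomain 𝔸.r D (Sum.inl (v, Q)) = Q.ord ((𝔸.side v).red g) := by
  classical
  obtain ⟨P₀, hP₀⟩ := hQ
  obtain ⟨x, rfl, rfl, -⟩ := 𝔸.exists_pt_of_r hP₀
  rw [mapDomain_apply_eq_sum]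
  have h1 := sum_ord_eq_ord_red (𝔸.side (𝔸.comp x)) (𝔸.le_G x) (𝔸.sys x) 𝔸.HL g hg
    (D.support.filter (fun P => 𝔸.r P = Sum.inl (𝔸.comp x, 𝔸.Q x)))
    (fun P hP => (𝔸.r_eq_inl_iff P x).mp (Finset.mem_filter.mp hP).2)
    (fun P hP hne => by
      rw [Finset.mem_filter, Finsupp.mem_support_iff, hD]
      exact ⟨hne, (𝔸.r_eq_inl_iff P x).mpr hP⟩)
  rw [← h1]
  refine Finset.sum_congr ?_ fun P _ => hD P
  ext P
  simp only [Finset.mem_filter]

/-- **(G)**: the field `good` of `SemiRedDatum`. -/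
theorem good (P : Place L F) (v : ι) (Q : Place k Ft) (hP : 𝔸.r P = Sum.inl (v, Q)) :
    ∃ u : (𝔸.side v).G, P.ord (u : F) = 1 ∧ (𝔸.side v).red u ≠ 0 ∧
      ∀ P' : Place L F, 𝔸.r P' = Sum.inl (v, Q) →
        0 ≤ P'.ord (u : F) ∧ (P' ≠ P → P'.ord (u : F) = 0) := by
  obtain ⟨x, rfl, rfl, hPx⟩ := 𝔸.exists_pt_of_r hP
  obtain ⟨u, h1, h2, h3⟩ := exists_good (𝔸.sys x) 𝔸.HL hPx
  refine ⟨⟨(u : F), 𝔸.le_G x u.2⟩, h1, ?_, fun P' hP' => h3 P' ((𝔸.r_eq_inl_iff P' x).mp hP')⟩
  intro h0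
  have : redOn (𝔸.side (𝔸.comp x)) (𝔸.le_G x) u = 0 := h0
  rw [this, Place.ord_zero] at h2
  exact zero_ne_one h2

end SmoothAtlas

end Fermat.Agent.ORD.IFACEN.SmoothAtlas8
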