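/-
PROGRAMME ORD (S33), chapter IFACE-N (O6, helper9): **the final abstract assembly** of the semistable
datum `SemiRedDatum9.SemiRedDatum` from the three outputs of O6:

* (O6b) helper8's `SmoothAtlas8.SmoothAtlas B F Ft ι E` : components, one-branch closed points with
  their disc systems, the centre map `centre : Place L F → Pt ⊕ E` (gives `r`, `compat`, `good`,
  non-empty discs);
* (O6c) for every node `e : E` a `Node3.NodeChart` between `side (src e)` and `side (tgt e)` whose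
  annulus is the fibre of the centre map over `e` (`ann_eq`);
* the point/place dictionary (PTS), as hypotheses:
  (i) `pt_ne_src`, `pt_ne_tgt` : the place of a one-branch point is not a branch of a node;
  (ii) `pt_surj` : every place of `Ft` which is not a branch on the component `v` is the place of a
       one-branch point of `v` (properness of the model: every place of the reduced function field has
       a centre on one of the charts);
  (iii) `branch_s_inj`, `branch_t_inj`, `branch_st` : distinct nodes have distinct branches.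

`AssemblyData.toSemiRedDatum : SemiRedDatum L F k Ft ι E`, with `r = 𝔸.r`, `side = 𝔸.side` (rfl
lemmas), and the equivariance helpers `r_smul_of_centre`, `discCompatN_of_centre`.
-/
import Mathlib
import Fermat.Agent.ORD.IFACEN.SmoothAtlas8
import Fermat.Agent.ORD.SEMIRED.SemiRedDatum9
import Fermat.Agent.ORD.KERN.KerGalN9

set_option autoImplicit false
set_option linter.unusedSectionVars false
set_option linter.style.longLine false

namespace Fermat.Agent.ORD.IFACEN.AssembleN9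

open AlgebraicCurve Fermat.Agent.X0.FF Fermat.Agent.RR.LSpace Fermat.Agent.MW.EMB.Value6
open Fermat.Agent.ORD.ANN.Side3 Fermat.Agent.ORD.ANN.Node3
open Fermat.Agent.ORD.SEMIRED.SemiRedDatum9 Fermat.Agent.ORD.IFACEN.SmoothAtlas8

noncomputable section

universe uL uk uF uFt uι uE uP

variable {L : Type uL} {k : Type uk} [Field L] [Field k]

/-- **The outputs of O6**, before assembly. -/
structure AssemblyData (B : Base L k) (F : Type uF) (Ft : Type uFt) [Field F] [Algebra L F]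
    [Field Ft] [Algebra k Ft] (ι : Type uι) (E : Type uE) where
  /-- (O6b) the smooth atlas -/
  𝔸 : SmoothAtlas.{uL, uk, uF, uFt, uι, uE, uP} B F Ft ι E
  Hk : LHyp k Ft
  /-- the graph -/
  src : E → ι
  tgt : E → ι
  /-- (O6c) the node charts -/
  node : ∀ e, NodeChart B 𝔸.HL (𝔸.side (src e)) (𝔸.side (tgt e)) Hk Hk
  /-- the annulus of the node chart is the fibre of the centre map -/
  ann_eq : ∀ e P, P ∈ (node e).ann ↔ 𝔸.centre P = Sum.inr e
  /-- (i) the place of a one-branch point is not a branch -/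
  pt_ne_src : ∀ (x : 𝔸.Pt) e, src e = 𝔸.comp x → (node e).Q ≠ 𝔸.Q x
  pt_ne_tgt : ∀ (x : 𝔸.Pt) e, tgt e = 𝔸.comp x → (node e).Q' ≠ 𝔸.Q x
  /-- (ii) every non-branch place is the place of a one-branch point -/
  pt_surj : ∀ v Q, (∀ e, ¬ (src e = v ∧ (node e).Q = Q)) → (∀ e, ¬ (tgt e = v ∧ (node e).Q' = Q)) →
    ∃ x : 𝔸.Pt, 𝔸.comp x = v ∧ 𝔸.Q x = Q
  /-- (iii) distinct nodes have distinct branches -/
  branch_s_inj : ∀ e e', src e = src e' → (node e).Q = (node e').Q → e = e'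
  branch_t_inj : ∀ e e', tgt e = tgt e' → (node e).Q' = (node e').Q' → e = e'
  branch_st : ∀ e e', src e = tgt e' → (node e).Q ≠ (node e').Q'

namespace AssemblyData

variable {F : Type uF} {Ft : Type uFt} [Field F] [Algebra L F] [Field Ft] [Algebra k Ft]
variable {B : Base L k} {ι : Type uι} {E : Type uE}
  (𝔇 : AssemblyData.{uL, uk, uF, uFt, uι, uE, uP} B F Ft ι E)

/-- **the semistable datum.** -/
def toSemiRedDatum : SemiRedDatum L F k Ft ι E where
  B := B
  HL := 𝔇.𝔸.HL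
  Hk := 𝔇.Hk
  side := 𝔇.𝔸.side
  src := 𝔇.src
  tgt := 𝔇.tgt
  node := 𝔇.node
  branch_s_inj := 𝔇.branch_s_inj
  branch_t_inj := 𝔇.branch_t_inj
  branch_st := 𝔇.branch_st
  r := 𝔇.𝔸.r
  r_ann := fun e P => (𝔇.ann_eq e P).trans (𝔇.𝔸.r_eq_inr_iff P e).symm
  r_sm := by
    intro P v Q h
    obtain ⟨x, hv, hQ, -⟩ := 𝔇.𝔸.exists_pt_of_r h
    refine ⟨fun e he => ?_, fun e he => ?_⟩
    · exact 𝔇.pt_ne_src x e (he.1.trans hv.symm) (he.2.trans hQ.symm)
    · exact 𝔇.pt_ne_tgt x e (he.1.trans hv.symm) (he.2.trans hQ.symm)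
  r_surj := by
    intro v Q hs ht
    obtain ⟨x, hv, hQ⟩ := 𝔇.pt_surj v Q hs ht
    obtain ⟨P, hP⟩ := 𝔇.𝔸.exists_r_eq x
    exact ⟨P, by rw [hP, hv, hQ]⟩
  compat := 𝔇.𝔸.compat
  good := 𝔇.𝔸.good

@[simp] theorem toSemiRedDatum_B : 𝔇.toSemiRedDatum.B = B := rfl
@[simp] theorem toSemiRedDatum_side (v : ι) : 𝔇.toSemiRedDatum.side v = 𝔇.𝔸.side v := rfl
@[simp] theorem toSemiRedDatum_r (P : Place L F) : 𝔇.toSemiRedDatum.r P = 𝔇.𝔸.r P := rfl
@[simp] theorem toSemiRedDatum_src (e : E) : 𝔇.toSemiRedDatum.src e = 𝔇.src e := rfl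
@[simp] theorem toSemiRedDatum_tgt (e : E) : 𝔇.toSemiRedDatum.tgt e = 𝔇.tgt e := rfl
@[simp] theorem toSemiRedDatum_node (e : E) : 𝔇.toSemiRedDatum.node e = 𝔇.node e := rfl
@[simp] theorem toSemiRedDatum_HL : 𝔇.toSemiRedDatum.HL = 𝔇.𝔸.HL := rfl
@[simp] theorem toSemiRedDatum_Hk : 𝔇.toSemiRedDatum.Hk = 𝔇.Hk := rfl

/-- the smooth points of the assembled datum are the places of the one-branch points. -/
theorem isSm_iff (v : ι) (Q : Place k Ft) :
    𝔇.toSemiRedDatum.IsSm v Q ↔ ∃ x : 𝔇.𝔸.Pt, 𝔇.𝔸.comp x = v ∧ 𝔇.𝔸.Q x = Q := by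
  constructor
  · intro h
    have h' := (𝔇.toSemiRedDatum.isSm_iff v Q).mp h
    exact 𝔇.pt_surj v Q h'.1 h'.2
  · rintro ⟨x, rfl, rfl⟩
    obtain ⟨P, hP⟩ := 𝔇.𝔸.exists_r_eq x
    exact 𝔇.toSemiRedDatum.isSm_of_r (P := P) hP

/-- the smooth disc of the point of `x` is the disc of the local ring `C x`. -/
theorem r_eq_inl_iff (P : Place L F) (x : 𝔇.𝔸.Pt) :
    𝔇.toSemiRedDatum.r P = Sum.inl (𝔇.𝔸.comp x, 𝔇.𝔸.Q x) ↔
      Fermat.Agent.ORD.IFACEN.DiscPlaces8.InDisc (𝔇.𝔸.C x) P :=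
  𝔇.𝔸.r_eq_inl_iff P x

/-- an automorphism commuting with the centre map acts trivially on the specialisation. -/
theorem r_smul_of_centre {σ : SemilinearAut L F}
    (h : ∀ P : Place L F, 𝔇.𝔸.centre (σ • P) = 𝔇.𝔸.centre P) (P : Place L F) :
    𝔇.toSemiRedDatum.r (σ • P) = 𝔇.toSemiRedDatum.r P := by
  show 𝔇.𝔸.r (σ • P) = 𝔇.𝔸.r P
  unfold SmoothAtlas.r
  rw [h P]

/-- … hence permutes the fibres of the specialisation (`KerGalN9.DiscCompatN`). -/
theorem discCompatN_of_centre {σ : SemilinearAut L F}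
    (h : ∀ P : Place L F, 𝔇.𝔸.centre (σ • P) = 𝔇.𝔸.centre P) :
    Fermat.Agent.ORD.KERN.KerGalN9.DiscCompatN 𝔇.toSemiRedDatum σ := by
  intro P P' hPP'
  rw [𝔇.r_smul_of_centre h P, 𝔇.r_smul_of_centre h P', hPP']

end AssemblyData

end

end Fermat.Agent.ORD.IFACEN.AssembleN9
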