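/-
Programme ORD (S33), chapter IFACE-N (helper6): **(DLINK) for a semistable datum built on a smooth
atlas — NO chart covers needed.**

`NSExistsN9.DLink 𝔻` (input `hlink` of `MainN7.exists_admissible`, `CloseN3.psOutN_all`, …) was to be
proved through `LinkC6.ChartCoverC` (charts whose rings contain good uniformizers of all their
points).  `LinkFrac6.dunit_of_fracRep` replaces the cover by the local fraction representation, and
helper8's `SmoothAtlas8.exists_frac_rep` provides exactly that: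

* `FracRepN 𝔻` : on every smooth disc `(v, Q)` every Gauss unit of `G v` is `a / b`, `a b ∈ G v`
  without poles on the disc, `red b ≠ 0`;
* `dlink_of_fracRepN : FracRepN 𝔻 → DLink 𝔻`;
* `atlas_fracRep` : the fraction representation on the discs of a smooth atlas;
* `fracRepN_of_atlas`, **`dlink_of_atlas`** : for `𝔻` with `𝔻.side = 𝔸.side` and `𝔻.r = 𝔸.r`
  (both `rfl` for the assembly of `𝔻` from `𝔸`), `DLink 𝔻`.
-/
import Mathlib
import Fermat.Agent.ORD.REDN.LinkFrac6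
import Fermat.Agent.ORD.NSN.NSExistsN9
import Fermat.Agent.ORD.IFACEN.SmoothAtlas8

set_option autoImplicit false
set_option linter.unusedSectionVars false
set_option linter.style.longLine false

namespace Fermat.Agent.ORD.IFACEN.DLinkAtlas6

open AlgebraicCurve Fermat.Agent.X0.FF Fermat.Agent.RR.LSpace
open Fermat.Agent.ORD.ANN.Side3
open Fermat.Agent.ORD.SEMIRED.SemiRedDatum9 Fermat.Agent.ORD.REDN.LinkC6
  Fermat.Agent.ORD.REDN.LinkFrac6 Fermat.Agent.ORD.NSN.NSExistsN9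
open Fermat.Agent.ORD.IFACEN.DiscSys8 Fermat.Agent.ORD.IFACEN.DiscPlaces8
  Fermat.Agent.ORD.IFACEN.SmoothAtlas8

variable {L F k Ft : Type*} [Field L] [Field F] [Algebra L F] [Field k] [Field Ft] [Algebra k Ft]
variable {ι E : Type*}

/-- **Fraction representation on the smooth discs of a semistable datum.** -/
def FracRepN (𝔻 : SemiRedDatum L F k Ft ι E) : Prop :=
  ∀ (v : ι) (Q : Place k Ft), (∃ P, 𝔻.r P = Sum.inl (v, Q)) → ∀ g : 𝔻.G v, 𝔻.red v g ≠ 0 →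
    ∃ a b : 𝔻.G v, 𝔻.red v b ≠ 0 ∧ 𝔻.PoleFree (a : F) v Q ∧ 𝔻.PoleFree (b : F) v Q ∧
      (g : F) * (b : F) = (a : F)

theorem fracRep_comp {𝔻 : SemiRedDatum L F k Ft ι E} (h : FracRepN 𝔻) (w : ι) :
    FracRep (𝔻.comp w) := by
  rintro Q ⟨P, hP⟩ g hg
  obtain ⟨a, b, hb, hpa, hpb, e⟩ := h w Q ⟨P, (𝔻.comp_r_eq_some_iff).mp hP⟩ g hg
  exact ⟨a, b, hb, (𝔻.comp_poleFree_iff).mpr hpa, (𝔻.comp_poleFree_iff).mpr hpb, e⟩

/-- **(DLINK) from the fraction representation.** -/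
theorem dlink_of_fracRepN [IsAlgClosed L] [CharZero L] {x : F} (hx : IsGen L x)
    {𝔻 : SemiRedDatum L F k Ft ι E} (h : FracRepN 𝔻) : DLink 𝔻 :=
  fun w _ _ _ _ _ _ hu hu' => dunit_of_fracRep hx (fracRep_comp h w) hu hu'

/-- the fraction representation on the discs of a smooth atlas. -/
theorem atlas_fracRep {B : Base L k}
    (𝔸 : SmoothAtlas B F Ft ι E) (v : ι) (Q : Place k Ft) (hQ : ∃ P, 𝔸.r P = Sum.inl (v, Q))
    (g : (𝔸.side v).G) (hg : (𝔸.side v).red g ≠ 0) :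
    ∃ a b : (𝔸.side v).G, (𝔸.side v).red b ≠ 0 ∧
      (∀ P : Place L F, 𝔸.r P = Sum.inl (v, Q) → 0 ≤ P.ord (a : F)) ∧
      (∀ P : Place L F, 𝔸.r P = Sum.inl (v, Q) → 0 ≤ P.ord (b : F)) ∧
      (g : F) * (b : F) = (a : F) := by
  obtain ⟨P₀, hP₀⟩ := hQ
  obtain ⟨y, rfl, rfl, -⟩ := 𝔸.exists_pt_of_r hP₀
  obtain ⟨a, b, -, hrb, e, -⟩ := exists_frac_rep (𝔸.side (𝔸.comp y)) (𝔸.le_G y) (𝔸.sys y) g hg
  refine ⟨⟨(a : F), 𝔸.le_G y a.2⟩, ⟨(b : F), 𝔸.le_G y b.2⟩, hrb, ?_, ?_, e⟩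
  · intro P hP
    exact ffp_ord_nonneg_of_mem P ((𝔸.r_eq_inl_iff P y).mp hP _ a.2)
  · intro P hP
    exact ffp_ord_nonneg_of_mem P ((𝔸.r_eq_inl_iff P y).mp hP _ b.2)

/-- a semistable datum assembled on a smooth atlas has the fraction representation. -/
theorem fracRepN_of_atlas (𝔻 : SemiRedDatum L F k Ft ι E) (𝔸 : SmoothAtlas 𝔻.B F Ft ι E)
    (hside : 𝔸.side = 𝔻.side) (hr : 𝔸.r = 𝔻.r) : FracRepN 𝔻 := by
  intro v Q hQ g hg
  have key : ∀ (sd : ι → Side 𝔻.B F Ft), 𝔸.side = sd → ∀ g : (sd v).G, (sd v).red g ≠ 0 →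
      ∃ a b : (sd v).G, (sd v).red b ≠ 0 ∧
        (∀ P : Place L F, 𝔸.r P = Sum.inl (v, Q) → 0 ≤ P.ord (a : F)) ∧
        (∀ P : Place L F, 𝔸.r P = Sum.inl (v, Q) → 0 ≤ P.ord (b : F)) ∧
        (g : F) * (b : F) = (a : F) := by
    rintro sd rfl g hg
    exact atlas_fracRep 𝔸 v Q (by rw [hr]; exact hQ) g hg
  obtain ⟨a, b, hb, hpa, hpb, e⟩ := key 𝔻.side hside g hg
  refine ⟨a, b, hb, ?_, ?_, e⟩
  · intro P hP; exact hpa P (by rw [hr]; exact hP)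
  · intro P hP; exact hpb P (by rw [hr]; exact hP)

/-- **(DLINK) for a semistable datum assembled on a smooth atlas.** -/
theorem dlink_of_atlas [IsAlgClosed L] [CharZero L] {x : F} (hx : IsGen L x)
    (𝔻 : SemiRedDatum L F k Ft ι E) (𝔸 : SmoothAtlas 𝔻.B F Ft ι E)
    (hside : 𝔸.side = 𝔻.side) (hr : 𝔸.r = 𝔻.r) : DLink 𝔻 :=
  dlink_of_fracRepN hx (fracRepN_of_atlas 𝔻 𝔸 hside hr)

end Fermat.Agent.ORD.IFACEN.DLinkAtlas6
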