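/-
PROGRAMME ORD (S33), chapter IFACE-N (O6, helper9): **`TorsOrd` from the outputs of O6** — the
composition of `AssembleN9` (the semistable datum), `DLinkAtlas6` ((DLINK) from the atlas), `UnifN9`
(inertia-fixed uniformizers off a finite set, with the Teichmüller lifts of `FF/IFACE/Teich8`) and
lead's `FINAL/FinalOrd2.torsOrd_of_datum`.

`torsOrd_of_assembly` : for `A = padicPlace p` (`p` odd) and the curve `X₀(N)` over `ℚ̄`, let `𝔇` be an
`AssemblyData` (smooth atlas + node charts + point/place dictionary) over a base `B` with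
`B.A = padicPlace p` and algebraically closed residue field of characteristic `p`.  Assume
* (LIFT), (CONN) for the assembled datum;
* every `γ ∈ I_p` acts by an `Inertial` automorphism and commutes with the centre map of the atlas;
* on every component an `I_p`-fixed integral function whose reduction is a separating generator.
Then `TorsOrd N p k (Iv p)` for all `k`.
-/
import Mathlib
import Fermat.Agent.ORD.FINAL.FinalOrd2
import Fermat.Agent.ORD.IFACEN.AssembleN9
import Fermat.Agent.ORD.IFACEN.UnifN9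
import Fermat.Agent.ORD.IFACEN.DLinkAtlas6
import Fermat.Agent.FF.IFACE.Teich8

set_option autoImplicit false
set_option linter.unusedSectionVars false
set_option linter.style.longLine false

namespace Fermat.Agent.ORD.IFACEN.AssembleMainN9

open AlgebraicCurve ModularCurve IntermediateField Fermat.Agent.X0.FF Fermat.Agent.RR.LSpace
open Fermat.Agent.ORD.ANN.Side3 Fermat.Agent.ORD.ANN.Inertial3
open Fermat.Agent.ORD.SEMIRED.SemiRedDatum9 Fermat.Agent.ORD.SEMIRED.ToSemiRed9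
open Fermat.Agent.ORD.NSN.NSInputN9 Fermat.Agent.ORD.NSN.NSExistsN9
open Fermat.Agent.ORD.IFACEN.SmoothAtlas8 Fermat.Agent.ORD.IFACEN.AssembleN9
open Fermat.Agent.ORD.FINAL.LevelOrd0
open Fermat.Agent.FF.BASE.Place2 Fermat.Agent.FF.FINAL.Final0 GaloisRep
open Fermat.Agent.TW.FLAT.FlatModule6

noncomputable section

local notation "Qb" => AlgebraicClosure ℚ

universe uP

/-- **Teichmüller lifts fixed by inertia, for an abstract base over `A`.** -/
theorem exists_teich_base {κ : Type*} [Field κ] (B : Base Qb κ) {ℓ : ℕ} (hℓ : ℓ.Prime)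
    (hA : B.A.LiesOverPrime ℓ) (c : κ) :
    ∃ a : B.A, B.res a = c ∧ ∀ τ ∈ B.A.inertiaSubgroupIn ℚ, τ (a : Qb) = (a : Qb) := by
  obtain ⟨a₀, ha₀⟩ := B.res_surj c
  obtain ⟨a, ha, hfix⟩ := Fermat.Agent.FF.IFACE.Teich8.exists_teichmuller hℓ hA
    (IsLocalRing.residue B.A a₀)
  refine ⟨a, ?_, hfix⟩
  have h1 : IsLocalRing.residue B.A (a - a₀) = 0 := by rw [map_sub, ha, sub_self]
  rw [IsLocalRing.residue_eq_zero_iff, IsLocalRing.mem_maximalIdeal, _root_.mem_nonunits_iff] at h1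
  have h2 : B.res (a - a₀) = 0 := (B.res_eq_zero_iff _).mpr h1
  rw [map_sub, sub_eq_zero] at h2
  rw [h2, ha₀]

variable {p : ℕ} [Fact p.Prime] {N : ℕ} [NeZero N] {k : ℕ}

/-- **`TorsOrd` from the outputs of O6.** -/
theorem torsOrd_of_assembly (hp2 : p ≠ 2)
    {κ Ft : Type} [Field κ] [Field Ft] [Algebra κ Ft] {ι E : Type} [Finite ι] [Nonempty ι]
    [Finite E] [IsAlgClosed κ] [CharP κ p]
    {B : Base Qb κ} (hB : B.A = padicPlace p)
    (𝔇 : AssemblyData.{0, 0, 0, 0, 0, 0, uP} B (X0.FF N) Ft ι E)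
    {x : X0.FF N} (hx : IsGen Qb x)
    (hlift : LiftsMatched 𝔇.toSemiRedDatum) (hconn : GraphConn 𝔇.toSemiRedDatum)
    (hinert : ∀ γ ∈ Iv p, Inertial (toSemiRed 𝔇.toSemiRedDatum)
      (arithmeticGalois (modularFunctionFieldFull N) γ))
    (hcentre : ∀ γ ∈ Iv p, ∀ P : Place Qb (X0.FF N),
      𝔇.𝔸.centre (arithmeticGalois (modularFunctionFieldFull N) γ • P) = 𝔇.𝔸.centre P)
    (t : ∀ v, (𝔇.𝔸.side v).G) (hgen : ∀ v, IsGen κ ((𝔇.𝔸.side v).red (t v)))
    (hsep : ∀ v, Algebra.IsSeparable κ⟮(𝔇.𝔸.side v).red (t v)⟯ Ft)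
    (ht : ∀ v, ∀ γ ∈ Iv p,
      arithmeticGalois (modularFunctionFieldFull N) γ • (t v : X0.FF N) = (t v : X0.FF N)) :
    TorsOrd N p k (Iv p) := by
  have hp : p.Prime := Fact.out
  have hExp : ExpChar κ p := ExpChar.prime hp
  have hPerf : PerfectRing κ p := PerfectField.toPerfectRing p
  have hA : B.A.LiesOverPrime p := by rw [hB]; exact liesOverPrime p
  have hI : ∀ γ ∈ Iv p, γ ∈ B.A.inertiaSubgroupIn ℚ := by rw [hB]; exact fun γ h => h
  -- the inertia-fixed uniformizers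
  obtain ⟨Bad, hBad, hunif⟩ := Fermat.Agent.ORD.IFACEN.UnifN9.exists_bad_unifN 𝔇.toSemiRedDatum
    t hgen hsep
    (fun u => ∀ γ ∈ Iv p, arithmeticGalois (modularFunctionFieldFull N) γ • u = u)
    (fun a b ha hb γ hγ => by rw [smul_sub, ha γ hγ, hb γ hγ]) ht
    (fun c => by
      obtain ⟨a, ha, hfix⟩ := exists_teich_base B hp hA c
      refine ⟨a, ha, fun γ hγ => ?_⟩
      rw [SemilinearAut.smul_algebraMap]
      congr 1
      exact hfix γ (hI γ hγ))
  exact Fermat.Agent.ORD.FINAL.FinalOrd2.torsOrd_of_datum hp2 𝔇.toSemiRedDatum hB hx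
    (Fermat.Agent.ORD.IFACEN.DLinkAtlas6.dlink_of_atlas hx 𝔇.toSemiRedDatum 𝔇.𝔸 rfl rfl)
    hlift hconn hinert
    (fun γ hγ P => 𝔇.r_smul_of_centre (hcentre γ hγ) P)
    Bad hBad (fun v Q _ hQ => hunif v Q hQ)

/-- variant with the coordinates given as functions `t v : F` with membership proofs (no dependent
function into the Gauss rings; convenient for `ι = Fin 2`). -/
theorem torsOrd_of_assembly' (hp2 : p ≠ 2)
    {κ Ft : Type} [Field κ] [Field Ft] [Algebra κ Ft] {ι E : Type} [Finite ι] [Nonempty ι]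
    [Finite E] [IsAlgClosed κ] [CharP κ p]
    {B : Base Qb κ} (hB : B.A = padicPlace p)
    (𝔇 : AssemblyData.{0, 0, 0, 0, 0, 0, uP} B (X0.FF N) Ft ι E)
    {x : X0.FF N} (hx : IsGen Qb x)
    (hlift : LiftsMatched 𝔇.toSemiRedDatum) (hconn : GraphConn 𝔇.toSemiRedDatum)
    (hinert : ∀ γ ∈ Iv p, Inertial (toSemiRed 𝔇.toSemiRedDatum)
      (arithmeticGalois (modularFunctionFieldFull N) γ))
    (hcentre : ∀ γ ∈ Iv p, ∀ P : Place Qb (X0.FF N),
      𝔇.𝔸.centre (arithmeticGalois (modularFunctionFieldFull N) γ • P) = 𝔇.𝔸.centre P)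
    (t : ι → X0.FF N) (htG : ∀ v, t v ∈ (𝔇.𝔸.side v).G)
    (hgen : ∀ v, IsGen κ ((𝔇.𝔸.side v).red ⟨t v, htG v⟩))
    (hsep : ∀ v, Algebra.IsSeparable κ⟮(𝔇.𝔸.side v).red ⟨t v, htG v⟩⟯ Ft)
    (ht : ∀ v, ∀ γ ∈ Iv p,
      arithmeticGalois (modularFunctionFieldFull N) γ • t v = t v) :
    TorsOrd N p k (Iv p) :=
  torsOrd_of_assembly hp2 hB 𝔇 hx hlift hconn hinert hcentre (fun v => ⟨t v, htG v⟩) hgen hsep ht

end

end Fermat.Agent.ORD.IFACEN.AssembleMainN9
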