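/-
PROGRAMME ORD (S33), chapter IFACE-N (O6b "smooth discs", helper8): **the abstract smooth residue
disc**.

`L ⊇ A` a valuation ring of the constant field with residue map `res : A →+* k`, `F / L` and
`Ft / k` function fields (`LHyp`).  A *disc system* is

* `C ⊂ F` a subring (the `L`-level local ring of the model at a closed point `x` of the special fibre
  lying on ONE component, i.e. the union over all finite levels of the regular local rings
  `(B_K)_{x_K}`),
* `red : C →+* Ft` (the reduction on that component) and `χ : C →+* k` (the residue at `x`),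
* `Q` a place of `Ft / k` whose valuation ring is `red C` (VAL),

subject to the axioms of `DiscSys`: `C` is local with residue map `χ`, `ker red ⊂ ker χ`, contents
exist, `Frac C = F`, valuation rings of `F / L` containing `C` are places, and the peeling property
(PEEL) holds for every `A`-valued point `val : C →+* A` of `C`.

Everything here is independent of the other components and of the nodes of the special fibre.
This file: the axioms and their first consequences on the reduced side
(`ord_red_nonneg`, `ord_red_eq_zero_iff`, `ord_red_pos_iff`, `mem_A_of_const_mem`).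
-/
import Mathlib
import Fermat.Agent.RR.LSpace
import Fermat.Agent.MW.EMB.Value6
import Fermat.Agent.X0.FFPlace

set_option autoImplicit false
set_option linter.unusedSectionVars false
set_option linter.style.longLine false

namespace Fermat.Agent.ORD.IFACEN.DiscSys8

open AlgebraicCurve Fermat.Agent.X0.FF Fermat.Agent.RR.LSpace

variable {L F k Ft : Type*} [Field L] [Field F] [Algebra L F] [Field k] [Field Ft] [Algebra k Ft]

/-- **The abstract smooth residue disc.** -/
structure DiscSys (A : ValuationSubring L) (res : A →+* k) (C : Subring F) (red : C →+* Ft)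
    (χ : C →+* k) (Q : Place k Ft) : Prop where
  res_surj : Function.Surjective res
  res_eq_zero_iff : ∀ a : A, res a = 0 ↔ ¬ IsUnit a
  /-- constants -/
  const_mem : ∀ a : A, algebraMap L F a ∈ C
  red_const : ∀ a : A, red ⟨algebraMap L F a, const_mem a⟩ = algebraMap k Ft (res a)
  chi_const : ∀ a : A, χ ⟨algebraMap L F a, const_mem a⟩ = res a
  /-- `C` is local with residue map `χ` -/
  inv_mem : ∀ c : C, χ c ≠ 0 → (c : F)⁻¹ ∈ C
  /-- the closed point lies on the component -/
  chi_of_red : ∀ c : C, red c = 0 → χ c = 0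
  /-- contents -/
  content : ∀ c : C, c ≠ 0 →
    ∃ (a : A) (c' : C), (c : F) = algebraMap L F a * (c' : F) ∧ red c' ≠ 0
  /-- `F = Frac C` -/
  frac : ∀ y : F, ∃ a b : C, b ≠ 0 ∧ y * (b : F) = (a : F)
  /-- (VAL): `red C` is the valuation ring of `Q` -/
  mem_Q : ∀ y : Ft, y ∈ Q.toValuationSubring ↔ ∃ c : C, red c = y
  /-- (PEEL) at every `A`-valued point -/
  peel : ∀ val : C →+* A, (∀ a : A, val ⟨algebraMap L F a, const_mem a⟩ = a) →
    ∃ u : C, val u = 0 ∧ Q.ord (red u) = 1 ∧ ∀ z : C, val z = 0 → ∃ z' : C, z = u * z'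
  /-- valuation rings of `F / L` over the chart are places -/
  places : ∀ O : ValuationSubring F, (∀ c : L, algebraMap L F c ∈ O) → O ≠ ⊤ →
    (∀ c ∈ C, c ∈ O) → ∃ P : Place L F, P.toValuationSubring = O

variable {A : ValuationSubring L} {res : A →+* k} {C : Subring F} {red : C →+* Ft}
  {χ : C →+* k} {Q : Place k Ft}

namespace DiscSys

variable (h : DiscSys A res C red χ Q)
include h

/-- the constant `a ∈ A` as an element of `C`. -/
def const (a : A) : C := ⟨algebraMap L F a, h.const_mem a⟩

@[simp] theorem coe_const (a : A) : ((h.const a : C) : F) = algebraMap L F (a : L) := rfl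

theorem red_const' (a : A) : red (h.const a) = algebraMap k Ft (res a) := h.red_const a

theorem chi_const' (a : A) : χ (h.const a) = res a := h.chi_const a

theorem const_mul (a b : A) : h.const (a * b) = h.const a * h.const b :=
  Subtype.ext (by simp)

theorem const_one : h.const 1 = 1 := Subtype.ext (by simp)

theorem const_zero : h.const 0 = 0 := Subtype.ext (by simp)

theorem const_sub (a b : A) : h.const (a - b) = h.const a - h.const b :=
  Subtype.ext (by simp)

/-- constants as a ring homomorphism. -/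
def constHom : A →+* C where
  toFun := h.const
  map_one' := h.const_one
  map_mul' := h.const_mul
  map_zero' := h.const_zero
  map_add' a b := Subtype.ext (by simp)

@[simp] theorem constHom_apply (a : A) : h.constHom a = h.const a := rfl

theorem coe_ne_zero {c : C} (hc : c ≠ 0) : (c : F) ≠ 0 := fun h0 => hc (Subtype.ext h0)

theorem ne_zero_of_red {c : C} (hc : red c ≠ 0) : c ≠ 0 := by
  rintro rfl
  exact hc (map_zero _)

theorem ne_zero_of_chi {c : C} (hc : χ c ≠ 0) : c ≠ 0 := by
  rintro rfl
  exact hc (map_zero _)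

theorem red_ne_zero_of_chi {c : C} (hc : χ c ≠ 0) : red c ≠ 0 :=
  fun h0 => hc (h.chi_of_red c h0)

/-- the inverse in `C` of an element with `χ c ≠ 0`. -/
def inv (c : C) (hc : χ c ≠ 0) : C := ⟨(c : F)⁻¹, h.inv_mem c hc⟩

theorem mul_inv (c : C) (hc : χ c ≠ 0) : c * h.inv c hc = 1 :=
  Subtype.ext (by
    show (c : F) * (c : F)⁻¹ = 1
    exact mul_inv_cancel₀ (h.coe_ne_zero (h.ne_zero_of_chi hc)))

theorem isUnit_of_chi {c : C} (hc : χ c ≠ 0) : IsUnit c :=
  isUnit_iff_exists_inv.mpr ⟨h.inv c hc, h.mul_inv c hc⟩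

theorem chi_ne_zero_of_isUnit {c : C} (hc : IsUnit c) : χ c ≠ 0 := (hc.map χ).ne_zero

theorem isUnit_iff_chi {c : C} : IsUnit c ↔ χ c ≠ 0 :=
  ⟨h.chi_ne_zero_of_isUnit, h.isUnit_of_chi⟩

/-- `C ∩ L = A`. -/
theorem mem_A_of_const_mem {c : L} (hc : algebraMap L F c ∈ C) : c ∈ A := by
  by_contra hcA
  have hinv : c⁻¹ ∈ A := (A.mem_or_inv_mem c).resolve_left hcA
  have hc0 : c ≠ 0 := by
    rintro rfl
    exact hcA A.zero_mem
  have hnu : ¬ IsUnit (⟨c⁻¹, hinv⟩ : A) := by
    intro hu
    obtain ⟨b, hb⟩ := isUnit_iff_exists_inv.mp hu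
    have h1 : c⁻¹ * (b : L) = 1 := congrArg Subtype.val hb
    have h2 : (b : L) = c := ((inv_mul_eq_one₀ hc0).mp h1).symm
    exact hcA (h2 ▸ b.2)
  have h0 : res ⟨c⁻¹, hinv⟩ = 0 := (h.res_eq_zero_iff _).mpr hnu
  have h1 : (⟨algebraMap L F c, hc⟩ : C) * h.const ⟨c⁻¹, hinv⟩ = 1 :=
    Subtype.ext (by
      show algebraMap L F c * algebraMap L F c⁻¹ = 1
      rw [← map_mul, mul_inv_cancel₀ hc0, map_one])
  have h2 := congrArg χ h1
  rw [map_mul, h.chi_const', h0, mul_zero, map_one] at h2
  exact zero_ne_one h2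

/-! ### the reduced side -/

theorem red_mem_Q (c : C) : red c ∈ Q.toValuationSubring := (h.mem_Q _).mpr ⟨c, rfl⟩

theorem ord_red_nonneg (c : C) : 0 ≤ Q.ord (red c) :=
  ffp_ord_nonneg_of_mem Q (h.red_mem_Q c)

/-- a unit of `C` reduces to a unit at `Q`. -/
theorem ord_red_eq_zero_of_chi {c : C} (hc : χ c ≠ 0) : Q.ord (red c) = 0 := by
  have h1 := h.ord_red_nonneg c
  have h2 := h.ord_red_nonneg (h.inv c hc)
  have h3 : red c * red (h.inv c hc) = 1 := by rw [← map_mul, h.mul_inv, map_one]
  have hr : red c ≠ 0 := h.red_ne_zero_of_chi hc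
  have hr' : red (h.inv c hc) ≠ 0 := by
    intro h0
    rw [h0, mul_zero] at h3
    exact zero_ne_one h3
  have h4 := Q.ord_mul hr hr'
  rw [h3, Place.ord_one] at h4
  omega

/-- conversely. -/
theorem chi_ne_zero_of_ord_red {c : C} (hr : red c ≠ 0) (hc : Q.ord (red c) = 0) : χ c ≠ 0 := by
  have hmem : (red c)⁻¹ ∈ Q.toValuationSubring := by
    apply ffp_mem_of_ord_nonneg
    rw [Place.ord_inv, hc, neg_zero]
  obtain ⟨c', hc'⟩ := (h.mem_Q _).mp hmem
  have h1 : red (c * c' - 1) = 0 := by
    rw [map_sub, map_mul, hc', mul_inv_cancel₀ hr, map_one, sub_self]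
  have h2 := h.chi_of_red _ h1
  rw [map_sub, map_mul, map_one, sub_eq_zero] at h2
  intro h0
  rw [h0, zero_mul] at h2
  exact zero_ne_one h2

theorem ord_red_eq_zero_iff {c : C} (hr : red c ≠ 0) : Q.ord (red c) = 0 ↔ χ c ≠ 0 :=
  ⟨h.chi_ne_zero_of_ord_red hr, h.ord_red_eq_zero_of_chi⟩

theorem ord_red_pos_iff {c : C} (hr : red c ≠ 0) : 0 < Q.ord (red c) ↔ χ c = 0 := by
  have h1 := h.ord_red_nonneg c
  have h2 := h.ord_red_eq_zero_iff hr
  constructor
  · intro hpos
    by_contra hne
    have := h2.mpr hne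
    omega
  · intro h0
    by_contra hnp
    have h3 : Q.ord (red c) = 0 := by omega
    exact (h2.mp h3) h0

/-- `χ` is determined by `red` and the values at `Q`: `χ c = res a` iff `red c − a~` vanishes at
`Q`. -/
theorem chi_eq_res_iff (c : C) (a : A) : χ c = res a ↔ χ (c - h.const a) = 0 := by
  rw [map_sub, h.chi_const', sub_eq_zero]

theorem exists_res_eq_chi (c : C) : ∃ a : A, res a = χ c := h.res_surj (χ c)

end DiscSys

end Fermat.Agent.ORD.IFACEN.DiscSys8
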