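/-
PROGRAMME ORD (S33), chapter IFACE-N (O6b "smooth discs", helper8): **a system of finite levels gives
an abstract smooth residue disc**.

`C ⊂ F` a subring (the `L`-level local ring at a closed point `x` of the special fibre lying on one
component), `red : C →+* Ft`, `χ : C →+* k`, and finite levels `ι K : B_K →+* C` (`B_K` = the chart
of the model over the discrete valuation ring `A ∩ K`, or its localisation at `x_K`) with elements
`π K : B_K` (uniformisers of `A ∩ K`).  `DiscLevels` lists the hypotheses: these are (L0)–(L4) of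
`ES/RED/LevelPeel22.LevelSystem` with `χ` in place of `res ∘ val` (no place is needed to state them),
plus: `π K` is a constant, `C` is local with residue map `χ`, `F = Frac C`, valuation rings of `F / L`
over `C` are places, valuation rings of `Ft / k` are principal.

`exists_discSys` : `DiscLevels → ∃ Q : Place k Ft, DiscSys A res C red χ Q`.
(VAL) is `LevelPeel22.lemmaV`, (PEEL) is `LevelPeel22.LevelSystem.peel_a`, contents come from (L3) and
Krull's intersection theorem (`WfDvdMonoid.max_power_factor`).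
-/
import Mathlib
import Fermat.Agent.ORD.IFACEN.DiscSys8
import Fermat.Agent.ES.RED.LevelPeel22

set_option autoImplicit false
set_option linter.unusedSectionVars false
set_option linter.style.longLine false
set_option linter.style.haveILetI false

namespace Fermat.Agent.ORD.IFACEN.DiscOfLevels8

open AlgebraicCurve Fermat.Agent.X0.FF Fermat.Agent.RR.LSpace
open Fermat.Agent.ORD.IFACEN.DiscSys8 Fermat.Agent.ES.RED.LevelPeel22

variable {L F k Ft : Type*} [Field L] [Field F] [Algebra L F] [Field k] [Field Ft] [Algebra k Ft]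

/-- a fraction identity. -/
theorem mul_inv_eq_div_of_mul_eq {K : Type*} [Field K] {a b c d : K} (ha : a ≠ 0) (hd : d ≠ 0)
    (h : b * d = a * c) : c * d⁻¹ = b / a := by
  rw [eq_div_iff ha]
  calc c * d⁻¹ * a = (a * c) * d⁻¹ := by ring
    _ = (b * d) * d⁻¹ := by rw [h]
    _ = b := by rw [mul_assoc, mul_inv_cancel₀ hd, mul_one]

/-- **The level hypotheses of a smooth residue disc.** -/
structure DiscLevels (A : ValuationSubring L) (res : A →+* k) (C : Subring F) (red : C →+* Ft)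
    (χ : C →+* k) {I : Type*} (Bk : I → Type*) [∀ K, CommRing (Bk K)] (ι : ∀ K, Bk K →+* C)
    (π : ∀ K, Bk K) : Prop where
  res_surj : Function.Surjective res
  res_eq_zero_iff : ∀ a : A, res a = 0 ↔ ¬ IsUnit a
  const_mem : ∀ a : A, algebraMap L F a ∈ C
  red_const : ∀ a : A, red ⟨algebraMap L F a, const_mem a⟩ = algebraMap k Ft (res a)
  chi_const : ∀ a : A, χ ⟨algebraMap L F a, const_mem a⟩ = res a
  inv_mem : ∀ c : C, χ c ≠ 0 → (c : F)⁻¹ ∈ C
  frac : ∀ y : F, ∃ a b : C, b ≠ 0 ∧ y * (b : F) = (a : F)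
  places : ∀ O : ValuationSubring F, (∀ c : L, algebraMap L F c ∈ O) → O ≠ ⊤ →
    (∀ c ∈ C, c ∈ O) → ∃ P : Place L F, P.toValuationSubring = O
  pir : ∀ O : ValuationSubring Ft, (∀ c : k, algebraMap k Ft c ∈ O) → O ≠ ⊤ →
    IsPrincipalIdealRing O
  /-- the closed point is not the generic point of the component -/
  nonunit : ∃ z : C, χ z = 0 ∧ red z ≠ 0
  inj : ∀ K, Function.Injective (ι K)
  L0 : ∀ S : List C, ∃ K, ∀ b ∈ S, ∃ b' : Bk K, ι K b' = b
  noeth : ∀ K, IsNoetherianRing (Bk K)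
  pi_const : ∀ K, ∃ ϖ : A, ϖ ≠ 0 ∧ res ϖ = 0 ∧ ((ι K (π K) : C) : F) = algebraMap L F (ϖ : L)
  isMax : ∀ K, (RingHom.ker (χ.comp (ι K))).IsMaximal
  smooth : ∀ K, ∃ s ∈ RingHom.ker (χ.comp (ι K)), ∀ y ∈ RingHom.ker (χ.comp (ι K)),
    ∃ d : Bk K, d ∉ RingHom.ker (χ.comp (ι K)) ∧ d * y ∈ Ideal.span {π K, s}
  L3 : ∀ K (b : Bk K), red (ι K b) = 0 ↔ π K ∣ b
  L4 : ∀ y : Ft, ∃ a b : C, red b ≠ 0 ∧ y * red b = red a

variable {A : ValuationSubring L} {res : A →+* k} {C : Subring F} {red : C →+* Ft}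
  {χ : C →+* k} {I : Type*} {Bk : I → Type*} [∀ K, CommRing (Bk K)] {ι : ∀ K, Bk K →+* C}
  {π : ∀ K, Bk K}

namespace DiscLevels

variable (h : DiscLevels A res C red χ Bk ι π)
include h

/-- constants as a ring homomorphism `A →+* C`. -/
def constHom : A →+* C where
  toFun a := ⟨algebraMap L F a, h.const_mem a⟩
  map_one' := Subtype.ext (by simp)
  map_mul' a b := Subtype.ext (by simp)
  map_zero' := Subtype.ext (by simp)
  map_add' a b := Subtype.ext (by simp)

theorem coe_constHom (a : A) : ((h.constHom a : C) : F) = algebraMap L F (a : L) := rfl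

theorem red_constHom (a : A) : red (h.constHom a) = algebraMap k Ft (res a) := h.red_const a

theorem chi_constHom (a : A) : χ (h.constHom a) = res a := h.chi_const a

theorem isDomain (K : I) : IsDomain (Bk K) := Function.Injective.isDomain (ι K) (h.inj K)

theorem chi_pi (K : I) : χ (ι K (π K)) = 0 := by
  obtain ⟨ϖ, -, hres, e⟩ := h.pi_const K
  have : ι K (π K) = h.constHom ϖ := Subtype.ext e
  rw [this, h.chi_constHom, hres]

theorem pi_mem (K : I) : π K ∈ RingHom.ker (χ.comp (ι K)) := h.chi_pi K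

/-- `ker red ⊂ ker χ`. -/
theorem chi_of_red (c : C) (hc : red c = 0) : χ c = 0 := by
  obtain ⟨K, hK⟩ := h.L0 [c]
  obtain ⟨b', rfl⟩ := hK c (by simp)
  obtain ⟨e, rfl⟩ := (h.L3 K b').1 hc
  rw [map_mul, map_mul, h.chi_pi, zero_mul]

theorem isPrime_span_pi (K : I) : (Ideal.span {π K} : Ideal (Bk K)).IsPrime := by
  have : (Ideal.span {π K} : Ideal (Bk K)) = RingHom.ker (red.comp (ι K)) := by
    ext b
    rw [Ideal.mem_span_singleton, RingHom.mem_ker, RingHom.comp_apply, h.L3]
  rw [this]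
  exact RingHom.ker_isPrime _

theorem ne_zero_of_chi {c : C} (hc : χ c ≠ 0) : (c : F) ≠ 0 := by
  intro h0
  apply hc
  have : c = 0 := Subtype.ext h0
  rw [this, map_zero]

/-- the inverse of an element with `χ c ≠ 0`. -/
def inv (c : C) (hc : χ c ≠ 0) : C := ⟨(c : F)⁻¹, h.inv_mem c hc⟩

theorem mul_inv (c : C) (hc : χ c ≠ 0) : c * h.inv c hc = 1 :=
  Subtype.ext (by
    show (c : F) * (c : F)⁻¹ = 1
    exact mul_inv_cancel₀ (h.ne_zero_of_chi hc))

theorem red_ne_zero_of_chi {c : C} (hc : χ c ≠ 0) : red c ≠ 0 :=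
  fun h0 => hc (h.chi_of_red c h0)

/-- **(VAL)**: `red C` is a valuation ring of `Ft`. -/
theorem mem_or_inv_mem (y : Ft) : (∃ c : C, red c = y) ∨ ∃ c : C, red c = y⁻¹ := by
  by_cases hy0 : y = 0
  · left; exact ⟨0, by rw [map_zero, hy0]⟩
  obtain ⟨a, b, hb, e⟩ := h.L4 y
  have ha : red a ≠ 0 := by rw [← e]; exact mul_ne_zero hy0 hb
  obtain ⟨K, hK⟩ := h.L0 [a, b]
  obtain ⟨a', rfl⟩ := hK a (by simp)
  obtain ⟨b', rfl⟩ := hK b (by simp)
  haveI := h.isDomain K
  haveI := h.noeth K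
  haveI := h.isMax K
  obtain ⟨s, hs, hsm⟩ := h.smooth K
  obtain ⟨c, d, hd, hcd⟩ := lemmaV (RingHom.ker (χ.comp (ι K))) (h.pi_mem K) hs hsm
    (h.isPrime_span_pi K) a' b'
  have hdχ : χ (ι K d) ≠ 0 := hd
  have hy : y = red (ι K a') / red (ι K b') := by rw [eq_div_iff hb, e]
  have hdr : red (ι K d) ≠ 0 := h.red_ne_zero_of_chi hdχ
  have hinv : red (h.inv (ι K d) hdχ) = (red (ι K d))⁻¹ := by
    have := congrArg red (h.mul_inv (ι K d) hdχ)
    rw [map_mul, map_one] at this
    exact eq_inv_of_mul_eq_one_right this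
  rcases hcd with h1 | h1
  · right
    have h2 := (h.L3 K _).2 h1
    rw [map_sub, map_sub, sub_eq_zero, map_mul, map_mul, map_mul, map_mul] at h2
    refine ⟨ι K c * h.inv (ι K d) hdχ, ?_⟩
    rw [map_mul, hinv, hy, inv_div]
    exact mul_inv_eq_div_of_mul_eq ha hdr h2
  · left
    have h2 := (h.L3 K _).2 h1
    rw [map_sub, map_sub, sub_eq_zero, map_mul, map_mul, map_mul, map_mul] at h2
    refine ⟨ι K c * h.inv (ι K d) hdχ, ?_⟩
    rw [map_mul, hinv, hy]
    exact mul_inv_eq_div_of_mul_eq hb hdr h2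

/-- the valuation subring `red C` of `Ft`. -/
def valO : ValuationSubring Ft where
  carrier := {y | ∃ c : C, red c = y}
  mul_mem' := by
    rintro _ _ ⟨a, rfl⟩ ⟨b, rfl⟩
    exact ⟨a * b, map_mul _ _ _⟩
  one_mem' := ⟨1, map_one _⟩
  add_mem' := by
    rintro _ _ ⟨a, rfl⟩ ⟨b, rfl⟩
    exact ⟨a + b, map_add _ _ _⟩
  zero_mem' := ⟨0, map_zero _⟩
  neg_mem' := by
    rintro _ ⟨a, rfl⟩
    exact ⟨-a, map_neg _ _⟩
  mem_or_inv_mem' := h.mem_or_inv_mem

theorem mem_valO_iff {y : Ft} : y ∈ h.valO ↔ ∃ c : C, red c = y := Iff.rfl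

theorem algebraMap_mem_valO (c : k) : algebraMap k Ft c ∈ h.valO := by
  obtain ⟨a, rfl⟩ := h.res_surj c
  exact ⟨h.constHom a, h.red_constHom a⟩

/-- a non-unit of `C` with nonzero reduction reduces to a non-unit of `red C`. -/
theorem inv_not_mem_valO {z : C} (hχ : χ z = 0) (hr : red z ≠ 0) : (red z)⁻¹ ∉ h.valO := by
  rintro ⟨c, hc⟩
  have h0 : red (z * c - 1) = 0 := by
    rw [map_sub, map_mul, hc, mul_inv_cancel₀ hr, map_one, sub_self]
  have h2 := h.chi_of_red _ h0
  rw [map_sub, map_mul, hχ, zero_mul, map_one, zero_sub, neg_eq_zero] at h2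
  exact one_ne_zero h2

theorem valO_ne_top : h.valO ≠ ⊤ := by
  obtain ⟨z, hχ, hr⟩ := h.nonunit
  intro htop
  apply h.inv_not_mem_valO hχ hr
  rw [htop]
  exact ValuationSubring.mem_top _

/-- **the place `Q` of `Ft / k` with valuation ring `red C`.** -/
def placeQ : Place k Ft :=
  ⟨h.valO, h.algebraMap_mem_valO, h.valO_ne_top, h.pir _ h.algebraMap_mem_valO h.valO_ne_top⟩

theorem mem_placeQ_iff (y : Ft) : y ∈ h.placeQ.toValuationSubring ↔ ∃ c : C, red c = y := Iff.rfl

/-- a unit of `C` reduces to a unit at `Q`. -/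
theorem ord_red_eq_zero_of_chi {c : C} (hc : χ c ≠ 0) : h.placeQ.ord (red c) = 0 := by
  have h1 : 0 ≤ h.placeQ.ord (red c) := ffp_ord_nonneg_of_mem _ ((h.mem_placeQ_iff _).mpr ⟨c, rfl⟩)
  have h2 : 0 ≤ h.placeQ.ord (red (h.inv c hc)) :=
    ffp_ord_nonneg_of_mem _ ((h.mem_placeQ_iff _).mpr ⟨_, rfl⟩)
  have h3 : red c * red (h.inv c hc) = 1 := by rw [← map_mul, h.mul_inv, map_one]
  have hr : red c ≠ 0 := h.red_ne_zero_of_chi hc
  have hr' : red (h.inv c hc) ≠ 0 := by
    intro h0
    rw [h0, mul_zero] at h3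
    exact zero_ne_one h3
  have h4 := h.placeQ.ord_mul hr hr'
  rw [h3, Place.ord_one] at h4
  omega

/-! ### (PEEL) from `LevelPeel22.peel_a` -/

/-- for an `A`-valued point `val` of `C`, `res ∘ val = χ`. -/
theorem res_comp_val (val : C →+* A) (hval : ∀ a : A, val (h.constHom a) = a) :
    res.comp val = χ := by
  -- first: `χ c = 0 → res (val c) = 0`
  have key : ∀ c : C, χ c = 0 → res (val c) = 0 := by
    intro c hc
    by_contra hne
    have hu : IsUnit (val c) := by
      by_contra hnu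
      exact hne ((h.res_eq_zero_iff _).mpr hnu)
    obtain ⟨b, hb⟩ := isUnit_iff_exists_inv.mp hu
    set w : C := 1 - h.constHom b * c with hw
    have hχw : χ w ≠ 0 := by
      rw [hw, map_sub, map_mul, hc, mul_zero, sub_zero, map_one]
      exact one_ne_zero
    have h1 : w * h.inv w hχw = 1 := h.mul_inv w hχw
    have h2 : val w = 0 := by
      rw [hw, map_sub, map_mul, map_one, hval, mul_comm, hb, sub_self]
    have h3 := congrArg val h1
    rw [map_mul, h2, zero_mul, map_one] at h3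
    exact zero_ne_one h3
  ext c
  obtain ⟨a, ha⟩ := h.res_surj (χ c)
  have h0 : χ (c - h.constHom a) = 0 := by rw [map_sub, h.chi_constHom, ha, sub_self]
  have h1 := key _ h0
  rw [map_sub, hval, map_sub, sub_eq_zero] at h1
  rw [RingHom.comp_apply, h1, ha]

/-- the level system of `LevelPeel22` at an `A`-valued point. -/
theorem levelSystem (val : C →+* A) (hval : ∀ a : A, val (h.constHom a) = a) :
    @LevelSystem A C k Ft _ _ h.constHom.toAlgebra _ _ res val red I Bk _ ι π := by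
  letI : Algebra A C := h.constHom.toAlgebra
  have hχ := h.res_comp_val val hval
  subst hχ
  exact
    { val_algebraMap := hval
      red_algebraMap := fun a ha => by
        show red (h.constHom a) = 0
        rw [h.red_constHom, ha, map_zero]
      inj := h.inj
      L0 := h.L0
      noeth := h.noeth
      val_pi := fun K => by
        obtain ⟨ϖ, hϖ, -, e⟩ := h.pi_const K
        have : ι K (π K) = h.constHom ϖ := Subtype.ext e
        rw [this, hval]
        exact hϖ
      chi_pi := h.chi_pi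
      isMax := h.isMax
      smooth := h.smooth
      L3 := h.L3
      L4 := h.L4 }

/-- membership in `LevelPeel22.Oset` is membership in `red C`. -/
theorem mem_Oset_iff (val : C →+* A) (hval : ∀ a : A, val (h.constHom a) = a) (y : Ft) :
    y ∈ Oset res val red ↔ ∃ c : C, red c = y := by
  have hχ := h.res_comp_val val hval
  constructor
  · rintro ⟨a, d, hd, e⟩
    have hd' : χ d ≠ 0 := by rw [← hχ]; exact hd
    refine ⟨a * h.inv d hd', ?_⟩
    have hdr : red d ≠ 0 := h.red_ne_zero_of_chi hd'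
    have hinv : red (h.inv d hd') = (red d)⁻¹ := by
      have := congrArg red (h.mul_inv d hd')
      rw [map_mul, map_one] at this
      exact eq_inv_of_mul_eq_one_right this
    rw [map_mul, hinv, ← e]
    field_simp
  · rintro ⟨c, rfl⟩
    exact ⟨c, 1, by rw [map_one]; exact one_ne_zero, by rw [map_one, mul_one]⟩

/-- **(PEEL)**. -/
theorem peel (val : C →+* A) (hval : ∀ a : A, val (h.constHom a) = a) :
    ∃ u : C, val u = 0 ∧ h.placeQ.ord (red u) = 1 ∧ ∀ z : C, val z = 0 → ∃ z' : C, z = u * z' := by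
  have hχ := h.res_comp_val val hval
  have hLS := h.levelSystem val hval
  obtain ⟨ϖ, hϖ⟩ := ffp_exists_irreducible h.placeQ
  have hϖ0 : (ϖ : Ft) ≠ 0 := fun h0 => hϖ.ne_zero (Subtype.ext h0)
  have hϖ1 : h.placeQ.ord (ϖ : Ft) = 1 := h.placeQ.ord_coe_irreducible hϖ
  have hmemO : ∀ y : Ft, y ∈ Oset res val red ↔ y ∈ h.placeQ.toValuationSubring := fun y =>
    (h.mem_Oset_iff val hval y).trans (h.mem_placeQ_iff y).symm
  have h1 : (ϖ : Ft) ∈ Oset res val red := (hmemO _).mpr ϖ.2
  have h2 : (ϖ : Ft)⁻¹ ∉ Oset res val red := by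
    intro hmem
    have := ffp_ord_nonneg_of_mem _ ((hmemO _).mp hmem)
    rw [Place.ord_inv, hϖ1] at this
    omega
  have h3 : ∀ y ∈ Oset res val red, y⁻¹ ∉ Oset res val red →
      ∃ g ∈ Oset res val red, y = (ϖ : Ft) * g := by
    intro y hy hyinv
    rcases eq_or_ne y 0 with rfl | hy0
    · exact ⟨0, ⟨0, 1, by rw [map_one]; exact one_ne_zero, by rw [map_zero, zero_mul]⟩,
        by rw [mul_zero]⟩
    have hyO := (hmemO _).mp hy
    have hpos : 0 < h.placeQ.ord y := by
      have h0 := ffp_ord_nonneg_of_mem _ hyO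
      by_contra hnp
      have h00 : h.placeQ.ord y = 0 := by omega
      apply hyinv
      rw [hmemO]
      apply ffp_mem_of_ord_nonneg
      rw [Place.ord_inv, h00, neg_zero]
    refine ⟨y * (ϖ : Ft)⁻¹, ?_, by field_simp⟩
    rw [hmemO]
    apply ffp_mem_of_ord_nonneg
    rw [h.placeQ.ord_mul hy0 (inv_ne_zero hϖ0), Place.ord_inv, hϖ1]
    omega
  letI : Algebra A C := h.constHom.toAlgebra
  obtain ⟨u, hu, ⟨d₀, hd₀, e₀⟩, hpeel⟩ := hLS.peel_a (ϖ : Ft) hϖ0 h1 h2 h3
  have hd₀' : χ d₀ ≠ 0 := by rw [← hχ]; exact hd₀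
  refine ⟨u, hu, ?_, fun z hz => ?_⟩
  · rw [← e₀, h.placeQ.ord_mul hϖ0 (h.red_ne_zero_of_chi hd₀'), hϖ1,
      h.ord_red_eq_zero_of_chi hd₀', add_zero]
  · obtain ⟨d, z', hd, e⟩ := hpeel z hz
    have hd' : χ d ≠ 0 := by rw [← hχ]; exact hd
    refine ⟨z' * h.inv d hd', ?_⟩
    calc z = z * (d * h.inv d hd') := by rw [h.mul_inv, mul_one]
      _ = z * d * h.inv d hd' := by ring
      _ = u * (z' * h.inv d hd') := by rw [e]; ring

/-! ### contents -/

theorem content (c : C) (hc : c ≠ 0) :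
    ∃ (a : A) (c' : C), (c : F) = algebraMap L F a * (c' : F) ∧ red c' ≠ 0 := by
  obtain ⟨K, hK⟩ := h.L0 [c]
  obtain ⟨b, rfl⟩ := hK c (by simp)
  haveI := h.isDomain K
  haveI := h.noeth K
  have hb0 : b ≠ 0 := by
    rintro rfl
    exact hc (map_zero _)
  have hnu : ¬ IsUnit (π K) := by
    intro hu
    have := (hu.map (χ.comp (ι K))).ne_zero
    exact this (h.chi_pi K)
  obtain ⟨n, b', hb', e⟩ := WfDvdMonoid.max_power_factor' hb0 hnu
  obtain ⟨ϖ, -, -, eϖ⟩ := h.pi_const K
  refine ⟨ϖ ^ n, ι K b', ?_, fun h0 => hb' ((h.L3 K b').1 h0)⟩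
  rw [e, map_mul, map_pow]
  push_cast
  rw [eϖ]

/-- **A system of levels gives an abstract smooth residue disc.** -/
theorem discSys : DiscSys A res C red χ h.placeQ :=
  { res_surj := h.res_surj
    res_eq_zero_iff := h.res_eq_zero_iff
    const_mem := h.const_mem
    red_const := h.red_const
    chi_const := h.chi_const
    inv_mem := h.inv_mem
    chi_of_red := h.chi_of_red
    content := h.content
    frac := h.frac
    mem_Q := h.mem_placeQ_iff
    peel := fun val hval => h.peel val hval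
    places := h.places }

theorem exists_discSys : ∃ Q : Place k Ft, DiscSys A res C red χ Q := ⟨h.placeQ, h.discSys⟩

end DiscLevels

end Fermat.Agent.ORD.IFACEN.DiscOfLevels8
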