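/-
PROGRAMME ORD (S33), chapter IFACE-N (O6b "smooth discs", helper8): **the local ring of a chart at a
closed point of one component**, at the level of the big field `L`.

`BA ⊂ F` a chart of the model over `A` (an `A`-subalgebra of `F`), `χ₀ : BA →+* k` a closed point
of the special fibre (`χ₀ = res` on constants), `G ⊂ F` the Gauss ring of a component with reduction
`red : G →+* Ft`, `BA ⊂ G`, `G` local with maximal ideal `ker red`, and the point lies on the
component: `red b = 0 → χ₀ b = 0` on `BA` (`OnComp`).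

* `locC BA χ₀ : Subring F` := `BA` localised at `ker χ₀` (`NodalSmooth13.locSub`), `mem_locC_iff`;
* `chiC : locC →+* k` the extension of `χ₀`, `redC : locC →+* Ft` the restriction of `red`;
* the elementary fields of `DiscOfLevels8.DiscLevels` for `(locC, redC, chiC)`: constants,
  `inv_mem`, `frac`, `places`, `nonunit`, and `chiC_of_redC` for elements of `BA`.
-/
import Mathlib
import Fermat.Agent.ORD.IFACEN.DiscOfLevels8
import Fermat.Agent.ES.N34.NodalSmooth13

set_option autoImplicit false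
set_option linter.unusedSectionVars false
set_option linter.style.longLine false

namespace Fermat.Agent.ORD.IFACEN.LocAt8

open AlgebraicCurve Fermat.Agent.ES.N34.NodalSmooth13

variable {L F k Ft : Type*} [Field L] [Field F] [Algebra L F] [Field k] [Field Ft] [Algebra k Ft]
variable {A : ValuationSubring L} [Algebra A F] [IsScalarTower A L F]

theorem algebraMap_A_eq (a : A) : algebraMap A F a = algebraMap L F (a : L) :=
  IsScalarTower.algebraMap_apply A L F a

section Loc

variable (BA : Subalgebra A F) (χ₀ : BA →+* k)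

/-- the closed point as a prime ideal of the chart. -/
abbrev pt : Ideal BA := RingHom.ker χ₀

instance pt_isPrime : (pt BA χ₀).IsPrime := RingHom.ker_isPrime χ₀

/-- **the local ring of the chart at the closed point**, as a subring of `F`. -/
def locC : Subring F := (locSub BA (pt BA χ₀)).toSubring

theorem mem_locC_iff {x : F} :
    x ∈ locC BA χ₀ ↔ ∃ a d : BA, χ₀ d ≠ 0 ∧ x * (d : F) = (a : F) := Iff.rfl

theorem le_locC {x : F} (hx : x ∈ BA) : x ∈ locC BA χ₀ := le_locSub BA (pt BA χ₀) hx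

/-- the inclusion `BA → locC`. -/
def ofBA : BA →+* locC BA χ₀ where
  toFun b := ⟨(b : F), le_locC BA χ₀ b.2⟩
  map_one' := rfl
  map_mul' _ _ := rfl
  map_zero' := rfl
  map_add' _ _ := rfl

@[simp] theorem coe_ofBA (b : BA) : ((ofBA BA χ₀ b : locC BA χ₀) : F) = (b : F) := rfl

/-- `locC` and `locSub` have the same elements. -/
def toLocSub : locC BA χ₀ →+* ↥(locSub BA (pt BA χ₀)) where
  toFun x := ⟨x.1, x.2⟩
  map_one' := rfl
  map_mul' _ _ := rfl
  map_zero' := rfl
  map_add' _ _ := rfl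

@[simp] theorem coe_toLocSub (x : locC BA χ₀) : ((toLocSub BA χ₀ x : ↥(locSub BA (pt BA χ₀))) : F) = x :=
  rfl

theorem toLocSub_ofBA (b : BA) :
    toLocSub BA χ₀ (ofBA BA χ₀ b) = algebraMap BA ↥(locSub BA (pt BA χ₀)) b := rfl

/-- the extension of `χ₀` to the localisation `locSub`. -/
noncomputable def chiLoc : ↥(locSub BA (pt BA χ₀)) →+* k :=
  IsLocalization.lift (M := (pt BA χ₀).primeCompl) (S := ↥(locSub BA (pt BA χ₀))) (g := χ₀)
    (fun d => IsUnit.mk0 _ d.2)

/-- **the residue map of the local ring.** -/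
noncomputable def chiC : locC BA χ₀ →+* k := (chiLoc BA χ₀).comp (toLocSub BA χ₀)

theorem chiC_ofBA (b : BA) : chiC BA χ₀ (ofBA BA χ₀ b) = χ₀ b := by
  show chiLoc BA χ₀ (algebraMap BA ↥(locSub BA (pt BA χ₀)) b) = χ₀ b
  exact IsLocalization.lift_eq _ b

/-- the value of `χ` on a fraction. -/
theorem chiC_mul_eq {x : locC BA χ₀} {a d : BA} (h : (x : F) * (d : F) = (a : F)) :
    chiC BA χ₀ x * χ₀ d = χ₀ a := by
  have h1 : x * ofBA BA χ₀ d = ofBA BA χ₀ a := Subtype.ext h
  have h2 := congrArg (chiC BA χ₀) h1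
  rwa [map_mul, chiC_ofBA, chiC_ofBA] at h2

theorem exists_rep (x : locC BA χ₀) : ∃ a d : BA, χ₀ d ≠ 0 ∧ (x : F) * (d : F) = (a : F) := x.2

/-- `locC` is local with residue map `chiC`. -/
theorem inv_mem_locC (x : locC BA χ₀) (hx : chiC BA χ₀ x ≠ 0) : (x : F)⁻¹ ∈ locC BA χ₀ := by
  obtain ⟨a, d, hd, h⟩ := exists_rep BA χ₀ x
  have h1 := chiC_mul_eq BA χ₀ h
  have ha : χ₀ a ≠ 0 := by rw [← h1]; exact mul_ne_zero hx hd
  have hd0 : (d : F) ≠ 0 := by
    intro h0
    apply hd
    have : d = 0 := Subtype.ext h0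
    rw [this, map_zero]
  have ha0 : (a : F) ≠ 0 := by
    intro h0
    apply ha
    have : a = 0 := Subtype.ext h0
    rw [this, map_zero]
  have hx0 : (x : F) ≠ 0 := by
    intro h0
    rw [h0, zero_mul] at h
    exact ha0 h.symm
  refine ⟨d, a, ha, ?_⟩
  rw [← h]
  field_simp

theorem frac_locC (hfrac : ∀ y : F, ∃ a b : BA, b ≠ 0 ∧ y * (b : F) = (a : F)) (y : F) :
    ∃ a b : locC BA χ₀, b ≠ 0 ∧ y * (b : F) = (a : F) := by
  obtain ⟨a, b, hb, h⟩ := hfrac y
  refine ⟨ofBA BA χ₀ a, ofBA BA χ₀ b, ?_, h⟩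
  intro h0
  apply hb
  have : (b : F) = 0 := congrArg Subtype.val h0
  exact Subtype.ext this

/-! ### constants -/

theorem const_mem_locC (a : A) : algebraMap L F (a : L) ∈ locC BA χ₀ := by
  rw [← algebraMap_A_eq]
  exact le_locC BA χ₀ (BA.algebraMap_mem a)

theorem chiC_const {res : A →+* k} (hχ₀ : ∀ a : A, χ₀ (algebraMap A BA a) = res a) (a : A) :
    chiC BA χ₀ ⟨algebraMap L F (a : L), const_mem_locC BA χ₀ a⟩ = res a := by
  have : (⟨algebraMap L F (a : L), const_mem_locC BA χ₀ a⟩ : locC BA χ₀) =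
      ofBA BA χ₀ (algebraMap A BA a) := Subtype.ext (by
    show algebraMap L F (a : L) = ((algebraMap A BA a : BA) : F)
    rw [← algebraMap_A_eq]; rfl)
  rw [this, chiC_ofBA, hχ₀]

end Loc

/-! ### the component -/

section Comp

variable (BA : Subalgebra A F) (χ₀ : BA →+* k) (G : Subring F) (red : G →+* Ft)

/-- the hypotheses linking the chart, the closed point and the component. -/
structure OnComp : Prop where
  le_G : ∀ b ∈ BA, b ∈ G
  /-- `G` is local with maximal ideal `ker red` -/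
  inv_mem : ∀ g : G, red g ≠ 0 → (g : F)⁻¹ ∈ G
  /-- the closed point lies on the component -/
  on : ∀ b : BA, red ⟨(b : F), le_G b b.2⟩ = 0 → χ₀ b = 0

variable {BA χ₀ G red}

theorem OnComp.locC_le (h : OnComp BA χ₀ G red) : locC BA χ₀ ≤ G := by
  rintro x ⟨a, d, hd', e⟩
  have hd : χ₀ d ≠ 0 := hd'
  have hrd : red ⟨(d : F), h.le_G d d.2⟩ ≠ 0 := fun h0 => hd (h.on d h0)
  have hd0 : (d : F) ≠ 0 := by
    intro h0
    apply hd
    have : d = 0 := Subtype.ext h0
    rw [this, map_zero]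
  have : x = (a : F) * (d : F)⁻¹ := by rw [← e]; field_simp
  rw [this]
  exact G.mul_mem (h.le_G a a.2) (h.inv_mem _ hrd)

/-- **the reduction on the local ring.** -/
def OnComp.redC (h : OnComp BA χ₀ G red) : locC BA χ₀ →+* Ft :=
  red.comp (Subring.inclusion h.locC_le)

theorem OnComp.redC_apply (h : OnComp BA χ₀ G red) (x : locC BA χ₀) :
    h.redC x = red ⟨(x : F), h.locC_le x.2⟩ := rfl

theorem OnComp.redC_ofBA (h : OnComp BA χ₀ G red) (b : BA) :
    h.redC (ofBA BA χ₀ b) = red ⟨(b : F), h.le_G b b.2⟩ := rfl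

theorem OnComp.redC_const (h : OnComp BA χ₀ G red) {res : A →+* k}
    (hconstG : ∀ a : A, algebraMap L F (a : L) ∈ G)
    (hred : ∀ a : A, red ⟨algebraMap L F (a : L), hconstG a⟩ = algebraMap k Ft (res a)) (a : A) :
    h.redC ⟨algebraMap L F (a : L), const_mem_locC BA χ₀ a⟩ = algebraMap k Ft (res a) :=
  hred a

/-- `ker redC ⊂ ker chiC` (the general case of `on`). -/
theorem OnComp.chiC_of_redC (h : OnComp BA χ₀ G red) (x : locC BA χ₀) (hx : h.redC x = 0) :
    chiC BA χ₀ x = 0 := by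
  obtain ⟨a, d, hd, e⟩ := exists_rep BA χ₀ x
  have h1 : x * ofBA BA χ₀ d = ofBA BA χ₀ a := Subtype.ext e
  have h2 := congrArg h.redC h1
  rw [map_mul, hx, zero_mul, h.redC_ofBA] at h2
  have h3 := h.on a h2.symm
  have h4 := chiC_mul_eq BA χ₀ e
  rw [h3] at h4
  rcases mul_eq_zero.mp h4 with h5 | h5
  · exact h5
  · exact absurd h5 hd

end Comp

end Fermat.Agent.ORD.IFACEN.LocAt8
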