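/-
PROGRAMME ORD (S33), chapter IFACE-N (O6b "smooth discs", helper8): **one finite level of a nodal
chart at a one-branch closed point**, and the passage to `DiscOfLevels8.DiscLevels`.

Big field: `BA ⊂ F` chart over `A`, `χ₀ : BA →+* k` closed point, `G`, `red` the component
(`LocAt8.OnComp`).  Finite level: `RK` (a discrete valuation ring `A ∩ K`), `FK` (the function field
`K · F_N`), `BK ⊂ FK` the chart over `RK`, `πK` a uniformiser, `j : FK →+* F` the base change,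
`Oon`, `Ooff` the two Gauss valuation rings of `FK` (the component through the point, the other one).

`LevelAt` lists what N34's `NodalNumData` gives at a maximal ideal lying on ONE component
(`le_on le_off arch_off sat off smooth noeth`) together with the comparison with the big field
(`j_mem pi_const on_G red_zero_iff`).  Outputs (one level):

* `xK` : the closed point at level `K`; `Bk := (BK)_{xK}` (`NodalSmooth13.locSub`); `ιK : Bk →+* locC`;
* `inv_mem_on` (`d ∉ xK` is a unit of `Oon`), `locSub_le_on`, `sat_loc` (local saturation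
  `Bk ∩ π Oon = π Bk`), **`L3`** : `redC (ιK b) = 0 ↔ πk ∣ b`;
* `ker_eq`, `isMax`, `smooth_loc`, `noeth_loc`, `ιK_injective`, `ιK_pi`.
-/
import Mathlib
import Fermat.Agent.ORD.IFACEN.LocAt8

set_option autoImplicit false
set_option linter.unusedSectionVars false
set_option linter.style.longLine false

namespace Fermat.Agent.ORD.IFACEN.LevelAt8

open AlgebraicCurve Fermat.Agent.ES.N34.NodalSmooth13 Fermat.Agent.ORD.IFACEN.LocAt8

variable {L F k Ft : Type*} [Field L] [Field F] [Algebra L F] [Field k] [Field Ft] [Algebra k Ft]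
variable {A : ValuationSubring L} [Algebra A F] [IsScalarTower A L F]

section OneLevel

variable (res : A →+* k) (BA : Subalgebra A F) (χ₀ : BA →+* k) (G : Subring F) (red : G →+* Ft)
variable {RK FK : Type*} [CommRing RK] [Field FK] [Algebra RK FK]
  (BK : Subalgebra RK FK) (πK : RK) (j : FK →+* F) (Oon Ooff : ValuationSubring FK)

/-- **One finite level at a one-branch closed point.** -/
structure LevelAt : Prop where
  j_mem : ∀ b ∈ BK, j b ∈ BA
  pi_const : ∃ ϖ : A, ϖ ≠ 0 ∧ res ϖ = 0 ∧ j (algebraMap RK FK πK) = algebraMap L F (ϖ : L)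
  noeth : IsNoetherianRing BK
  le_on : ∀ b ∈ BK, b ∈ Oon
  le_off : ∀ b ∈ BK, b ∈ Ooff
  unif_on : ∀ x ∈ Oon, x⁻¹ ∉ Oon → ∃ c ∈ Oon, x = algebraMap RK FK πK * c
  arch_off : ∀ x : FK, ∃ n : ℕ, algebraMap RK FK πK ^ n * x ∈ Ooff
  sat : ∀ b ∈ BK, ∀ c : FK, c ∈ Oon → c ∈ Ooff → b = algebraMap RK FK πK * c → c ∈ BK
  /-- the other component does not pass through the point -/
  off : ∃ (e : BK) (he : j e ∈ BA), χ₀ ⟨j e, he⟩ ≠ 0 ∧ ∃ c ∈ Ooff, (e : FK) = algebraMap RK FK πK * c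
  on_G : ∀ f ∈ Oon, j f ∈ G
  red_zero_iff : ∀ (f : FK) (hf : f ∈ Oon), red ⟨j f, on_G f hf⟩ = 0 ↔
    ∃ c ∈ Oon, f = algebraMap RK FK πK * c
  isMax : (RingHom.ker (χ₀.comp ((j.comp BK.val.toRingHom).codRestrict BA.toSubring
    (fun b => j_mem b b.2)))).IsMaximal
  smooth : ∃ s : BK, χ₀ ⟨j s, j_mem s s.2⟩ = 0 ∧ ∀ y : BK, χ₀ ⟨j y, j_mem y y.2⟩ = 0 →
    ∃ d : BK, χ₀ ⟨j d, j_mem d d.2⟩ ≠ 0 ∧ d * y ∈ Ideal.span {algebraMap RK BK πK, s}

variable {res BA χ₀ G red BK πK j Oon Ooff}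

namespace LevelAt

variable (h : LevelAt res BA χ₀ G red BK πK j Oon Ooff) (hOn : OnComp BA χ₀ G red)
  (hχ₀ : ∀ a : A, χ₀ (algebraMap A BA a) = res a)

/-- the base change on the chart. -/
def jB : BK →+* BA :=
  (j.comp BK.val.toRingHom).codRestrict BA.toSubring (fun b => h.j_mem b b.2)

@[simp] theorem coe_jB (b : BK) : ((h.jB b : BA) : F) = j (b : FK) := rfl

/-- the closed point at the finite level. -/
def xK : Ideal BK := RingHom.ker (χ₀.comp h.jB)

theorem mem_xK_iff {b : BK} : b ∈ h.xK ↔ χ₀ (h.jB b) = 0 := Iff.rfl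

instance xK_isMaximal : h.xK.IsMaximal := h.isMax

instance xK_isPrime : h.xK.IsPrime := h.isMax.isPrime

include hχ₀ in
theorem pi_mem_xK : algebraMap RK BK πK ∈ h.xK := by
  obtain ⟨ϖ, -, hres, e⟩ := h.pi_const
  rw [mem_xK_iff]
  have : h.jB (algebraMap RK BK πK) = algebraMap A BA ϖ := Subtype.ext (by
    show j (algebraMap RK FK πK) = ((algebraMap A BA ϖ : BA) : F)
    rw [e, ← algebraMap_A_eq]; rfl)
  rw [this, hχ₀, hres]

/-- the local ring of the chart of level `K` at the closed point. -/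
abbrev Bk : Type _ := ↥(locSub BK h.xK)

/-- the uniformiser in the local ring. -/
def πk : h.Bk := algebraMap BK h.Bk (algebraMap RK BK πK)

@[simp] theorem coe_πk : ((h.πk : h.Bk) : FK) = algebraMap RK FK πK := rfl

theorem j_mem_locC (z : h.Bk) : j (z : FK) ∈ locC BA χ₀ := by
  obtain ⟨a, d, hd, e⟩ := z.2
  refine ⟨h.jB a, h.jB d, hd, ?_⟩
  rw [coe_jB, coe_jB, ← map_mul, e]

/-- **the level homomorphism** `(BK)_{xK} →+* locC`. -/
def ιK : h.Bk →+* locC BA χ₀ where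
  toFun z := ⟨j (z : FK), h.j_mem_locC z⟩
  map_one' := Subtype.ext (map_one j)
  map_mul' _ _ := Subtype.ext (map_mul j _ _)
  map_zero' := Subtype.ext (map_zero j)
  map_add' _ _ := Subtype.ext (map_add j _ _)

@[simp] theorem coe_ιK (z : h.Bk) : ((h.ιK z : locC BA χ₀) : F) = j (z : FK) := rfl

theorem ιK_injective : Function.Injective h.ιK := by
  intro a b hab
  have h1 : j (a : FK) = j (b : FK) := congrArg (fun z : locC BA χ₀ => (z : F)) hab
  exact Subtype.ext (j.injective h1)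

theorem ιK_algebraMap (b : BK) : h.ιK (algebraMap BK h.Bk b) = ofBA BA χ₀ (h.jB b) := rfl

theorem coe_ιK_πk : ∃ ϖ : A, ϖ ≠ 0 ∧ res ϖ = 0 ∧
    ((h.ιK h.πk : locC BA χ₀) : F) = algebraMap L F (ϖ : L) := h.pi_const

/-- the value of `χ` on the image of a fraction. -/
theorem chiC_ιK_mul {z : h.Bk} {a d : BK} (e : (z : FK) * (d : FK) = (a : FK)) :
    chiC BA χ₀ (h.ιK z) * χ₀ (h.jB d) = χ₀ (h.jB a) := by
  apply chiC_mul_eq BA χ₀
  rw [coe_ιK, coe_jB, coe_jB, ← map_mul, e]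

/-- **the kernel of `χ` at level `K` is the maximal ideal.** -/
theorem chiC_ιK_eq_zero_iff (z : h.Bk) : chiC BA χ₀ (h.ιK z) = 0 ↔ ¬ IsUnit z := by
  constructor
  · intro h0 hu
    exact ((hu.map h.ιK).map (chiC BA χ₀)).ne_zero h0
  · intro hnu
    obtain ⟨a, d, hd, e⟩ := z.2
    have ha : a ∈ h.xK := num_mem_of_not_isUnit BK h.xK hnu hd e
    have h1 := h.chiC_ιK_mul e
    rw [(h.mem_xK_iff).mp ha] at h1
    rcases mul_eq_zero.mp h1 with h2 | h2
    · exact h2
    · exact absurd h2 hd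

theorem ker_eq : RingHom.ker ((chiC BA χ₀).comp h.ιK) = IsLocalRing.maximalIdeal h.Bk := by
  ext z
  rw [RingHom.mem_ker, RingHom.comp_apply, h.chiC_ιK_eq_zero_iff, IsLocalRing.mem_maximalIdeal,
    mem_nonunits_iff]

theorem isMax_loc : (RingHom.ker ((chiC BA χ₀).comp h.ιK)).IsMaximal := by
  rw [h.ker_eq]
  exact IsLocalRing.maximalIdeal.isMaximal _

theorem noeth_loc : IsNoetherianRing h.Bk :=
  IsLocalization.isNoetherianRing h.xK.primeCompl _ h.noeth

/-- elements of the chart outside the closed point are units of the local ring. -/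
theorem isUnit_algebraMap {d : BK} (hd : d ∉ h.xK) : IsUnit (algebraMap BK h.Bk d) :=
  IsLocalization.map_units h.Bk (⟨d, hd⟩ : h.xK.primeCompl)

/-- **smoothness in the local ring.** -/
theorem smooth_loc : ∃ s ∈ RingHom.ker ((chiC BA χ₀).comp h.ιK),
    ∀ y ∈ RingHom.ker ((chiC BA χ₀).comp h.ιK), ∃ d : h.Bk,
      d ∉ RingHom.ker ((chiC BA χ₀).comp h.ιK) ∧ d * y ∈ Ideal.span {h.πk, s} := by
  obtain ⟨s₀, hs₀, hsm⟩ := h.smooth
  have hs₀x : s₀ ∈ h.xK := hs₀
  refine ⟨algebraMap BK h.Bk s₀, ?_, ?_⟩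
  · rw [RingHom.mem_ker, RingHom.comp_apply, h.chiC_ιK_eq_zero_iff]
    exact not_isUnit_of_mem BK h.xK hs₀x
  · intro y hy
    rw [RingHom.mem_ker, RingHom.comp_apply, h.chiC_ιK_eq_zero_iff] at hy
    obtain ⟨a, d₁, hd₁, e⟩ := y.2
    have ha : a ∈ h.xK := num_mem_of_not_isUnit BK h.xK hy hd₁ e
    obtain ⟨d₂, hd₂, hmem⟩ := hsm a ha
    have hd₂x : d₂ ∉ h.xK := hd₂
    have hdx : d₂ * d₁ ∉ h.xK := fun hh => (h.xK_isPrime.mem_or_mem hh).elim hd₂x hd₁
    refine ⟨algebraMap BK h.Bk (d₂ * d₁), ?_, ?_⟩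
    · rw [RingHom.mem_ker, RingHom.comp_apply, h.chiC_ιK_eq_zero_iff, not_not]
      exact h.isUnit_algebraMap hdx
    · have h1 : algebraMap BK h.Bk (d₂ * d₁) * y = algebraMap BK h.Bk (d₂ * a) := by
        apply Subtype.ext
        show ((d₂ * d₁ : BK) : FK) * (y : FK) = ((d₂ * a : BK) : FK)
        push_cast
        rw [← e]; ring
      rw [h1]
      have h2 := Ideal.mem_map_of_mem (algebraMap BK h.Bk) hmem
      rw [Ideal.map_span] at h2
      have h3 : (algebraMap BK h.Bk) '' {algebraMap RK BK πK, s₀} =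
          {h.πk, algebraMap BK h.Bk s₀} := by
        rw [Set.image_pair]; rfl
      rwa [h3] at h2

include hOn in
/-- elements of the chart outside the closed point are units of `Oon`. -/
theorem inv_mem_on {d : BK} (hd : d ∉ h.xK) : ((d : FK))⁻¹ ∈ Oon := by
  by_contra hcon
  obtain ⟨c, hc, hdc⟩ := h.unif_on _ (h.le_on _ d.2) hcon
  have h0 : red ⟨j (d : FK), h.on_G _ (h.le_on _ d.2)⟩ = 0 :=
    (h.red_zero_iff _ (h.le_on _ d.2)).mpr ⟨c, hc, hdc⟩
  exact hd (hOn.on (h.jB d) h0)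

include hOn in
theorem locSub_le_on {z : FK} (hz : z ∈ locSub BK h.xK) : z ∈ Oon := by
  obtain ⟨a, d, hd, e⟩ := hz
  have hd0 := coe_ne_zero_of_notMem BK h.xK hd
  have : z = (a : FK) * (d : FK)⁻¹ := by rw [← e]; field_simp
  rw [this]
  exact Oon.mul_mem _ _ (h.le_on _ a.2) (h.inv_mem_on hOn hd)

include hOn in
/-- **local saturation**: `(BK)_{xK} ∩ π Oon = π (BK)_{xK}`. -/
theorem sat_loc {b : FK} (hb : b ∈ locSub BK h.xK) {c : FK} (hc : c ∈ Oon)
    (hbc : b = algebraMap RK FK πK * c) : c ∈ locSub BK h.xK := by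
  obtain ⟨a, d, hd, e⟩ := hb
  obtain ⟨e₀, he₀A, he₀, o, ho, heo⟩ := h.off
  have he₀x : e₀ ∉ h.xK := he₀
  obtain ⟨n, hn⟩ := h.arch_off (c * (d : FK))
  set p : FK := algebraMap RK FK πK with hp
  have hmem : c * (d : FK) * (e₀ : FK) ^ (n + 1) ∈ BK := by
    refine h.sat ((e₀ : FK) ^ (n + 1) * (a : FK)) (BK.mul_mem (BK.pow_mem e₀.2 _) a.2) _ ?_ ?_ ?_
    · exact Oon.mul_mem _ _ (Oon.mul_mem _ _ hc (h.le_on _ d.2)) (pow_mem (h.le_on _ e₀.2) _)
    · have : c * (d : FK) * (e₀ : FK) ^ (n + 1) = (e₀ : FK) * o ^ n * (p ^ n * (c * (d : FK))) := by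
        rw [heo]; ring
      rw [this]
      exact Ooff.mul_mem _ _ (Ooff.mul_mem _ _ (h.le_off _ e₀.2) (pow_mem ho _)) hn
    · rw [← e, hbc]; ring
  refine ⟨⟨_, hmem⟩, d * e₀ ^ (n + 1), fun hh => (h.xK_isPrime.mem_or_mem hh).elim hd
    (fun h' => he₀x (h.xK_isPrime.mem_of_pow_mem _ h')), ?_⟩
  push_cast; ring

include hOn in
/-- **(L3)** at level `K`. -/
theorem L3 (b : h.Bk) : hOn.redC (h.ιK b) = 0 ↔ h.πk ∣ b := by
  have hbOn : (b : FK) ∈ Oon := h.locSub_le_on hOn b.2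
  constructor
  · intro h0
    have h1 : red ⟨j (b : FK), h.on_G _ hbOn⟩ = 0 := h0
    obtain ⟨c, hc, hbc⟩ := (h.red_zero_iff _ hbOn).mp h1
    have hcmem := h.sat_loc hOn b.2 hc hbc
    exact ⟨⟨c, hcmem⟩, Subtype.ext hbc⟩
  · rintro ⟨c, rfl⟩
    rw [map_mul, map_mul]
    have h1 : hOn.redC (h.ιK h.πk) = 0 := by
      have hπOn : algebraMap RK FK πK ∈ Oon := h.locSub_le_on hOn h.πk.2
      show red ⟨j (algebraMap RK FK πK), _⟩ = 0
      exact (h.red_zero_iff _ hπOn).mpr ⟨1, Oon.one_mem, by rw [mul_one]⟩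
    rw [h1, zero_mul]

end LevelAt

end OneLevel

/-! ### a family of levels -/

section Family

open Fermat.Agent.ORD.IFACEN.DiscOfLevels8

variable (res : A →+* k) (BA : Subalgebra A F) (χ₀ : BA →+* k) (G : Subring F) (red : G →+* Ft)
variable {I : Type*} (RK FK : I → Type*) [∀ i, CommRing (RK i)] [∀ i, Field (FK i)]
  [∀ i, Algebra (RK i) (FK i)] (BK : ∀ i, Subalgebra (RK i) (FK i)) (πK : ∀ i, RK i)
  (j : ∀ i, FK i →+* F) (Oon Ooff : ∀ i, ValuationSubring (FK i))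

/-- **The level system of a nodal chart at a one-branch closed point.** -/
structure Levels : Prop where
  res_surj : Function.Surjective res
  res_eq_zero_iff : ∀ a : A, res a = 0 ↔ ¬ IsUnit a
  chi_const : ∀ a : A, χ₀ (algebraMap A BA a) = res a
  const_G : ∀ a : A, algebraMap L F (a : L) ∈ G
  red_const : ∀ a : A, red ⟨algebraMap L F (a : L), const_G a⟩ = algebraMap k Ft (res a)
  onComp : OnComp BA χ₀ G red
  frac : ∀ y : F, ∃ a b : BA, b ≠ 0 ∧ y * (b : F) = (a : F)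
  places : ∀ O : ValuationSubring F, (∀ c : L, algebraMap L F c ∈ O) → O ≠ ⊤ →
    (∀ b ∈ BA, b ∈ O) → ∃ P : Place L F, P.toValuationSubring = O
  pir : ∀ O : ValuationSubring Ft, (∀ c : k, algebraMap k Ft c ∈ O) → O ≠ ⊤ →
    IsPrincipalIdealRing O
  nonunit : ∃ z : BA, χ₀ z = 0 ∧ red ⟨(z : F), onComp.le_G z z.2⟩ ≠ 0
  L4 : ∀ y : Ft, ∃ a b : BA, red ⟨(b : F), onComp.le_G b b.2⟩ ≠ 0 ∧
    y * red ⟨(b : F), onComp.le_G b b.2⟩ = red ⟨(a : F), onComp.le_G a a.2⟩
  level : ∀ i, LevelAt res BA χ₀ G red (BK i) (πK i) (j i) (Oon i) (Ooff i)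
  L0 : ∀ S : List BA, ∃ i, ∀ b ∈ S, ∃ b' : BK i, j i (b' : FK i) = (b : F)

variable {res BA χ₀ G red RK FK BK πK j Oon Ooff}

namespace Levels

variable (H : Levels res BA χ₀ G red RK FK BK πK j Oon Ooff)

/-- a representation of an element of the local ring as a fraction. -/
noncomputable def rep (c : locC BA χ₀) : BA × BA :=
  (Classical.choose (exists_rep BA χ₀ c), Classical.choose (Classical.choose_spec (exists_rep BA χ₀ c)))

theorem rep_spec (c : locC BA χ₀) :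
    χ₀ (rep c).2 ≠ 0 ∧ (c : F) * ((rep c).2 : F) = ((rep c).1 : F) :=
  Classical.choose_spec (Classical.choose_spec (exists_rep BA χ₀ c))

/-- **(L0)** for the local ring. -/
theorem L0_loc (S : List (locC BA χ₀)) :
    ∃ i, ∀ c ∈ S, ∃ z : (H.level i).Bk, (H.level i).ιK z = c := by
  obtain ⟨i, hi⟩ := H.L0 (S.flatMap fun c => [(rep c).1, (rep c).2])
  refine ⟨i, fun c hc => ?_⟩
  obtain ⟨hd, e⟩ := rep_spec c
  obtain ⟨a', ha'⟩ := hi (rep c).1 (List.mem_flatMap.mpr ⟨c, hc, by simp⟩)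
  obtain ⟨d', hd'⟩ := hi (rep c).2 (List.mem_flatMap.mpr ⟨c, hc, by simp⟩)
  have hjd : (H.level i).jB d' = (rep c).2 := Subtype.ext hd'
  have hd'x : d' ∉ (H.level i).xK := by
    intro hmem
    apply hd
    rw [← hjd]
    exact hmem
  have hd'0 : (d' : FK i) ≠ 0 := coe_ne_zero_of_notMem (BK i) (H.level i).xK hd'x
  refine ⟨⟨(a' : FK i) * (d' : FK i)⁻¹, ⟨a', d', hd'x, by field_simp⟩⟩, ?_⟩
  apply Subtype.ext
  show j i ((a' : FK i) * (d' : FK i)⁻¹) = (c : F)
  have hd0 : ((rep c).2 : F) ≠ 0 := by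
    intro h0
    apply hd
    have : (rep c).2 = 0 := Subtype.ext h0
    rw [this, map_zero]
  rw [map_mul, map_inv₀, ha', hd', ← e]
  field_simp

/-- **A family of levels of a nodal chart at a one-branch closed point is a `DiscLevels`.** -/
theorem discLevels :
    DiscLevels A res (locC BA χ₀) H.onComp.redC (chiC BA χ₀) (fun i => (H.level i).Bk)
      (fun i => (H.level i).ιK) (fun i => (H.level i).πk) :=
  { res_surj := H.res_surj
    res_eq_zero_iff := H.res_eq_zero_iff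
    const_mem := const_mem_locC BA χ₀
    red_const := H.red_const
    chi_const := chiC_const BA χ₀ H.chi_const
    inv_mem := inv_mem_locC BA χ₀
    frac := frac_locC BA χ₀ H.frac
    places := fun O hL hO hC => H.places O hL hO (fun b hb => hC b (le_locC BA χ₀ hb))
    pir := H.pir
    nonunit := by
      obtain ⟨z, hz, hr⟩ := H.nonunit
      exact ⟨ofBA BA χ₀ z, by rw [chiC_ofBA]; exact hz, hr⟩
    inj := fun i => (H.level i).ιK_injective
    L0 := H.L0_loc
    noeth := fun i => (H.level i).noeth_loc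
    pi_const := fun i => (H.level i).coe_ιK_πk
    isMax := fun i => (H.level i).isMax_loc
    smooth := fun i => (H.level i).smooth_loc
    L3 := fun i b => (H.level i).L3 H.onComp b
    L4 := by
      intro y
      obtain ⟨a, b, hb, e⟩ := H.L4 y
      exact ⟨ofBA BA χ₀ a, ofBA BA χ₀ b, hb, e⟩ }

end Levels

end Family

end Fermat.Agent.ORD.IFACEN.LevelAt8
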