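/-
PROGRAMME ORD (S33), chapter IFACE-N (O6b "smooth discs", helper8): **from a POINT-INDEPENDENT family
of finite levels of a nodal chart to the smooth residue discs of ALL one-branch closed points of
one component.**

`BA ⊂ F` a chart over `A` with coordinate `s ∈ BA`; two components: the component `on`
(`Gon`, `redon`) and the component `off` (`Goff`, `redoff`).  Finite levels `i : I`:
`RK i` (a discrete valuation ring), `FK i`, `BK i ⊂ FK i`, `πK i`, `j i : FK i →+* F`, and the two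
Gauss valuation rings `Oon i`, `Ooff i` of `FK i`.

`LevelFamily` lists, LITERALLY in the vocabulary of N34 (`NodalCore13.NodalTwoChartModel`,
`NumData13.NodalNumData`) and of the `L`-level sides (`SideOne1`): the chart fields of one chart
(`noeth le_on le_off unif_on pi_nonunit_on arch_on arch_off sat fracK smooth`), the comparison of
levels (`on_iff on_zero_iff off_zero`), the union property `desc`, and the global facts on the
component `on` (`inv_mem_on red_surj s_nonconst places pir`).  No closed point appears.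

For a closed point `χ₀` of `BA` lying on `on` (`hon`) and NOT on `off` (`b₀ ∈ BA`, `χ₀ b₀ ≠ 0`,
`redoff b₀ = 0`):

* `exists_frac_on` : `Oon i = (BK i)_{𝔭on}` (elementary descent on the `π`-adic order);
* `levels` : `LevelAt8.Levels` over the index set `{i // b₀ comes from level i}`;
* **`exists_discSys`** : `∃ Q, DiscSys A res (locC BA χ₀) redC (chiC BA χ₀) Q`.
-/
import Mathlib
import Fermat.Agent.ORD.IFACEN.LevelAt8
import Fermat.Agent.ES.N34.NodalCL13

set_option autoImplicit false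
set_option linter.unusedSectionVars false
set_option linter.style.longLine false

namespace Fermat.Agent.ORD.IFACEN.LevelFamily8

open AlgebraicCurve Fermat.Agent.ES.N34.NodalSmooth13 Fermat.Agent.ES.N34.NodalCore13
  Fermat.Agent.ES.N34.NodalCL13
  Fermat.Agent.ORD.IFACEN.LocAt8 Fermat.Agent.ORD.IFACEN.LevelAt8
  Fermat.Agent.ORD.IFACEN.DiscOfLevels8 Fermat.Agent.ORD.IFACEN.DiscSys8

variable {L F k Ft : Type*} [Field L] [Field F] [Algebra L F] [Field k] [Field Ft] [Algebra k Ft]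
variable {A : ValuationSubring L} [Algebra A F] [IsScalarTower A L F]

/-! ### one level: `Oon = (BK)_{𝔭on}` -/

section Frac

variable {R E : Type*} [CommRing R] [Field E] [Algebra R E] (B : Subalgebra R E) (π : R)
  (Oon Ooff : ValuationSubring E)

/-- **`Oon` is the localisation of the chart at the generic point of the component `on`**: every
element of `Oon` is a fraction `a / b` of elements of the chart with `b ∉ π Oon`, as soon as some
element of the chart vanishes on `off` and not on `on`. -/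
theorem exists_frac_on
    (le_on : ∀ b ∈ B, b ∈ Oon)
    (unif_on : ∀ x ∈ Oon, x⁻¹ ∉ Oon → ∃ c ∈ Oon, x = algebraMap R E π * c)
    (pi_nonunit_on : (algebraMap R E π)⁻¹ ∉ Oon)
    (arch_on : ∀ x : E, ∃ n : ℕ, algebraMap R E π ^ n * x ∈ Oon)
    (sat : ∀ b ∈ B, ∀ c : E, c ∈ Oon → c ∈ Ooff → b = algebraMap R E π * c → c ∈ B)
    (le_off : ∀ b ∈ B, b ∈ Ooff)
    (frac : ∀ x : E, ∃ a ∈ B, ∃ b ∈ B, b ≠ 0 ∧ x * b = a)
    (e : B) (he_off : ∃ c ∈ Ooff, (e : E) = algebraMap R E π * c)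
    (he_on : ¬ ∃ c ∈ Oon, (e : E) = algebraMap R E π * c)
    (g : E) (hg : g ∈ Oon) :
    ∃ a b : B, (¬ ∃ c ∈ Oon, (b : E) = algebraMap R E π * c) ∧ g * (b : E) = (a : E) := by
  set p : E := algebraMap R E π with hp
  have hp0 : p ≠ 0 := by
    intro h0
    apply pi_nonunit_on
    rw [h0, inv_zero]
    exact Oon.zero_mem
  have hpOn : p ∈ Oon := le_on _ (B.algebraMap_mem π)
  have hpOff : p ∈ Ooff := le_off _ (B.algebraMap_mem π)
  -- `e` is a unit of `Oon`
  have heinv : ((e : E))⁻¹ ∈ Oon := by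
    by_contra hcon
    exact he_on (unif_on _ (le_on _ e.2) hcon)
  have he0 : (e : E) ≠ 0 := by
    intro h0
    exact he_on ⟨0, Oon.zero_mem, by rw [h0, mul_zero]⟩
  obtain ⟨o, ho, heo⟩ := he_off
  -- the descent
  have key : ∀ n : ℕ, ∀ a b : B, (b : E) ≠ 0 → p ^ n * ((b : E))⁻¹ ∈ Oon →
      g * (b : E) = (a : E) →
      ∃ a' b' : B, (¬ ∃ c ∈ Oon, (b' : E) = p * c) ∧ g * (b' : E) = (a' : E) := by
    intro n
    induction n with
    | zero =>
      intro a b hb0 hn hab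
      refine ⟨a, b, ?_, hab⟩
      rintro ⟨c, hc, hbc⟩
      rw [pow_zero, one_mul] at hn
      apply pi_nonunit_on
      have : p⁻¹ = c * ((b : E))⁻¹ := by
        rw [hbc]
        have hc0 : c ≠ 0 := by
          rintro rfl
          rw [mul_zero] at hbc
          exact hb0 hbc
        field_simp
      rw [this]
      exact Oon.mul_mem _ _ hc hn
    | succ n ih =>
      intro a b hb0 hn hab
      by_cases hb : ∃ c ∈ Oon, (b : E) = p * c
      · obtain ⟨c, hc, hbc⟩ := hb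
        -- `a = g b ∈ π Oon` as well
        have hac : (a : E) = p * (g * c) := by rw [← hab, hbc]; ring
        -- `e a = π a'`, `e b = π b'`
        have hb' : o * (b : E) ∈ B := by
          refine sat ((e : E) * (b : E)) (B.mul_mem e.2 b.2) _ ?_ ?_ ?_
          · have : o * (b : E) = (e : E) * c := by
              rw [hbc, heo]; ring
            rw [this]
            exact Oon.mul_mem _ _ (le_on _ e.2) hc
          · exact Ooff.mul_mem _ _ ho (le_off _ b.2)
          · rw [heo]; ring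
        have ha' : o * (a : E) ∈ B := by
          refine sat ((e : E) * (a : E)) (B.mul_mem e.2 a.2) _ ?_ ?_ ?_
          · have : o * (a : E) = (e : E) * (g * c) := by
              rw [hac, heo]; ring
            rw [this]
            exact Oon.mul_mem _ _ (le_on _ e.2) (Oon.mul_mem _ _ hg hc)
          · exact Ooff.mul_mem _ _ ho (le_off _ a.2)
          · rw [heo]; ring
        have ho0 : o ≠ 0 := by
          rintro rfl
          rw [mul_zero] at heo
          exact he0 heo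
        refine ih ⟨_, ha'⟩ ⟨_, hb'⟩ (mul_ne_zero ho0 hb0) ?_ ?_
        · show p ^ n * (o * (b : E))⁻¹ ∈ Oon
          have : p ^ n * (o * (b : E))⁻¹ = (p ^ (n + 1) * ((b : E))⁻¹) * ((e : E))⁻¹ := by
            rw [heo, pow_succ]
            field_simp
          rw [this]
          exact Oon.mul_mem _ _ hn heinv
        · show g * (o * (b : E)) = o * (a : E)
          rw [← hab]; ring
      · exact ⟨a, b, hb, hab⟩
  obtain ⟨a, ha, b, hb, hb0, hab⟩ := frac g
  obtain ⟨n, hn⟩ := arch_on ((b : E))⁻¹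
  exact key n ⟨a, ha⟩ ⟨b, hb⟩ hb0 hn hab

end Frac

/-! ### the family -/

section Family

variable (res : A →+* k) (BA : Subalgebra A F) (s : BA)
  (Gon : Subring F) (redon : Gon →+* Ft) (Goff : Subring F) (redoff : Goff →+* Ft)
variable {I : Type*} (RK FK : I → Type*) [∀ i, CommRing (RK i)] [∀ i, Field (FK i)]
  [∀ i, Algebra (RK i) (FK i)] (BK : ∀ i, Subalgebra (RK i) (FK i)) (πK : ∀ i, RK i)
  (j : ∀ i, FK i →+* F) (Oon Ooff : ∀ i, ValuationSubring (FK i))

/-- **A point-independent family of finite levels of one chart, seen from one component.** -/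
structure LevelFamily : Prop where
  res_surj : Function.Surjective res
  res_eq_zero_iff : ∀ a : A, res a = 0 ↔ ¬ IsUnit a
  const_on : ∀ a : A, algebraMap L F (a : L) ∈ Gon
  red_const_on : ∀ a : A, redon ⟨algebraMap L F (a : L), const_on a⟩ = algebraMap k Ft (res a)
  le_Gon : ∀ b ∈ BA, b ∈ Gon
  le_Goff : ∀ b ∈ BA, b ∈ Goff
  inv_mem_on : ∀ g : Gon, redon g ≠ 0 → (g : F)⁻¹ ∈ Gon
  red_surj : Function.Surjective redon
  s_nonconst : ∀ c : k, redon ⟨(s : F), le_Gon s s.2⟩ ≠ algebraMap k Ft c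
  places : ∀ O : ValuationSubring F, (∀ c : L, algebraMap L F c ∈ O) → O ≠ ⊤ →
    (∀ b ∈ BA, b ∈ O) → ∃ P : Place L F, P.toValuationSubring = O
  pir : ∀ O : ValuationSubring Ft, (∀ c : k, algebraMap k Ft c ∈ O) → O ≠ ⊤ →
    IsPrincipalIdealRing O
  /- the levels -/
  j_mem : ∀ i, ∀ b ∈ BK i, j i b ∈ BA
  pi_const : ∀ i, ∃ ϖ : A, ϖ ≠ 0 ∧ res ϖ = 0 ∧
    j i (algebraMap (RK i) (FK i) (πK i)) = algebraMap L F (ϖ : L)
  noeth : ∀ i, IsNoetherianRing (BK i)
  le_on : ∀ i, ∀ b ∈ BK i, b ∈ Oon i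
  le_off : ∀ i, ∀ b ∈ BK i, b ∈ Ooff i
  unif_on : ∀ i, ∀ x ∈ Oon i, x⁻¹ ∉ Oon i →
    ∃ c ∈ Oon i, x = algebraMap (RK i) (FK i) (πK i) * c
  pi_nonunit_on : ∀ i, (algebraMap (RK i) (FK i) (πK i))⁻¹ ∉ Oon i
  arch_on : ∀ i, ∀ x : FK i, ∃ n : ℕ, algebraMap (RK i) (FK i) (πK i) ^ n * x ∈ Oon i
  arch_off : ∀ i, ∀ x : FK i, ∃ n : ℕ, algebraMap (RK i) (FK i) (πK i) ^ n * x ∈ Ooff i
  sat : ∀ i, ∀ b ∈ BK i, ∀ c : FK i, c ∈ Oon i → c ∈ Ooff i →
    b = algebraMap (RK i) (FK i) (πK i) * c → c ∈ BK i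
  fracK : ∀ i, ∀ x : FK i, ∃ a ∈ BK i, ∃ b ∈ BK i, b ≠ 0 ∧ x * b = a
  on_iff : ∀ i (f : FK i), j i f ∈ Gon ↔ f ∈ Oon i
  on_zero_iff : ∀ i (f : FK i) (hf : f ∈ Oon i), redon ⟨j i f, (on_iff i f).2 hf⟩ = 0 ↔
    ∃ c ∈ Oon i, f = algebraMap (RK i) (FK i) (πK i) * c
  off_zero : ∀ i (b : BK i), redoff ⟨j i b, le_Goff _ (j_mem i b b.2)⟩ = 0 →
    ∃ c ∈ Ooff i, (b : FK i) = algebraMap (RK i) (FK i) (πK i) * c
  smooth : ∀ i (𝔪 : Ideal (BK i)), 𝔪.IsMaximal → algebraMap (RK i) (BK i) (πK i) ∈ 𝔪 →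
    OffBranch (πK i) (BK i) (Ooff i) 𝔪 → SmoothAt (πK i) (BK i) 𝔪
  isMaxK : ∀ i (φ : BK i →+* k), (RingHom.ker φ).IsMaximal
  /-- the big field and the big chart are the unions of the levels -/
  desc : ∀ (y : F) (S : List BA), ∃ i, (∃ x : FK i, j i x = y) ∧
    ∀ b ∈ S, ∃ b' : BK i, j i (b' : FK i) = (b : F)

variable {res BA s Gon redon Goff redoff RK FK BK πK j Oon Ooff}

namespace LevelFamily

variable (H : LevelFamily res BA s Gon redon Goff redoff RK FK BK πK j Oon Ooff)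
  (χ₀ : BA →+* k) (hχ₀ : ∀ a : A, χ₀ (algebraMap A BA a) = res a)
  (hon : ∀ b : BA, redon ⟨(b : F), H.le_Gon b b.2⟩ = 0 → χ₀ b = 0)
  (b₀ : BA) (hb₀ : χ₀ b₀ ≠ 0) (hoff : redoff ⟨(b₀ : F), H.le_Goff b₀ b₀.2⟩ = 0)

/-- the levels over which the witness `b₀` is defined. -/
abbrev Idx (_H : LevelFamily res BA s Gon redon Goff redoff RK FK BK πK j Oon Ooff) (b₀ : BA) :
    Type _ := {i : I // ∃ e : BK i, j i (e : FK i) = (b₀ : F)}

include hon in
theorem onComp : OnComp BA χ₀ Gon redon := ⟨H.le_Gon, H.inv_mem_on, hon⟩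

/-- the witness at level `i`. -/
noncomputable def wit (i : Idx H b₀) : BK i.1 := Classical.choose i.2

theorem j_wit (i : Idx H b₀) : j i.1 (H.wit b₀ i : FK i.1) = (b₀ : F) := Classical.choose_spec i.2

include hoff in
theorem wit_off (i : Idx H b₀) :
    ∃ c ∈ Ooff i.1, (H.wit b₀ i : FK i.1) = algebraMap (RK i.1) (FK i.1) (πK i.1) * c := by
  apply H.off_zero i.1 (H.wit b₀ i)
  have : (⟨j i.1 (H.wit b₀ i : FK i.1), H.le_Goff _ (H.j_mem i.1 _ (H.wit b₀ i).2)⟩ : Goff) =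
      ⟨(b₀ : F), H.le_Goff b₀ b₀.2⟩ := Subtype.ext (H.j_wit b₀ i)
  rw [this]
  exact hoff

include hon hb₀ in
theorem wit_not_on (i : Idx H b₀) :
    ¬ ∃ c ∈ Oon i.1, (H.wit b₀ i : FK i.1) = algebraMap (RK i.1) (FK i.1) (πK i.1) * c := by
  intro hc
  apply hb₀
  have hmem : (H.wit b₀ i : FK i.1) ∈ Oon i.1 := H.le_on i.1 _ (H.wit b₀ i).2
  have h0 := (H.on_zero_iff i.1 _ hmem).mpr hc
  apply hon
  have : (⟨(b₀ : F), H.le_Gon b₀ b₀.2⟩ : Gon) =
      ⟨j i.1 (H.wit b₀ i : FK i.1), (H.on_iff i.1 _).2 hmem⟩ := Subtype.ext (H.j_wit b₀ i).symm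
  rw [this]
  exact h0

include hχ₀ hon hb₀ hoff in
/-- **one level.** -/
theorem levelAt (i : Idx H b₀) :
    LevelAt res BA χ₀ Gon redon (BK i.1) (πK i.1) (j i.1) (Oon i.1) (Ooff i.1) := by
  have hjm := H.j_mem i.1
  -- the closed point at level `i`
  set φ : BK i.1 →+* k := χ₀.comp (((j i.1).comp (BK i.1).val.toRingHom).codRestrict BA.toSubring
    (fun b => hjm b b.2)) with hφ
  have hmax : (RingHom.ker φ).IsMaximal := H.isMaxK i.1 φ
  have hπ : algebraMap (RK i.1) (BK i.1) (πK i.1) ∈ RingHom.ker φ := by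
    obtain ⟨ϖ, -, hres, e⟩ := H.pi_const i.1
    rw [RingHom.mem_ker]
    show χ₀ ⟨j i.1 (algebraMap (RK i.1) (FK i.1) (πK i.1)), _⟩ = 0
    have : (⟨j i.1 (algebraMap (RK i.1) (FK i.1) (πK i.1)),
        hjm _ ((BK i.1).algebraMap_mem (πK i.1))⟩ : BA) = algebraMap A BA ϖ := Subtype.ext (by
      show j i.1 (algebraMap (RK i.1) (FK i.1) (πK i.1)) = ((algebraMap A BA ϖ : BA) : F)
      rw [e, ← algebraMap_A_eq]; rfl)
    rw [this, hχ₀, hres]
  have hwit : χ₀ ⟨j i.1 (H.wit b₀ i : FK i.1), hjm _ (H.wit b₀ i).2⟩ ≠ 0 := by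
    have : (⟨j i.1 (H.wit b₀ i : FK i.1), hjm _ (H.wit b₀ i).2⟩ : BA) = b₀ :=
      Subtype.ext (H.j_wit b₀ i)
    rw [this]
    exact hb₀
  have hoffB : OffBranch (πK i.1) (BK i.1) (Ooff i.1) (RingHom.ker φ) :=
    ⟨H.wit b₀ i, fun hm => hwit (RingHom.mem_ker.mp hm), H.wit_off b₀ hoff i⟩
  obtain ⟨s₀, hs₀, hsm⟩ := H.smooth i.1 _ hmax hπ hoffB
  exact
    { j_mem := hjm
      pi_const := H.pi_const i.1
      noeth := H.noeth i.1
      le_on := H.le_on i.1
      le_off := H.le_off i.1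
      unif_on := H.unif_on i.1
      arch_off := H.arch_off i.1
      sat := H.sat i.1
      off := ⟨H.wit b₀ i, hjm _ (H.wit b₀ i).2, hwit, H.wit_off b₀ hoff i⟩
      on_G := fun f hf => (H.on_iff i.1 f).2 hf
      red_zero_iff := fun f hf => H.on_zero_iff i.1 f hf
      isMax := hmax
      smooth := by
        refine ⟨s₀, RingHom.mem_ker.mp hs₀, fun y hy => ?_⟩
        obtain ⟨d, hd, hmem⟩ := hsm y (RingHom.mem_ker.mpr hy)
        exact ⟨d, fun h0 => hd (RingHom.mem_ker.mpr h0), hmem⟩ }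

include hon hb₀ hoff in
/-- **(L4)** : `Ft = Frac (redon BA)`. -/
theorem L4 (y : Ft) : ∃ a b : BA, redon ⟨(b : F), H.le_Gon b b.2⟩ ≠ 0 ∧
    y * redon ⟨(b : F), H.le_Gon b b.2⟩ = redon ⟨(a : F), H.le_Gon a a.2⟩ := by
  obtain ⟨g, rfl⟩ := H.red_surj y
  obtain ⟨i, ⟨x, hx⟩, hS⟩ := H.desc (g : F) [b₀]
  have hi : ∃ e : BK i, j i (e : FK i) = (b₀ : F) := hS b₀ (by simp)
  set i' : Idx H b₀ := ⟨i, hi⟩ with hi'
  have hxOn : x ∈ Oon i := (H.on_iff i x).1 (hx ▸ g.2)
  obtain ⟨a, b, hb, hab⟩ := exists_frac_on (BK i) (πK i) (Oon i) (Ooff i) (H.le_on i)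
    (H.unif_on i) (H.pi_nonunit_on i) (H.arch_on i) (H.sat i) (H.le_off i) (H.fracK i)
    (H.wit b₀ i') (H.wit_off b₀ hoff i') (H.wit_not_on χ₀ hon b₀ hb₀ i') x hxOn
  refine ⟨⟨j i (a : FK i), H.j_mem i _ a.2⟩, ⟨j i (b : FK i), H.j_mem i _ b.2⟩, ?_, ?_⟩
  · intro h0
    exact hb ((H.on_zero_iff i _ (H.le_on i _ b.2)).mp h0)
  · rw [← map_mul]
    congr 1
    apply Subtype.ext
    show (g : F) * j i (b : FK i) = j i (a : FK i)
    rw [← hx, ← map_mul, hab]

include H in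
/-- `F = Frac BA`. -/
theorem frac (y : F) : ∃ a b : BA, b ≠ 0 ∧ y * (b : F) = (a : F) := by
  obtain ⟨i, ⟨x, hx⟩, -⟩ := H.desc y []
  obtain ⟨a, ha, b, hb, hb0, hab⟩ := H.fracK i x
  refine ⟨⟨j i a, H.j_mem i a ha⟩, ⟨j i b, H.j_mem i b hb⟩, ?_, ?_⟩
  · intro h0
    apply hb0
    have : j i b = 0 := congrArg Subtype.val h0
    exact (map_eq_zero (j i)).mp this
  · show y * j i b = j i a
    rw [← hx, ← map_mul, hab]

include hχ₀ in
/-- a function of the chart vanishing at the closed point and not identically on the component. -/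
theorem nonunit : ∃ z : BA, χ₀ z = 0 ∧ redon ⟨(z : F), H.le_Gon z z.2⟩ ≠ 0 := by
  obtain ⟨a, ha⟩ := H.res_surj (χ₀ s)
  refine ⟨s - algebraMap A BA a, by rw [map_sub, hχ₀, ha, sub_self], ?_⟩
  intro h0
  apply H.s_nonconst (res a)
  have e : (⟨((s - algebraMap A BA a : BA) : F), H.le_Gon _ (s - algebraMap A BA a).2⟩ : Gon) =
      ⟨(s : F), H.le_Gon s s.2⟩ - ⟨algebraMap L F (a : L), H.const_on a⟩ := by
    apply Subtype.ext
    show ((s - algebraMap A BA a : BA) : F) = (s : F) - algebraMap L F (a : L)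
    push_cast
    rw [← algebraMap_A_eq]
  rw [e, map_sub, H.red_const_on, sub_eq_zero] at h0
  exact h0

include hχ₀ hon hb₀ hoff in
/-- **The family of levels at the one-branch closed point `χ₀`.** -/
theorem levels :
    Levels res BA χ₀ Gon redon (fun i : Idx H b₀ => RK i.1) (fun i => FK i.1) (fun i => BK i.1)
      (fun i => πK i.1) (fun i => j i.1) (fun i => Oon i.1) (fun i => Ooff i.1) :=
  { res_surj := H.res_surj
    res_eq_zero_iff := H.res_eq_zero_iff
    chi_const := hχ₀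
    const_G := H.const_on
    red_const := H.red_const_on
    onComp := H.onComp χ₀ hon
    frac := H.frac
    places := H.places
    pir := H.pir
    nonunit := H.nonunit χ₀ hχ₀
    L4 := H.L4 χ₀ hon b₀ hb₀ hoff
    level := fun i => H.levelAt χ₀ hχ₀ hon b₀ hb₀ hoff i
    L0 := by
      intro S
      obtain ⟨i, -, hS⟩ := H.desc 0 (b₀ :: S)
      exact ⟨⟨i, hS b₀ (by simp)⟩, fun b hb => hS b (List.mem_cons_of_mem _ hb)⟩ }

include hχ₀ hon hb₀ hoff in
/-- **The smooth residue disc of every one-branch closed point of the component.** -/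
theorem exists_discSys :
    ∃ Q : Place k Ft, DiscSys A res (locC BA χ₀) (H.onComp χ₀ hon).redC (chiC BA χ₀) Q :=
  (H.levels χ₀ hχ₀ hon b₀ hb₀ hoff).discLevels.exists_discSys

end LevelFamily

end Family

end Fermat.Agent.ORD.IFACEN.LevelFamily8
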