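/-
PROGRAMME ORD (S33), chapter IFACE-N (O6b "smooth discs", helper8): **the tower of finite levels of
the N34 model of `X₀(M' p)`**, as an index family for `LevelFamily8.LevelFamily`.

`MI : ModelInput13.ModelInput 4 8 p M' A` (N34's deliverable, `ModelEnd4.modelInput_four`).

* `Lvl K₀` : finite NORMAL subfields `K₀ ≤ K ⊂ ℚbar`; `exists_lvl_ge` (normal closure);
* `K0 MI`, and for `i : Lvl (K0 MI)` : `htK`, `hEK`, the uniformiser `piK`, `piK_unif`, and N34's
  bundle `dataK : NodalNumData (A ∩ K) K (K·F_{M' p}) π t B0 B1 O1 O2`;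
* `desc_chart` : **the big field and the big chart `chart A s` are the unions of the levels**
  (for any coordinate `s` descending to all levels);
* `ChartFields` : the chart fields of ONE chart at ONE level seen from one component
  (`chartFields00` = chart `B0`, components `(O1, O2)`; `.swap`; `chartFields10` = chart `B1`);
* global facts: `res_surj`, `res_eq_zero_iff`, `places_bad`, `pir_bad`, `isMaxK`,
  `red1_tB_nonconst`, `red1_tB_inv_nonconst`.
-/
import Mathlib
import Fermat.Agent.ORD.IFACEN.BadLevelOne8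
import Fermat.Agent.ORD.IFACEN.LevelFamily8
import Fermat.Agent.ES.N34.ModelInput13
import Fermat.Agent.ES.RED.PIRInst13
import Fermat.Agent.ES.RED.LevelsInst22
import Fermat.Agent.ES.RED.PlacePIR13
import Fermat.Agent.ES.RED.SpecialGen25
import Fermat.Agent.ES.RED.ChartUnion1
import Fermat.Agent.Lib.FrobeniusExists

set_option autoImplicit false
set_option linter.unusedSectionVars false
set_option linter.style.longLine false
set_option synthInstance.maxHeartbeats 400000

open HahnSeries ModularCurve Polynomial AlgebraicCurve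

noncomputable section

namespace Fermat.Agent.ORD.IFACEN.BadFamily8

open Fermat.Agent.RED.Interface4 Fermat.Agent.RED.DESC.PlaceExtend27
  Fermat.Agent.RED.DESC Fermat.Agent.RED.NumInst4
  Fermat.Agent.RED.PUR.GaussGen8 Fermat.Agent.RED.PUR.GaussBridge10
  Fermat.Agent.RED.PUR.ChartGeneric22
  Fermat.Agent.RED.DESC.NumberFieldDVR27
  Fermat.Agent.RED.BASE.Interface12 Fermat.Agent.RED.BASE.EtaQuot12
  Fermat.Agent.ES.RED.ChartIntegralA1 Fermat.Agent.ES.RED.GaussUnit25
  Fermat.Agent.ES.N34.ModelDefs9 Fermat.Agent.ES.N34.ModelInput13 Fermat.Agent.ES.N34.NumData13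
  Fermat.Agent.ES.N34.NodalCore13 Fermat.Agent.ES.N34.NodalCL13
  Fermat.Agent.ORD.IFACEN.GaussBad1 Fermat.Agent.ORD.IFACEN.SideOne1
  Fermat.Agent.ORD.IFACEN.BadLevelOne8

/-- fast instance (the canonical search costs seconds). -/
local instance (priority := 100000) algKF (A : ValuationSubring Qbar) (M : ℕ) [NeZero M] :
    Algebra (kA A) ↥(modularFunctionFieldFullC (kA A) M) := inferInstance

/-- shortcut instance (typeclass search takes seconds to find it). -/
local instance (priority := high) algAKFK (A : ValuationSubring Qbar) (M : ℕ)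
    (K : IntermediateField ℚ Qbar) : Algebra ↥(AK A K) ↥(FK M K) := inferInstance

/-! ### levels -/

/-- a level: a finite normal subfield of `ℚbar` containing `K₀`. -/
structure Lvl (K₀ : IntermediateField ℚ Qbar) where
  /-- the field -/
  K : IntermediateField ℚ Qbar
  fd : FiniteDimensional ℚ K
  nor : Normal ℚ K
  le : K₀ ≤ K

attribute [instance] Lvl.fd Lvl.nor

theorem exists_lvl_ge (K₀ K₁ : IntermediateField ℚ Qbar) [FiniteDimensional ℚ K₁] (h : K₀ ≤ K₁) :
    ∃ i : Lvl K₀, K₁ ≤ i.K := by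
  have hgal : IsGalois ℚ Qbar := Fermat.Agent.Lib.FrobeniusExists.isGalois_Qbar
  have hnorQ : Normal ℚ Qbar := hgal.to_normal
  have halgQ : Algebra.IsAlgebraic ℚ Qbar := NumberFieldDVR27.isAlgebraic_Qbar
  exact ⟨⟨IntermediateField.normalClosure ℚ K₁ Qbar, normalClosure.is_finiteDimensional ℚ K₁ Qbar,
    normalClosure.normal ℚ K₁ Qbar, h.trans (IntermediateField.le_normalClosure K₁)⟩,
    IntermediateField.le_normalClosure K₁⟩

variable (p M' : ℕ) [Fact p.Prime] [NeZero M'] (A : ValuationSubring Qbar)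
  (hA : A.LiesOverPrime p) (hpM : ¬ p ∣ M') (h4 : 4 ∣ M')

/-! ### the union property -/

/-- **the big field and the big chart are the unions of the levels.** -/
theorem desc_chart (K₀ : IntermediateField ℚ Qbar) [FiniteDimensional ℚ K₀] (N : ℕ)
    (s : ↥(Fbar N)) (sK : ∀ i : Lvl K₀, ↥(FK N i.K))
    (hsK : ∀ i : Lvl K₀, baseChangeHom N i.K (sK i) = s) (y : ↥(Fbar N)) (S : List ↥(chart ↥A s)) :
    ∃ i : Lvl K₀, (∃ x : ↥(FK N i.K), baseChangeHom N i.K x = y) ∧
      ∀ b ∈ S, ∃ b' : ↥(chart ↥(AK A i.K) (sK i)),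
        baseChangeHom N i.K (b' : ↥(FK N i.K)) = (b : ↥(Fbar N)) := by
  obtain ⟨K₁, hfd₁, hle₁, Hy⟩ := UnifDescent14.exists_descent_ge N K₀ y
  have key : ∃ K₂ : IntermediateField ℚ Qbar, FiniteDimensional ℚ K₂ ∧ K₁ ≤ K₂ ∧
      ∀ K : IntermediateField ℚ Qbar, K₂ ≤ K → ∀ tK : ↥(FK N K), baseChangeHom N K tK = s →
        ∀ b ∈ S, ∃ z ∈ chart ↥(AK A K) tK, baseChangeHom N K z = (b : ↥(Fbar N)) := by
    induction S with
    | nil => exact ⟨K₁, hfd₁, le_rfl, fun K _ tK _ b hb => absurd hb (List.not_mem_nil)⟩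
    | cons b T ih =>
      obtain ⟨K₂, hfd₂, hle₂, H₂⟩ := ih
      have := hfd₂
      obtain ⟨K₃, hfd₃, hle₃, H₃⟩ :=
        Fermat.Agent.ES.RED.ChartUnion1.exists_chart_descent A N K₂ s (b : ↥(Fbar N)) b.2
      refine ⟨K₃, hfd₃, hle₂.trans hle₃, fun K hK tK htK c hc => ?_⟩
      rcases List.mem_cons.1 hc with rfl | hc
      · exact H₃ K hK tK htK
      · exact H₂ K (hle₃.trans hK) tK htK c hc
  obtain ⟨K₂, hfd₂, hle₂, H₂⟩ := key
  have := hfd₂
  obtain ⟨i, hi⟩ := exists_lvl_ge K₀ K₂ (hle₁.trans hle₂)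
  refine ⟨i, Hy i.K (hle₂.trans hi), fun b hb => ?_⟩
  obtain ⟨z, hz, hzb⟩ := H₂ i.K hi (sK i) (hsK i) b hb
  exact ⟨⟨z, hz⟩, hzb⟩

/-! ### global facts -/

theorem res_surj : Function.Surjective (IsLocalRing.residue ↥A) := IsLocalRing.residue_surjective

theorem res_eq_zero_iff (a : ↥A) : IsLocalRing.residue ↥A a = 0 ↔ ¬ IsUnit a := by
  rw [IsLocalRing.residue_eq_zero_iff]; rfl

include hA in
theorem isMaxK {B : Type*} [CommRing B] (φ : B →+* kA A) : (RingHom.ker φ).IsMaximal :=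
  Fermat.Agent.ES.RED.LevelsInst22.isMaximal_ker A (Fact.out : p.Prime).ne_zero hA φ

include hA hpM h4 in
theorem pir_bad (O : ValuationSubring ↥(modularFunctionFieldFullC (kA A) M'))
    (hk : ∀ c : kA A, algebraMap (kA A) ↥(modularFunctionFieldFullC (kA A) M') c ∈ O)
    (hO : O ≠ ⊤) : IsPrincipalIdealRing ↥O :=
  Fermat.Agent.ES.RED.PIRInst13.pirHyp_fullC 4 8 M' p hpM
    (Fermat.Agent.RED.BASE.MainCusp12.base_four M' h4).1.mem
    (Fermat.Agent.RED.BASE.MainCusp12.base_four M' h4).1.genBase A hA O hk hO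

/-- valuation rings of `Fbar (M' p)` over a chart are places. -/
theorem places_bad (O : ValuationSubring ↥(Fbar (M' * p)))
    (hL : ∀ c : Qbar, algebraMap Qbar ↥(Fbar (M' * p)) c ∈ O) (hO : O ≠ ⊤)
    (hx : tB p M' h4 ∈ O ∨ (tB p M' h4)⁻¹ ∈ O) :
    ∃ P : Place Qbar ↥(Fbar (M' * p)), P.toValuationSubring = O := by
  have hgen := Fermat.Agent.RED.BASE.TGen19.isGen_tF 4 8 (M' * p) (tMem_bad p M' h4)
  have := hgen.finite
  rcases hx with hx | hx
  · exact ⟨Fermat.Agent.ES.RED.PlacePIR13.placeOfValuationSubring hgen O hL hx hO, rfl⟩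
  · exact ⟨⟨O, hL, hO,
      Fermat.Agent.ES.RED.PlacePIR13.isPrincipalIdealRing_of_inv_gen_mem hgen O hL hx hO⟩, rfl⟩

include hA in
/-- the reduction of `t` on the component through `∞` is the Hauptmodul of the special fibre. -/
theorem red1_tB :
    red1 p M' A hA hpM h4 ⟨tB p M' h4, chart0_le_G1 p M' A hA hpM h4 (self_mem_chart _)⟩ =
      Fermat.Agent.ES.RED.SpecialGen25.tRes 4 8 M' p hpM
        (Fermat.Agent.RED.BASE.MainCusp12.base_four M' h4).1.mem
        (Fermat.Agent.RED.BASE.MainCusp12.base_four M' h4).1.genBase A hA := by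
  have h1 := red1_of_mem p M' A hA hpM h4 ⟨tB p M' h4, tB_mem_intF p M' A h4⟩
  have h2 : (⟨tB p M' h4, chart0_le_G1 p M' A hA hpM h4 (self_mem_chart _)⟩ :
      ↥(G1 p M' A hA hpM h4)) = ⟨((⟨tB p M' h4, tB_mem_intF p M' A h4⟩ : intF A (M' * p)) :
        ↥(Fbar (M' * p))), intF_le_G1 p M' A hA hpM h4 (tB_mem_intF p M' A h4)⟩ := rfl
  rw [h2, h1]
  apply Subtype.ext
  rw [coe_redB_eq_of p M' hA hpM h4 (Y := tq ↥A 4 8) (coeffMap_tq ↥A A.subtype 4 8)]
  rw [coeffMap_tq]
  rfl

include hA in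
theorem red1_tB_nonconst (c : kA A) :
    red1 p M' A hA hpM h4 ⟨tB p M' h4, chart0_le_G1 p M' A hA hpM h4 (self_mem_chart _)⟩ ≠
      algebraMap (kA A) ↥(modularFunctionFieldFullC (kA A) M') c := by
  rw [red1_tB p M' A hA hpM h4]
  intro h0
  have hgen := Fermat.Agent.ES.RED.SpecialGen25.isGen_tRes 4 8 M' p hpM
    (Fermat.Agent.RED.BASE.MainCusp12.base_four M' h4).1.mem
    (Fermat.Agent.RED.BASE.MainCusp12.base_four M' h4).1.genBase A hA
  apply hgen.transcendental
  rw [h0]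
  exact isAlgebraic_algebraMap c

/-! ### the model data along the tower -/

section Model

variable {p M' A}
variable (MI : ModelInput 4 8 p M' A)

/-- the base field of the tower. -/
def K0 : IntermediateField ℚ Qbar := Classical.choose MI

instance K0_fd : FiniteDimensional ℚ (K0 MI) := (Classical.choose_spec MI).1

theorem lvl_spec (i : Lvl (K0 MI)) :
    ∃ (ht : tq ↥i.K 4 8 ∈ FK M' i.K) (hE : FK (M' * p) i.K ≤ fracField (AK A i.K)),
      ∀ (π : ↥(AK A i.K)) (hπ : IsUnif (AK A i.K) π),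
        NodalDataAt (AK A i.K) (FK (M' * p) i.K) π (tN p ht) (B0 A p ht) (B1 A p ht)
          (O1 M' p hπ hE) (O2 M' p hπ hE) :=
  (Classical.choose_spec MI).2 i.K i.fd i.le

theorem htK (i : Lvl (K0 MI)) : tq ↥i.K 4 8 ∈ FK M' i.K := (lvl_spec MI i).choose

theorem hEK (i : Lvl (K0 MI)) : FK (M' * p) i.K ≤ fracField (AK A i.K) :=
  (lvl_spec MI i).choose_spec.choose

include hA in
theorem exists_unif (K : IntermediateField ℚ Qbar) [FiniteDimensional ℚ K] :
    ∃ π : ↥(AK A K), IsUnif (AK A K) π := by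
  have := isDiscreteValuationRing_AK A K (Fact.out : p.Prime).ne_zero hA
  obtain ⟨π, hπ⟩ := IsDiscreteValuationRing.exists_irreducible ↥(AK A K)
  exact ⟨π, isUnif_of_irreducible (AK A K) hπ⟩

/-- the uniformiser at level `i`. -/
def piK (i : Lvl (K0 MI)) : ↥(AK A i.K) := Classical.choose (exists_unif hA i.K)

theorem piK_unif (i : Lvl (K0 MI)) : IsUnif (AK A i.K) (piK hA MI i) :=
  Classical.choose_spec (exists_unif hA i.K)

/-- **N34's bundle at level `i`.** -/
theorem dataK (i : Lvl (K0 MI)) :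
    NodalDataAt (AK A i.K) (FK (M' * p) i.K) (piK hA MI i) (tN p (htK MI i)) (B0 A p (htK MI i))
      (B1 A p (htK MI i)) (O1 M' p (piK_unif hA MI i) (hEK MI i))
      (O2 M' p (piK_unif hA MI i) (hEK MI i)) :=
  (lvl_spec MI i).choose_spec.choose_spec _ _

end Model

end Fermat.Agent.ORD.IFACEN.BadFamily8
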