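/-
PROGRAMME ORD (S33), chapter IFACE-N (O6b "smooth discs", helper8): **the concrete
`LevelFamily8.LevelFamily` of the N34 model of `X₀(M' p)` for the component through `∞`**, on both
charts, hence the smooth residue disc (`DiscSys`) of EVERY closed point of the special fibre lying on
the component through `∞` and not on the other component.

The other component enters only through `(Goff, redoff)` with `chart ⊂ Goff` and the level
comparison `off_zero` (`redoff (baseChangeHom b) = 0 → b ∈ π O2`), to be supplied by `SideTwo5`.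

* `ChartFields π B Oon Ooff` : the chart fields of ONE chart at ONE level seen from one component;
  `chartFields00/01/10/11` from N34's `NodalNumData` (chart `B0`/`B1`, component `O1`/`O2` on);
* `levelFamily_one_zero`, `levelFamily_one_one` : `LevelFamily` for `(G1, red1)` on `chart A t`,
  `chart A t⁻¹`;
* `exists_discSys_one_zero`, `exists_discSys_one_one`.
-/
import Mathlib
import Fermat.Agent.ORD.IFACEN.BadFamily8

set_option autoImplicit false
set_option linter.unusedSectionVars false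
set_option linter.style.longLine false
set_option synthInstance.maxHeartbeats 400000

open HahnSeries ModularCurve Polynomial AlgebraicCurve

noncomputable section

namespace Fermat.Agent.ORD.IFACEN.BadInst8

open Fermat.Agent.RED.Interface4 Fermat.Agent.RED.DESC.PlaceExtend27
  Fermat.Agent.RED.DESC Fermat.Agent.RED.NumInst4
  Fermat.Agent.RED.PUR.GaussGen8 Fermat.Agent.RED.PUR.GaussBridge10
  Fermat.Agent.RED.PUR.ChartGeneric22
  Fermat.Agent.RED.DESC.NumberFieldDVR27
  Fermat.Agent.RED.BASE.Interface12 Fermat.Agent.RED.BASE.EtaQuot12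
  Fermat.Agent.ES.RED.ChartIntegralA1 Fermat.Agent.ES.RED.GaussUnit25
  Fermat.Agent.ES.N34.ModelDefs9 Fermat.Agent.ES.N34.ModelInput13 Fermat.Agent.ES.N34.NumData13
  Fermat.Agent.ES.N34.NodalCore13 Fermat.Agent.ES.N34.NodalCL13
  Fermat.Agent.ORD.IFACEN.GaussBad1 Fermat.Agent.ORD.IFACEN.SideOne1
  Fermat.Agent.ORD.IFACEN.BadLevelOne8 Fermat.Agent.ORD.IFACEN.BadFamily8
  Fermat.Agent.ORD.IFACEN.LevelFamily8 Fermat.Agent.ORD.IFACEN.LocAt8
  Fermat.Agent.ORD.IFACEN.DiscSys8

/-- fast instance (the canonical search costs seconds). -/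
local instance (priority := 100000) algKF (A : ValuationSubring Qbar) (M : ℕ) [NeZero M] :
    Algebra (kA A) ↥(modularFunctionFieldFullC (kA A) M) := inferInstance

/-- shortcut instance (typeclass search takes seconds to find it). -/
local instance (priority := high) algAKFK (A : ValuationSubring Qbar) (M : ℕ)
    (K : IntermediateField ℚ Qbar) : Algebra ↥(AK A K) ↥(FK M K) := inferInstance

/-! ### the chart fields of one chart at one level -/

section ChartFields

variable {R K E : Type*} [CommRing R] [Field K] [Field E] [Algebra R K] [Algebra K E]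
  [Algebra R E] [IsScalarTower R K E]

/-- the chart fields of one chart at one level, seen from the component `on`. -/
structure ChartFields (π : R) (B : Subalgebra R E) (Oon Ooff : ValuationSubring E) : Prop where
  noeth : IsNoetherianRing B
  le_on : ∀ b ∈ B, b ∈ Oon
  le_off : ∀ b ∈ B, b ∈ Ooff
  unif_on : ∀ x ∈ Oon, x⁻¹ ∉ Oon → ∃ c ∈ Oon, x = algebraMap R E π * c
  pi_nonunit_on : (algebraMap R E π)⁻¹ ∉ Oon
  arch_on : ∀ x : E, ∃ n : ℕ, algebraMap R E π ^ n * x ∈ Oon
  arch_off : ∀ x : E, ∃ n : ℕ, algebraMap R E π ^ n * x ∈ Ooff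
  sat : ∀ b ∈ B, ∀ c : E, c ∈ Oon → c ∈ Ooff → b = algebraMap R E π * c → c ∈ B
  fracK : ∀ x : E, ∃ a ∈ B, ∃ b ∈ B, b ≠ 0 ∧ x * b = a
  smooth : ∀ 𝔪 : Ideal B, 𝔪.IsMaximal → algebraMap R B π ∈ 𝔪 → OffBranch π B Ooff 𝔪 →
    SmoothAt π B 𝔪

variable {π : R} {t : E} {B0 B1 : Subalgebra R E} {O1 O2 : ValuationSubring E}

theorem chartFields00 (D : NodalNumData R K E π t B0 B1 O1 O2) : ChartFields π B0 O1 O2 where
  noeth := D.noeth0
  le_on := D.model.le_O1_0
  le_off := D.model.le_O2_0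
  unif_on := D.model.unif1
  pi_nonunit_on := D.model.pi_nonunit1
  arch_on := D.model.arch1
  arch_off := D.model.arch2
  sat := D.model.sat0
  fracK := D.frac0
  smooth := fun 𝔪 hmax hπ hoff => D.smooth0 𝔪 hmax hπ (Or.inr hoff)

theorem chartFields01 (D : NodalNumData R K E π t B0 B1 O1 O2) : ChartFields π B0 O2 O1 where
  noeth := D.noeth0
  le_on := D.model.le_O2_0
  le_off := D.model.le_O1_0
  unif_on := D.model.unif2
  pi_nonunit_on := D.model.pi_nonunit2
  arch_on := D.model.arch2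
  arch_off := D.model.arch1
  sat := fun b hb c h2 h1 e => D.model.sat0 b hb c h1 h2 e
  fracK := D.frac0
  smooth := fun 𝔪 hmax hπ hoff => D.smooth0 𝔪 hmax hπ (Or.inl hoff)

theorem chartFields10 (D : NodalNumData R K E π t B0 B1 O1 O2) : ChartFields π B1 O1 O2 where
  noeth := D.noeth1
  le_on := D.model.le_O1_1
  le_off := D.model.le_O2_1
  unif_on := D.model.unif1
  pi_nonunit_on := D.model.pi_nonunit1
  arch_on := D.model.arch1
  arch_off := D.model.arch2
  sat := D.model.sat1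
  fracK := D.frac1
  smooth := fun 𝔪 hmax hπ hoff => D.smooth1 𝔪 hmax hπ (Or.inr hoff)

theorem chartFields11 (D : NodalNumData R K E π t B0 B1 O1 O2) : ChartFields π B1 O2 O1 where
  noeth := D.noeth1
  le_on := D.model.le_O2_1
  le_off := D.model.le_O1_1
  unif_on := D.model.unif2
  pi_nonunit_on := D.model.pi_nonunit2
  arch_on := D.model.arch2
  arch_off := D.model.arch1
  sat := fun b hb c h2 h1 e => D.model.sat1 b hb c h1 h2 e
  fracK := D.frac1
  smooth := fun 𝔪 hmax hπ hoff => D.smooth1 𝔪 hmax hπ (Or.inl hoff)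

end ChartFields

variable (p M' : ℕ) [Fact p.Prime] [NeZero M'] (A : ValuationSubring Qbar)
  (hA : A.LiesOverPrime p) (hpM : ¬ p ∣ M') (h4 : 4 ∣ M')
  (MI : ModelInput 4 8 p M' A)

/-- N34's bundle at level `i`, unfolded. -/
theorem nodalK (i : Lvl (K0 MI)) :
    haveI := isScalarTower_OE (AK A i.K) (FK (M' * p) i.K)
    NodalNumData ↥(AK A i.K) ↥i.K ↥(FK (M' * p) i.K) (piK hA MI i) (tN p (htK MI i))
      (B0 A p (htK MI i)) (B1 A p (htK MI i)) (O1 M' p (piK_unif hA MI i) (hEK MI i))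
      (O2 M' p (piK_unif hA MI i) (hEK MI i)) :=
  dataK hA MI i

theorem cf00 (i : Lvl (K0 MI)) :
    ChartFields (piK hA MI i) (B0 A p (htK MI i)) (O1 M' p (piK_unif hA MI i) (hEK MI i))
      (O2 M' p (piK_unif hA MI i) (hEK MI i)) :=
  haveI := isScalarTower_OE (AK A i.K) (FK (M' * p) i.K)
  chartFields00 (K := ↥i.K) (nodalK p M' A hA MI i)

theorem cf10 (i : Lvl (K0 MI)) :
    ChartFields (piK hA MI i) (B1 A p (htK MI i)) (O1 M' p (piK_unif hA MI i) (hEK MI i))
      (O2 M' p (piK_unif hA MI i) (hEK MI i)) :=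
  haveI := isScalarTower_OE (AK A i.K) (FK (M' * p) i.K)
  chartFields10 (K := ↥i.K) (nodalK p M' A hA MI i)

theorem cf01 (i : Lvl (K0 MI)) :
    ChartFields (piK hA MI i) (B0 A p (htK MI i)) (O2 M' p (piK_unif hA MI i) (hEK MI i))
      (O1 M' p (piK_unif hA MI i) (hEK MI i)) :=
  haveI := isScalarTower_OE (AK A i.K) (FK (M' * p) i.K)
  chartFields01 (K := ↥i.K) (nodalK p M' A hA MI i)

theorem cf11 (i : Lvl (K0 MI)) :
    ChartFields (piK hA MI i) (B1 A p (htK MI i)) (O2 M' p (piK_unif hA MI i) (hEK MI i))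
      (O1 M' p (piK_unif hA MI i) (hEK MI i)) :=
  haveI := isScalarTower_OE (AK A i.K) (FK (M' * p) i.K)
  chartFields11 (K := ↥i.K) (nodalK p M' A hA MI i)

/-! ### the component through `∞`, chart `t` -/

section OneZero

variable (Goff : Subring ↥(Fbar (M' * p)))
  (redoff : ↥Goff →+* ↥(modularFunctionFieldFullC (kA A) M'))
  (hle_off : ∀ b ∈ chart ↥A (tB p M' h4), b ∈ Goff)
  (hoff_zero : ∀ (i : Lvl (K0 MI)) (b : ↥(B0 A p (htK MI i)))
    (hb : baseChangeHom (M' * p) i.K (b : ↥(FK (M' * p) i.K)) ∈ Goff), redoff ⟨_, hb⟩ = 0 →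
      ∃ c ∈ O2 M' p (piK_unif hA MI i) (hEK MI i), (b : ↥(FK (M' * p) i.K)) =
        algebraMap ↥(AK A i.K) ↥(FK (M' * p) i.K) (piK hA MI i) * c)

include hle_off hoff_zero in
/-- **`LevelFamily` for the component through `∞` on the chart `t`.** -/
theorem levelFamily_one_zero :
    LevelFamily (IsLocalRing.residue ↥A) (chart ↥A (tB p M' h4))
      (⟨tB p M' h4, self_mem_chart _⟩ : ↥(chart ↥A (tB p M' h4)))
      (G1 p M' A hA hpM h4) (red1 p M' A hA hpM h4) Goff redoff
      (fun i : Lvl (K0 MI) => ↥(AK A i.K)) (fun i => ↥(FK (M' * p) i.K))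
      (fun i => B0 A p (htK MI i)) (fun i => piK hA MI i)
      (fun i => baseChangeHom (M' * p) i.K)
      (fun i => O1 M' p (piK_unif hA MI i) (hEK MI i))
      (fun i => O2 M' p (piK_unif hA MI i) (hEK MI i)) where
  res_surj := res_surj A
  res_eq_zero_iff := res_eq_zero_iff A
  const_on := const_mem p M' A hA hpM h4
  red_const_on := red1_const p M' A hA hpM h4
  le_Gon := fun _ hb => chart0_le_G1 p M' A hA hpM h4 hb
  le_Goff := hle_off
  inv_mem_on := inv_mem_G1 p M' A hA hpM h4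
  red_surj := red1_surjective p M' A hA hpM h4
  s_nonconst := red1_tB_nonconst p M' A hA hpM h4
  places := fun O hL hO hB => places_bad p M' h4 O hL hO (Or.inl (hB _ (self_mem_chart _)))
  pir := pir_bad p M' A hA hpM h4
  j_mem := fun i _ hb => baseChangeHom_mem_chart0 p M' A h4 i.K (htK MI i) hb
  pi_const := fun i => pi_const p M' A i.K (piK_unif hA MI i)
  noeth := fun i => (cf00 p M' A hA MI i).noeth
  le_on := fun i => (cf00 p M' A hA MI i).le_on
  le_off := fun i => (cf00 p M' A hA MI i).le_off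
  unif_on := fun i => (cf00 p M' A hA MI i).unif_on
  pi_nonunit_on := fun i => (cf00 p M' A hA MI i).pi_nonunit_on
  arch_on := fun i => (cf00 p M' A hA MI i).arch_on
  arch_off := fun i => (cf00 p M' A hA MI i).arch_off
  sat := fun i => (cf00 p M' A hA MI i).sat
  fracK := fun i => (cf00 p M' A hA MI i).fracK
  on_iff := fun i f => on_iff_one p M' A hA hpM h4 i.K (piK_unif hA MI i) (hEK MI i) f
  on_zero_iff := fun i f hf =>
    on_zero_iff_one p M' A hA hpM h4 i.K (piK_unif hA MI i) (hEK MI i) f hf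
  off_zero := fun i b h0 => hoff_zero i b _ h0
  smooth := fun i => (cf00 p M' A hA MI i).smooth
  isMaxK := fun _ φ => isMaxK p A hA φ
  desc := fun y S => desc_chart A (K0 MI) (M' * p) (tB p M' h4) (fun i => tN p (htK MI i))
    (fun i => baseChangeHom_tN p M' h4 i.K (htK MI i)) y S

include hle_off hoff_zero in
/-- **the smooth residue disc of a closed point of `chart A t` on the component through `∞` and off
the other component.** -/
theorem exists_discSys_one_zero (χ₀ : ↥(chart ↥A (tB p M' h4)) →+* kA A)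
    (hχ₀ : ∀ a : ↥A, χ₀ (algebraMap ↥A ↥(chart ↥A (tB p M' h4)) a) = IsLocalRing.residue ↥A a)
    (hon : ∀ b : ↥(chart ↥A (tB p M' h4)),
      red1 p M' A hA hpM h4 ⟨(b : ↥(Fbar (M' * p))), chart0_le_G1 p M' A hA hpM h4 b.2⟩ = 0 →
        χ₀ b = 0)
    (b₀ : ↥(chart ↥A (tB p M' h4))) (hb₀ : χ₀ b₀ ≠ 0)
    (hoff : redoff ⟨(b₀ : ↥(Fbar (M' * p))), hle_off b₀ b₀.2⟩ = 0) :
    ∃ Q : Place (kA A) ↥(modularFunctionFieldFullC (kA A) M'),
      DiscSys A (IsLocalRing.residue ↥A) (locC (chart ↥A (tB p M' h4)) χ₀)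
        ((levelFamily_one_zero p M' A hA hpM h4 MI Goff redoff hle_off hoff_zero).onComp χ₀
          hon).redC (chiC (chart ↥A (tB p M' h4)) χ₀) Q :=
  (levelFamily_one_zero p M' A hA hpM h4 MI Goff redoff hle_off hoff_zero).exists_discSys χ₀ hχ₀
    hon b₀ hb₀ hoff

end OneZero

/-! ### the component through `∞`, chart `t⁻¹` -/

section OneOne

include hA in
theorem red1_tB_inv_nonconst (c : kA A) :
    red1 p M' A hA hpM h4 ⟨(tB p M' h4)⁻¹, chart1_le_G1 p M' A hA hpM h4 (self_mem_chart _)⟩ ≠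
      algebraMap (kA A) ↥(modularFunctionFieldFullC (kA A) M') c := by
  intro h0
  have hmul : (⟨(tB p M' h4)⁻¹, chart1_le_G1 p M' A hA hpM h4 (self_mem_chart _)⟩ :
      ↥(G1 p M' A hA hpM h4)) *
      ⟨tB p M' h4, chart0_le_G1 p M' A hA hpM h4 (self_mem_chart _)⟩ = 1 :=
    Subtype.ext (inv_mul_cancel₀ (tB_ne_zero p M' h4))
  have h1 := congrArg (red1 p M' A hA hpM h4) hmul
  rw [map_mul, map_one, h0] at h1
  have hc : c ≠ 0 := by
    rintro rfl
    rw [map_zero, zero_mul] at h1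
    exact zero_ne_one h1
  apply red1_tB_nonconst p M' A hA hpM h4 c⁻¹
  rw [map_inv₀]
  exact eq_inv_of_mul_eq_one_right h1

variable (Goff : Subring ↥(Fbar (M' * p)))
  (redoff : ↥Goff →+* ↥(modularFunctionFieldFullC (kA A) M'))
  (hle_off : ∀ b ∈ chart ↥A (tB p M' h4)⁻¹, b ∈ Goff)
  (hoff_zero : ∀ (i : Lvl (K0 MI)) (b : ↥(B1 A p (htK MI i)))
    (hb : baseChangeHom (M' * p) i.K (b : ↥(FK (M' * p) i.K)) ∈ Goff), redoff ⟨_, hb⟩ = 0 →
      ∃ c ∈ O2 M' p (piK_unif hA MI i) (hEK MI i), (b : ↥(FK (M' * p) i.K)) =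
        algebraMap ↥(AK A i.K) ↥(FK (M' * p) i.K) (piK hA MI i) * c)

include hle_off hoff_zero in
/-- **`LevelFamily` for the component through `∞` on the chart `t⁻¹`.** -/
theorem levelFamily_one_one :
    LevelFamily (IsLocalRing.residue ↥A) (chart ↥A (tB p M' h4)⁻¹)
      (⟨(tB p M' h4)⁻¹, self_mem_chart _⟩ : ↥(chart ↥A (tB p M' h4)⁻¹))
      (G1 p M' A hA hpM h4) (red1 p M' A hA hpM h4) Goff redoff
      (fun i : Lvl (K0 MI) => ↥(AK A i.K)) (fun i => ↥(FK (M' * p) i.K))
      (fun i => B1 A p (htK MI i)) (fun i => piK hA MI i)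
      (fun i => baseChangeHom (M' * p) i.K)
      (fun i => O1 M' p (piK_unif hA MI i) (hEK MI i))
      (fun i => O2 M' p (piK_unif hA MI i) (hEK MI i)) where
  res_surj := res_surj A
  res_eq_zero_iff := res_eq_zero_iff A
  const_on := const_mem p M' A hA hpM h4
  red_const_on := red1_const p M' A hA hpM h4
  le_Gon := fun _ hb => chart1_le_G1 p M' A hA hpM h4 hb
  le_Goff := hle_off
  inv_mem_on := inv_mem_G1 p M' A hA hpM h4
  red_surj := red1_surjective p M' A hA hpM h4
  s_nonconst := red1_tB_inv_nonconst p M' A hA hpM h4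
  places := fun O hL hO hB => places_bad p M' h4 O hL hO (Or.inr (hB _ (self_mem_chart _)))
  pir := pir_bad p M' A hA hpM h4
  j_mem := fun i _ hb => baseChangeHom_mem_chart1 p M' A h4 i.K (htK MI i) hb
  pi_const := fun i => pi_const p M' A i.K (piK_unif hA MI i)
  noeth := fun i => (cf10 p M' A hA MI i).noeth
  le_on := fun i => (cf10 p M' A hA MI i).le_on
  le_off := fun i => (cf10 p M' A hA MI i).le_off
  unif_on := fun i => (cf10 p M' A hA MI i).unif_on
  pi_nonunit_on := fun i => (cf10 p M' A hA MI i).pi_nonunit_on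
  arch_on := fun i => (cf10 p M' A hA MI i).arch_on
  arch_off := fun i => (cf10 p M' A hA MI i).arch_off
  sat := fun i => (cf10 p M' A hA MI i).sat
  fracK := fun i => (cf10 p M' A hA MI i).fracK
  on_iff := fun i f => on_iff_one p M' A hA hpM h4 i.K (piK_unif hA MI i) (hEK MI i) f
  on_zero_iff := fun i f hf =>
    on_zero_iff_one p M' A hA hpM h4 i.K (piK_unif hA MI i) (hEK MI i) f hf
  off_zero := fun i b h0 => hoff_zero i b _ h0
  smooth := fun i => (cf10 p M' A hA MI i).smooth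
  isMaxK := fun _ φ => isMaxK p A hA φ
  desc := fun y S => desc_chart A (K0 MI) (M' * p) (tB p M' h4)⁻¹ (fun i => (tN p (htK MI i))⁻¹)
    (fun i => by rw [map_inv₀, baseChangeHom_tN p M' h4 i.K (htK MI i)]) y S

include hle_off hoff_zero in
/-- **the smooth residue disc of a closed point of `chart A t⁻¹` on the component through `∞` and
off the other component.** -/
theorem exists_discSys_one_one (χ₀ : ↥(chart ↥A (tB p M' h4)⁻¹) →+* kA A)
    (hχ₀ : ∀ a : ↥A, χ₀ (algebraMap ↥A ↥(chart ↥A (tB p M' h4)⁻¹) a) = IsLocalRing.residue ↥A a)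
    (hon : ∀ b : ↥(chart ↥A (tB p M' h4)⁻¹),
      red1 p M' A hA hpM h4 ⟨(b : ↥(Fbar (M' * p))), chart1_le_G1 p M' A hA hpM h4 b.2⟩ = 0 →
        χ₀ b = 0)
    (b₀ : ↥(chart ↥A (tB p M' h4)⁻¹)) (hb₀ : χ₀ b₀ ≠ 0)
    (hoff : redoff ⟨(b₀ : ↥(Fbar (M' * p))), hle_off b₀ b₀.2⟩ = 0) :
    ∃ Q : Place (kA A) ↥(modularFunctionFieldFullC (kA A) M'),
      DiscSys A (IsLocalRing.residue ↥A) (locC (chart ↥A (tB p M' h4)⁻¹) χ₀)
        ((levelFamily_one_one p M' A hA hpM h4 MI Goff redoff hle_off hoff_zero).onComp χ₀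
          hon).redC (chiC (chart ↥A (tB p M' h4)⁻¹) χ₀) Q :=
  (levelFamily_one_one p M' A hA hpM h4 MI Goff redoff hle_off hoff_zero).exists_discSys χ₀ hχ₀
    hon b₀ hb₀ hoff

end OneOne

end Fermat.Agent.ORD.IFACEN.BadInst8
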