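/-
Programme ORD (S33), chapter O6a IFACEN — helper1.  **(R0a) at the BAD level `M' · p`.**

`A ≤ ℚbar` a valuation subring over the prime `p`, `p ∤ M'`, `4 ∣ M'` (`p` odd).  The reduction of an
`A`-integral `q`-expansion of `ℚbar · F_{M' p}` lies in the function field of the GOOD level,
`k · F̃_{M'} = modularFunctionFieldFullC k M'` (the component of the special fibre through `∞`).

* `resField_bad_le` : at a finite level `K` (large, normal): the residue field of the Gauss valuation
  ring `O1` of `K · F_{M' p}` is contained in `κ_K · F̃_{M'}`  (from `CombA26.hcomb_four`: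
  `O1 = alpha(Ov_{M'}) + π O1`, and (R0a) at the good level `M'`);
* `redSeries_mem_fullC_bad` : the same over `A` (union over the number fields);
* `redB : intF A (M' * p) →+* k · F̃_{M'}` the reduction map, `redB_eq_zero_iff`.
-/
import Mathlib
import Fermat.Agent.ES.RED.ChartIntegralA1
import Fermat.Agent.ES.N34.CombA26
import Fermat.Agent.RED.ModelFinal4

set_option autoImplicit false
set_option linter.unusedSectionVars false
set_option linter.style.longLine false
set_option synthInstance.maxHeartbeats 400000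

open HahnSeries ModularCurve Polynomial

noncomputable section

namespace Fermat.Agent.ORD.IFACEN.GaussBad1

open Fermat.Agent.RED.Interface4 Fermat.Agent.RED.DESC.PlaceExtend27
  Fermat.Agent.RED.DESC Fermat.Agent.RED.NumInst4
  Fermat.Agent.RED.PUR.GaussGen8 Fermat.Agent.RED.PUR.GaussBridge10
  Fermat.Agent.RED.DESC.NumberFieldDVR27
  Fermat.Agent.ES.RED.ChartIntegralA1 Fermat.Agent.ES.N34.ModelDefs9 Fermat.Agent.ES.N34.CombA26
  Fermat.Agent.ES.N34.ModelN4

variable (p M' : ℕ) [Fact p.Prime] [NeZero M'] (A : ValuationSubring Qbar)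

instance neZero_p : NeZero p := ⟨(Fact.out : p.Prime).ne_zero⟩

instance neZero_mul : NeZero (M' * p) := ⟨Nat.mul_ne_zero (NeZero.ne M') (NeZero.ne p)⟩

/-- Generic coefficient identity: `x - w = algebraMap π * c` in an intermediate field `E`, read
in `Kt((q))`. -/
theorem coe_sub_eq_C_mul {Kt : Type*} [Field Kt] (O : ValuationSubring Kt)
    (E : IntermediateField Kt (LaurentSeries Kt)) (x w c : E) (a : O)
    (h : x - w = algebraMap ↥O ↥E a * c) :
    (x : LaurentSeries Kt) - (w : LaurentSeries Kt) =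
      (HahnSeries.C ((a : O) : Kt) : LaurentSeries Kt) * (c : LaurentSeries Kt) := by
  have h' := congrArg (fun u : E => (u : LaurentSeries Kt)) h
  simp only [AddSubgroupClass.coe_sub, MulMemClass.coe_mul] at h'
  rw [h', Fermat.Agent.RED.NumInst4.coe_algebraMap_OE]

/-- **(R0a) at the bad level, finite level `K`**, given `hcomb` at `K`. -/
theorem resField_bad_le (hA : A.LiesOverPrime p) (hpM : ¬ p ∣ M') {n e : ℕ} [NeZero n]
    (K : IntermediateField ℚ Qbar) [FiniteDimensional ℚ K]
    (ht : Fermat.Agent.RED.BASE.EtaQuot12.tq (↥K) n e ∈ FK M' K)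
    (hC : HcombAt n e p M' A K) :
    resField (AK A K) (FK (M' * p) K) ≤ modularFunctionFieldFullC (Res (AK A K)) M' := by
  have : IsDiscreteValuationRing ↥(AK A K) :=
    isDiscreteValuationRing_AK A K (Fact.out : p.Prime).ne_zero hA
  obtain ⟨π, hπirr⟩ := IsDiscreteValuationRing.exists_irreducible ↥(AK A K)
  have hπ : IsUnif (AK A K) π := isUnif_of_irreducible (AK A K) hπirr
  have hE : FK (M' * p) K ≤ fracField (AK A K) := FK_le_fracField A K (M' * p)
  rintro y ⟨f, hf, hfE, rfl⟩
  -- `x = f` as an element of `O1`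
  have hx : (⟨f, hfE⟩ : FK (M' * p) K) ∈ O1 M' p hπ hE := hf
  obtain ⟨z, hz, c, hc, h⟩ := hC ht hE π hπ ⟨f, hfE⟩ hx
  have hc' : ((c : FK (M' * p) K) : LaurentSeries K) ∈ gaussRing (AK A K) := hc
  -- coefficientwise identity in `K((q))`
  have h1 : f - ((z : FK M' K) : LaurentSeries K) =
      (HahnSeries.C ((π : ↥(AK A K)) : K) : LaurentSeries K) * ((c : FK (M' * p) K) : LaurentSeries K) := by
    have := coe_sub_eq_C_mul (AK A K) (FK (M' * p) K) ⟨f, hfE⟩ (alpha K M' p z) c π h
    rwa [coe_alpha] at this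
  -- reduce
  have h2 : (⟨f, hf⟩ : gaussRing (AK A K)) =
      ⟨((z : FK M' K) : LaurentSeries K), hz⟩ + constG (AK A K) π * ⟨_, hc'⟩ := by
    apply Subtype.ext
    show f = ((z : FK M' K) : LaurentSeries K) +
      (HahnSeries.C ((π : ↥(AK A K)) : K) : LaurentSeries K) * ((c : FK (M' * p) K) : LaurentSeries K)
    rw [← h1]; ring
  rw [h2, map_add, map_mul, gaussRed_unif hπ, zero_mul, add_zero]
  rw [← Fermat.Agent.ES.RED.GaussUnit25.resField_FK_eq A K p hA M' hpM]
  exact ⟨_, hz, z.2, rfl⟩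

/-- **(R0a) at the bad level for all large number fields** (`4 ∣ M'`, Hauptmodul `tq · 4 8`). -/
theorem exists_resField_bad_le (hA : A.LiesOverPrime p) (hpM : ¬ p ∣ M') (h4 : 4 ∣ M') :
    ∃ K₀ : IntermediateField ℚ Qbar, FiniteDimensional ℚ K₀ ∧
      ∀ K : IntermediateField ℚ Qbar, FiniteDimensional ℚ K → K₀ ≤ K →
        resField (AK A K) (FK (M' * p) K) ≤ modularFunctionFieldFullC (Res (AK A K)) M' := by
  have hB := (Fermat.Agent.RED.BASE.MainCusp12.base_four M' h4).1
  obtain ⟨K₁, hK₁, hT⟩ := Fermat.Agent.RED.ModelFinal4.tTarget M' hB.mem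
  obtain ⟨K₂, hK₂, hJ⟩ := Fermat.Agent.RED.ModelFinal4.jTarget hB.genBase
  refine ⟨K₁ ⊔ K₂, inferInstance, fun K hfd hle => ?_⟩
  have := hfd
  exact resField_bad_le p M' A hA hpM K (hT K hfd (le_trans le_sup_left hle))
    (hcombAt_of (Fact.out : p.Prime) hpM hA K (hJ K hfd (le_trans le_sup_right hle)))

section Red

variable (hA : A.LiesOverPrime p) (hpM : ¬ p ∣ M') (h4 : 4 ∣ M')

include hA hpM h4 in
/-- **(R0a) at the bad level over `A`**: the reduction of an `A`-integral element of
`ℚ̄ · F_{M' p}` lies in the function field of the GOOD level `k · F̃_{M'}`. -/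
theorem redSeries_mem_fullC_bad (y : intF A (M' * p)) :
    redSeries A (M' * p) y ∈ modularFunctionFieldFullC (kA A) M' := by
  obtain ⟨K₀, hK₀, H⟩ := exists_resField_bad_le p M' A hA hpM h4
  obtain ⟨K, hfin, hle, HK⟩ := UnifDescent14.exists_descent_ge (M' * p) K₀
    ((y : intF A (M' * p)) : Fbar (M' * p))
  have := hfin
  obtain ⟨x, hx⟩ := HK K le_rfl
  obtain ⟨Y₀, hY₀, hY⟩ := exists_embK_of_baseChangeHom A (M' * p) K x (seriesHom A (M' * p) y)
    (by rw [coeffMap_seriesHom, hx])
  rw [redSeries_apply, ← hY, Fermat.Agent.ES.RED.GaussUnit25.coeffMap_residue_incl]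
  apply Fermat.Agent.ES.RED.ResidueUnion1.coeffMap_resMap_mem_fullC
  apply H K hfin hle
  refine ⟨embK (AK A K) Y₀, embK_mem (AK A K) Y₀, ?_, gaussRed_embK (AK A K) Y₀⟩
  rw [hY₀]
  exact x.2

/-- **The reduction map at the bad level** `intF A (M' p) → k · F̃_{M'}`. -/
def redB : ↥(intF A (M' * p)) →+* ↥(modularFunctionFieldFullC (kA A) M') :=
  (redSeries A (M' * p)).codRestrict (modularFunctionFieldFullC (kA A) M')
    (redSeries_mem_fullC_bad p M' A hA hpM h4)

@[simp] theorem coe_redB (y : intF A (M' * p)) :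
    ((redB p M' A hA hpM h4 y : ↥(modularFunctionFieldFullC (kA A) M')) : LaurentSeries (kA A)) =
      coeffMap (IsLocalRing.residue ↥A) (seriesHom A (M' * p) y) := rfl

variable {A} in
theorem coe_redB_eq_of {y : intF A (M' * p)} {Y : LaurentSeries ↥A}
    (h : coeffMap A.subtype Y =
      (((y : intF A (M' * p)) : Fbar (M' * p)) : LaurentSeries Qbar)) :
    ((redB p M' A hA hpM h4 y : ↥(modularFunctionFieldFullC (kA A) M')) : LaurentSeries (kA A)) =
      coeffMap (IsLocalRing.residue ↥A) Y := by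
  rw [coe_redB, seriesHom_eq_of h]

theorem redB_eq_zero_iff (y : intF A (M' * p)) :
    redB p M' A hA hpM h4 y = 0 ↔
      coeffMap (IsLocalRing.residue ↥A) (seriesHom A (M' * p) y) = 0 := by
  rw [← coe_redB p M' A hA hpM h4]
  exact ⟨fun h => by rw [h]; rfl, fun h => Subtype.ext h⟩

theorem redB_algebraMap (a : ↥A) :
    redB p M' A hA hpM h4
        ⟨algebraMap Qbar ↥(Fbar (M' * p)) (a : Qbar), algebraMap_mem_intF A (M' * p) a⟩ =
      algebraMap (kA A) ↥(modularFunctionFieldFullC (kA A) M') (IsLocalRing.residue ↥A a) := by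
  apply Subtype.ext
  rw [coe_redB, seriesHom_algebraMap, Fermat.Agent.RED.PUR.GaussGen8.coeffMap_C]
  exact (algebraMap_eq_C _).symm

end Red

end Fermat.Agent.ORD.IFACEN.GaussBad1
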