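/-
Programme ORD (S33), chapter O6a IFACEN — helper1.  **Integral fractions over `A`, at ANY level `N`.**

`A ≤ ℚbar` a valuation subring over a prime `ℓ` (no hypothesis on `ℓ ∣ N`).  `intF A N` = elements of
`Fbar N = ℚbar · F_N` with `A`-integral `q`-expansion, `redSeries A N : intF A N →+* k((q))` the
coefficientwise reduction.

* `ofSeries` : an `(A ∩ K)`-integral series lying in `K · F_N` as an element of `intF A N`, with
  `redSeries_ofSeries`;
* `exists_fraction_of_mem_gaussRing` : **level comparison (⇐)** — if `x ∈ K · F_N` lies in the Gauss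
  valuation ring of `K((q))` over `A ∩ K`, then `x · b = a` with `a, b ∈ intF A N`, `b` of nonzero
  reduction, and `red a = (red_K x) · red b`;
* `exists_intF_fraction` : **Gauss normalisation** — every nonzero `f ∈ Fbar N` is `c · ya / yb` with
  `c ∈ ℚbarˣ`, `ya, yb ∈ intF A N` of nonzero reduction.
-/
import Mathlib
import Fermat.Agent.ES.RED.ChartIntegralA1

set_option autoImplicit false
set_option linter.unusedSectionVars false
set_option linter.style.longLine false
set_option synthInstance.maxHeartbeats 400000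

open HahnSeries ModularCurve Polynomial

noncomputable section

namespace Fermat.Agent.ORD.IFACEN.IntFrac1

open Fermat.Agent.RED.Interface4 Fermat.Agent.RED.DESC.PlaceExtend27
  Fermat.Agent.RED.DESC Fermat.Agent.RED.NumInst4
  Fermat.Agent.RED.PUR.GaussGen8 Fermat.Agent.RED.PUR.GaussBridge10
  Fermat.Agent.RED.DESC.NumberFieldDVR27
  Fermat.Agent.ES.RED.ChartIntegralA1 Fermat.Agent.ES.RED.GaussUnit25

variable (A : ValuationSubring Qbar) (N : ℕ) [NeZero N]

/-- an `(A ∩ K)`-integral series lying in `K · F_N`, as an element of `intF A N`. -/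
def ofSeries (K : IntermediateField ℚ Qbar) (a : LaurentSeries ↥(AK A K))
    (haE : embK (AK A K) a ∈ FK N K) : intF A N :=
  ⟨baseChangeHom N K ⟨embK (AK A K) a, haE⟩,
    ⟨coeffMap (incl A K) a, by rw [coeffMap_subtype_incl]; rfl⟩⟩

theorem coe_ofSeries (K : IntermediateField ℚ Qbar) (a : LaurentSeries ↥(AK A K))
    (haE : embK (AK A K) a ∈ FK N K) :
    ((ofSeries A N K a haE : intF A N) : Fbar N) = baseChangeHom N K ⟨embK (AK A K) a, haE⟩ := rfl

theorem redSeries_ofSeries (K : IntermediateField ℚ Qbar) (a : LaurentSeries ↥(AK A K))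
    (haE : embK (AK A K) a ∈ FK N K) :
    redSeries A N (ofSeries A N K a haE) = coeffMap (resMap A K) (redL (AK A K) a) := by
  rw [redSeries_eq_of (Y := coeffMap (incl A K) a) (by rw [coeffMap_subtype_incl]; rfl),
    coeffMap_residue_incl]

theorem redSeries_ofSeries_ne_zero (K : IntermediateField ℚ Qbar) (a : LaurentSeries ↥(AK A K))
    (haE : embK (AK A K) a ∈ FK N K) (ha : redL (AK A K) a ≠ 0) :
    redSeries A N (ofSeries A N K a haE) ≠ 0 := by
  rw [redSeries_ofSeries]
  intro h0
  exact ha (CoeffDescent1.coeffMap_injective_of_injective (resMap A K) (resMap_injective A K)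
    (h0.trans (map_zero _).symm))

/-- a non-member of a valuation subring has an inverse which is a non-unit member. -/
theorem not_isUnit_inv {L : Type*} [Field L] (O : ValuationSubring L) {c : L} (hc : c ∉ O)
    (hinv : c⁻¹ ∈ O) : ¬ IsUnit (⟨c⁻¹, hinv⟩ : O) := by
  intro hu
  have hc0 : c ≠ 0 := fun h0 => hc (h0 ▸ O.zero_mem)
  obtain ⟨b, hb⟩ := hu.exists_right_inv
  have hb' : c⁻¹ * (b : L) = 1 := congrArg Subtype.val hb
  have : (b : L) = c := by
    field_simp at hb'
    exact hb'
  exact hc (this ▸ b.2)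

/-- **Level comparison (⇐)**: an element of `K · F_N` in the Gauss valuation ring over `A ∩ K` is a
fraction of `A`-integral elements with denominator of nonzero reduction; the reductions are
compatible. -/
theorem exists_fraction_of_mem_gaussRing (ℓ : ℕ) [Fact ℓ.Prime] (hA : A.LiesOverPrime ℓ)
    (K : IntermediateField ℚ Qbar) [FiniteDimensional ℚ K] (x : FK N K)
    (hx : (x : LaurentSeries K) ∈ gaussRing (AK A K)) :
    ∃ a b : intF A N, redSeries A N b ≠ 0 ∧
      baseChangeHom N K x * (b : Fbar N) = (a : Fbar N) ∧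
      redSeries A N a =
        coeffMap (resMap A K) (gaussRed (AK A K) ⟨_, hx⟩) * redSeries A N b := by
  have : IsDiscreteValuationRing ↥(AK A K) :=
    isDiscreteValuationRing_AK A K (Fact.out : ℓ.Prime).ne_zero hA
  obtain ⟨π, hπ⟩ := IsDiscreteValuationRing.exists_irreducible ↥(AK A K)
  have hu := isUnif_of_irreducible (AK A K) hπ
  by_cases hx0 : x = 0
  · subst hx0
    refine ⟨0, 1, ?_, ?_, ?_⟩
    · rw [map_one]; exact one_ne_zero
    · simp
    · have h0 : (⟨((0 : FK N K) : LaurentSeries K), hx⟩ : gaussRing (AK A K)) = 0 := rfl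
      rw [h0, map_zero, map_zero, map_zero, zero_mul]
  have hxC : (x : LaurentSeries K) ∈ modularFunctionFieldFullC ↥K N := by
    rw [← Fermat.Agent.RED.PUR.DegBaseChange25.laurentBaseChange_full_eq]; exact x.2
  have hx0' : (x : LaurentSeries K) ≠ 0 := fun h => hx0 (Subtype.ext h)
  obtain ⟨c, a, b, hc0, haE, hbE, hared, hbred, hrel⟩ := exists_integral_fraction hu N hxC hx0'
  have hFK : FK N K = modularFunctionFieldFullC ↥K N :=
    Fermat.Agent.RED.PUR.DegBaseChange25.laurentBaseChange_full_eq (L := ↥K) N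
  -- the relation in the Gauss ring
  have hrelG : (⟨(x : LaurentSeries K), hx⟩ : gaussRing (AK A K)) * ⟨_, embK_mem (AK A K) b⟩ =
      ⟨HahnSeries.C c * embK (AK A K) a, hrel ▸ mul_mem hx (embK_mem (AK A K) b)⟩ :=
    Subtype.ext hrel
  -- `c ∈ A ∩ K`
  have hcA : c ∈ AK A K := by
    by_contra hc
    have hinv : c⁻¹ ∈ AK A K := ((AK A K).mem_or_inv_mem c).resolve_left hc
    have hnu := not_isUnit_inv (AK A K) hc hinv
    have hres : res0 (AK A K) ⟨c⁻¹, hinv⟩ = 0 := by
      rw [res0, IsLocalRing.residue_eq_zero_iff]; exact hnu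
    have h1 : (⟨embK (AK A K) a, embK_mem (AK A K) a⟩ : gaussRing (AK A K)) =
        constG (AK A K) ⟨c⁻¹, hinv⟩ *
          (⟨(x : LaurentSeries K), hx⟩ * ⟨_, embK_mem (AK A K) b⟩) := by
      apply Subtype.ext
      show embK (AK A K) a = HahnSeries.C c⁻¹ * ((x : LaurentSeries K) * embK (AK A K) b)
      rw [hrel, ← mul_assoc, ← map_mul, inv_mul_cancel₀ hc0, map_one, one_mul]
    have h2 := congrArg (gaussRed (AK A K)) h1
    rw [gaussRed_embK, map_mul, gaussRed_constG, hres, map_zero, zero_mul] at h2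
    exact hared h2
  -- the numerator `c · a` as an integral series
  have hcaE : embK (AK A K) (HahnSeries.C (⟨c, hcA⟩ : AK A K) * a) ∈ FK N K := by
    rw [map_mul, embK_C, ← hrel]
    exact mul_mem x.2 (hFK ▸ hbE)
  have hbE' : embK (AK A K) b ∈ FK N K := hFK ▸ hbE
  refine ⟨ofSeries A N K _ hcaE, ofSeries A N K b hbE',
    redSeries_ofSeries_ne_zero A N K b hbE' hbred, ?_, ?_⟩
  · rw [coe_ofSeries, coe_ofSeries, ← map_mul]
    congr 1
    apply Subtype.ext
    show (x : LaurentSeries K) * embK (AK A K) b = embK (AK A K) (HahnSeries.C ⟨c, hcA⟩ * a)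
    rw [map_mul, embK_C, hrel]
  · rw [redSeries_ofSeries, redSeries_ofSeries, ← map_mul]
    congr 1
    have h3 := congrArg (gaussRed (AK A K)) hrelG
    rw [map_mul, gaussRed_embK] at h3
    rw [h3, map_mul, redL_C]
    have h4 : (⟨HahnSeries.C c * embK (AK A K) a, hrel ▸ mul_mem hx (embK_mem (AK A K) b)⟩ :
        gaussRing (AK A K)) = constG (AK A K) ⟨c, hcA⟩ * ⟨_, embK_mem (AK A K) a⟩ := rfl
    rw [h4, map_mul, gaussRed_constG, gaussRed_embK]

/-- **Gauss normalisation at any level**: every nonzero `f ∈ Fbar N` is `c · ya / yb` with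
`ya, yb` `A`-integral of nonzero reduction. -/
theorem exists_intF_fraction (ℓ : ℕ) [Fact ℓ.Prime] (hA : A.LiesOverPrime ℓ)
    (f : Fbar N) (hf0 : f ≠ 0) :
    ∃ (c : Qbar) (ya yb : intF A N), c ≠ 0 ∧ redSeries A N ya ≠ 0 ∧ redSeries A N yb ≠ 0 ∧
      f * (yb : Fbar N) = algebraMap Qbar (Fbar N) c * (ya : Fbar N) := by
  have := isAlgebraic_Qbar
  obtain ⟨K, -, hfin, x', hx', hx'f⟩ :=
    CoeffDescent1.exists_finite_descent (L := Qbar) (F₀ := modularFunctionFieldFull N) ⊥ f.2
  have := hfin
  have : IsDiscreteValuationRing ↥(AK A K) :=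
    isDiscreteValuationRing_AK A K (Fact.out : ℓ.Prime).ne_zero hA
  obtain ⟨π, hπ⟩ := IsDiscreteValuationRing.exists_irreducible ↥(AK A K)
  have hu := isUnif_of_irreducible (AK A K) hπ
  have hFK : FK N K = modularFunctionFieldFullC ↥K N :=
    Fermat.Agent.RED.PUR.DegBaseChange25.laurentBaseChange_full_eq (L := ↥K) N
  have hx'C : x' ∈ modularFunctionFieldFullC ↥K N := hFK ▸ hx'
  have hx'0 : x' ≠ 0 := by
    rintro rfl
    rw [map_zero] at hx'f
    exact hf0 (Subtype.ext hx'f.symm)
  obtain ⟨c, a, b, hc0, haE, hbE, hared, hbred, hrel⟩ := exists_integral_fraction hu N hx'C hx'0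
  have haE' : embK (AK A K) a ∈ FK N K := hFK ▸ haE
  have hbE' : embK (AK A K) b ∈ FK N K := hFK ▸ hbE
  refine ⟨algebraMap K Qbar c, ofSeries A N K a haE', ofSeries A N K b hbE', ?_,
    redSeries_ofSeries_ne_zero A N K a haE' hared, redSeries_ofSeries_ne_zero A N K b hbE' hbred, ?_⟩
  · rw [Ne, map_eq_zero]; exact hc0
  · apply Subtype.ext
    show (f : LaurentSeries Qbar) * coeffMap (algebraMap K Qbar) (embK (AK A K) b) =
      algebraMap Qbar (LaurentSeries Qbar) (algebraMap K Qbar c) *
        coeffMap (algebraMap K Qbar) (embK (AK A K) a)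
    rw [← hx'f, ← map_mul, hrel, map_mul, Fermat.Agent.RED.PUR.GaussGen8.coeffMap_C,
      algebraMap_eq_C (K := Qbar)]

end Fermat.Agent.ORD.IFACEN.IntFrac1
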