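/-
Programme ORD (S33), chapter O6a IFACEN — helper1.  **The component through `∞` of the special fibre
of `X₀(M' p)` at `p`: Gauss valuation ring `G1`, reduction `red1 : G1 →+* k · F̃_{M'}`.**

`A ≤ ℚbar` over the odd prime `p`, `p ∤ M'`, `4 ∣ M'`.  `F = Fbar (M' * p) = X0.FF (M' * p)`,
`Ft = ↥(modularFunctionFieldFullC (kA A) M')` (GOOD level).

* `base A : Side3.Base ℚbar (kA A)`;
* `G1 = GaussVal1.fracRing (redB …)` (fractions `a / b` of `A`-integral `q`-expansions, `b` of nonzero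
  reduction), `red1 = GaussVal1.fracRed (redB …)`;
* `const_mem`, `red1_const`, `norm` ⇒ `side1 : Side3.Side (base A) F Ft`;
* `red1_surjective`;
* **level comparison**: for `x ∈ K · F_{M' p}` (any number field `K ⊂ ℚbar`):
  `baseChange_mem_G1_iff : baseChangeHom x ∈ G1 ↔ (x : K((q))) ∈ gaussRing (A ∩ K)` (i.e. `x ∈ O1_K`),
  `coe_red1_baseChange : red1 (baseChangeHom x) = coeffMap (resMap A K) (gaussRed (A ∩ K) x)`,
  `red1_baseChange_eq_zero_iff : red1 (baseChangeHom x) = 0 ↔ gaussRed (A ∩ K) x = 0`.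
-/
import Mathlib
import Fermat.Agent.ORD.IFACEN.GaussBad1
import Fermat.Agent.ORD.IFACEN.IntFrac1
import Fermat.Agent.FF.IFACE.GaussVal1
import Fermat.Agent.ORD.ANN.Side3

set_option autoImplicit false
set_option linter.unusedSectionVars false
set_option linter.style.longLine false
set_option synthInstance.maxHeartbeats 400000

open HahnSeries ModularCurve Polynomial

noncomputable section

namespace Fermat.Agent.ORD.IFACEN.SideOne1

open Fermat.Agent.RED.Interface4 Fermat.Agent.RED.DESC.PlaceExtend27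
  Fermat.Agent.RED.DESC Fermat.Agent.RED.NumInst4
  Fermat.Agent.RED.PUR.GaussGen8 Fermat.Agent.RED.PUR.GaussBridge10
  Fermat.Agent.RED.DESC.NumberFieldDVR27
  Fermat.Agent.ES.RED.ChartIntegralA1 Fermat.Agent.ES.RED.GaussUnit25
  Fermat.Agent.FF.IFACE.GaussVal1 Fermat.Agent.ORD.ANN.Side3
  Fermat.Agent.ORD.IFACEN.GaussBad1 Fermat.Agent.ORD.IFACEN.IntFrac1

/-- fast instance (the canonical search costs seconds). -/
local instance (priority := 100000) algKF (A : ValuationSubring Qbar) (M : ℕ) [NeZero M] :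
    Algebra (kA A) ↥(modularFunctionFieldFullC (kA A) M) := inferInstance

/-- the base: `A` with its residue map. -/
def base (A : ValuationSubring Qbar) : Base Qbar (kA A) where
  A := A
  res := IsLocalRing.residue ↥A
  res_surj := IsLocalRing.residue_surjective
  res_eq_zero_iff a := by rw [IsLocalRing.residue_eq_zero_iff]; rfl

@[simp] theorem base_A (A : ValuationSubring Qbar) : (base A).A = A := rfl

@[simp] theorem base_res (A : ValuationSubring Qbar) (a : ↥A) :
    (base A).res a = IsLocalRing.residue ↥A a := rfl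

variable (p M' : ℕ) [Fact p.Prime] [NeZero M'] (A : ValuationSubring Qbar)
  (hA : A.LiesOverPrime p) (hpM : ¬ p ∣ M') (h4 : 4 ∣ M')

/-- the Gauss valuation ring of the expansion at `∞`. -/
def G1 : Subring ↥(Fbar (M' * p)) := fracRing (redB p M' A hA hpM h4)

/-- its reduction into the function field of the good level. -/
def red1 : ↥(G1 p M' A hA hpM h4) →+* ↥(modularFunctionFieldFullC (kA A) M') :=
  fracRed (redB p M' A hA hpM h4)

theorem mem_G1_iff (y : ↥(Fbar (M' * p))) :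
    y ∈ G1 p M' A hA hpM h4 ↔ ∃ a b : intF A (M' * p), redB p M' A hA hpM h4 b ≠ 0 ∧
      y * (b : ↥(Fbar (M' * p))) = (a : ↥(Fbar (M' * p))) := Iff.rfl

theorem redB_ne_zero_iff (b : intF A (M' * p)) :
    redB p M' A hA hpM h4 b ≠ 0 ↔ redSeries A (M' * p) b ≠ 0 := by
  rw [Ne, Ne, redB_eq_zero_iff]
  rfl

theorem intF_le_G1 : intF A (M' * p) ≤ G1 p M' A hA hpM h4 := le_fracRing _

theorem red1_of_mem (g : intF A (M' * p)) :
    red1 p M' A hA hpM h4 ⟨(g : ↥(Fbar (M' * p))), intF_le_G1 p M' A hA hpM h4 g.2⟩ =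
      redB p M' A hA hpM h4 g :=
  fracRed_of_mem _ g

theorem red1_eq (y : ↥(G1 p M' A hA hpM h4)) {a b : intF A (M' * p)}
    (hb : redB p M' A hA hpM h4 b ≠ 0)
    (h : (y : ↥(Fbar (M' * p))) * (b : ↥(Fbar (M' * p))) = (a : ↥(Fbar (M' * p)))) :
    red1 p M' A hA hpM h4 y = redB p M' A hA hpM h4 a / redB p M' A hA hpM h4 b :=
  fracRed_eq _ y hb h

theorem red1_mul_red (y : ↥(G1 p M' A hA hpM h4)) {a b : intF A (M' * p)}
    (hb : redB p M' A hA hpM h4 b ≠ 0)
    (h : (y : ↥(Fbar (M' * p))) * (b : ↥(Fbar (M' * p))) = (a : ↥(Fbar (M' * p)))) :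
    red1 p M' A hA hpM h4 y * redB p M' A hA hpM h4 b = redB p M' A hA hpM h4 a :=
  fracRed_mul_red _ y hb h

theorem const_mem (a : ↥A) :
    algebraMap Qbar ↥(Fbar (M' * p)) (a : Qbar) ∈ G1 p M' A hA hpM h4 :=
  intF_le_G1 p M' A hA hpM h4 (algebraMap_mem_intF A (M' * p) a)

theorem red1_const (a : ↥A) :
    red1 p M' A hA hpM h4 ⟨algebraMap Qbar ↥(Fbar (M' * p)) (a : Qbar), const_mem p M' A hA hpM h4 a⟩ =
      algebraMap (kA A) ↥(modularFunctionFieldFullC (kA A) M') (IsLocalRing.residue ↥A a) := by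
  have h := red1_of_mem p M' A hA hpM h4
    ⟨algebraMap Qbar ↥(Fbar (M' * p)) (a : Qbar), algebraMap_mem_intF A (M' * p) a⟩
  rw [redB_algebraMap] at h
  exact h

/-- **Gauss normalisation** on the component through `∞`. -/
theorem norm (y : ↥(Fbar (M' * p))) (hy : y ≠ 0) :
    ∃ c : Qbar, c ≠ 0 ∧ ∃ g : ↥(G1 p M' A hA hpM h4),
      (g : ↥(Fbar (M' * p))) = algebraMap Qbar ↥(Fbar (M' * p)) c * y ∧
        red1 p M' A hA hpM h4 g ≠ 0 := by
  obtain ⟨c, ya, yb, hc0, hya, hyb, h⟩ := exists_intF_fraction A (M' * p) p hA y hy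
  have hyb' : redB p M' A hA hpM h4 yb ≠ 0 := (redB_ne_zero_iff p M' A hA hpM h4 yb).mpr hyb
  have hya' : redB p M' A hA hpM h4 ya ≠ 0 := (redB_ne_zero_iff p M' A hA hpM h4 ya).mpr hya
  have hc0' : algebraMap Qbar ↥(Fbar (M' * p)) c ≠ 0 := by
    rw [Ne, map_eq_zero]; exact hc0
  have hrel : (algebraMap Qbar ↥(Fbar (M' * p)) c⁻¹ * y) * (yb : ↥(Fbar (M' * p))) =
      (ya : ↥(Fbar (M' * p))) := by
    rw [mul_assoc, h, ← mul_assoc, ← map_mul, inv_mul_cancel₀ hc0, map_one, one_mul]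
  have hmem : algebraMap Qbar ↥(Fbar (M' * p)) c⁻¹ * y ∈ G1 p M' A hA hpM h4 :=
    ⟨ya, yb, hyb', hrel⟩
  have hred := red1_eq p M' A hA hpM h4 ⟨_, hmem⟩ hyb' hrel
  refine ⟨c⁻¹, inv_ne_zero hc0, ⟨_, hmem⟩, rfl, ?_⟩
  rw [hred]
  exact div_ne_zero hya' hyb'

/-- **the component through `∞`** as a `Side`. -/
def side1 : Side (base A) ↥(Fbar (M' * p)) ↥(modularFunctionFieldFullC (kA A) M') where
  G := G1 p M' A hA hpM h4
  red := red1 p M' A hA hpM h4
  const_mem := const_mem p M' A hA hpM h4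
  red_const := red1_const p M' A hA hpM h4
  norm := norm p M' A hA hpM h4

@[simp] theorem side1_G : (side1 p M' A hA hpM h4).G = G1 p M' A hA hpM h4 := rfl

@[simp] theorem side1_red : (side1 p M' A hA hpM h4).red = red1 p M' A hA hpM h4 := rfl

/-! ### the reduction is onto `k · F̃_{M'}` -/

/-- `x` is the reduction of an element of `G1`. -/
def IsRed (x : LaurentSeries (kA A)) : Prop :=
  ∃ y : ↥(G1 p M' A hA hpM h4),
    ((red1 p M' A hA hpM h4 y : ↥(modularFunctionFieldFullC (kA A) M')) : LaurentSeries (kA A)) = x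

/-- the `A`-integral `q`-expansion of `j(q^d)`, `d ∣ M'`, at the bad level. -/
theorem isRed_jd {d : ℕ} [NeZero d] (hd : d ∣ M') :
    IsRed p M' A hA hpM h4 (qExpand (kA A) d (jqModC (kA A))) := by
  have h1 : coeffMap A.subtype (qExpand ↥A d (jqModC ↥A)) = qExpand Qbar d (jqModC Qbar) := by
    rw [Fermat.Agent.ES.RED.ResidueUnion1.coeffMap_qExpand', coeffMap_jqModC]
  have h2 : coeffMap (IsLocalRing.residue ↥A) (qExpand ↥A d (jqModC ↥A)) =
      qExpand (kA A) d (jqModC (kA A)) := by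
    rw [Fermat.Agent.ES.RED.ResidueUnion1.coeffMap_qExpand', coeffMap_jqModC]
  have hmem : qExpand Qbar d (jqModC Qbar) ∈ Fbar (M' * p) := by
    show _ ∈ laurentBaseChange Qbar (modularFunctionFieldFull (M' * p))
    rw [Fermat.Agent.RED.PUR.DegBaseChange25.laurentBaseChange_full_eq]
    exact jqModCd_mem_full Qbar (M' * p) (Dvd.dvd.mul_right hd p)
  have hint : (⟨_, hmem⟩ : ↥(Fbar (M' * p))) ∈ intF A (M' * p) := ⟨_, h1⟩
  refine ⟨⟨_, intF_le_G1 p M' A hA hpM h4 hint⟩, ?_⟩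
  rw [red1_of_mem p M' A hA hpM h4 ⟨_, hint⟩, coe_redB_eq_of p M' hA hpM h4 h1, h2]

theorem isRed_algebraMap (c : kA A) :
    IsRed p M' A hA hpM h4 (algebraMap (kA A) (LaurentSeries (kA A)) c) := by
  obtain ⟨a, rfl⟩ := IsLocalRing.residue_surjective c
  refine ⟨⟨_, const_mem p M' A hA hpM h4 a⟩, ?_⟩
  rw [red1_const]
  rfl

theorem IsRed.add {x y : LaurentSeries (kA A)} (hx : IsRed p M' A hA hpM h4 x)
    (hy : IsRed p M' A hA hpM h4 y) : IsRed p M' A hA hpM h4 (x + y) := by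
  obtain ⟨a, rfl⟩ := hx
  obtain ⟨b, rfl⟩ := hy
  exact ⟨a + b, by rw [map_add]; rfl⟩

theorem IsRed.mul {x y : LaurentSeries (kA A)} (hx : IsRed p M' A hA hpM h4 x)
    (hy : IsRed p M' A hA hpM h4 y) : IsRed p M' A hA hpM h4 (x * y) := by
  obtain ⟨a, rfl⟩ := hx
  obtain ⟨b, rfl⟩ := hy
  exact ⟨a * b, by rw [map_mul]; rfl⟩

theorem IsRed.inv {x : LaurentSeries (kA A)} (hx : IsRed p M' A hA hpM h4 x) :
    IsRed p M' A hA hpM h4 x⁻¹ := by
  obtain ⟨a, rfl⟩ := hx
  by_cases h0 : red1 p M' A hA hpM h4 a = 0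
  · refine ⟨0, ?_⟩
    rw [h0, map_zero]
    show (0 : LaurentSeries (kA A)) = (0 : LaurentSeries (kA A))⁻¹
    rw [inv_zero]
  · refine ⟨⟨_, inv_mem_of_fracRed_ne_zero (redB p M' A hA hpM h4) h0⟩, ?_⟩
    have := fracRed_inv (redB p M' A hA hpM h4) h0
    show ((fracRed (redB p M' A hA hpM h4) ⟨_, _⟩ :
      ↥(modularFunctionFieldFullC (kA A) M')) : LaurentSeries (kA A)) = _
    rw [this]
    rfl

/-- **the reduction `G1 → k · F̃_{M'}` is surjective.** -/
theorem red1_surjective : Function.Surjective (red1 p M' A hA hpM h4) := by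
  have key : ∀ x : LaurentSeries (kA A), x ∈ modularFunctionFieldFullC (kA A) M' →
      IsRed p M' A hA hpM h4 x := by
    intro x hz'
    unfold modularFunctionFieldFullC at hz'
    induction hz' using IntermediateField.adjoin_induction with
    | mem x hx =>
      obtain ⟨d, hne, hd, rfl⟩ := hx
      have := hne
      exact isRed_jd p M' A hA hpM h4 hd
    | algebraMap c => exact isRed_algebraMap p M' A hA hpM h4 c
    | add x y _ _ hx hy => exact IsRed.add p M' A hA hpM h4 hx hy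
    | inv x _ hx => exact IsRed.inv p M' A hA hpM h4 hx
    | mul x y _ _ hx hy => exact IsRed.mul p M' A hA hpM h4 hx hy
  intro z
  obtain ⟨y, hy⟩ := key _ z.2
  exact ⟨y, Subtype.ext hy⟩

/-! ### comparison with the finite levels -/

section Level

variable (K : IntermediateField ℚ Qbar) [FiniteDimensional ℚ K]

/-- **(⇐)**: the Gauss valuation ring `O1_K` of `K · F_{M' p}` maps into `G1`. -/
theorem baseChange_mem_G1 (x : FK (M' * p) K)
    (hx : (x : LaurentSeries K) ∈ gaussRing (AK A K)) :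
    baseChangeHom (M' * p) K x ∈ G1 p M' A hA hpM h4 := by
  obtain ⟨a, b, hb, h, -⟩ := exists_fraction_of_mem_gaussRing A (M' * p) p hA K x hx
  exact ⟨a, b, (redB_ne_zero_iff p M' A hA hpM h4 b).mpr hb, h⟩

/-- the reductions are compatible. -/
theorem coe_red1_baseChange (x : FK (M' * p) K)
    (hx : (x : LaurentSeries K) ∈ gaussRing (AK A K)) :
    ((red1 p M' A hA hpM h4 ⟨baseChangeHom (M' * p) K x, baseChange_mem_G1 p M' A hA hpM h4 K x hx⟩ :
      ↥(modularFunctionFieldFullC (kA A) M')) : LaurentSeries (kA A)) =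
      coeffMap (resMap A K) (gaussRed (AK A K) ⟨_, hx⟩) := by
  obtain ⟨a, b, hb, h, hr⟩ := exists_fraction_of_mem_gaussRing A (M' * p) p hA K x hx
  have hb' := (redB_ne_zero_iff p M' A hA hpM h4 b).mpr hb
  have e := red1_mul_red p M' A hA hpM h4
    ⟨baseChangeHom (M' * p) K x, baseChange_mem_G1 p M' A hA hpM h4 K x hx⟩ hb' h
  have e' : ((red1 p M' A hA hpM h4
      ⟨baseChangeHom (M' * p) K x, baseChange_mem_G1 p M' A hA hpM h4 K x hx⟩ :
        ↥(modularFunctionFieldFullC (kA A) M')) : LaurentSeries (kA A)) * redSeries A (M' * p) b =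
      redSeries A (M' * p) a := congrArg Subtype.val e
  exact mul_right_cancel₀ hb (e'.trans hr)

theorem red1_baseChange_eq_zero_iff (x : FK (M' * p) K)
    (hx : (x : LaurentSeries K) ∈ gaussRing (AK A K)) :
    red1 p M' A hA hpM h4 ⟨baseChangeHom (M' * p) K x, baseChange_mem_G1 p M' A hA hpM h4 K x hx⟩ = 0 ↔
      gaussRed (AK A K) ⟨_, hx⟩ = 0 := by
  constructor
  · intro h0
    have h1 := coe_red1_baseChange p M' A hA hpM h4 K x hx
    rw [h0] at h1
    exact CoeffDescent1.coeffMap_injective_of_injective (resMap A K) (resMap_injective A K)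
      (h1.symm.trans (map_zero _).symm)
  · intro h0
    apply Subtype.ext
    rw [coe_red1_baseChange p M' A hA hpM h4 K x hx, h0, map_zero]
    rfl

/-- **(⇒)**: `G1 ∩ (K · F_{M' p}) = O1_K`. -/
theorem mem_gaussRing_of_baseChange_mem_G1 (x : FK (M' * p) K)
    (hX : baseChangeHom (M' * p) K x ∈ G1 p M' A hA hpM h4) :
    (x : LaurentSeries K) ∈ gaussRing (AK A K) := by
  have : IsDiscreteValuationRing ↥(AK A K) :=
    isDiscreteValuationRing_AK A K (Fact.out : p.Prime).ne_zero hA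
  obtain ⟨π, hπ⟩ := IsDiscreteValuationRing.exists_irreducible ↥(AK A K)
  have hu := isUnif_of_irreducible (AK A K) hπ
  by_contra hx
  have hx0 : x ≠ 0 := by
    rintro rfl
    exact hx (zero_mem _)
  have hinv : ((x⁻¹ : FK (M' * p) K) : LaurentSeries K) ∈ gaussRing (AK A K) := by
    have h1 := mem_or_inv_mem hu (FK_le_fracField A K (M' * p) x.2)
    exact h1.resolve_left hx
  have hred : gaussRed (AK A K) ⟨_, hinv⟩ = 0 := by
    by_contra hne
    apply hx
    have := inv_mem_of_gaussRed_ne_zero (AK A K) ⟨_, hinv⟩ hne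
    simpa using this
  have h0 := (red1_baseChange_eq_zero_iff p M' A hA hpM h4 K x⁻¹ hinv).mpr hred
  have hmul : (⟨baseChangeHom (M' * p) K x, hX⟩ : ↥(G1 p M' A hA hpM h4)) *
      ⟨baseChangeHom (M' * p) K x⁻¹, baseChange_mem_G1 p M' A hA hpM h4 K x⁻¹ hinv⟩ = 1 := by
    apply Subtype.ext
    show baseChangeHom (M' * p) K x * baseChangeHom (M' * p) K x⁻¹ = 1
    rw [← map_mul, mul_inv_cancel₀ hx0, map_one]
  have h1 := congrArg (red1 p M' A hA hpM h4) hmul
  rw [map_mul, h0, mul_zero, map_one] at h1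
  exact zero_ne_one h1

theorem baseChange_mem_G1_iff (x : FK (M' * p) K) :
    baseChangeHom (M' * p) K x ∈ G1 p M' A hA hpM h4 ↔
      (x : LaurentSeries K) ∈ gaussRing (AK A K) :=
  ⟨mem_gaussRing_of_baseChange_mem_G1 p M' A hA hpM h4 K x,
    baseChange_mem_G1 p M' A hA hpM h4 K x⟩

end Level

end Fermat.Agent.ORD.IFACEN.SideOne1
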