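/-
Programme ORD (S33), chapter O6a IFACEN — helper1.  **The two charts of the model of `X₀(M' p)` over
`A` and the component through `∞`.**

`tB = tF (M' * p) …` the Hauptmodul `tq · 4 8` in `F = Fbar (M' * p)`; `chart0 = chart A tB`,
`chart1 = chart A tB⁻¹` (integral closures of `A[t]`, `A[t⁻¹]` in `F`) as `Subalgebra ↥A F`.

* `alphaB : Fbar M' →ₐ[ℚbar] Fbar (M' * p)` (inclusion of `q`-expansions) maps `intF` to `intF`,
  `chart A t_{M'}` into `chart0`, and `red1 ∘ alphaB = redF` (good-level reduction);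
* `chart0_le_G1`, `chart1_le_G1` (`BA ⊆ G`, field `le_G` of `LocAt8.OnComp`);
* **`L4_chart0`, `L4_chart1`** : `Ft = Frac (red1 BA)` in the literal shape of `LevelAt8.Levels.L4`;
* `red1_tB_sub_const_ne_zero`, `red1_tBinv_sub_const_ne_zero` (for the field `nonunit`).
-/
import Mathlib
import Fermat.Agent.ORD.IFACEN.SideOne1
import Fermat.Agent.ES.RED.FracRed16
import Fermat.Agent.ES.RED.TqIntF5
import Fermat.Agent.RED.BASE.MainCusp12

set_option autoImplicit false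
set_option linter.unusedSectionVars false
set_option linter.style.longLine false
set_option synthInstance.maxHeartbeats 400000

open HahnSeries ModularCurve Polynomial

noncomputable section

namespace Fermat.Agent.ORD.IFACEN.ChartOne1

open Fermat.Agent.RED.Interface4 Fermat.Agent.RED.DESC.PlaceExtend27
  Fermat.Agent.RED.DESC Fermat.Agent.RED.NumInst4
  Fermat.Agent.RED.PUR.GaussGen8 Fermat.Agent.RED.PUR.GaussBridge10
  Fermat.Agent.RED.PUR.ChartGeneric22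
  Fermat.Agent.RED.DESC.NumberFieldDVR27
  Fermat.Agent.RED.BASE.EtaQuot12 Fermat.Agent.RED.BASE.Interface12
  Fermat.Agent.ES.RED.ChartIntegralA1 Fermat.Agent.ES.RED.GaussUnit25 Fermat.Agent.ES.RED.TqIntF5
  Fermat.Agent.FF.IFACE.GaussVal1 Fermat.Agent.ORD.ANN.Side3
  Fermat.Agent.ORD.IFACEN.GaussBad1 Fermat.Agent.ORD.IFACEN.IntFrac1
  Fermat.Agent.ORD.IFACEN.SideOne1

/-- fast instance (the canonical search costs seconds). -/
local instance (priority := 100000) algKF (A : ValuationSubring Qbar) (M : ℕ) [NeZero M] :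
    Algebra (kA A) ↥(modularFunctionFieldFullC (kA A) M) := inferInstance

/-! ### generalities on charts -/

/-- an algebra homomorphism maps the chart of `t` into the chart of its image. -/
theorem map_mem_chart {R F F' : Type*} [CommRing R] [Field F] [Field F'] [Algebra R F]
    [Algebra R F'] (φ : F →ₐ[R] F') {t x : F} (hx : x ∈ chart R t) : φ x ∈ chart R (φ t) := by
  rw [mem_chart_iff, isIntegral_subalgebra_iff] at hx ⊢
  obtain ⟨P, hP, hcoeff, hx⟩ := hx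
  refine ⟨P.map (φ : F →+* F'), hP.map _, fun i => ?_, ?_⟩
  · rw [coeff_map]
    have h1 : (φ : F →+* F') (P.coeff i) ∈ (Algebra.adjoin R {t}).map φ := ⟨_, hcoeff i, rfl⟩
    rw [AlgHom.map_adjoin, Set.image_singleton] at h1
    exact h1
  · rw [eval_map]
    have := Polynomial.eval₂_at_apply (φ : F →+* F') (p := P) x
    rw [hx, map_zero] at this
    exact this

variable (p M' : ℕ) [Fact p.Prime] [NeZero M'] (A : ValuationSubring Qbar)
  (hA : A.LiesOverPrime p) (hpM : ¬ p ∣ M') (h4 : 4 ∣ M')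

/-! ### the Hauptmodul at the two levels -/

theorem tMem_good (h4 : 4 ∣ M') : TMem 4 8 M' :=
  (Fermat.Agent.RED.BASE.MainCusp12.base_four M' h4).1.mem

theorem tMem_bad (h4 : 4 ∣ M') : TMem 4 8 (M' * p) :=
  (Fermat.Agent.RED.BASE.MainCusp12.base_four (M' * p) (Dvd.dvd.mul_right h4 p)).1.mem

/-- the Hauptmodul of `X₀(4)` in `Fbar (M' * p)`. -/
def tB : ↥(Fbar (M' * p)) := tF (M' * p) (tMem_bad p M' h4)

/-- the chart `t ≠ ∞`. -/
def chart0 : Subalgebra ↥A ↥(Fbar (M' * p)) := chart ↥A (tB p M' h4)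

/-- the chart `t ≠ 0`. -/
def chart1 : Subalgebra ↥A ↥(Fbar (M' * p)) := chart ↥A (tB p M' h4)⁻¹

theorem tB_mem_intF : tB p M' h4 ∈ intF A (M' * p) := tF_mem_intF A (M' * p) _

theorem tBinv_mem_intF : (tB p M' h4)⁻¹ ∈ intF A (M' * p) := tF_inv_mem_intF A (M' * p) _

include hA in
theorem chart0_le_intF {y : ↥(Fbar (M' * p))} (hy : y ∈ chart0 p M' A h4) : y ∈ intF A (M' * p) :=
  chart_le_intF A (M' * p) p hA (tB_mem_intF p M' A h4) hy

include hA in
theorem chart1_le_intF {y : ↥(Fbar (M' * p))} (hy : y ∈ chart1 p M' A h4) : y ∈ intF A (M' * p) :=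
  chart_le_intF A (M' * p) p hA (tBinv_mem_intF p M' A h4) hy

theorem chart0_le_G1 {y : ↥(Fbar (M' * p))} (hy : y ∈ chart0 p M' A h4) :
    y ∈ G1 p M' A hA hpM h4 :=
  intF_le_G1 p M' A hA hpM h4 (chart0_le_intF p M' A hA h4 hy)

theorem chart1_le_G1 {y : ↥(Fbar (M' * p))} (hy : y ∈ chart1 p M' A h4) :
    y ∈ G1 p M' A hA hpM h4 :=
  intF_le_G1 p M' A hA hpM h4 (chart1_le_intF p M' A hA h4 hy)

/-! ### the good level inside the bad level -/

/-- the inclusion `Fbar M' → Fbar (M' * p)` (same `q`-expansion). -/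
def alphaB : ↥(Fbar M') →ₐ[Qbar] ↥(Fbar (M' * p)) := heckeAlphaBar Qbar M' p

@[simp] theorem coe_alphaB (x : ↥(Fbar M')) :
    ((alphaB p M' x : ↥(Fbar (M' * p))) : LaurentSeries Qbar) = (x : LaurentSeries Qbar) :=
  coe_heckeAlphaBar M' p x

/-- … as an `A`-algebra homomorphism. -/
def alphaA : ↥(Fbar M') →ₐ[↥A] ↥(Fbar (M' * p)) := (alphaB p M').restrictScalars ↥A

@[simp] theorem coe_alphaA (x : ↥(Fbar M')) :
    ((alphaA p M' A x : ↥(Fbar (M' * p))) : LaurentSeries Qbar) = (x : LaurentSeries Qbar) :=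
  coe_alphaB p M' x

theorem coe_tB : ((tB p M' h4 : ↥(Fbar (M' * p))) : LaurentSeries Qbar) = tq Qbar 4 8 :=
  coe_tF (M' * p) (tMem_bad p M' h4)

theorem alphaA_tF : alphaA p M' A (tF M' (tMem_good M' h4)) = tB p M' h4 :=
  Subtype.ext ((coe_alphaA p M' A _).trans
    ((coe_tF M' (tMem_good M' h4)).trans (coe_tB p M' h4).symm))

theorem alphaA_tF_inv : alphaA p M' A (tF M' (tMem_good M' h4))⁻¹ = (tB p M' h4)⁻¹ := by
  rw [map_inv₀, alphaA_tF]

theorem alphaA_mem_chart0 {y : ↥(Fbar M')} (hy : y ∈ chart ↥A (tF M' (tMem_good M' h4))) :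
    alphaA p M' A y ∈ chart0 p M' A h4 := by
  have := map_mem_chart (alphaA p M' A) hy
  rwa [alphaA_tF] at this

theorem alphaA_mem_chart1 {y : ↥(Fbar M')} (hy : y ∈ chart ↥A (tF M' (tMem_good M' h4))⁻¹) :
    alphaA p M' A y ∈ chart1 p M' A h4 := by
  have := map_mem_chart (alphaA p M' A) hy
  rwa [alphaA_tF_inv] at this

/-- an `A`-integral series in `Fbar M'`, seen in `G1`, reduces coefficientwise. -/
theorem coe_red1_of_series (Y : LaurentSeries ↥A) (hY : coeffMap A.subtype Y ∈ Fbar M')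
    (hmem : alphaA p M' A ⟨_, hY⟩ ∈ G1 p M' A hA hpM h4) :
    ((red1 p M' A hA hpM h4 ⟨alphaA p M' A ⟨_, hY⟩, hmem⟩ :
      ↥(modularFunctionFieldFullC (kA A) M')) : LaurentSeries (kA A)) =
      coeffMap (IsLocalRing.residue ↥A) Y := by
  have hint : alphaA p M' A ⟨_, hY⟩ ∈ intF A (M' * p) :=
    (mem_intF_iff A (M' * p)).mpr ⟨Y, (coe_alphaA p M' A ⟨_, hY⟩).symm⟩
  have h1 := red1_of_mem p M' A hA hpM h4 ⟨_, hint⟩
  have h2 : (⟨alphaA p M' A ⟨_, hY⟩, hmem⟩ : ↥(G1 p M' A hA hpM h4)) =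
      ⟨((⟨_, hint⟩ : intF A (M' * p)) : ↥(Fbar (M' * p))), intF_le_G1 p M' A hA hpM h4 hint⟩ := rfl
  rw [h2, h1]
  exact coe_redB_eq_of p M' hA hpM h4 (coe_alphaA p M' A ⟨_, hY⟩).symm

/-! ### (L4) for the two charts on the component through `∞` -/

/-- **(L4), chart `t`**: `Ft = Frac (red1 chart0)`. -/
theorem L4_chart0 (y : ↥(modularFunctionFieldFullC (kA A) M')) :
    ∃ a b : ↥(chart0 p M' A h4),
      red1 p M' A hA hpM h4 ⟨(b : ↥(Fbar (M' * p))), chart0_le_G1 p M' A hA hpM h4 b.2⟩ ≠ 0 ∧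
      y * red1 p M' A hA hpM h4 ⟨(b : ↥(Fbar (M' * p))), chart0_le_G1 p M' A hA hpM h4 b.2⟩ =
        red1 p M' A hA hpM h4 ⟨(a : ↥(Fbar (M' * p))), chart0_le_G1 p M' A hA hpM h4 a.2⟩ := by
  have hB := (Fermat.Agent.RED.BASE.MainCusp12.base_four M' h4).1
  obtain ⟨Ya, Yb, ha, hb, hac, hbc, hb0, hab⟩ :=
    Fermat.Agent.ES.RED.FracRed16.exists_frac_red A 4 8 p hpM (tMem_good M' h4) hB.genBase hA y.2
  refine ⟨⟨_, alphaA_mem_chart0 p M' A h4 hac⟩, ⟨_, alphaA_mem_chart0 p M' A h4 hbc⟩, ?_, ?_⟩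
  · intro h0
    apply hb0
    rw [← coe_red1_of_series p M' A hA hpM h4 Yb hb
      (chart0_le_G1 p M' A hA hpM h4 (alphaA_mem_chart0 p M' A h4 hbc)), h0]
    rfl
  · apply Subtype.ext
    rw [MulMemClass.coe_mul, coe_red1_of_series p M' A hA hpM h4 Yb hb,
      coe_red1_of_series p M' A hA hpM h4 Ya ha]
    exact hab

/-- **(L4), chart `t⁻¹`**: `Ft = Frac (red1 chart1)`. -/
theorem L4_chart1 (y : ↥(modularFunctionFieldFullC (kA A) M')) :
    ∃ a b : ↥(chart1 p M' A h4),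
      red1 p M' A hA hpM h4 ⟨(b : ↥(Fbar (M' * p))), chart1_le_G1 p M' A hA hpM h4 b.2⟩ ≠ 0 ∧
      y * red1 p M' A hA hpM h4 ⟨(b : ↥(Fbar (M' * p))), chart1_le_G1 p M' A hA hpM h4 b.2⟩ =
        red1 p M' A hA hpM h4 ⟨(a : ↥(Fbar (M' * p))), chart1_le_G1 p M' A hA hpM h4 a.2⟩ := by
  have hB := (Fermat.Agent.RED.BASE.MainCusp12.base_four M' h4).1
  obtain ⟨Ya, Yb, ha, hb, hac, hbc, hb0, hab⟩ :=
    Fermat.Agent.ES.RED.FracRed16.exists_frac_red_inv A 4 8 p hpM (tMem_good M' h4) hB.genBase hA y.2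
  refine ⟨⟨_, alphaA_mem_chart1 p M' A h4 hac⟩, ⟨_, alphaA_mem_chart1 p M' A h4 hbc⟩, ?_, ?_⟩
  · intro h0
    apply hb0
    rw [← coe_red1_of_series p M' A hA hpM h4 Yb hb
      (chart1_le_G1 p M' A hA hpM h4 (alphaA_mem_chart1 p M' A h4 hbc)), h0]
    rfl
  · apply Subtype.ext
    rw [MulMemClass.coe_mul, coe_red1_of_series p M' A hA hpM h4 Yb hb,
      coe_red1_of_series p M' A hA hpM h4 Ya ha]
    exact hab

/-! ### the field `nonunit` -/

/-- an `A`-integral series with coefficient `1` at `q⁻¹` has nonzero reduction. -/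
theorem red1_ne_zero_of_coeff (z : ↥(Fbar (M' * p))) (Y : LaurentSeries ↥A)
    (hY : coeffMap A.subtype Y = ((z : ↥(Fbar (M' * p))) : LaurentSeries Qbar))
    (hc : Y.coeff (-1) = 1) (hz : z ∈ G1 p M' A hA hpM h4) :
    red1 p M' A hA hpM h4 ⟨z, hz⟩ ≠ 0 := by
  have hint : z ∈ intF A (M' * p) := (mem_intF_iff A (M' * p)).mpr ⟨Y, hY⟩
  have h1 := red1_of_mem p M' A hA hpM h4 ⟨z, hint⟩
  intro h0
  have h2 : redB p M' A hA hpM h4 ⟨z, hint⟩ = 0 := h1.symm.trans h0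
  rw [redB_eq_zero_iff, seriesHom_eq_of (y := ⟨z, hint⟩) hY] at h2
  have h3 := congrArg (fun s : LaurentSeries (kA A) => s.coeff (-1)) h2
  simp only [coeffMap_coeff, hc, map_one, HahnSeries.coeff_zero] at h3
  exact one_ne_zero h3

/-- **`nonunit`, chart `t`**: `t - a` vanishes at the closed point and has nonzero reduction. -/
theorem nonunit_chart0 (χ₀ : ↥(chart0 p M' A h4) →+* kA A)
    (hχ : ∀ a : ↥A, χ₀ (algebraMap ↥A ↥(chart0 p M' A h4) a) = IsLocalRing.residue ↥A a) :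
    ∃ z : ↥(chart0 p M' A h4), χ₀ z = 0 ∧
      red1 p M' A hA hpM h4 ⟨(z : ↥(Fbar (M' * p))), chart0_le_G1 p M' A hA hpM h4 z.2⟩ ≠ 0 := by
  let tz : ↥(chart0 p M' A h4) := ⟨tB p M' h4, self_mem_chart _⟩
  obtain ⟨a, ha⟩ := IsLocalRing.residue_surjective (χ₀ tz)
  refine ⟨tz - algebraMap ↥A ↥(chart0 p M' A h4) a, by rw [map_sub, hχ, ha, sub_self], ?_⟩
  refine red1_ne_zero_of_coeff p M' A hA hpM h4 _ (tq ↥A 4 8 - HahnSeries.C a) ?_ ?_ _
  · rw [map_sub, coeffMap_tq, Fermat.Agent.RED.PUR.GaussGen8.coeffMap_C]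
    show _ = ((tB p M' h4 : ↥(Fbar (M' * p))) : LaurentSeries Qbar) -
      ((algebraMap ↥A ↥(Fbar (M' * p)) a : ↥(Fbar (M' * p))) : LaurentSeries Qbar)
    rw [coe_tB]
    congr 1
    exact (algebraMap_eq_C _).symm
  · rw [HahnSeries.coeff_sub, coeff_tq_neg_one, HahnSeries.C_apply,
      HahnSeries.coeff_single_of_ne (by norm_num), sub_zero]

/-- **`nonunit`, chart `t⁻¹`**. -/
theorem nonunit_chart1 (χ₀ : ↥(chart1 p M' A h4) →+* kA A)
    (hχ : ∀ a : ↥A, χ₀ (algebraMap ↥A ↥(chart1 p M' A h4) a) = IsLocalRing.residue ↥A a) :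
    ∃ z : ↥(chart1 p M' A h4), χ₀ z = 0 ∧
      red1 p M' A hA hpM h4 ⟨(z : ↥(Fbar (M' * p))), chart1_le_G1 p M' A hA hpM h4 z.2⟩ ≠ 0 := by
  let tz : ↥(chart1 p M' A h4) := ⟨(tB p M' h4)⁻¹, self_mem_chart _⟩
  obtain ⟨a, ha⟩ := IsLocalRing.residue_surjective (χ₀ tz)
  refine ⟨tz - algebraMap ↥A ↥(chart1 p M' A h4) a, by rw [map_sub, hχ, ha, sub_self], ?_⟩
  -- the reduction of `t⁻¹ - a` is `(tq k)⁻¹ - ā`; were it zero, `tq k` would be constant
  have hmem : (tB p M' h4)⁻¹ - algebraMap ↥A ↥(Fbar (M' * p)) a ∈ intF A (M' * p) :=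
    (intF A (M' * p)).sub_mem (tBinv_mem_intF p M' A h4) (algebraMap_mem_intF A (M' * p) a)
  have h1 := red1_of_mem p M' A hA hpM h4 ⟨_, hmem⟩
  intro h0
  have h2 : redB p M' A hA hpM h4 ⟨_, hmem⟩ = 0 := h1.symm.trans h0
  have h3 : (⟨_, hmem⟩ : intF A (M' * p)) =
      ⟨(tB p M' h4)⁻¹, tBinv_mem_intF p M' A h4⟩ -
        ⟨algebraMap Qbar ↥(Fbar (M' * p)) (a : Qbar), algebraMap_mem_intF A (M' * p) a⟩ := rfl
  rw [h3, map_sub, sub_eq_zero, redB_algebraMap] at h2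
  have h4' := congrArg (fun z : ↥(modularFunctionFieldFullC (kA A) M') => (z : LaurentSeries (kA A))) h2
  simp only [coe_redB] at h4'
  have h5 : seriesHom A (M' * p) ⟨(tB p M' h4)⁻¹, tBinv_mem_intF p M' A h4⟩ = tqInv ↥A 4 8 :=
    seriesHom_tF_inv A (M' * p) (tMem_bad p M' h4)
  rw [h5, coeffMap_tqInv, ← tq_inv_eq] at h4'
  -- `(tq k)⁻¹ = C ā`
  have h6 : ((algebraMap (kA A) ↥(modularFunctionFieldFullC (kA A) M') (IsLocalRing.residue ↥A a) :
      ↥(modularFunctionFieldFullC (kA A) M')) : LaurentSeries (kA A)) =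
      HahnSeries.C (IsLocalRing.residue ↥A a) := algebraMap_eq_C _
  rw [h6] at h4'
  have htq0 : tq (kA A) 4 8 ≠ 0 := by
    intro h
    have := coeff_tq_neg_one (kA A) 4 8
    rw [h, HahnSeries.coeff_zero] at this
    exact zero_ne_one this
  have h7 : tq (kA A) 4 8 * HahnSeries.C (IsLocalRing.residue ↥A a) = 1 := by
    rw [← h4', mul_inv_cancel₀ htq0]
  have h8 : (tq (kA A) 4 8 * HahnSeries.C (IsLocalRing.residue ↥A a)).coeff (-1) =
      (1 : LaurentSeries (kA A)).coeff (-1) := by rw [h7]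
  rw [mul_comm, HahnSeries.C_mul_eq_smul, HahnSeries.coeff_smul, coeff_tq_neg_one, smul_eq_mul,
    mul_one, HahnSeries.coeff_one, if_neg (by norm_num)] at h8
  rw [h8, map_zero, mul_zero] at h7
  exact zero_ne_one h7

end Fermat.Agent.ORD.IFACEN.ChartOne1
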