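/-
Programme ORD (S33), chapter O6a IFACEN — helper1.  **The component through the cusp `0` of the special
fibre of `X₀(M' p)` at `p`: transport of `(G1, red1)` along the Fricke involution `W = W_{M' p}`.**

* `W = FrickeFK8.frickeBar (M' * p)`, `W_W`;
* `G2 = G1.comap W`, `red2 y = red1 (W y)`, `mem_G2_iff`, `red2_apply`;
* `const_mem2`, `red2_const`, `norm2` ⇒ **`side2 : Side3.Side (base A) F Ft`**; `red2_surjective`;
  `W_mem_G1_iff`, `W_mem_G2_iff` (`W` swaps the two Gauss rings), `red1_W`, `red2_W`;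
* **level comparison** (`x ∈ K · F_{M' p}`): `baseChange_mem_G2_iff : baseChangeHom x ∈ G2 ↔
  (frickeFK x : K((q))) ∈ gaussRing (A ∩ K)` (RHS `= x ∈ O2 M' p hπ hE` by `ModelDefs9.mem_O2_iff`,
  `Iff.rfl`), `coe_red2_baseChange`, `red2_baseChange_eq_zero_iff`;
* generic: `Side.mem_or_inv_mem`, `Side.toVS` (the Gauss ring of a `Side` is a valuation ring),
  `chart_le_side` (`t ∈ G ⇒ chart A t ≤ G`).
-/
import Mathlib
import Fermat.Agent.ORD.IFACEN.SideOne1
import Fermat.Agent.ES.N34.FrickeFK8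
import Fermat.Agent.RED.PUR.ChartGeneric22

set_option autoImplicit false
set_option linter.unusedSectionVars false
set_option linter.style.longLine false
set_option synthInstance.maxHeartbeats 400000

open HahnSeries ModularCurve Polynomial

noncomputable section

namespace Fermat.Agent.ORD.IFACEN.SideTwo1

open Fermat.Agent.RED.Interface4 Fermat.Agent.RED.DESC.PlaceExtend27
  Fermat.Agent.RED.DESC Fermat.Agent.RED.NumInst4
  Fermat.Agent.RED.PUR.GaussGen8 Fermat.Agent.RED.PUR.GaussBridge10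
  Fermat.Agent.RED.PUR.ChartGeneric22
  Fermat.Agent.RED.DESC.NumberFieldDVR27
  Fermat.Agent.ES.RED.ChartIntegralA1 Fermat.Agent.ES.RED.GaussUnit25
  Fermat.Agent.ES.N34.FrickeFK8
  Fermat.Agent.FF.IFACE.GaussVal1 Fermat.Agent.ORD.ANN.Side3
  Fermat.Agent.ORD.IFACEN.GaussBad1 Fermat.Agent.ORD.IFACEN.IntFrac1
  Fermat.Agent.ORD.IFACEN.SideOne1

/-- fast instance (the canonical search costs seconds). -/
local instance (priority := 100000) algKF (A : ValuationSubring Qbar) (M : ℕ) [NeZero M] :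
    Algebra (kA A) ↥(modularFunctionFieldFullC (kA A) M) := inferInstance

/-! ### the Gauss ring of a `Side` is a valuation ring -/

section Generic

variable {L k F Ft : Type*} [Field L] [Field k] [Field F] [Algebra L F] [Field Ft] [Algebra k Ft]
  {B : Base L k} (S : Side B F Ft)

theorem Side.mem_or_inv_mem (y : F) : y ∈ S.G ∨ y⁻¹ ∈ S.G := by
  by_cases hy : y = 0
  · left; rw [hy]; exact S.G.zero_mem
  obtain ⟨c, hc0, g, hg, hred⟩ := S.norm y hy
  have hinv := S.inv_mem hred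
  rcases B.A.mem_or_inv_mem c with hc | hc
  · -- `y⁻¹ = c · g⁻¹`
    right
    have : y⁻¹ = algebraMap L F c * (g : F)⁻¹ := by
      rw [hg, mul_inv, ← mul_assoc, mul_inv_cancel₀ (by rwa [Ne, map_eq_zero]), one_mul]
    rw [this]
    exact S.G.mul_mem (S.const_mem ⟨c, hc⟩) hinv
  · left
    have : y = algebraMap L F c⁻¹ * (g : F) := by
      rw [hg, ← mul_assoc, ← map_mul, inv_mul_cancel₀ hc0, map_one, one_mul]
    rw [this]
    exact S.G.mul_mem (S.const_mem ⟨c⁻¹, hc⟩) g.2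

/-- the Gauss ring as a valuation subring. -/
def Side.toVS : ValuationSubring F :=
  { S.G with mem_or_inv_mem' := Side.mem_or_inv_mem S }

@[simp] theorem Side.mem_toVS (y : F) : y ∈ Side.toVS S ↔ y ∈ S.G := Iff.rfl

/-- a chart whose coordinate is integral on the component is integral on the component. -/
theorem chart_le_side [Algebra B.A F] [IsScalarTower B.A L F] {t : F} (ht : t ∈ S.G) :
    ∀ x ∈ chart B.A t, x ∈ S.G :=
  chart_le_valuationSubring (Side.toVS S)
    (fun r => by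
      rw [IsScalarTower.algebraMap_apply B.A L F r]
      exact S.const_mem r) ht

end Generic

variable (p M' : ℕ) [Fact p.Prime] [NeZero M'] (A : ValuationSubring Qbar)
  (hA : A.LiesOverPrime p) (hpM : ¬ p ∣ M') (h4 : 4 ∣ M')

/-- the Fricke involution of `Fbar (M' * p)`. -/
irreducible_def W : ↥(Fbar (M' * p)) →ₐ[Qbar] ↥(Fbar (M' * p)) := frickeBar (M' * p)

theorem W_eq : W p M' = frickeBar (M' * p) := W_def p M'

theorem W_W (f : ↥(Fbar (M' * p))) : W p M' (W p M' f) = f := by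
  rw [W_eq]
  exact frickeBar_frickeBar (M' * p) f

theorem W_ne_zero {f : ↥(Fbar (M' * p))} (hf : f ≠ 0) : W p M' f ≠ 0 := by
  intro h0
  apply hf
  rw [← W_W p M' f, h0, map_zero]

/-- the Gauss valuation ring of the expansion at the cusp `0`. -/
def G2 : Subring ↥(Fbar (M' * p)) :=
  (G1 p M' A hA hpM h4).comap (W p M' : ↥(Fbar (M' * p)) →+* ↥(Fbar (M' * p)))

theorem mem_G2_iff (y : ↥(Fbar (M' * p))) :
    y ∈ G2 p M' A hA hpM h4 ↔ W p M' y ∈ G1 p M' A hA hpM h4 := Iff.rfl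

/-- `W : G2 → G1`. -/
def toG1 : ↥(G2 p M' A hA hpM h4) →+* ↥(G1 p M' A hA hpM h4) where
  toFun y := ⟨W p M' (y : ↥(Fbar (M' * p))), y.2⟩
  map_one' := Subtype.ext (map_one _)
  map_mul' _ _ := Subtype.ext (map_mul _ _ _)
  map_zero' := Subtype.ext (map_zero _)
  map_add' _ _ := Subtype.ext (map_add _ _ _)

/-- the reduction on the component through the cusp `0`. -/
def red2 : ↥(G2 p M' A hA hpM h4) →+* ↥(modularFunctionFieldFullC (kA A) M') :=
  (red1 p M' A hA hpM h4).comp (toG1 p M' A hA hpM h4)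

theorem red2_apply (y : ↥(G2 p M' A hA hpM h4)) :
    red2 p M' A hA hpM h4 y = red1 p M' A hA hpM h4 ⟨W p M' (y : ↥(Fbar (M' * p))), y.2⟩ := rfl

theorem W_mem_G2_iff (y : ↥(Fbar (M' * p))) :
    W p M' y ∈ G2 p M' A hA hpM h4 ↔ y ∈ G1 p M' A hA hpM h4 := by
  rw [mem_G2_iff, W_W]

theorem W_mem_G1_iff (y : ↥(Fbar (M' * p))) :
    W p M' y ∈ G1 p M' A hA hpM h4 ↔ y ∈ G2 p M' A hA hpM h4 := Iff.rfl

/-- `red2 (W g) = red1 g`. -/
theorem red2_W (g : ↥(G1 p M' A hA hpM h4)) :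
    red2 p M' A hA hpM h4 ⟨W p M' (g : ↥(Fbar (M' * p))),
      (W_mem_G2_iff p M' A hA hpM h4 _).mpr g.2⟩ = red1 p M' A hA hpM h4 g := by
  have h1 : toG1 p M' A hA hpM h4 ⟨W p M' (g : ↥(Fbar (M' * p))),
      (W_mem_G2_iff p M' A hA hpM h4 _).mpr g.2⟩ = g := Subtype.ext (W_W p M' (g : ↥(Fbar (M' * p))))
  show red1 p M' A hA hpM h4 (toG1 p M' A hA hpM h4 _) = _
  rw [h1]

theorem const_mem2 (a : ↥A) :
    algebraMap Qbar ↥(Fbar (M' * p)) (a : Qbar) ∈ G2 p M' A hA hpM h4 := by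
  rw [mem_G2_iff, (W p M').commutes]
  exact const_mem p M' A hA hpM h4 a

theorem red2_const (a : ↥A) :
    red2 p M' A hA hpM h4 ⟨algebraMap Qbar ↥(Fbar (M' * p)) (a : Qbar), const_mem2 p M' A hA hpM h4 a⟩ =
      algebraMap (kA A) ↥(modularFunctionFieldFullC (kA A) M') (IsLocalRing.residue ↥A a) := by
  have h1 : toG1 p M' A hA hpM h4 ⟨algebraMap Qbar ↥(Fbar (M' * p)) (a : Qbar),
      const_mem2 p M' A hA hpM h4 a⟩ = ⟨algebraMap Qbar ↥(Fbar (M' * p)) (a : Qbar),
      const_mem p M' A hA hpM h4 a⟩ := Subtype.ext ((W p M').commutes _)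
  show red1 p M' A hA hpM h4 (toG1 p M' A hA hpM h4 _) = _
  rw [h1, red1_const]

/-- **Gauss normalisation** on the component through the cusp `0`. -/
theorem norm2 (y : ↥(Fbar (M' * p))) (hy : y ≠ 0) :
    ∃ c : Qbar, c ≠ 0 ∧ ∃ g : ↥(G2 p M' A hA hpM h4),
      (g : ↥(Fbar (M' * p))) = algebraMap Qbar ↥(Fbar (M' * p)) c * y ∧
        red2 p M' A hA hpM h4 g ≠ 0 := by
  obtain ⟨c, hc0, g, hg, hred⟩ := norm p M' A hA hpM h4 (W p M' y) (W_ne_zero p M' hy)
  have hmem : algebraMap Qbar ↥(Fbar (M' * p)) c * y ∈ G2 p M' A hA hpM h4 := by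
    rw [mem_G2_iff, map_mul, (W p M').commutes, ← hg]
    exact g.2
  refine ⟨c, hc0, ⟨_, hmem⟩, rfl, ?_⟩
  have h1 : toG1 p M' A hA hpM h4 ⟨_, hmem⟩ = g := by
    apply Subtype.ext
    show W p M' (algebraMap Qbar ↥(Fbar (M' * p)) c * y) = (g : ↥(Fbar (M' * p)))
    rw [map_mul, (W p M').commutes, hg]
  show red1 p M' A hA hpM h4 (toG1 p M' A hA hpM h4 _) ≠ 0
  rw [h1]
  exact hred

/-- **the component through the cusp `0`** as a `Side`. -/
def side2 : Side (base A) ↥(Fbar (M' * p)) ↥(modularFunctionFieldFullC (kA A) M') where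
  G := G2 p M' A hA hpM h4
  red := red2 p M' A hA hpM h4
  const_mem := const_mem2 p M' A hA hpM h4
  red_const := red2_const p M' A hA hpM h4
  norm := norm2 p M' A hA hpM h4

@[simp] theorem side2_G : (side2 p M' A hA hpM h4).G = G2 p M' A hA hpM h4 := rfl

@[simp] theorem side2_red : (side2 p M' A hA hpM h4).red = red2 p M' A hA hpM h4 := rfl

/-- **the reduction `G2 → k · F̃_{M'}` is surjective.** -/
theorem red2_surjective : Function.Surjective (red2 p M' A hA hpM h4) := by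
  intro z
  obtain ⟨g, rfl⟩ := red1_surjective p M' A hA hpM h4 z
  exact ⟨⟨W p M' (g : ↥(Fbar (M' * p))), (W_mem_G2_iff p M' A hA hpM h4 _).mpr g.2⟩,
    red2_W p M' A hA hpM h4 g⟩

/-! ### comparison with the finite levels -/

section Level

variable (K : IntermediateField ℚ Qbar) [FiniteDimensional ℚ K]

theorem W_baseChange (x : FK (M' * p) K) :
    W p M' (baseChangeHom (M' * p) K x) = baseChangeHom (M' * p) K (frickeFK (M' * p) K x) := by
  rw [W_eq]
  exact (baseChangeHom_frickeFK (M' * p) K x).symm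

/-- `G2 ∩ (K · F_{M' p}) = O2_K`. -/
theorem baseChange_mem_G2_iff (x : FK (M' * p) K) :
    baseChangeHom (M' * p) K x ∈ G2 p M' A hA hpM h4 ↔
      ((frickeFK (M' * p) K x : FK (M' * p) K) : LaurentSeries K) ∈ gaussRing (AK A K) := by
  rw [mem_G2_iff, W_baseChange, baseChange_mem_G1_iff]

theorem baseChange_mem_G2 (x : FK (M' * p) K)
    (hx : ((frickeFK (M' * p) K x : FK (M' * p) K) : LaurentSeries K) ∈ gaussRing (AK A K)) :
    baseChangeHom (M' * p) K x ∈ G2 p M' A hA hpM h4 :=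
  (baseChange_mem_G2_iff p M' A hA hpM h4 K x).mpr hx

/-- the reductions are compatible. -/
theorem coe_red2_baseChange (x : FK (M' * p) K)
    (hx : ((frickeFK (M' * p) K x : FK (M' * p) K) : LaurentSeries K) ∈ gaussRing (AK A K)) :
    ((red2 p M' A hA hpM h4 ⟨baseChangeHom (M' * p) K x, baseChange_mem_G2 p M' A hA hpM h4 K x hx⟩ :
      ↥(modularFunctionFieldFullC (kA A) M')) : LaurentSeries (kA A)) =
      coeffMap (resMap A K) (gaussRed (AK A K) ⟨_, hx⟩) := by
  have h1 : toG1 p M' A hA hpM h4 ⟨baseChangeHom (M' * p) K x,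
      baseChange_mem_G2 p M' A hA hpM h4 K x hx⟩ = ⟨baseChangeHom (M' * p) K (frickeFK (M' * p) K x),
        baseChange_mem_G1 p M' A hA hpM h4 K _ hx⟩ := Subtype.ext (W_baseChange p M' K x)
  show ((red1 p M' A hA hpM h4 (toG1 p M' A hA hpM h4 _) :
      ↥(modularFunctionFieldFullC (kA A) M')) : LaurentSeries (kA A)) = _
  rw [h1, coe_red1_baseChange p M' A hA hpM h4 K (frickeFK (M' * p) K x) hx]

theorem red2_baseChange_eq_zero_iff (x : FK (M' * p) K)
    (hx : ((frickeFK (M' * p) K x : FK (M' * p) K) : LaurentSeries K) ∈ gaussRing (AK A K)) :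
    red2 p M' A hA hpM h4 ⟨baseChangeHom (M' * p) K x, baseChange_mem_G2 p M' A hA hpM h4 K x hx⟩ = 0 ↔
      gaussRed (AK A K) ⟨_, hx⟩ = 0 := by
  have h1 : toG1 p M' A hA hpM h4 ⟨baseChangeHom (M' * p) K x,
      baseChange_mem_G2 p M' A hA hpM h4 K x hx⟩ = ⟨baseChangeHom (M' * p) K (frickeFK (M' * p) K x),
        baseChange_mem_G1 p M' A hA hpM h4 K _ hx⟩ := Subtype.ext (W_baseChange p M' K x)
  show red1 p M' A hA hpM h4 (toG1 p M' A hA hpM h4 _) = 0 ↔ _
  rw [h1, red1_baseChange_eq_zero_iff p M' A hA hpM h4 K (frickeFK (M' * p) K x) hx]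

end Level

end Fermat.Agent.ORD.IFACEN.SideTwo1
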