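/-
Programme ORD (S33), chapter O6a IFACEN — helper1.  **The two charts of `X₀(M' p)` seen from the
component through the cusp `0`.**

* `exists_level_two` : for all large number fields `K`: `W t_K ∈ O1_K` with transcendental reduction
  (N34's (V2) items `ht₂`, `htr₂`);
* `baseChange_tN : baseChangeHom (tN p ht) = tB`;
* **`tB_mem_G2`, `red2_tB_ne_const`** (`red2 t` is not a constant: field `s_nonconst` of
  `LevelFamily8.LevelFamily` for the chart `t` on component 2), `tBinv_mem_G2`, `red2_tBinv_ne_const`;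
* **`chart0_le_G2`, `chart1_le_G2`** (`le_Gon` / `le_Goff`);
* `red1_tB_ne_const`, `red1_tBinv_ne_const` (component 1).
-/
import Mathlib
import Fermat.Agent.ORD.IFACEN.SideTwo1
import Fermat.Agent.ORD.IFACEN.ChartOne1
import Fermat.Agent.ES.N34.GaussVTwoInst25
import Fermat.Agent.RED.ModelFinal4

set_option autoImplicit false
set_option linter.unusedSectionVars false
set_option linter.style.longLine false
set_option synthInstance.maxHeartbeats 400000

open HahnSeries ModularCurve Polynomial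

noncomputable section

namespace Fermat.Agent.ORD.IFACEN.ChartTwo1

open Fermat.Agent.RED.Interface4 Fermat.Agent.RED.DESC.PlaceExtend27
  Fermat.Agent.RED.DESC Fermat.Agent.RED.NumInst4
  Fermat.Agent.RED.PUR.GaussGen8 Fermat.Agent.RED.PUR.GaussBridge10
  Fermat.Agent.RED.PUR.ChartGeneric22
  Fermat.Agent.RED.DESC.NumberFieldDVR27
  Fermat.Agent.RED.BASE.EtaQuot12 Fermat.Agent.RED.BASE.Interface12
  Fermat.Agent.ES.RED.ChartIntegralA1 Fermat.Agent.ES.RED.GaussUnit25 Fermat.Agent.ES.RED.TqIntF5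
  Fermat.Agent.ES.N34.FrickeFK8 Fermat.Agent.ES.N34.ModelDefs9 Fermat.Agent.ES.N34.ModelGlue22
  Fermat.Agent.FF.IFACE.GaussVal1 Fermat.Agent.ORD.ANN.Side3
  Fermat.Agent.ORD.IFACEN.GaussBad1 Fermat.Agent.ORD.IFACEN.IntFrac1
  Fermat.Agent.ORD.IFACEN.SideOne1 Fermat.Agent.ORD.IFACEN.SideTwo1 Fermat.Agent.ORD.IFACEN.ChartOne1

/-- fast instance (the canonical search costs seconds). -/
local instance (priority := 100000) algKF (A : ValuationSubring Qbar) (M : ℕ) [NeZero M] :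
    Algebra (kA A) ↥(modularFunctionFieldFullC (kA A) M) := inferInstance

variable (p M' : ℕ) [Fact p.Prime] [NeZero M'] (A : ValuationSubring Qbar)
  (hA : A.LiesOverPrime p) (hpM : ¬ p ∣ M') (h4 : 4 ∣ M')

/-- the finite-level Hauptmodul maps to `tB`. -/
theorem baseChange_tN (K : IntermediateField ℚ Qbar) (ht : tq (↥K) 4 8 ∈ FK M' K) :
    baseChangeHom (M' * p) K (tN p ht) = tB p M' h4 := by
  apply Subtype.ext
  rw [coe_baseChangeHom, coe_tB]
  show coeffMap (algebraMap K Qbar) ((alpha K M' p (tM ht) : FK (M' * p) K) : LaurentSeries K) = _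
  rw [coe_alpha]
  exact coeffMap_tq ↥K (algebraMap K Qbar) 4 8

include hA hpM h4 in
/-- **(V2) at all large levels**: `W t_K` lies in the Gauss ring with transcendental reduction. -/
theorem exists_level_two :
    ∃ K₀ : IntermediateField ℚ Qbar, FiniteDimensional ℚ K₀ ∧
      ∀ K : IntermediateField ℚ Qbar, FiniteDimensional ℚ K → K₀ ≤ K →
        ∃ (ht : tq (↥K) 4 8 ∈ FK M' K)
          (ht₂ : ((frickeFK (M' * p) K (tN p ht) : FK (M' * p) K) : LaurentSeries K) ∈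
            gaussRing (AK A K)),
          Transcendental (Res (AK A K)) (gaussRed (AK A K) ⟨_, ht₂⟩) := by
  have hB := (Fermat.Agent.RED.BASE.MainCusp12.base_four M' h4).1
  obtain ⟨K₁, hK₁, hT⟩ := Fermat.Agent.RED.ModelFinal4.tTarget M' hB.mem
  obtain ⟨K₂, hK₂, hJ⟩ := Fermat.Agent.RED.ModelFinal4.jTarget hB.genBase
  refine ⟨K₁ ⊔ K₂, inferInstance, fun K hfd hle => ?_⟩
  have := hfd
  have : IsDiscreteValuationRing ↥(AK A K) :=
    isDiscreteValuationRing_AK A K (Fact.out : p.Prime).ne_zero hA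
  obtain ⟨π, hπirr⟩ := IsDiscreteValuationRing.exists_irreducible ↥(AK A K)
  have hπ : IsUnif (AK A K) π := isUnif_of_irreducible (AK A K) hπirr
  have hE : FK (M' * p) K ≤ fracField (AK A K) := FK_le_fracField A K (M' * p)
  have ht := hT K hfd (le_trans le_sup_left hle)
  obtain ⟨-, ht₂, htr₂, -⟩ := Fermat.Agent.ES.N34.GaussVTwoInst25.v2Items_of A K M' p 4 8
    (Fact.out : p.Prime) hpM hA (hJ K hfd (le_trans le_sup_right hle)) ht hE π hπ
  exact ⟨ht, ht₂, htr₂⟩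

/-- **`t ∈ G2`**: the Hauptmodul is integral on the component through the cusp `0`. -/
theorem tB_mem_G2 : tB p M' h4 ∈ G2 p M' A hA hpM h4 := by
  obtain ⟨K₀, hK₀, H⟩ := exists_level_two p M' A hA hpM h4
  have := hK₀
  obtain ⟨ht, ht₂, -⟩ := H K₀ hK₀ le_rfl
  have h := baseChange_mem_G2 p M' A hA hpM h4 K₀ (tN p ht) ht₂
  rwa [baseChange_tN p M' h4 K₀ ht] at h

/-- **`red2 t` is not a constant.** -/
theorem red2_tB_ne_const (c : kA A) :
    red2 p M' A hA hpM h4 ⟨tB p M' h4, tB_mem_G2 p M' A hA hpM h4⟩ ≠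
      algebraMap (kA A) ↥(modularFunctionFieldFullC (kA A) M') c := by
  intro h
  obtain ⟨K₀, hK₀, H⟩ := exists_level_two p M' A hA hpM h4
  have := hK₀
  obtain ⟨K, hKfd, hle, hc⟩ := Fermat.Agent.ES.RED.ResidueUnion1.exists_residue_descent A K₀ c
  have := hKfd
  obtain ⟨c', hc'⟩ := hc K le_rfl
  obtain ⟨ht, ht₂, htr⟩ := H K hKfd hle
  -- the reduction at level `K`
  have h1 := coe_red2_baseChange p M' A hA hpM h4 K (tN p ht) ht₂
  have h2 : (⟨baseChangeHom (M' * p) K (tN p ht), baseChange_mem_G2 p M' A hA hpM h4 K _ ht₂⟩ :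
      ↥(G2 p M' A hA hpM h4)) = ⟨tB p M' h4, tB_mem_G2 p M' A hA hpM h4⟩ :=
    Subtype.ext (baseChange_tN p M' h4 K ht)
  rw [h2, h] at h1
  -- `coeffMap resMap (gaussRed (W t_K)) = C c = coeffMap resMap (C c')`
  have h3 : ((algebraMap (kA A) ↥(modularFunctionFieldFullC (kA A) M') c :
      ↥(modularFunctionFieldFullC (kA A) M')) : LaurentSeries (kA A)) =
      coeffMap (resMap A K) (HahnSeries.C c') := by
    rw [Fermat.Agent.RED.PUR.GaussGen8.coeffMap_C, hc']
    exact algebraMap_eq_C _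
  rw [h3] at h1
  have h4' := CoeffDescent1.coeffMap_injective_of_injective (resMap A K) (resMap_injective A K) h1
  -- a constant is algebraic
  apply htr
  rw [← h4', ← algebraMap_eq_C]
  exact isAlgebraic_algebraMap c'

theorem red2_tB_ne_zero :
    red2 p M' A hA hpM h4 ⟨tB p M' h4, tB_mem_G2 p M' A hA hpM h4⟩ ≠ 0 := by
  have := red2_tB_ne_const p M' A hA hpM h4 0
  rwa [map_zero] at this

/-- `t⁻¹ ∈ G2`. -/
theorem tBinv_mem_G2 : (tB p M' h4)⁻¹ ∈ G2 p M' A hA hpM h4 :=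
  (side2 p M' A hA hpM h4).inv_mem (g := ⟨tB p M' h4, tB_mem_G2 p M' A hA hpM h4⟩)
    (red2_tB_ne_zero p M' A hA hpM h4)

/-- `red2 t⁻¹` is not a constant. -/
theorem red2_tBinv_ne_const (c : kA A) :
    red2 p M' A hA hpM h4 ⟨(tB p M' h4)⁻¹, tBinv_mem_G2 p M' A hA hpM h4⟩ ≠
      algebraMap (kA A) ↥(modularFunctionFieldFullC (kA A) M') c := by
  intro h
  have h1 := (side2 p M' A hA hpM h4).red_inv
    (g := ⟨tB p M' h4, tB_mem_G2 p M' A hA hpM h4⟩) (red2_tB_ne_zero p M' A hA hpM h4)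
  have h2 : red2 p M' A hA hpM h4 ⟨(tB p M' h4)⁻¹, tBinv_mem_G2 p M' A hA hpM h4⟩ =
      (red2 p M' A hA hpM h4 ⟨tB p M' h4, tB_mem_G2 p M' A hA hpM h4⟩)⁻¹ := h1
  rw [h2] at h
  apply red2_tB_ne_const p M' A hA hpM h4 c⁻¹
  rw [map_inv₀, ← h, inv_inv]

/-- the chart `t ≠ ∞` is integral on the component through the cusp `0`. -/
theorem chart0_le_G2 {y : ↥(Fbar (M' * p))} (hy : y ∈ chart0 p M' A h4) :
    y ∈ G2 p M' A hA hpM h4 :=
  chart_le_valuationSubring (Side.toVS (side2 p M' A hA hpM h4))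
    (fun r => const_mem2 p M' A hA hpM h4 r) (tB_mem_G2 p M' A hA hpM h4) y hy

/-- the chart `t ≠ 0` is integral on the component through the cusp `0`. -/
theorem chart1_le_G2 {y : ↥(Fbar (M' * p))} (hy : y ∈ chart1 p M' A h4) :
    y ∈ G2 p M' A hA hpM h4 :=
  chart_le_valuationSubring (Side.toVS (side2 p M' A hA hpM h4))
    (fun r => const_mem2 p M' A hA hpM h4 r) (tBinv_mem_G2 p M' A hA hpM h4) y hy

/-! ### component 1 -/

theorem tB_mem_G1 : tB p M' h4 ∈ G1 p M' A hA hpM h4 :=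
  intF_le_G1 p M' A hA hpM h4 (tB_mem_intF p M' A h4)

theorem tBinv_mem_G1 : (tB p M' h4)⁻¹ ∈ G1 p M' A hA hpM h4 :=
  intF_le_G1 p M' A hA hpM h4 (tBinv_mem_intF p M' A h4)

theorem coe_red1_tB :
    ((red1 p M' A hA hpM h4 ⟨tB p M' h4, tB_mem_G1 p M' A hA hpM h4⟩ :
      ↥(modularFunctionFieldFullC (kA A) M')) : LaurentSeries (kA A)) = tq (kA A) 4 8 := by
  have h1 := red1_of_mem p M' A hA hpM h4 ⟨tB p M' h4, tB_mem_intF p M' A h4⟩
  have h2 : (⟨tB p M' h4, tB_mem_G1 p M' A hA hpM h4⟩ : ↥(G1 p M' A hA hpM h4)) =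
      ⟨((⟨tB p M' h4, tB_mem_intF p M' A h4⟩ : intF A (M' * p)) : ↥(Fbar (M' * p))),
        intF_le_G1 p M' A hA hpM h4 (tB_mem_intF p M' A h4)⟩ := rfl
  rw [h2, h1, coe_redB]
  exact redSeries_tF A (M' * p) (tMem_bad p M' h4)

/-- `red1 t` is not a constant. -/
theorem red1_tB_ne_const (c : kA A) :
    red1 p M' A hA hpM h4 ⟨tB p M' h4, tB_mem_G1 p M' A hA hpM h4⟩ ≠
      algebraMap (kA A) ↥(modularFunctionFieldFullC (kA A) M') c := by
  intro h
  have h1 := coe_red1_tB p M' A hA hpM h4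
  rw [h] at h1
  have h2 : ((algebraMap (kA A) ↥(modularFunctionFieldFullC (kA A) M') c :
      ↥(modularFunctionFieldFullC (kA A) M')) : LaurentSeries (kA A)) = HahnSeries.C c :=
    algebraMap_eq_C _
  rw [h2] at h1
  have h3 := congrArg (fun s : LaurentSeries (kA A) => s.coeff (-1)) h1
  simp only [coeff_tq_neg_one, HahnSeries.C_apply] at h3
  rw [HahnSeries.coeff_single_of_ne (by norm_num)] at h3
  exact zero_ne_one h3

theorem red1_tB_ne_zero :
    red1 p M' A hA hpM h4 ⟨tB p M' h4, tB_mem_G1 p M' A hA hpM h4⟩ ≠ 0 := by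
  have := red1_tB_ne_const p M' A hA hpM h4 0
  rwa [map_zero] at this

/-- `red1 t⁻¹` is not a constant. -/
theorem red1_tBinv_ne_const (c : kA A) :
    red1 p M' A hA hpM h4 ⟨(tB p M' h4)⁻¹, tBinv_mem_G1 p M' A hA hpM h4⟩ ≠
      algebraMap (kA A) ↥(modularFunctionFieldFullC (kA A) M') c := by
  intro h
  have h1 := (side1 p M' A hA hpM h4).red_inv
    (g := ⟨tB p M' h4, tB_mem_G1 p M' A hA hpM h4⟩) (red1_tB_ne_zero p M' A hA hpM h4)
  have h2 : red1 p M' A hA hpM h4 ⟨(tB p M' h4)⁻¹, tBinv_mem_G1 p M' A hA hpM h4⟩ =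
      (red1 p M' A hA hpM h4 ⟨tB p M' h4, tB_mem_G1 p M' A hA hpM h4⟩)⁻¹ := h1
  rw [h2] at h
  apply red1_tB_ne_const p M' A hA hpM h4 c⁻¹
  rw [map_inv₀, ← h, inv_inv]

end Fermat.Agent.ORD.IFACEN.ChartTwo1
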