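/-
PROGRAMME ORD (S33), chapter IFACE-N (O6b "smooth discs", helper8): **the four concrete
`LevelFamily8.LevelFamily` of the N34 model of `X₀(M' p)`, hypothesis-free**: both charts
(`chart A t`, `chart A t⁻¹`), seen from both components (`(G1, red1)` through `∞`, `(G2, red2)`
through the cusp `0`), and the smooth residue discs (`DiscSys`) of all one-branch closed points.

* `on_iff_two`, `on_zero_iff_two` : level comparison for the component through the cusp `0`;
* `lf10`, `lf11` : on = component 1, off = component 2 (charts `t`, `t⁻¹`);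
* `lf20`, `lf21` : on = component 2, off = component 1;
* `exists_discSys10/11/20/21`.
-/
import Mathlib
import Fermat.Agent.ORD.IFACEN.BadInst8
import Fermat.Agent.ORD.IFACEN.ChartTwo1
import Fermat.Agent.ES.N34.CombW5

set_option autoImplicit false
set_option linter.unusedSectionVars false
set_option linter.style.longLine false
set_option synthInstance.maxHeartbeats 400000

open HahnSeries ModularCurve Polynomial AlgebraicCurve

noncomputable section

namespace Fermat.Agent.ORD.IFACEN.BadInstTwo8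

open Fermat.Agent.RED.Interface4 Fermat.Agent.RED.DESC.PlaceExtend27
  Fermat.Agent.RED.DESC Fermat.Agent.RED.NumInst4
  Fermat.Agent.RED.PUR.GaussGen8 Fermat.Agent.RED.PUR.GaussBridge10
  Fermat.Agent.RED.PUR.ChartGeneric22
  Fermat.Agent.RED.DESC.NumberFieldDVR27
  Fermat.Agent.RED.BASE.Interface12 Fermat.Agent.RED.BASE.EtaQuot12
  Fermat.Agent.ES.RED.ChartIntegralA1 Fermat.Agent.ES.RED.GaussUnit25
  Fermat.Agent.ES.N34.FrickeFK8
  Fermat.Agent.ES.N34.ModelDefs9 Fermat.Agent.ES.N34.ModelInput13 Fermat.Agent.ES.N34.NumData13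
  Fermat.Agent.ES.N34.NodalCore13 Fermat.Agent.ES.N34.NodalCL13
  Fermat.Agent.ORD.ANN.Side3
  Fermat.Agent.ORD.IFACEN.GaussBad1 Fermat.Agent.ORD.IFACEN.SideOne1
  Fermat.Agent.ORD.IFACEN.SideTwo1
  Fermat.Agent.ORD.IFACEN.BadLevelOne8 Fermat.Agent.ORD.IFACEN.BadFamily8
  Fermat.Agent.ORD.IFACEN.BadInst8
  Fermat.Agent.ORD.IFACEN.LevelFamily8 Fermat.Agent.ORD.IFACEN.LocAt8
  Fermat.Agent.ORD.IFACEN.DiscSys8

/-- fast instance (the canonical search costs seconds). -/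
local instance (priority := 100000) algKF (A : ValuationSubring Qbar) (M : ℕ) [NeZero M] :
    Algebra (kA A) ↥(modularFunctionFieldFullC (kA A) M) := inferInstance

/-- shortcut instance (typeclass search takes seconds to find it). -/
local instance (priority := high) algAKFK (A : ValuationSubring Qbar) (M : ℕ)
    (K : IntermediateField ℚ Qbar) : Algebra ↥(AK A K) ↥(FK M K) := inferInstance

variable (p M' : ℕ) [Fact p.Prime] [NeZero M'] (A : ValuationSubring Qbar)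
  (hA : A.LiesOverPrime p) (hpM : ¬ p ∣ M') (h4 : 4 ∣ M')

/-! ### one level, component through the cusp `0` -/

section Level

variable (K : IntermediateField ℚ Qbar) [FiniteDimensional ℚ K]

/-- `on_iff` for the component through the cusp `0`. -/
theorem on_iff_two {π : ↥(AK A K)} (hπ : IsUnif (AK A K) π)
    (hE : FK (M' * p) K ≤ fracField (AK A K)) (x : ↥(FK (M' * p) K)) :
    baseChangeHom (M' * p) K x ∈ G2 p M' A hA hpM h4 ↔ x ∈ O2 M' p hπ hE :=
  baseChange_mem_G2_iff p M' A hA hpM h4 K x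

/-- `on_zero_iff` for the component through the cusp `0`. -/
theorem on_zero_iff_two {π : ↥(AK A K)} (hπ : IsUnif (AK A K) π)
    (hE : FK (M' * p) K ≤ fracField (AK A K)) (x : ↥(FK (M' * p) K))
    (hx : x ∈ O2 M' p hπ hE) :
    red2 p M' A hA hpM h4 ⟨baseChangeHom (M' * p) K x,
      (on_iff_two p M' A hA hpM h4 K hπ hE x).2 hx⟩ = 0 ↔
      ∃ c ∈ O2 M' p hπ hE, x = algebraMap ↥(AK A K) ↥(FK (M' * p) K) π * c := by
  have hx' : ((frickeFK (M' * p) K x : FK (M' * p) K) : LaurentSeries K) ∈ gaussRing (AK A K) := hx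
  have hx1 : wN K M' p x ∈ O1 M' p hπ hE := hx
  have h1 := red2_baseChange_eq_zero_iff p M' A hA hpM h4 K x hx'
  have h2 := on_zero_iff_one p M' A hA hpM h4 K hπ hE (wN K M' p x) hx1
  have h3 := red1_baseChange_eq_zero_iff p M' A hA hpM h4 K (wN K M' p x) hx'
  have h4' : red2 p M' A hA hpM h4 ⟨baseChangeHom (M' * p) K x,
      (on_iff_two p M' A hA hpM h4 K hπ hE x).2 hx⟩ = 0 ↔
      ∃ c ∈ O1 M' p hπ hE, wN K M' p x = algebraMap ↥(AK A K) ↥(FK (M' * p) K) π * c :=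
    h1.trans (h3.symm.trans h2)
  rw [h4']
  constructor
  · rintro ⟨c, hc, e⟩
    refine ⟨wN K M' p c, (wN_mem_O2_iff M' p hπ hE c).2 hc, ?_⟩
    have := congrArg (wN K M' p) e
    rw [wN_wN, map_mul, Fermat.Agent.ES.N34.CombW5.wN_algebraMap_AK] at this
    exact this
  · rintro ⟨c, hc, rfl⟩
    refine ⟨wN K M' p c, hc, ?_⟩
    rw [map_mul, Fermat.Agent.ES.N34.CombW5.wN_algebraMap_AK]

end Level

/-! ### the charts in the second component (helper1's `ChartTwo1` in the `chart A t` vocabulary) -/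

theorem chart0_le_G2 {b : ↥(Fbar (M' * p))} (hb : b ∈ chart ↥A (tB p M' h4)) :
    b ∈ G2 p M' A hA hpM h4 :=
  Fermat.Agent.ORD.IFACEN.ChartTwo1.chart0_le_G2 p M' A hA hpM h4 hb

theorem chart1_le_G2 {b : ↥(Fbar (M' * p))} (hb : b ∈ chart ↥A (tB p M' h4)⁻¹) :
    b ∈ G2 p M' A hA hpM h4 :=
  Fermat.Agent.ORD.IFACEN.ChartTwo1.chart1_le_G2 p M' A hA hpM h4 hb

theorem inv_mem_G2 (g : ↥(G2 p M' A hA hpM h4)) (hg : red2 p M' A hA hpM h4 g ≠ 0) :
    ((g : ↥(Fbar (M' * p))))⁻¹ ∈ G2 p M' A hA hpM h4 :=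
  (side2 p M' A hA hpM h4).inv_mem (g := g) hg

theorem red2_tB_nonconst (c : kA A) :
    red2 p M' A hA hpM h4 ⟨tB p M' h4, chart0_le_G2 p M' A hA hpM h4 (self_mem_chart _)⟩ ≠
      algebraMap (kA A) ↥(modularFunctionFieldFullC (kA A) M') c :=
  Fermat.Agent.ORD.IFACEN.ChartTwo1.red2_tB_ne_const p M' A hA hpM h4 c

theorem red2_tB_inv_nonconst (c : kA A) :
    red2 p M' A hA hpM h4 ⟨(tB p M' h4)⁻¹, chart1_le_G2 p M' A hA hpM h4 (self_mem_chart _)⟩ ≠
      algebraMap (kA A) ↥(modularFunctionFieldFullC (kA A) M') c :=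
  Fermat.Agent.ORD.IFACEN.ChartTwo1.red2_tBinv_ne_const p M' A hA hpM h4 c

variable (MI : ModelInput 4 8 p M' A)

/-! ### `off_zero` for the two components -/

/-- `off_zero` with component 2 off. -/
theorem off_zero_two (i : Lvl (K0 MI)) (b : ↥(FK (M' * p) i.K))
    (hb2 : b ∈ O2 M' p (piK_unif hA MI i) (hEK MI i))
    (hb : baseChangeHom (M' * p) i.K b ∈ G2 p M' A hA hpM h4)
    (h0 : red2 p M' A hA hpM h4 ⟨_, hb⟩ = 0) :
    ∃ c ∈ O2 M' p (piK_unif hA MI i) (hEK MI i),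
      b = algebraMap ↥(AK A i.K) ↥(FK (M' * p) i.K) (piK hA MI i) * c :=
  (on_zero_iff_two p M' A hA hpM h4 i.K (piK_unif hA MI i) (hEK MI i) b hb2).1 h0

/-- `off_zero` with component 1 off. -/
theorem off_zero_one (i : Lvl (K0 MI)) (b : ↥(FK (M' * p) i.K))
    (hb1 : b ∈ O1 M' p (piK_unif hA MI i) (hEK MI i))
    (hb : baseChangeHom (M' * p) i.K b ∈ G1 p M' A hA hpM h4)
    (h0 : red1 p M' A hA hpM h4 ⟨_, hb⟩ = 0) :
    ∃ c ∈ O1 M' p (piK_unif hA MI i) (hEK MI i),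
      b = algebraMap ↥(AK A i.K) ↥(FK (M' * p) i.K) (piK hA MI i) * c :=
  (on_zero_iff_one p M' A hA hpM h4 i.K (piK_unif hA MI i) (hEK MI i) b hb1).1 h0

/-! ### component 1 on, component 2 off -/

/-- **`LevelFamily`: chart `t`, on = component through `∞`, off = component through `0`.** -/
theorem lf10 :
    LevelFamily (IsLocalRing.residue ↥A) (chart ↥A (tB p M' h4))
      (⟨tB p M' h4, self_mem_chart _⟩ : ↥(chart ↥A (tB p M' h4)))
      (G1 p M' A hA hpM h4) (red1 p M' A hA hpM h4) (G2 p M' A hA hpM h4) (red2 p M' A hA hpM h4)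
      (fun i : Lvl (K0 MI) => ↥(AK A i.K)) (fun i => ↥(FK (M' * p) i.K))
      (fun i => B0 A p (htK MI i)) (fun i => piK hA MI i)
      (fun i => baseChangeHom (M' * p) i.K)
      (fun i => O1 M' p (piK_unif hA MI i) (hEK MI i))
      (fun i => O2 M' p (piK_unif hA MI i) (hEK MI i)) :=
  levelFamily_one_zero p M' A hA hpM h4 MI (G2 p M' A hA hpM h4) (red2 p M' A hA hpM h4)
    (fun _ hb => chart0_le_G2 p M' A hA hpM h4 hb)
    (fun i b hb h0 => off_zero_two p M' A hA hpM h4 MI i b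
      ((cf00 p M' A hA MI i).le_off b b.2) hb h0)

/-- **`LevelFamily`: chart `t⁻¹`, on = component through `∞`, off = component through `0`.** -/
theorem lf11 :
    LevelFamily (IsLocalRing.residue ↥A) (chart ↥A (tB p M' h4)⁻¹)
      (⟨(tB p M' h4)⁻¹, self_mem_chart _⟩ : ↥(chart ↥A (tB p M' h4)⁻¹))
      (G1 p M' A hA hpM h4) (red1 p M' A hA hpM h4) (G2 p M' A hA hpM h4) (red2 p M' A hA hpM h4)
      (fun i : Lvl (K0 MI) => ↥(AK A i.K)) (fun i => ↥(FK (M' * p) i.K))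
      (fun i => B1 A p (htK MI i)) (fun i => piK hA MI i)
      (fun i => baseChangeHom (M' * p) i.K)
      (fun i => O1 M' p (piK_unif hA MI i) (hEK MI i))
      (fun i => O2 M' p (piK_unif hA MI i) (hEK MI i)) :=
  levelFamily_one_one p M' A hA hpM h4 MI (G2 p M' A hA hpM h4) (red2 p M' A hA hpM h4)
    (fun _ hb => chart1_le_G2 p M' A hA hpM h4 hb)
    (fun i b hb h0 => off_zero_two p M' A hA hpM h4 MI i b
      ((cf10 p M' A hA MI i).le_off b b.2) hb h0)

/-! ### component 2 on, component 1 off -/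

/-- **`LevelFamily`: chart `t`, on = component through `0`, off = component through `∞`.** -/
theorem lf20 :
    LevelFamily (IsLocalRing.residue ↥A) (chart ↥A (tB p M' h4))
      (⟨tB p M' h4, self_mem_chart _⟩ : ↥(chart ↥A (tB p M' h4)))
      (G2 p M' A hA hpM h4) (red2 p M' A hA hpM h4) (G1 p M' A hA hpM h4) (red1 p M' A hA hpM h4)
      (fun i : Lvl (K0 MI) => ↥(AK A i.K)) (fun i => ↥(FK (M' * p) i.K))
      (fun i => B0 A p (htK MI i)) (fun i => piK hA MI i)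
      (fun i => baseChangeHom (M' * p) i.K)
      (fun i => O2 M' p (piK_unif hA MI i) (hEK MI i))
      (fun i => O1 M' p (piK_unif hA MI i) (hEK MI i)) where
  res_surj := res_surj A
  res_eq_zero_iff := res_eq_zero_iff A
  const_on := const_mem2 p M' A hA hpM h4
  red_const_on := red2_const p M' A hA hpM h4
  le_Gon := fun _ hb => chart0_le_G2 p M' A hA hpM h4 hb
  le_Goff := fun _ hb => chart0_le_G1 p M' A hA hpM h4 hb
  inv_mem_on := inv_mem_G2 p M' A hA hpM h4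
  red_surj := red2_surjective p M' A hA hpM h4
  s_nonconst := red2_tB_nonconst p M' A hA hpM h4
  places := fun O hL hO hB => places_bad p M' h4 O hL hO (Or.inl (hB _ (self_mem_chart _)))
  pir := pir_bad p M' A hA hpM h4
  j_mem := fun i _ hb => baseChangeHom_mem_chart0 p M' A h4 i.K (htK MI i) hb
  pi_const := fun i => pi_const p M' A i.K (piK_unif hA MI i)
  noeth := fun i => (cf01 p M' A hA MI i).noeth
  le_on := fun i => (cf01 p M' A hA MI i).le_on
  le_off := fun i => (cf01 p M' A hA MI i).le_off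
  unif_on := fun i => (cf01 p M' A hA MI i).unif_on
  pi_nonunit_on := fun i => (cf01 p M' A hA MI i).pi_nonunit_on
  arch_on := fun i => (cf01 p M' A hA MI i).arch_on
  arch_off := fun i => (cf01 p M' A hA MI i).arch_off
  sat := fun i => (cf01 p M' A hA MI i).sat
  fracK := fun i => (cf01 p M' A hA MI i).fracK
  on_iff := fun i f => on_iff_two p M' A hA hpM h4 i.K (piK_unif hA MI i) (hEK MI i) f
  on_zero_iff := fun i f hf =>
    on_zero_iff_two p M' A hA hpM h4 i.K (piK_unif hA MI i) (hEK MI i) f hf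
  off_zero := fun i b h0 => off_zero_one p M' A hA hpM h4 MI i b
    ((cf01 p M' A hA MI i).le_off b b.2) _ h0
  smooth := fun i => (cf01 p M' A hA MI i).smooth
  isMaxK := fun _ φ => isMaxK p A hA φ
  desc := fun y S => desc_chart A (K0 MI) (M' * p) (tB p M' h4) (fun i => tN p (htK MI i))
    (fun i => baseChangeHom_tN p M' h4 i.K (htK MI i)) y S

/-- **`LevelFamily`: chart `t⁻¹`, on = component through `0`, off = component through `∞`.** -/
theorem lf21 :
    LevelFamily (IsLocalRing.residue ↥A) (chart ↥A (tB p M' h4)⁻¹)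
      (⟨(tB p M' h4)⁻¹, self_mem_chart _⟩ : ↥(chart ↥A (tB p M' h4)⁻¹))
      (G2 p M' A hA hpM h4) (red2 p M' A hA hpM h4) (G1 p M' A hA hpM h4) (red1 p M' A hA hpM h4)
      (fun i : Lvl (K0 MI) => ↥(AK A i.K)) (fun i => ↥(FK (M' * p) i.K))
      (fun i => B1 A p (htK MI i)) (fun i => piK hA MI i)
      (fun i => baseChangeHom (M' * p) i.K)
      (fun i => O2 M' p (piK_unif hA MI i) (hEK MI i))
      (fun i => O1 M' p (piK_unif hA MI i) (hEK MI i)) where
  res_surj := res_surj A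
  res_eq_zero_iff := res_eq_zero_iff A
  const_on := const_mem2 p M' A hA hpM h4
  red_const_on := red2_const p M' A hA hpM h4
  le_Gon := fun _ hb => chart1_le_G2 p M' A hA hpM h4 hb
  le_Goff := fun _ hb => chart1_le_G1 p M' A hA hpM h4 hb
  inv_mem_on := inv_mem_G2 p M' A hA hpM h4
  red_surj := red2_surjective p M' A hA hpM h4
  s_nonconst := red2_tB_inv_nonconst p M' A hA hpM h4
  places := fun O hL hO hB => places_bad p M' h4 O hL hO (Or.inr (hB _ (self_mem_chart _)))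
  pir := pir_bad p M' A hA hpM h4
  j_mem := fun i _ hb => baseChangeHom_mem_chart1 p M' A h4 i.K (htK MI i) hb
  pi_const := fun i => pi_const p M' A i.K (piK_unif hA MI i)
  noeth := fun i => (cf11 p M' A hA MI i).noeth
  le_on := fun i => (cf11 p M' A hA MI i).le_on
  le_off := fun i => (cf11 p M' A hA MI i).le_off
  unif_on := fun i => (cf11 p M' A hA MI i).unif_on
  pi_nonunit_on := fun i => (cf11 p M' A hA MI i).pi_nonunit_on
  arch_on := fun i => (cf11 p M' A hA MI i).arch_on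
  arch_off := fun i => (cf11 p M' A hA MI i).arch_off
  sat := fun i => (cf11 p M' A hA MI i).sat
  fracK := fun i => (cf11 p M' A hA MI i).fracK
  on_iff := fun i f => on_iff_two p M' A hA hpM h4 i.K (piK_unif hA MI i) (hEK MI i) f
  on_zero_iff := fun i f hf =>
    on_zero_iff_two p M' A hA hpM h4 i.K (piK_unif hA MI i) (hEK MI i) f hf
  off_zero := fun i b h0 => off_zero_one p M' A hA hpM h4 MI i b
    ((cf11 p M' A hA MI i).le_off b b.2) _ h0
  smooth := fun i => (cf11 p M' A hA MI i).smooth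
  isMaxK := fun _ φ => isMaxK p A hA φ
  desc := fun y S => desc_chart A (K0 MI) (M' * p) (tB p M' h4)⁻¹ (fun i => (tN p (htK MI i))⁻¹)
    (fun i => by rw [map_inv₀, baseChangeHom_tN p M' h4 i.K (htK MI i)]) y S

/-! ### the smooth residue discs -/

/-- closed point of `chart A t` on component 1 and off component 2. -/
theorem exists_discSys10 (χ₀ : ↥(chart ↥A (tB p M' h4)) →+* kA A)
    (hχ₀ : ∀ a : ↥A, χ₀ (algebraMap ↥A ↥(chart ↥A (tB p M' h4)) a) = IsLocalRing.residue ↥A a)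
    (hon : ∀ b : ↥(chart ↥A (tB p M' h4)),
      red1 p M' A hA hpM h4 ⟨(b : ↥(Fbar (M' * p))), chart0_le_G1 p M' A hA hpM h4 b.2⟩ = 0 →
        χ₀ b = 0)
    (b₀ : ↥(chart ↥A (tB p M' h4))) (hb₀ : χ₀ b₀ ≠ 0)
    (hoff : red2 p M' A hA hpM h4
      ⟨(b₀ : ↥(Fbar (M' * p))), chart0_le_G2 p M' A hA hpM h4 b₀.2⟩ = 0) :
    ∃ Q : Place (kA A) ↥(modularFunctionFieldFullC (kA A) M'),
      DiscSys A (IsLocalRing.residue ↥A) (locC (chart ↥A (tB p M' h4)) χ₀)
        ((lf10 p M' A hA hpM h4 MI).onComp χ₀ hon).redC (chiC (chart ↥A (tB p M' h4)) χ₀) Q :=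
  (lf10 p M' A hA hpM h4 MI).exists_discSys χ₀ hχ₀ hon b₀ hb₀ hoff

/-- closed point of `chart A t⁻¹` on component 1 and off component 2. -/
theorem exists_discSys11 (χ₀ : ↥(chart ↥A (tB p M' h4)⁻¹) →+* kA A)
    (hχ₀ : ∀ a : ↥A, χ₀ (algebraMap ↥A ↥(chart ↥A (tB p M' h4)⁻¹) a) = IsLocalRing.residue ↥A a)
    (hon : ∀ b : ↥(chart ↥A (tB p M' h4)⁻¹),
      red1 p M' A hA hpM h4 ⟨(b : ↥(Fbar (M' * p))), chart1_le_G1 p M' A hA hpM h4 b.2⟩ = 0 →
        χ₀ b = 0)
    (b₀ : ↥(chart ↥A (tB p M' h4)⁻¹)) (hb₀ : χ₀ b₀ ≠ 0)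
    (hoff : red2 p M' A hA hpM h4
      ⟨(b₀ : ↥(Fbar (M' * p))), chart1_le_G2 p M' A hA hpM h4 b₀.2⟩ = 0) :
    ∃ Q : Place (kA A) ↥(modularFunctionFieldFullC (kA A) M'),
      DiscSys A (IsLocalRing.residue ↥A) (locC (chart ↥A (tB p M' h4)⁻¹) χ₀)
        ((lf11 p M' A hA hpM h4 MI).onComp χ₀ hon).redC (chiC (chart ↥A (tB p M' h4)⁻¹) χ₀) Q :=
  (lf11 p M' A hA hpM h4 MI).exists_discSys χ₀ hχ₀ hon b₀ hb₀ hoff

/-- closed point of `chart A t` on component 2 and off component 1. -/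
theorem exists_discSys20 (χ₀ : ↥(chart ↥A (tB p M' h4)) →+* kA A)
    (hχ₀ : ∀ a : ↥A, χ₀ (algebraMap ↥A ↥(chart ↥A (tB p M' h4)) a) = IsLocalRing.residue ↥A a)
    (hon : ∀ b : ↥(chart ↥A (tB p M' h4)),
      red2 p M' A hA hpM h4 ⟨(b : ↥(Fbar (M' * p))), chart0_le_G2 p M' A hA hpM h4 b.2⟩ = 0 →
        χ₀ b = 0)
    (b₀ : ↥(chart ↥A (tB p M' h4))) (hb₀ : χ₀ b₀ ≠ 0)
    (hoff : red1 p M' A hA hpM h4
      ⟨(b₀ : ↥(Fbar (M' * p))), chart0_le_G1 p M' A hA hpM h4 b₀.2⟩ = 0) :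
    ∃ Q : Place (kA A) ↥(modularFunctionFieldFullC (kA A) M'),
      DiscSys A (IsLocalRing.residue ↥A) (locC (chart ↥A (tB p M' h4)) χ₀)
        ((lf20 p M' A hA hpM h4 MI).onComp χ₀ hon).redC (chiC (chart ↥A (tB p M' h4)) χ₀) Q :=
  (lf20 p M' A hA hpM h4 MI).exists_discSys χ₀ hχ₀ hon b₀ hb₀ hoff

/-- closed point of `chart A t⁻¹` on component 2 and off component 1. -/
theorem exists_discSys21 (χ₀ : ↥(chart ↥A (tB p M' h4)⁻¹) →+* kA A)
    (hχ₀ : ∀ a : ↥A, χ₀ (algebraMap ↥A ↥(chart ↥A (tB p M' h4)⁻¹) a) = IsLocalRing.residue ↥A a)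
    (hon : ∀ b : ↥(chart ↥A (tB p M' h4)⁻¹),
      red2 p M' A hA hpM h4 ⟨(b : ↥(Fbar (M' * p))), chart1_le_G2 p M' A hA hpM h4 b.2⟩ = 0 →
        χ₀ b = 0)
    (b₀ : ↥(chart ↥A (tB p M' h4)⁻¹)) (hb₀ : χ₀ b₀ ≠ 0)
    (hoff : red1 p M' A hA hpM h4
      ⟨(b₀ : ↥(Fbar (M' * p))), chart1_le_G1 p M' A hA hpM h4 b₀.2⟩ = 0) :
    ∃ Q : Place (kA A) ↥(modularFunctionFieldFullC (kA A) M'),
      DiscSys A (IsLocalRing.residue ↥A) (locC (chart ↥A (tB p M' h4)⁻¹) χ₀)
        ((lf21 p M' A hA hpM h4 MI).onComp χ₀ hon).redC (chiC (chart ↥A (tB p M' h4)⁻¹) χ₀) Q :=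
  (lf21 p M' A hA hpM h4 MI).exists_discSys χ₀ hχ₀ hon b₀ hb₀ hoff

end Fermat.Agent.ORD.IFACEN.BadInstTwo8
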