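/-
Programme ORD (S33), chapter IFACE-N (helper6): **from a centre map onto the closed points of the
model to helper8's `SmoothAtlas8.SmoothAtlas`** — the bookkeeping step "split the closed points into
one-branch points and nodes".

Input: a type `X` of closed points (e.g. `Centre8.Pts res B0 B1 tinv`) with a centre map
`c : Place L F → X` and local rings `ring : X → Subring F` such that `c P = x ↔ InDisc (ring x) P`
(`Centre8.centre_eq_inl_iff / centre_eq_inr_iff`), and a splitting `e : X ≃ Pt ⊕ E` into one-branch
points and nodes (e.g. `(Equiv.sumCompl IsNode).symm` up to `Sum.swap`).  For the one-branch points: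
their component, `ring ≤ G`, residue map, place and disc system, and `Q_inj`.

Output: `atlas : SmoothAtlas B F Ft ι E` with `Pt := Pt`, `C x := ring (e.symm (inl x))`,
`centre := e ∘ c`; `atlas_centre_inr_iff : centre P = inr n ↔ InDisc (ring (e.symm (inr n))) P`
(the shape of `AssembleN9.AssemblyData.ann_eq` for helper4's `ann = {P | InDisc C_e P}`);
`atlas_centre_smul` : a `σ` fixing the centre map `c` fixes the centre map of the atlas.
-/
import Mathlib
import Fermat.Agent.ORD.IFACEN.SmoothAtlas8

set_option autoImplicit false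
set_option linter.unusedSectionVars false
set_option linter.style.longLine false

namespace Fermat.Agent.ORD.IFACEN.AtlasSplit6

open AlgebraicCurve Fermat.Agent.X0.FF Fermat.Agent.RR.LSpace
open Fermat.Agent.ORD.ANN.Side3
open Fermat.Agent.ORD.IFACEN.DiscSys8 Fermat.Agent.ORD.IFACEN.DiscPlaces8
  Fermat.Agent.ORD.IFACEN.SmoothAtlas8

universe uL uF uk uFt uι uE uP uX

variable {L : Type uL} {F : Type uF} {k : Type uk} {Ft : Type uFt} [Field L] [Field F]
  [Algebra L F] [Field k] [Field Ft] [Algebra k Ft]
variable {B : Base L k} {ι : Type uι} {E : Type uE} {Pt : Type uP} {X : Type uX}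

section

variable (HL : LHyp L F) (side : ι → Side B F Ft)
  (c : Place L F → X) (ring : X → Subring F)
  (hc : ∀ P x, c P = x ↔ InDisc (ring x) P)
  (e : X ≃ Pt ⊕ E)
  (comp : Pt → ι)
  (le_G : ∀ x : Pt, ring (e.symm (Sum.inl x)) ≤ (side (comp x)).G)
  (χ : ∀ x : Pt, ring (e.symm (Sum.inl x)) →+* k)
  (Q : Pt → Place k Ft)
  (sys : ∀ x : Pt, DiscSys B.A B.res (ring (e.symm (Sum.inl x)))
    (redOn (side (comp x)) (le_G x)) (χ x) (Q x))
  (Q_inj : ∀ x y, comp x = comp y → Q x = Q y → x = y)

/-- **the smooth atlas of a split centre map.** -/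
def atlas : SmoothAtlas B F Ft ι E where
  HL := HL
  side := side
  Pt := Pt
  comp := comp
  C := fun x => ring (e.symm (Sum.inl x))
  le_G := le_G
  χ := χ
  Q := Q
  sys := sys
  centre := fun P => e (c P)
  centre_inl := by
    intro P x
    rw [← hc P (e.symm (Sum.inl x)), Equiv.eq_symm_apply]
  Q_inj := Q_inj

@[simp] theorem atlas_centre (P : Place L F) :
    (atlas HL side c ring hc e comp le_G χ Q sys Q_inj).centre P = e (c P) := rfl

@[simp] theorem atlas_side : (atlas HL side c ring hc e comp le_G χ Q sys Q_inj).side = side := rfl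

@[simp] theorem atlas_HL : (atlas HL side c ring hc e comp le_G χ Q sys Q_inj).HL = HL := rfl

include hc in
/-- the annulus of a node is the fibre of the centre map. -/
theorem atlas_centre_inr_iff (P : Place L F) (n : E) :
    (atlas HL side c ring hc e comp le_G χ Q sys Q_inj).centre P = Sum.inr n ↔
      InDisc (ring (e.symm (Sum.inr n))) P := by
  rw [← hc P (e.symm (Sum.inr n)), Equiv.eq_symm_apply]
  exact Iff.rfl

/-- an automorphism fixing the centre map fixes the centre map of the atlas. -/
theorem atlas_centre_smul {Γ : Type*} [SMul Γ (Place L F)] (σ : Γ)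
    (h : ∀ P : Place L F, c (σ • P) = c P) (P : Place L F) :
    (atlas HL side c ring hc e comp le_G χ Q sys Q_inj).centre (σ • P) =
      (atlas HL side c ring hc e comp le_G χ Q sys Q_inj).centre P := by
  rw [atlas_centre, atlas_centre, h P]

end

/-! ### the splitting by a predicate -/

/-- the splitting of `X` by a predicate `IsNode` (nodes to the right). -/
noncomputable def splitEquiv (IsNode : X → Prop) : X ≃ {x : X // ¬ IsNode x} ⊕ {x : X // IsNode x} := by
  classical
  exact ((Equiv.sumComm _ _).trans (Equiv.sumCompl IsNode)).symm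

theorem splitEquiv_symm_inl (IsNode : X → Prop) (x : {x : X // ¬ IsNode x}) :
    (splitEquiv IsNode).symm (Sum.inl x) = (x : X) := by
  classical
  simp [splitEquiv]

theorem splitEquiv_symm_inr (IsNode : X → Prop) (x : {x : X // IsNode x}) :
    (splitEquiv IsNode).symm (Sum.inr x) = (x : X) := by
  classical
  simp [splitEquiv]

end Fermat.Agent.ORD.IFACEN.AtlasSplit6
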