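/-
PROGRAMME ORD (S33), chapter IFACE-N (O6b "smooth discs", helper8): **the places of a smooth residue
disc**.

`h : DiscSys A res C red χ Q` (file `DiscSys8`), `HL : LHyp L F`.  A place `P` of `F / L` lies in the
disc when `C ⊂ O_P` (`InDisc C P`).  Then

* `valA h HL hP : C →+* A` : the value map `c ↦ c(P)`; its values lie in `A` and
  `res (c(P)) = χ c` AUTOMATICALLY (`res_valA`) — so "`C ⊂ O_P`" is the same as "the centre of `P` is
  the closed point of `C`";
* `exists_peel` : the peeling uniformiser `u` at `P`;  `ord_unif_eq_one` : `ord_P u = 1`;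
  `exists_factor` : every `c ≠ 0` of `C` is `u ^ i * c₀` with `c₀(P) ≠ 0`;
* `eq_of_valA_unif_eq_zero` (SEP) : `u` vanishes at no other place of the disc;
* `exists_inDisc_ord_pos` (SURJ) : every `z ∈ C` with `χ z = 0`, `red z ≠ 0` has a zero in the disc
  (Chevalley's extension theorem; NO completion, NO Hensel, NO passage between finite levels).
-/
import Mathlib
import Fermat.Agent.ORD.IFACEN.DiscSys8
import Fermat.Agent.ES.HECKE.FundIdentity19

set_option autoImplicit false
set_option linter.unusedSectionVars false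
set_option linter.style.longLine false

namespace Fermat.Agent.ORD.IFACEN.DiscPlaces8

open AlgebraicCurve Fermat.Agent.X0.FF Fermat.Agent.RR.LSpace Fermat.Agent.MW.EMB.Value6
open Fermat.Agent.ORD.IFACEN.DiscSys8

variable {L F k Ft : Type*} [Field L] [Field F] [Algebra L F] [Field k] [Field Ft] [Algebra k Ft]

/-- `P` lies in the residue disc of (the closed point of) `C`. -/
def InDisc (C : Subring F) (P : Place L F) : Prop := ∀ c ∈ C, c ∈ P.toValuationSubring

variable {A : ValuationSubring L} {res : A →+* k} {C : Subring F} {red : C →+* Ft}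
  {χ : C →+* k} {Q : Place k Ft}

section Value

variable (h : DiscSys A res C red χ Q) (HL : LHyp L F) {P : Place L F} (hP : InDisc C P)

/-- the inclusion `C ⊂ O_P`. -/
def toPlace : C →+* P.toValuationSubring :=
  Subring.inclusion (S := C) (T := P.toValuationSubring.toSubring) (fun c hc => hP c hc)

@[simp] theorem coe_toPlace (c : C) : ((toPlace hP c : P.toValuationSubring) : F) = c := rfl

/-- the value map with values in `L`. -/
noncomputable def valL : C →+* L := (val HL P).comp (toPlace hP)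

include h in
theorem valL_const (a : A) : valL HL hP (h.const a) = a := by
  show val HL P (toPlace hP (h.const a)) = a
  have : toPlace hP (h.const a) = algebraMap L P.toValuationSubring (a : L) := Subtype.ext rfl
  rw [this, val_algebraMap]

theorem valL_eq_zero_iff (c : C) : valL HL hP c = 0 ↔ (c : F) = 0 ∨ 0 < P.ord (c : F) :=
  val_eq_zero_iff_ord HL P (toPlace hP c)

include h in
/-- the key point: a function vanishing at the closed point has its value in the maximal ideal. -/
theorem valL_mem_of_chi_eq_zero {c : C} (hc : χ c = 0) :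
    ∃ hm : valL HL hP c ∈ A, ¬ IsUnit (⟨valL HL hP c, hm⟩ : A) := by
  set lam : L := valL HL hP c with hlam
  by_cases hbad : ∃ hm : lam ∈ A, ¬ IsUnit (⟨lam, hm⟩ : A)
  · exact hbad
  exfalso
  -- `lam ≠ 0` and `lam⁻¹ ∈ A`
  have hinv : lam ≠ 0 ∧ lam⁻¹ ∈ A := by
    by_cases hm : lam ∈ A
    · have hu : IsUnit (⟨lam, hm⟩ : A) := by
        by_contra hnu
        exact hbad ⟨hm, hnu⟩
      obtain ⟨b, hb⟩ := isUnit_iff_exists_inv.mp hu
      have h1 : lam * (b : L) = 1 := congrArg Subtype.val hb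
      have h0 : lam ≠ 0 := by
        rintro h0
        rw [h0, zero_mul] at h1
        exact zero_ne_one h1
      refine ⟨h0, ?_⟩
      have : lam⁻¹ = (b : L) := inv_eq_of_mul_eq_one_right h1
      rw [this]
      exact b.2
    · refine ⟨?_, (A.mem_or_inv_mem lam).resolve_left hm⟩
      rintro h0
      exact hm (h0 ▸ A.zero_mem)
  obtain ⟨h0, hmem⟩ := hinv
  set mu : A := ⟨lam⁻¹, hmem⟩ with hmu
  set w : C := 1 - h.const mu * c with hw
  have hχw : χ w ≠ 0 := by
    rw [hw, map_sub, map_mul, hc, mul_zero, sub_zero, map_one]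
    exact one_ne_zero
  have hu : IsUnit (valL HL hP w) := (h.isUnit_of_chi hχw).map _
  have hz : valL HL hP w = 0 := by
    rw [hw, map_sub, map_mul, map_one, valL_const h HL hP, ← hlam]
    show 1 - lam⁻¹ * lam = 0
    rw [inv_mul_cancel₀ h0, sub_self]
  rw [hz] at hu
  exact not_isUnit_zero hu

include h in
theorem valL_mem (c : C) : valL HL hP c ∈ A := by
  obtain ⟨a, ha⟩ := h.exists_res_eq_chi c
  have h0 : χ (c - h.const a) = 0 := by rw [map_sub, h.chi_const', ha, sub_self]
  obtain ⟨hm, -⟩ := valL_mem_of_chi_eq_zero h HL hP h0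
  rw [map_sub, valL_const h HL hP] at hm
  have := A.add_mem _ _ hm a.2
  rwa [sub_add_cancel] at this

/-- **the value map** `c ↦ c(P) ∈ A`. -/
noncomputable def valA : C →+* A :=
  (valL HL hP).codRestrict A.toSubring (fun c => valL_mem h HL hP c)

theorem coe_valA (c : C) : ((valA h HL hP c : A) : L) = valL HL hP c := rfl

theorem valA_const (a : A) : valA h HL hP (h.const a) = a :=
  Subtype.ext (valL_const h HL hP a)

theorem valA_eq_zero_iff (c : C) : valA h HL hP c = 0 ↔ (c : F) = 0 ∨ 0 < P.ord (c : F) := by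
  rw [← valL_eq_zero_iff HL hP c, ← coe_valA h HL hP c]
  exact ⟨fun h0 => by rw [h0]; rfl, fun h0 => Subtype.ext h0⟩

/-- **the centre of `P` is the closed point of `C`**. -/
theorem res_valA (c : C) : res (valA h HL hP c) = χ c := by
  obtain ⟨a, ha⟩ := h.exists_res_eq_chi c
  have h0 : χ (c - h.const a) = 0 := by rw [map_sub, h.chi_const', ha, sub_self]
  obtain ⟨hm, hnu⟩ := valL_mem_of_chi_eq_zero h HL hP h0
  have h1 : valA h HL hP (c - h.const a) = ⟨valL HL hP (c - h.const a), hm⟩ := Subtype.ext rfl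
  have h2 : res (valA h HL hP (c - h.const a)) = 0 := by
    rw [h1]; exact (h.res_eq_zero_iff _).mpr hnu
  rw [map_sub, valA_const, map_sub, sub_eq_zero] at h2
  rw [h2, ha]

include hP in
theorem ord_nonneg (c : C) : 0 ≤ P.ord (c : F) := ord_nonneg_of_mem P (hP c c.2)

theorem valA_ne_zero_of_chi {c : C} (hc : χ c ≠ 0) : valA h HL hP c ≠ 0 := by
  intro h0
  apply hc
  rw [← res_valA h HL hP c, h0, map_zero]

theorem ord_eq_zero_of_valA_ne_zero {c : C} (hc : valA h HL hP c ≠ 0) : P.ord (c : F) = 0 := by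
  have h1 := ord_nonneg hP c
  by_contra hne
  exact hc ((valA_eq_zero_iff h HL hP c).mpr (Or.inr (lt_of_le_of_ne h1 (Ne.symm hne))))

include h HL hP in
theorem ord_eq_zero_of_chi {c : C} (hc : χ c ≠ 0) : P.ord (c : F) = 0 :=
  ord_eq_zero_of_valA_ne_zero h HL hP (valA_ne_zero_of_chi h HL hP hc)

theorem ord_pos_of_valA_eq_zero {c : C} (hc0 : c ≠ 0) (hc : valA h HL hP c = 0) :
    0 < P.ord (c : F) := by
  rcases (valA_eq_zero_iff h HL hP c).mp hc with h0 | h0
  · exact absurd (Subtype.ext h0) hc0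
  · exact h0

/-- `c - c(P)` vanishes at `P`. -/
theorem valA_sub_const (c : C) : valA h HL hP (c - h.const (valA h HL hP c)) = 0 := by
  rw [map_sub, valA_const, sub_self]

end Value

/-! ### the peeling uniformiser -/

section Peel

variable (h : DiscSys A res C red χ Q) (HL : LHyp L F) {P : Place L F} (hP : InDisc C P)

/-- `u` is a peeling uniformiser at `P`. -/
def IsPeel (u : C) : Prop :=
  valA h HL hP u = 0 ∧ Q.ord (red u) = 1 ∧ ∀ z : C, valA h HL hP z = 0 → ∃ z' : C, z = u * z'

theorem exists_peel : ∃ u : C, IsPeel h HL hP u :=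
  h.peel (valA h HL hP) (valA_const h HL hP)

variable {h HL hP}

theorem IsPeel.red_ne_zero {u : C} (hu : IsPeel h HL hP u) : red u ≠ 0 := by
  intro h0
  have := hu.2.1
  rw [h0, Place.ord_zero] at this
  exact zero_ne_one this

theorem IsPeel.ne_zero {u : C} (hu : IsPeel h HL hP u) : u ≠ 0 := h.ne_zero_of_red hu.red_ne_zero

theorem IsPeel.ord_pos {u : C} (hu : IsPeel h HL hP u) : 0 < P.ord (u : F) :=
  ord_pos_of_valA_eq_zero h HL hP hu.ne_zero hu.1

/-- every nonzero element of `C` is a power of `u` times an element not vanishing at `P`. -/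
theorem IsPeel.exists_factor {u : C} (hu : IsPeel h HL hP u) (c : C) (hc : c ≠ 0) :
    ∃ (i : ℕ) (c₀ : C), c = u ^ i * c₀ ∧ valA h HL hP c₀ ≠ 0 := by
  have key : ∀ n : ℕ, ∀ c : C, c ≠ 0 → P.ord (c : F) = n →
      ∃ (i : ℕ) (c₀ : C), c = u ^ i * c₀ ∧ valA h HL hP c₀ ≠ 0 := by
    intro n
    induction n using Nat.strong_induction_on with
    | _ n ih =>
      intro c hc hn
      by_cases hv : valA h HL hP c = 0
      · obtain ⟨c', hc'⟩ := hu.2.2 c hv
        have hc'0 : c' ≠ 0 := by
          rintro rfl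
          rw [mul_zero] at hc'
          exact hc hc'
        have hord : P.ord (c : F) = P.ord (u : F) + P.ord (c' : F) := by
          rw [hc']
          exact P.ord_mul (h.coe_ne_zero hu.ne_zero) (h.coe_ne_zero hc'0)
        have h1 := hu.ord_pos
        have h2 := ord_nonneg hP c'
        obtain ⟨m, hm⟩ := Int.eq_ofNat_of_zero_le h2
        have hlt : m < n := by omega
        obtain ⟨i, c₀, e, hv₀⟩ := ih m hlt c' hc'0 hm
        refine ⟨i + 1, c₀, ?_, hv₀⟩
        rw [hc', e, pow_succ]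
        ring
      · exact ⟨0, c, by rw [pow_zero, one_mul], hv⟩
  obtain ⟨n, hn⟩ := Int.eq_ofNat_of_zero_le (ord_nonneg hP c)
  exact key n c hc hn

theorem IsPeel.ord_factor {u : C} (hu : IsPeel h HL hP u) {i : ℕ} {c₀ : C}
    (hv : valA h HL hP c₀ ≠ 0) :
    P.ord ((u ^ i * c₀ : C) : F) = i * P.ord (u : F) := by
  have hc₀ : c₀ ≠ 0 := by
    rintro rfl
    exact hv (map_zero _)
  have h1 : ((u ^ i * c₀ : C) : F) = (u : F) ^ i * (c₀ : F) := by push_cast; rfl
  rw [h1, P.ord_mul (pow_ne_zero _ (h.coe_ne_zero hu.ne_zero)) (h.coe_ne_zero hc₀), ord_pow,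
    ord_eq_zero_of_valA_ne_zero h HL hP hv, add_zero]

/-- **the peeling uniformiser is a uniformiser of `P`.** -/
theorem IsPeel.ord_eq_one {u : C} (hu : IsPeel h HL hP u) : P.ord (u : F) = 1 := by
  obtain ⟨π, hπ⟩ := ffp_exists_irreducible P
  have hπ1 : P.ord (π : F) = 1 := P.ord_coe_irreducible hπ
  have hπ0 : (π : F) ≠ 0 := fun h0 => hπ.ne_zero (Subtype.ext h0)
  obtain ⟨a, b, hb, hab⟩ := h.frac (π : F)
  have ha : a ≠ 0 := by
    rintro rfl
    have : (π : F) * (b : F) = 0 := by rw [hab]; rfl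
    rcases mul_eq_zero.mp this with h1 | h1
    · exact hπ0 h1
    · exact h.coe_ne_zero hb h1
  obtain ⟨i, a₀, ea, hva⟩ := hu.exists_factor a ha
  obtain ⟨j, b₀, eb, hvb⟩ := hu.exists_factor b hb
  have h1 : P.ord ((π : F) * (b : F)) = 1 + P.ord (b : F) := by
    rw [P.ord_mul hπ0 (h.coe_ne_zero hb), hπ1]
  rw [hab, ea, eb, hu.ord_factor hva, hu.ord_factor hvb] at h1
  have hm := hu.ord_pos
  have h2 : ((i : ℤ) - j) * P.ord (u : F) = 1 := by linarith
  have h3 : P.ord (u : F) ∣ 1 := ⟨(i : ℤ) - j, by rw [mul_comm]; exact h2.symm⟩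
  exact Int.eq_one_of_dvd_one hm.le h3

/-- **(SEP)**: the peeling uniformiser at `P` vanishes at no other place of the disc. -/
theorem IsPeel.eq_of_valA_eq_zero {u : C} (hu : IsPeel h HL hP u) {P' : Place L F}
    (hP' : InDisc C P') (hz : valA h HL hP' u = 0) : P' = P := by
  -- the two value maps agree
  have hval : ∀ c : C, valA h HL hP' c = valA h HL hP c := by
    intro c
    obtain ⟨z', hz'⟩ := hu.2.2 _ (valA_sub_const h HL hP c)
    have h1 : valA h HL hP' (c - h.const (valA h HL hP c)) = 0 := by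
      rw [hz', map_mul, hz, zero_mul]
    rw [map_sub, valA_const, sub_eq_zero] at h1
    exact h1
  -- `O_P ⊂ O_{P'}`
  have hle : P.toValuationSubring ≤ P'.toValuationSubring := by
    intro f hf
    rcases eq_or_ne f 0 with rfl | hf0
    · exact zero_mem _
    obtain ⟨a, b, hb, hab⟩ := h.frac f
    have ha : a ≠ 0 := by
      rintro rfl
      have : f * (b : F) = 0 := by rw [hab]; rfl
      rcases mul_eq_zero.mp this with h1 | h1
      · exact hf0 h1
      · exact h.coe_ne_zero hb h1
    obtain ⟨i, a₀, ea, hva⟩ := hu.exists_factor a ha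
    obtain ⟨j, b₀, eb, hvb⟩ := hu.exists_factor b hb
    have hfo : 0 ≤ P.ord f := ord_nonneg_of_mem P hf
    have h1 : P.ord (f * (b : F)) = P.ord f + P.ord (b : F) := P.ord_mul hf0 (h.coe_ne_zero hb)
    rw [hab, ea, eb, hu.ord_factor hva, hu.ord_factor hvb, hu.ord_eq_one] at h1
    have hij : j ≤ i := by
      have : (j : ℤ) ≤ i := by linarith
      exact_mod_cast this
    -- `f * b₀ = u^(i-j) * a₀`
    have hu0 : (u : F) ≠ 0 := h.coe_ne_zero hu.ne_zero
    have hb₀ : b₀ ≠ 0 := by
      rintro rfl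
      exact hvb (map_zero _)
    have hb₀F : (b₀ : F) ≠ 0 := h.coe_ne_zero hb₀
    have h2 : f * (b₀ : F) = (u : F) ^ (i - j) * (a₀ : F) := by
      have e1 : f * ((u : F) ^ j * (b₀ : F)) = (u : F) ^ i * (a₀ : F) := by
        have := hab
        rw [ea, eb] at this
        push_cast at this
        exact this
      have e2 : (u : F) ^ i = (u : F) ^ j * (u : F) ^ (i - j) := by
        rw [← pow_add, Nat.add_sub_cancel' hij]
      rw [e2] at e1
      have e3 : (u : F) ^ j * (f * (b₀ : F)) = (u : F) ^ j * ((u : F) ^ (i - j) * (a₀ : F)) := by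
        linear_combination e1
      exact mul_left_cancel₀ (pow_ne_zero _ hu0) e3
    have hvb' : valA h HL hP' b₀ ≠ 0 := by rw [hval]; exact hvb
    have hb₀' : P'.ord (b₀ : F) = 0 := ord_eq_zero_of_valA_ne_zero h HL hP' hvb'
    have h3 : f = (u : F) ^ (i - j) * (a₀ : F) * (b₀ : F)⁻¹ := by
      rw [← h2]; field_simp
    rw [h3]
    refine mul_mem (mul_mem (pow_mem (hP' _ u.2) _) (hP' _ a₀.2)) ?_
    apply mem_of_ord_nonneg
    rw [Place.ord_inv, hb₀', neg_zero]
  have := Fermat.Agent.ES.HECKE.FundIdentity19.valuationSubring_eq_of_le P P'.toValuationSubring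
    hle P'.ne_top'
  exact Place.ext this

end Peel

/-! ### (SURJ): zeros exist in the disc -/

section Surj

variable (h : DiscSys A res C red χ Q) (HL : LHyp L F)

include h in
/-- a non-unit of `C` with nonzero reduction divides no nonzero constant. -/
theorem not_dvd_const {z : C} (hχ : χ z = 0) (hr : red z ≠ 0) (q : C) (a : A) (ha : a ≠ 0)
    (e : z * q = h.const a) : False := by
  have haF : algebraMap L F (a : L) ≠ 0 := by
    rw [Ne, map_eq_zero]
    exact fun h0 => ha (Subtype.ext h0)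
  have hq : q ≠ 0 := by
    rintro rfl
    rw [mul_zero] at e
    exact haF (congrArg Subtype.val e).symm
  obtain ⟨β, q', hq', hrq'⟩ := h.content q hq
  have hβ : (β : L) ≠ 0 := by
    intro h0
    rw [h0, map_zero, zero_mul] at hq'
    exact h.coe_ne_zero hq hq'
  -- `z * q' = a / β`, a constant
  have e1 : ((z * q' : C) : F) = algebraMap L F ((a : L) / (β : L)) := by
    have e0 : (z : F) * (q : F) = algebraMap L F (a : L) := congrArg Subtype.val e
    rw [hq'] at e0
    have hβF : algebraMap L F (β : L) ≠ 0 := by rwa [Ne, map_eq_zero]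
    rw [map_div₀, eq_div_iff hβF]
    push_cast
    rw [← e0]; ring
  have hmem : (a : L) / (β : L) ∈ A := h.mem_A_of_const_mem (by rw [← e1]; exact (z * q').2)
  have e2 : z * q' = h.const ⟨_, hmem⟩ := Subtype.ext e1
  have h1 : red (z * q') ≠ 0 := by rw [map_mul]; exact mul_ne_zero hr hrq'
  rw [e2, h.red_const'] at h1
  have h2 : res ⟨_, hmem⟩ ≠ 0 := fun h0 => h1 (by rw [h0, map_zero])
  have h3 := congrArg χ e2
  rw [map_mul, hχ, zero_mul, h.chi_const'] at h3
  exact h2 h3.symm

include h in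
/-- **(SURJ)**: a function vanishing at the closed point, with nonzero reduction, has a zero in
the residue disc. -/
theorem exists_inDisc_ord_pos {z : C} (hχ : χ z = 0) (hr : red z ≠ 0) :
    ∃ P : Place L F, InDisc C P ∧ 0 < P.ord (z : F) := by
  classical
  -- a prime of `C` containing `z` and no nonzero constant
  let S : Submonoid C :=
    { carrier := {c | ∃ a : A, a ≠ 0 ∧ c = h.const a}
      mul_mem' := by
        rintro _ _ ⟨a, ha, rfl⟩ ⟨b, hb, rfl⟩
        exact ⟨a * b, mul_ne_zero ha hb, (h.const_mul a b).symm⟩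
      one_mem' := ⟨1, one_ne_zero, h.const_one.symm⟩ }
  have hdisj : Disjoint (Ideal.span {z} : Set C) (S : Set C) := by
    rw [Set.disjoint_left]
    rintro c hc ⟨a, ha, rfl⟩
    obtain ⟨q, hq⟩ := Ideal.mem_span_singleton'.mp hc
    exact not_dvd_const h hχ hr q a ha (by rw [mul_comm]; exact hq)
  obtain ⟨𝔮, h𝔮, hz𝔮, h𝔮S⟩ := Ideal.exists_le_prime_disjoint (Ideal.span {z}) S hdisj
  obtain ⟨O, hO⟩ := (LocalSubring.ofPrime C 𝔮).exists_le_valuationSubring
  have hCO : ∀ c ∈ C, c ∈ O := fun c hc => hO.1 (LocalSubring.le_ofPrime C 𝔮 hc)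
  have hz𝔮' : z ∈ 𝔮 := hz𝔮 (Ideal.mem_span_singleton_self z)
  have hz0 : (z : F) ≠ 0 := h.coe_ne_zero (h.ne_zero_of_red hr)
  -- `z` is a non-unit of `O`
  have hzO : (z : F)⁻¹ ∉ O := by
    intro hinv
    -- `z` is a unit of `O`, hence of the localisation, hence not in `𝔮`
    have hzmem : (z : F) ∈ (LocalSubring.ofPrime C 𝔮).toSubring := LocalSubring.le_ofPrime C 𝔮 z.2
    have hu : IsUnit (Subring.inclusion hO.1 ⟨(z : F), hzmem⟩) := by
      refine isUnit_iff_exists_inv.mpr ⟨⟨(z : F)⁻¹, hinv⟩, Subtype.ext ?_⟩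
      show (z : F) * (z : F)⁻¹ = 1
      exact mul_inv_cancel₀ hz0
    have hu' : IsUnit (⟨(z : F), hzmem⟩ : (LocalSubring.ofPrime C 𝔮).toSubring) :=
      hO.2.map_nonunit _ hu
    have : (⟨(z : F), hzmem⟩ : (LocalSubring.ofPrime C 𝔮).toSubring) =
        algebraMap C (LocalSubring.ofPrime C 𝔮).toSubring z := Subtype.ext rfl
    rw [this] at hu'
    exact (IsLocalization.AtPrime.isUnit_to_map_iff (LocalSubring.ofPrime C 𝔮).toSubring 𝔮 z).mp hu'
      hz𝔮'
  -- constants are units of `O`
  have hLO : ∀ c : L, algebraMap L F c ∈ O := by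
    intro c
    rcases eq_or_ne c 0 with rfl | hc0
    · rw [map_zero]; exact zero_mem _
    -- `c` or `c⁻¹` lies in `A`
    have key : ∀ a : A, a ≠ 0 → (algebraMap L F (a : L))⁻¹ ∈ O := by
      intro a ha
      have hnot : h.const a ∉ 𝔮 := fun hmem =>
        Set.disjoint_left.mp h𝔮S hmem ⟨a, ha, rfl⟩
      have hu : IsUnit (algebraMap C (LocalSubring.ofPrime C 𝔮).toSubring (h.const a)) :=
        (IsLocalization.AtPrime.isUnit_to_map_iff (LocalSubring.ofPrime C 𝔮).toSubring 𝔮 _).mpr
          hnot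
      obtain ⟨b, hb⟩ := isUnit_iff_exists_inv.mp hu
      have h1 : algebraMap L F (a : L) * (b : F) = 1 := congrArg Subtype.val hb
      have : (algebraMap L F (a : L))⁻¹ = (b : F) := inv_eq_of_mul_eq_one_right h1
      rw [this]
      exact hO.1 b.2
    rcases A.mem_or_inv_mem c with hcA | hcA
    · exact hCO _ (h.const_mem ⟨c, hcA⟩)
    · have hne : (⟨c⁻¹, hcA⟩ : A) ≠ 0 := fun h0 => inv_ne_zero hc0 (congrArg Subtype.val h0)
      have := key ⟨c⁻¹, hcA⟩ hne
      simpa using this
  have hOtop : O ≠ ⊤ := by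
    intro htop
    apply hzO
    rw [htop]
    exact ValuationSubring.mem_top _
  obtain ⟨P, hPO⟩ := h.places O hLO hOtop hCO
  refine ⟨P, fun c hc => by rw [hPO]; exact hCO c hc, ?_⟩
  have hmem : (z : F) ∈ P.toValuationSubring := by rw [hPO]; exact hCO _ z.2
  have h1 := ord_nonneg_of_mem P hmem
  by_contra hnp
  have h2 : P.ord (z : F) = 0 := by omega
  apply hzO
  rw [← hPO]
  apply mem_of_ord_nonneg
  rw [Place.ord_inv, h2, neg_zero]

end Surj

end Fermat.Agent.ORD.IFACEN.DiscPlaces8
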