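/-
PROGRAMME ORD (S33), chapter IFACE-N (O6b "smooth discs", helper8): **the centre of a place on a
model over `A`**.

`L ⊇ A` a valuation ring of the (algebraically closed) constant field, `res : A →+* k`, `F / L` a
function field (`HL : LHyp L F`).  For a place `P` of `F / L`:

* `compVS HL A P : ValuationSubring F` — the COMPOSITE valuation ring `{f ∈ O_P | f(P) ∈ A}`;
  `valT : compVS →+* A` the value map, `valT_algebraMap`, `valT_eq_zero_iff`;
* `OnChart HL BA P` (`BA ⊂ F` an `A`-subalgebra, a chart of the model) : `BA ⊂ compVS`, i.e. `P` is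
  centred on the chart; `chiP res HL h : BA →+* k` the CENTRE of `P`, a closed point of the special
  fibre of the chart (`chiP_const`);  `onChart_chart_iff` : for the integral closure `chart A t` of
  `A[t]` in `F`, `P` is centred on the chart iff `t ∈ compVS`, i.e. `t(P) ∈ A`;
* `inDisc_locC_iff` : **`locC BA χ₀ ⊂ O_P` iff `P` is centred on the chart with centre `χ₀`**
  (so `DiscPlaces8.InDisc` of the local ring is the fibre of the centre map);
* two charts `B0 ∋ t`, `B1 ∋ t⁻¹` : `CPt res BA` (closed points), `Pts` (closed points of chart `0`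
  and closed points at infinity `t⁻¹ = 0` of chart `1`), `centre : Place L F → Pts`,
  `centre_eq_inl_iff`, `centre_eq_inr_iff`.
-/
import Mathlib
import Fermat.Agent.ORD.IFACEN.LocAt8
import Fermat.Agent.ORD.IFACEN.DiscPlaces8
import Fermat.Agent.RED.PUR.ChartGeneric22

set_option autoImplicit false
set_option linter.unusedSectionVars false
set_option linter.style.longLine false

namespace Fermat.Agent.ORD.IFACEN.Centre8

open AlgebraicCurve Fermat.Agent.X0.FF Fermat.Agent.RR.LSpace Fermat.Agent.MW.EMB.Value6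
open Fermat.Agent.ORD.IFACEN.LocAt8 Fermat.Agent.ORD.IFACEN.DiscPlaces8
open Fermat.Agent.RED.PUR.ChartGeneric22

variable {L F k : Type*} [Field L] [Field F] [Algebra L F] [Field k]

/-! ### the composite valuation ring -/

section Comp

variable (HL : LHyp L F) (A : ValuationSubring L) (P : Place L F)

theorem val_mk_add {f g : F} (hf : f ∈ P.toValuationSubring) (hg : g ∈ P.toValuationSubring) :
    val HL P ⟨f + g, P.toValuationSubring.add_mem _ _ hf hg⟩ =
      val HL P ⟨f, hf⟩ + val HL P ⟨g, hg⟩ := by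
  rw [← map_add]; rfl

theorem val_mk_mul {f g : F} (hf : f ∈ P.toValuationSubring) (hg : g ∈ P.toValuationSubring) :
    val HL P ⟨f * g, P.toValuationSubring.mul_mem _ _ hf hg⟩ =
      val HL P ⟨f, hf⟩ * val HL P ⟨g, hg⟩ := by
  rw [← map_mul]; rfl

theorem val_mk_neg {f : F} (hf : f ∈ P.toValuationSubring) :
    val HL P ⟨-f, P.toValuationSubring.neg_mem _ hf⟩ = -val HL P ⟨f, hf⟩ := by
  rw [← map_neg]; rfl

theorem val_mk_zero : val HL P ⟨0, P.toValuationSubring.zero_mem⟩ = 0 := map_zero _

theorem val_mk_one : val HL P ⟨1, P.toValuationSubring.one_mem⟩ = 1 := map_one _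

theorem val_mk_congr {f g : F} (e : f = g) (hf : f ∈ P.toValuationSubring)
    (hg : g ∈ P.toValuationSubring) : val HL P ⟨f, hf⟩ = val HL P ⟨g, hg⟩ := by
  subst e; rfl

/-- an element of `O_P` with nonzero value is a unit of `O_P`. -/
theorem inv_mem_of_val_ne_zero {f : F} (hf : f ∈ P.toValuationSubring)
    (h : val HL P ⟨f, hf⟩ ≠ 0) : f⁻¹ ∈ P.toValuationSubring := by
  have h0 : ¬ ((f : F) = 0 ∨ 0 < P.ord f) := fun hh =>
    h ((val_eq_zero_iff_ord HL P ⟨f, hf⟩).mpr hh)
  rw [not_or, not_lt] at h0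
  apply mem_of_ord_nonneg
  rw [P.ord_inv]
  have := ord_nonneg_of_mem P hf
  omega

theorem val_inv {f : F} (hf : f ∈ P.toValuationSubring) (hi : f⁻¹ ∈ P.toValuationSubring)
    (h0 : f ≠ 0) : val HL P ⟨f⁻¹, hi⟩ = (val HL P ⟨f, hf⟩)⁻¹ := by
  have h1 : val HL P ⟨f, hf⟩ * val HL P ⟨f⁻¹, hi⟩ = 1 := by
    rw [← val_mk_mul HL P hf hi, ← val_mk_one HL P]
    exact val_mk_congr HL P (mul_inv_cancel₀ h0) _ _
  exact (eq_inv_of_mul_eq_one_right h1)

/-- a non-member of `O_P` has an inverse of value `0`. -/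
theorem val_inv_of_not_mem {f : F} (hf : f ∉ P.toValuationSubring) :
    ∃ hi : f⁻¹ ∈ P.toValuationSubring, val HL P ⟨f⁻¹, hi⟩ = 0 := by
  have hi : f⁻¹ ∈ P.toValuationSubring := (P.toValuationSubring.mem_or_inv_mem f).resolve_left hf
  refine ⟨hi, ?_⟩
  rw [val_eq_zero_iff_ord]
  right
  show 0 < P.ord f⁻¹
  rw [P.ord_inv]
  by_contra hcon
  rw [not_lt] at hcon
  exact hf (mem_of_ord_nonneg P (by omega))

/-- **the composite valuation ring** `{f ∈ O_P | f(P) ∈ A}`. -/
def compVS : ValuationSubring F where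
  carrier := {f | ∃ hf : f ∈ P.toValuationSubring, val HL P ⟨f, hf⟩ ∈ A}
  mul_mem' := by
    rintro f g ⟨hf, ha⟩ ⟨hg, hb⟩
    refine ⟨P.toValuationSubring.mul_mem _ _ hf hg, ?_⟩
    rw [val_mk_mul HL P hf hg]
    exact A.mul_mem _ _ ha hb
  one_mem' := ⟨P.toValuationSubring.one_mem, by rw [val_mk_one]; exact A.one_mem⟩
  add_mem' := by
    rintro f g ⟨hf, ha⟩ ⟨hg, hb⟩
    refine ⟨P.toValuationSubring.add_mem _ _ hf hg, ?_⟩
    rw [val_mk_add HL P hf hg]
    exact A.add_mem _ _ ha hb
  zero_mem' := ⟨P.toValuationSubring.zero_mem, by rw [val_mk_zero]; exact A.zero_mem⟩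
  neg_mem' := by
    rintro f ⟨hf, ha⟩
    refine ⟨P.toValuationSubring.neg_mem _ hf, ?_⟩
    rw [val_mk_neg HL P hf]
    exact A.neg_mem _ ha
  mem_or_inv_mem' := by
    intro f
    by_cases hf : f ∈ P.toValuationSubring
    · by_cases h0 : val HL P ⟨f, hf⟩ = 0
      · left
        exact ⟨hf, by rw [h0]; exact A.zero_mem⟩
      · rcases A.mem_or_inv_mem (val HL P ⟨f, hf⟩) with h1 | h1
        · left; exact ⟨hf, h1⟩
        · right
          have hi := inv_mem_of_val_ne_zero HL P hf h0
          have hf0 : f ≠ 0 := by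
            rintro rfl
            exact h0 (val_mk_zero HL P)
          exact ⟨hi, by rw [val_inv HL P hf hi hf0]; exact h1⟩
    · right
      obtain ⟨hi, h0⟩ := val_inv_of_not_mem HL P hf
      exact ⟨hi, by rw [h0]; exact A.zero_mem⟩

variable {HL A P}

theorem mem_compVS_iff {f : F} :
    f ∈ compVS HL A P ↔ ∃ hf : f ∈ P.toValuationSubring, val HL P ⟨f, hf⟩ ∈ A := Iff.rfl

theorem mem_place_of_mem_compVS {f : F} (h : f ∈ compVS HL A P) : f ∈ P.toValuationSubring :=
  h.1

variable (HL A P)

/-- the value map `compVS →+* A`. -/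
noncomputable def valT : compVS HL A P →+* A where
  toFun f := ⟨val HL P ⟨(f : F), f.2.1⟩, f.2.2⟩
  map_one' := Subtype.ext (val_mk_one HL P)
  map_mul' f g := Subtype.ext (val_mk_mul HL P f.2.1 g.2.1)
  map_zero' := Subtype.ext (val_mk_zero HL P)
  map_add' f g := Subtype.ext (val_mk_add HL P f.2.1 g.2.1)

@[simp] theorem coe_valT (f : compVS HL A P) :
    ((valT HL A P f : A) : L) = val HL P ⟨(f : F), f.2.1⟩ := rfl

theorem algebraMap_mem_compVS (a : A) : algebraMap L F (a : L) ∈ compVS HL A P := by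
  have hm : algebraMap L F (a : L) ∈ P.toValuationSubring :=
    (algebraMap L P.toValuationSubring (a : L)).2
  refine ⟨hm, ?_⟩
  have : val HL P ⟨algebraMap L F (a : L), hm⟩ = (a : L) := val_algebraMap HL P (a : L)
  rw [this]
  exact a.2

theorem valT_algebraMap (a : A) :
    valT HL A P ⟨algebraMap L F (a : L), algebraMap_mem_compVS HL A P a⟩ = a :=
  Subtype.ext (val_algebraMap HL P (a : L))

theorem valT_eq_zero_iff (f : compVS HL A P) :
    valT HL A P f = 0 ↔ (f : F) = 0 ∨ 0 < P.ord (f : F) := by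
  rw [← val_eq_zero_iff_ord HL P ⟨(f : F), f.2.1⟩]
  constructor
  · intro h; exact congrArg Subtype.val h
  · intro h; exact Subtype.ext h

/-- a non-member of the composite ring has its inverse in the maximal ideal. -/
theorem inv_mem_of_not_mem {f : F} (hf : f ∉ compVS HL A P) :
    ∃ hi : f⁻¹ ∈ compVS HL A P, ¬ IsUnit (valT HL A P ⟨f⁻¹, hi⟩) := by
  have hi : f⁻¹ ∈ compVS HL A P := ((compVS HL A P).mem_or_inv_mem f).resolve_left hf
  refine ⟨hi, fun hu => hf ?_⟩
  obtain ⟨b, hb⟩ := isUnit_iff_exists_inv.mp hu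
  have h1 : val HL P ⟨f⁻¹, hi.1⟩ * (b : L) = 1 := congrArg Subtype.val hb
  have hv0 : val HL P ⟨f⁻¹, hi.1⟩ ≠ 0 := by
    intro h0
    rw [h0, zero_mul] at h1
    exact zero_ne_one h1
  have hf0 : f⁻¹ ≠ 0 := by
    intro h0
    exact hv0 ((val_mk_congr HL P h0 _ _).trans (val_mk_zero HL P))
  have hfm : f ∈ P.toValuationSubring := by
    have := inv_mem_of_val_ne_zero HL P hi.1 hv0
    rwa [inv_inv] at this
  refine ⟨hfm, ?_⟩
  have h2 : val HL P ⟨f, hfm⟩ = (val HL P ⟨f⁻¹, hi.1⟩)⁻¹ := by
    have h3 := val_inv HL P hi.1 (by rw [inv_inv]; exact hfm) hf0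
    rw [← h3]
    exact val_mk_congr HL P (inv_inv f).symm _ _
  rw [h2, inv_eq_of_mul_eq_one_right h1]
  exact b.2

end Comp

/-! ### the centre on a chart -/

section Chart

variable {A : ValuationSubring L} [Algebra A F] [IsScalarTower A L F]
variable (res : A →+* k) (HL : LHyp L F)

/-- `P` is centred on the chart `BA`. -/
def OnChart (BA : Subalgebra A F) (P : Place L F) : Prop := ∀ b ∈ BA, b ∈ compVS HL A P

variable {HL} {BA : Subalgebra A F} {P : Place L F}

/-- the inclusion of a chart into the composite ring. -/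
def toComp (h : OnChart HL BA P) : BA →+* compVS HL A P where
  toFun b := ⟨(b : F), h b b.2⟩
  map_one' := rfl
  map_mul' _ _ := rfl
  map_zero' := rfl
  map_add' _ _ := rfl

/-- the value map of a chart. -/
noncomputable def valP (h : OnChart HL BA P) : BA →+* A := (valT HL A P).comp (toComp h)

/-- **the centre of `P`** as a closed point of the chart. -/
noncomputable def chiP (h : OnChart HL BA P) : BA →+* k := res.comp (valP h)

theorem coe_valP (h : OnChart HL BA P) (b : BA) :
    ((valP h b : A) : L) = val HL P ⟨(b : F), (h b b.2).1⟩ := rfl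

theorem valP_algebraMap (h : OnChart HL BA P) (a : A) : valP h (algebraMap A BA a) = a := by
  apply Subtype.ext
  rw [coe_valP]
  have e : ((algebraMap A BA a : BA) : F) = algebraMap L F (a : L) := by
    rw [← algebraMap_A_eq]; rfl
  rw [val_mk_congr HL P e _ (algebraMap L P.toValuationSubring (a : L)).2]
  exact val_algebraMap HL P (a : L)

theorem chiP_const (h : OnChart HL BA P) (a : A) : chiP res h (algebraMap A BA a) = res a := by
  show res (valP h (algebraMap A BA a)) = res a
  rw [valP_algebraMap]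

theorem valP_eq_zero_iff (h : OnChart HL BA P) (b : BA) :
    valP h b = 0 ↔ (b : F) = 0 ∨ 0 < P.ord (b : F) :=
  valT_eq_zero_iff HL A P (toComp h b)

theorem mem_place_of_onChart (h : OnChart HL BA P) {b : F} (hb : b ∈ BA) :
    b ∈ P.toValuationSubring := (h b hb).1

/-- constants of `A` lie in every valuation subring of `F` over `L`. -/
theorem onChart_adjoin {t : F} (ht : t ∈ compVS HL A P) :
    ∀ s ∈ Algebra.adjoin A {t}, s ∈ compVS HL A P := by
  intro s hs
  induction hs using Algebra.adjoin_induction with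
  | mem x hx =>
      rw [Set.mem_singleton_iff.mp hx]; exact ht
  | algebraMap a =>
      rw [algebraMap_A_eq]; exact algebraMap_mem_compVS HL A P a
  | add x y _ _ hx hy => exact (compVS HL A P).add_mem _ _ hx hy
  | mul x y _ _ hx hy => exact (compVS HL A P).mul_mem _ _ hx hy

open Polynomial in
/-- a valuation subring contains the roots of monic polynomials with coefficients in it. -/
theorem mem_of_monic_root (O : ValuationSubring F) {x : F} (p : F[X]) (hp : p.Monic)
    (hc : ∀ i, p.coeff i ∈ O) (hx : p.eval x = 0) : x ∈ O := by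
  have hl : p ∈ lifts (algebraMap O F) := by
    rw [lifts_iff_coeff_lifts]
    intro n
    exact ⟨⟨p.coeff n, hc n⟩, rfl⟩
  obtain ⟨q, hq, -, hqm⟩ := lifts_and_natDegree_eq_and_monic hl hp
  have hint : IsIntegral O x := ⟨q, hqm, by rw [← eval_map, hq, hx]⟩
  obtain ⟨y, hy⟩ := IsIntegrallyClosed.isIntegral_iff.mp hint
  rw [← hy]
  exact y.2

/-- **a place is centred on the integral closure of `A[t]` iff `t(P) ∈ A`.** -/
theorem onChart_chart_iff (t : F) : OnChart HL (chart A t) P ↔ t ∈ compVS HL A P := by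
  constructor
  · intro h
    exact h t (self_mem_chart t)
  · intro ht b hb
    rw [mem_chart_iff, isIntegral_subalgebra_iff] at hb
    obtain ⟨p, hp, hcoeff, hx⟩ := hb
    exact mem_of_monic_root _ p hp (fun i => onChart_adjoin ht _ (hcoeff i)) hx

end Chart

/-! ### residue discs are the fibres of the centre map -/

section Disc

variable {A : ValuationSubring L} [Algebra A F] [IsScalarTower A L F]
variable (res : A →+* k) (HL : LHyp L F) {BA : Subalgebra A F} {P : Place L F}

/-- `⇐` : the local ring at the centre is contained in `O_P`. -/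
theorem inDisc_of_chiP (h : OnChart HL BA P) : InDisc (locC BA (chiP res h)) P := by
  rintro c ⟨a, d, hd, e⟩
  have hd' : chiP res h d ≠ 0 := hd
  have hv : val HL P ⟨(d : F), (h d d.2).1⟩ ≠ 0 := by
    intro h0
    apply hd'
    have : valP h d = 0 := Subtype.ext h0
    show res (valP h d) = 0
    rw [this, map_zero]
  have hi := inv_mem_of_val_ne_zero HL P (h d d.2).1 hv
  have hd0 : (d : F) ≠ 0 := by
    intro h0
    exact hv ((val_mk_congr HL P h0 _ _).trans (val_mk_zero HL P))
  have : c = (a : F) * (d : F)⁻¹ := by rw [← e]; field_simp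
  rw [this]
  exact P.toValuationSubring.mul_mem _ _ (h a a.2).1 hi

variable (hsurj : Function.Surjective res) (hzero : ∀ a : A, res a = 0 ↔ ¬ IsUnit a)
  (χ₀ : BA →+* k) (hχ₀ : ∀ a : A, χ₀ (algebraMap A BA a) = res a)

include hsurj hzero hχ₀ in
/-- the key point: the value at `P` of a function of the chart vanishing at the closed point lies
in the maximal ideal of `A`. -/
theorem val_mem_of_chi_eq_zero (hP : InDisc (locC BA χ₀) P) {c : BA} (hc : χ₀ c = 0) :
    ∃ hm : val HL P ⟨(c : F), hP _ (le_locC BA χ₀ c.2)⟩ ∈ A,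
      ¬ IsUnit (⟨_, hm⟩ : A) := by
  have hcP : (c : F) ∈ P.toValuationSubring := hP _ (le_locC BA χ₀ c.2)
  set lam : L := val HL P ⟨(c : F), hcP⟩ with hlam
  by_cases hbad : ∃ hm : lam ∈ A, ¬ IsUnit (⟨lam, hm⟩ : A)
  · exact hbad
  exfalso
  have hinv : lam ≠ 0 ∧ lam⁻¹ ∈ A := by
    by_cases hm : lam ∈ A
    · have hu : IsUnit (⟨lam, hm⟩ : A) := by
        by_contra hnu
        exact hbad ⟨hm, hnu⟩
      obtain ⟨b, hb⟩ := isUnit_iff_exists_inv.mp hu
      have h1 : lam * (b : L) = 1 := congrArg Subtype.val hb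
      have h0 : lam ≠ 0 := by
        rintro h0
        rw [h0, zero_mul] at h1
        exact zero_ne_one h1
      refine ⟨h0, ?_⟩
      have : lam⁻¹ = (b : L) := inv_eq_of_mul_eq_one_right h1
      rw [this]
      exact b.2
    · refine ⟨?_, (A.mem_or_inv_mem lam).resolve_left hm⟩
      rintro h0
      exact hm (h0 ▸ A.zero_mem)
  obtain ⟨h0, hmem⟩ := hinv
  set mu : A := ⟨lam⁻¹, hmem⟩ with hmu
  set w : BA := 1 - algebraMap A BA mu * c with hw
  have hχw : χ₀ w ≠ 0 := by
    rw [hw, map_sub, map_mul, hc, mul_zero, sub_zero, map_one]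
    exact one_ne_zero
  have hwinv : ((w : F))⁻¹ ∈ P.toValuationSubring :=
    hP _ (inv_mem_locC BA χ₀ (ofBA BA χ₀ w) (by rw [chiC_ofBA]; exact hχw))
  have hwP : (w : F) ∈ P.toValuationSubring := hP _ (le_locC BA χ₀ w.2)
  have hw0 : (w : F) ≠ 0 := by
    intro h0'
    apply hχw
    have : w = 0 := Subtype.ext h0'
    rw [this, map_zero]
  have hz : val HL P ⟨(w : F), hwP⟩ = 0 := by
    have hmuP : algebraMap L F (mu : L) ∈ P.toValuationSubring :=
      (algebraMap L P.toValuationSubring (mu : L)).2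
    have e : (w : F) = 1 + -(algebraMap L F (mu : L) * (c : F)) := by
      rw [hw]
      push_cast
      rw [← algebraMap_A_eq, sub_eq_add_neg]
    have h1m : (1 : F) ∈ P.toValuationSubring := P.toValuationSubring.one_mem
    have hmc : algebraMap L F (mu : L) * (c : F) ∈ P.toValuationSubring :=
      P.toValuationSubring.mul_mem _ _ hmuP hcP
    have hnm : -(algebraMap L F (mu : L) * (c : F)) ∈ P.toValuationSubring :=
      P.toValuationSubring.neg_mem _ hmc
    rw [val_mk_congr HL P e hwP (P.toValuationSubring.add_mem _ _ h1m hnm),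
      val_mk_add HL P h1m hnm, val_mk_neg HL P hmc, val_mk_mul HL P hmuP hcP, val_mk_one]
    have : val HL P ⟨algebraMap L F (mu : L), hmuP⟩ = (mu : L) := val_algebraMap HL P (mu : L)
    rw [this, ← hlam]
    show 1 + -(lam⁻¹ * lam) = 0
    rw [inv_mul_cancel₀ h0]; ring
  have h1 := val_inv HL P hwP hwinv hw0
  rw [hz, inv_zero] at h1
  have h2 : val HL P ⟨(w : F), hwP⟩ * val HL P ⟨((w : F))⁻¹, hwinv⟩ = 1 := by
    rw [← val_mk_mul HL P hwP hwinv, ← val_mk_one HL P]
    exact val_mk_congr HL P (mul_inv_cancel₀ hw0) _ _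
  rw [hz, zero_mul] at h2
  exact zero_ne_one h2

include hsurj hzero hχ₀ in
/-- `⇒` : a place whose valuation ring contains the local ring at `χ₀` is centred on the chart… -/
theorem onChart_of_inDisc (hP : InDisc (locC BA χ₀) P) : OnChart HL BA P := by
  intro b hb
  have hbP : b ∈ P.toValuationSubring := hP _ (le_locC BA χ₀ hb)
  refine ⟨hbP, ?_⟩
  obtain ⟨a, ha⟩ := hsurj (χ₀ ⟨b, hb⟩)
  have h0 : χ₀ (⟨b, hb⟩ - algebraMap A BA a) = 0 := by rw [map_sub, hχ₀, ha, sub_self]
  obtain ⟨hm, -⟩ := val_mem_of_chi_eq_zero res HL hsurj hzero χ₀ hχ₀ hP h0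
  have haP : algebraMap L F (a : L) ∈ P.toValuationSubring :=
    (algebraMap L P.toValuationSubring (a : L)).2
  have e : ((⟨b, hb⟩ - algebraMap A BA a : BA) : F) = b + -algebraMap L F (a : L) := by
    push_cast
    rw [← algebraMap_A_eq, sub_eq_add_neg]
  have hnP : -algebraMap L F (a : L) ∈ P.toValuationSubring := P.toValuationSubring.neg_mem _ haP
  rw [val_mk_congr HL P e _ (P.toValuationSubring.add_mem _ _ hbP hnP),
    val_mk_add HL P hbP hnP, val_mk_neg HL P haP] at hm
  have h1 : val HL P ⟨algebraMap L F (a : L), haP⟩ = (a : L) := val_algebraMap HL P (a : L)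
  rw [h1] at hm
  have := A.add_mem _ _ hm a.2
  rwa [neg_add_cancel_right] at this

include hsurj hzero hχ₀ in
/-- … with centre `χ₀`. -/
theorem chiP_of_inDisc (hP : InDisc (locC BA χ₀) P) :
    chiP res (onChart_of_inDisc res HL hsurj hzero χ₀ hχ₀ hP) = χ₀ := by
  set h := onChart_of_inDisc res HL hsurj hzero χ₀ hχ₀ hP with hh
  apply RingHom.ext
  intro b
  obtain ⟨a, ha⟩ := hsurj (χ₀ b)
  have h0 : χ₀ (b - algebraMap A BA a) = 0 := by rw [map_sub, hχ₀, ha, sub_self]
  obtain ⟨hm, hnu⟩ := val_mem_of_chi_eq_zero res HL hsurj hzero χ₀ hχ₀ hP h0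
  have h1 : valP h (b - algebraMap A BA a) =
      ⟨val HL P ⟨((b - algebraMap A BA a : BA) : F), hP _ (le_locC BA χ₀ (b - algebraMap A BA a).2)⟩,
        hm⟩ := Subtype.ext rfl
  have h2 : res (valP h (b - algebraMap A BA a)) = 0 := by
    rw [h1]; exact (hzero _).mpr hnu
  rw [map_sub, valP_algebraMap, map_sub, sub_eq_zero] at h2
  show res (valP h b) = χ₀ b
  rw [h2, ha]

include hsurj hzero hχ₀ in
/-- **the residue disc of the closed point `χ₀` is the fibre of the centre map.** -/
theorem inDisc_locC_iff :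
    InDisc (locC BA χ₀) P ↔ ∃ h : OnChart HL BA P, chiP res h = χ₀ := by
  constructor
  · intro hP
    exact ⟨_, chiP_of_inDisc res HL hsurj hzero χ₀ hχ₀ hP⟩
  · rintro ⟨h, rfl⟩
    exact inDisc_of_chiP res HL h

end Disc

/-! ### two charts -/

section TwoCharts

variable {A : ValuationSubring L} [Algebra A F] [IsScalarTower A L F]
variable (res : A →+* k) (HL : LHyp L F)

/-- a closed point of (the special fibre of) a chart. -/
structure CPt (BA : Subalgebra A F) where
  /-- the residue map -/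
  χ : BA →+* k
  const : ∀ a : A, χ (algebraMap A BA a) = res a

theorem CPt.ext' {BA : Subalgebra A F} {x y : CPt res BA} (h : x.χ = y.χ) : x = y := by
  cases x; cases y; congr

variable {res}

/-- the centre of a place on a chart, as a closed point. -/
noncomputable def cpt {BA : Subalgebra A F} {P : Place L F} (h : OnChart HL BA P) : CPt res BA :=
  ⟨chiP res h, chiP_const res h⟩

variable (res)

variable (B0 B1 : Subalgebra A F) (tinv : B1)

/-- the closed points of the two-chart model: those of chart `0`, and those of chart `1` at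
infinity (`t⁻¹ = 0`). -/
abbrev Pts : Type _ := CPt res B0 ⊕ {y : CPt res B1 // y.χ tinv = 0}

variable {res B0 B1 tinv}

variable {t : F} (ht1 : (tinv : F) = t⁻¹)
  (h0 : ∀ P : Place L F, t ∈ compVS HL A P → OnChart HL B0 P)
  (h1 : ∀ P : Place L F, t⁻¹ ∈ compVS HL A P → OnChart HL B1 P)
  (hsurj : Function.Surjective res) (hzero : ∀ a : A, res a = 0 ↔ ¬ IsUnit a)

include hzero ht1 in
/-- off chart `0`, the place is centred on chart `1` at infinity. -/
theorem chiP_tinv_of_not_mem {P : Place L F} (hP : t ∉ compVS HL A P) (h : OnChart HL B1 P) :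
    chiP res h tinv = 0 := by
  obtain ⟨hi, hnu⟩ := inv_mem_of_not_mem HL A P hP
  show res (valP h tinv) = 0
  rw [hzero]
  have : valP h tinv = valT HL A P ⟨t⁻¹, hi⟩ := by
    apply Subtype.ext
    rw [coe_valP, coe_valT]
    exact val_mk_congr HL P ht1 _ _
  rw [this]
  exact hnu

open Classical in
/-- **the centre map** of the two-chart model. -/
noncomputable def centre (P : Place L F) : Pts res B0 B1 tinv :=
  if hP : t ∈ compVS HL A P then Sum.inl (cpt HL (h0 P hP))
  else Sum.inr ⟨cpt HL (h1 P (inv_mem_of_not_mem HL A P hP).1),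
    chiP_tinv_of_not_mem HL ht1 hzero hP _⟩

variable (ht0 : t ∈ B0)

include ht0 hsurj in
theorem centre_eq_inl_iff (P : Place L F) (x : CPt res B0) :
    centre HL ht1 h0 h1 hzero P = Sum.inl x ↔ InDisc (locC B0 x.χ) P := by
  classical
  rw [inDisc_locC_iff res HL hsurj hzero x.χ x.const]
  unfold centre
  constructor
  · intro h
    split_ifs at h with hP
    · have := Sum.inl.inj h
      exact ⟨h0 P hP, by rw [← this]; rfl⟩
  · rintro ⟨h, e⟩
    have hP : t ∈ compVS HL A P := h t ht0
    rw [dif_pos hP]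
    congr 1
    apply CPt.ext'
    rw [← e]
    rfl

include hsurj in
theorem centre_eq_inr_iff (htne : t ≠ 0) (P : Place L F) (y : {y : CPt res B1 // y.χ tinv = 0}) :
    centre HL ht1 h0 h1 hzero P = Sum.inr y ↔ InDisc (locC B1 y.1.χ) P := by
  classical
  rw [inDisc_locC_iff res HL hsurj hzero y.1.χ y.1.const]
  unfold centre
  constructor
  · intro h
    split_ifs at h with hP
    · have := Sum.inr.inj h
      exact ⟨h1 P (inv_mem_of_not_mem HL A P hP).1, by rw [← this]; rfl⟩
  · rintro ⟨h, e⟩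
    have hP : t ∉ compVS HL A P := by
      intro hP
      -- `t(P) ∈ A` and `t⁻¹(P) ∈ m_A` : impossible
      have h2 : chiP res h tinv = 0 := by rw [e]; exact y.2
      have hti : t⁻¹ ∈ compVS HL A P := ht1 ▸ h tinv tinv.2
      have h3 : valT HL A P ⟨t, hP⟩ * valT HL A P ⟨t⁻¹, hti⟩ = 1 := by
        rw [← map_mul, ← map_one (valT HL A P)]
        congr 1
        apply Subtype.ext
        show t * t⁻¹ = 1
        exact mul_inv_cancel₀ htne
      have h4 : valP h tinv = valT HL A P ⟨t⁻¹, hti⟩ := by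
        apply Subtype.ext
        rw [coe_valP, coe_valT]
        exact val_mk_congr HL P ht1 _ _
      have h5 : res (valT HL A P ⟨t⁻¹, hti⟩) = 0 := by rw [← h4]; exact h2
      have h6 := congrArg res h3
      rw [map_mul, h5, mul_zero, map_one] at h6
      exact zero_ne_one h6
    rw [dif_neg hP]
    congr 1
    apply Subtype.ext
    apply CPt.ext'
    rw [← e]
    rfl

end TwoCharts

end Fermat.Agent.ORD.IFACEN.Centre8
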