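/-
Programme ORD (S33), chapter IFACE-N (helper6): **the two-chart centre map of `Centre8` in the
shape consumed by `AtlasSplit6.atlas`**: `X := Centre8.Pts res B0 B1 tinv`,
`ringPts x := locC B0 x.χ` resp. `locC B1 y.χ`, and
`centre_eq_iff : centre … P = x ↔ InDisc (ringPts x) P`.
-/
import Mathlib
import Fermat.Agent.ORD.IFACEN.Centre8
import Fermat.Agent.ORD.IFACEN.AtlasSplit6

set_option autoImplicit false
set_option linter.unusedSectionVars false
set_option linter.style.longLine false

namespace Fermat.Agent.ORD.IFACEN.AtlasPts6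

open AlgebraicCurve Fermat.Agent.X0.FF Fermat.Agent.RR.LSpace
open Fermat.Agent.ORD.IFACEN.LocAt8 Fermat.Agent.ORD.IFACEN.DiscPlaces8
  Fermat.Agent.ORD.IFACEN.Centre8

variable {L F k : Type*} [Field L] [Field F] [Algebra L F] [Field k]
variable {A : ValuationSubring L} [Algebra A F] [IsScalarTower A L F]
variable {res : A →+* k} (HL : LHyp L F)
variable {B0 B1 : Subalgebra A F} {tinv : B1} {t : F} (ht1 : (tinv : F) = t⁻¹)
  (h0 : ∀ P : Place L F, t ∈ compVS HL A P → OnChart HL B0 P)
  (h1 : ∀ P : Place L F, t⁻¹ ∈ compVS HL A P → OnChart HL B1 P)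
  (hsurj : Function.Surjective res) (hzero : ∀ a : A, res a = 0 ↔ ¬ IsUnit a)
  (ht0 : t ∈ B0) (htne : t ≠ 0)

/-- the local ring of the model at a closed point of the two-chart model. -/
def ringPts (x : Pts res B0 B1 tinv) : Subring F :=
  Sum.elim (fun x => locC B0 x.χ) (fun y => locC B1 y.1.χ) x

@[simp] theorem ringPts_inl (x : CPt res B0) :
    ringPts (Sum.inl x : Pts res B0 B1 tinv) = locC B0 x.χ := rfl

@[simp] theorem ringPts_inr (y : {y : CPt res B1 // y.χ tinv = 0}) :
    ringPts (Sum.inr y : Pts res B0 B1 tinv) = locC B1 y.1.χ := rfl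

include hsurj ht0 htne in
/-- **the fibres of the centre map are the residue discs / annuli of the closed points.** -/
theorem centre_eq_iff (P : Place L F) (x : Pts res B0 B1 tinv) :
    centre HL ht1 h0 h1 hzero P = x ↔ InDisc (ringPts x) P := by
  rcases x with x | y
  · exact centre_eq_inl_iff HL ht1 h0 h1 hsurj hzero ht0 P x
  · exact centre_eq_inr_iff HL ht1 h0 h1 hsurj hzero htne P y

end Fermat.Agent.ORD.IFACEN.AtlasPts6
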