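/-
PROGRAMME ORD (S33), chapter IFACE-N (O6, helper3): **the point/place dictionary (PTS)** between the
closed points of the model over `A` and the places of the reduced function field of a component, for
the fields `pt_ne_src pt_ne_tgt pt_surj branch_s_inj branch_t_inj` of `AssembleN9.AssemblyData` and
`Q_inj` of `SmoothAtlas8.SmoothAtlas`.

Everything is generic in `A ⊂ L`, `res : A →+* k`, the Gauss ring `G ⊂ F` of ONE component and its
reduction `red : G →+* Ft`.

* `IsBranch A res G red C χ Q` : the local subring `C ⊂ G` with residue map `χ` is (the local ring of)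
  a closed point of the model lying on the component, and `Q` is the corresponding place of `Ft`
  (`red C = O_Q`).  Instances: helper8's disc systems (`IsBranch.of_discSys`) and both sides of
  helper4's node systems (`IsBranch.of_locSide`).
* `IsBranch.valF_red` : **the residue formula** `(red c)(Q) = χ c`.
* `chi_eq_of_Q_eq`, `Q_ne_of_chi_ne`, `Q_ne_of_inv` : the place determines the residues of the common
  functions; separation of closed points by a function, resp. by a function and its inverse.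
* chart level (`BA ⊂ C`, `χ|BA = χ₀`): `chi0_eq_of_Q_eq`, `cpt_eq_of_Q_eq` : **the place determines the
  closed point of the chart** (⇒ `Q_inj`, `branch_s_inj`, `branch_t_inj`).
* `chiQ`, `cptOfPlace` : **the centre of a place `Q` of `Ft` on a chart** (`red BA ⊂ O_Q`);
  `red_mem_of_mem_chart` : for the integral closure `chart A t` it suffices that `red t ∈ O_Q`;
  `mem_or_inv_mem_max` : `red t ∈ O_Q` or `red t⁻¹ ∈ m_Q`;
  `Q_eq_of_chi_eq` : a branch of the closed point `chiQ` is `Q` (⇒ `pt_surj`).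
-/
import Mathlib
import Fermat.Agent.ORD.IFACEN.SmoothAtlas8
import Fermat.Agent.ORD.IFACEN.Centre8
import Fermat.Agent.ORD.IFACEN.AtlasPts6
import Fermat.Agent.ORD.NODE.NodeSys4

set_option autoImplicit false
set_option linter.unusedSectionVars false
set_option linter.unusedVariables false
set_option linter.style.longLine false

namespace Fermat.Agent.ORD.IFACEN.PtsDict3

open AlgebraicCurve Fermat.Agent.X0.FF Fermat.Agent.RR.LSpace Fermat.Agent.MW.EMB.Value6
open Fermat.Agent.ORD.ANN.Side3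
open Fermat.Agent.ORD.IFACEN.DiscSys8 Fermat.Agent.ORD.IFACEN.LocAt8 Fermat.Agent.ORD.IFACEN.Centre8
open Fermat.Agent.ORD.NODE.NodeSys4 Fermat.Agent.ORD.IFACEN.AtlasPts6

variable {L F k Ft : Type*} [Field L] [Field F] [Algebra L F] [Field k] [Field Ft] [Algebra k Ft]

/-! ### branches -/

/-- **A closed point of the model on a component, with its place.**  `C ⊂ G` a subring containing the
constants with a residue map `χ` extending `res`, `ker red ⊂ ker χ`, and `red C` is the valuation ring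
of `Q`. -/
structure IsBranch (A : ValuationSubring L) (res : A →+* k) (G : Subring F) (red : G →+* Ft)
    (C : Subring F) (χ : C →+* k) (Q : Place k Ft) : Prop where
  res_surj : Function.Surjective res
  const_mem : ∀ a : A, algebraMap L F (a : L) ∈ C
  chi_const : ∀ a : A, χ ⟨algebraMap L F (a : L), const_mem a⟩ = res a
  le_G : ∀ c ∈ C, c ∈ G
  red_const : ∀ a : A, red ⟨algebraMap L F (a : L), le_G _ (const_mem a)⟩ = algebraMap k Ft (res a)
  chi_of_red : ∀ c : C, red ⟨(c : F), le_G c c.2⟩ = 0 → χ c = 0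
  mem_Q : ∀ f : Ft, f ∈ Q.toValuationSubring ↔ ∃ c : C, red ⟨(c : F), le_G c c.2⟩ = f

variable {A : ValuationSubring L} {res : A →+* k} {G : Subring F} {red : G →+* Ft}

/-- a disc system is a branch. -/
theorem IsBranch.of_discSys {C : Subring F} (hle : C ≤ G) {χ : C →+* k} {Q : Place k Ft}
    (h : DiscSys A res C (red.comp (Subring.inclusion hle)) χ Q)
    (hred : ∀ a : A, red ⟨algebraMap L F (a : L), hle (h.const_mem a)⟩ = algebraMap k Ft (res a)) :
    IsBranch A res G red C χ Q where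
  res_surj := h.res_surj
  const_mem := h.const_mem
  chi_const := h.chi_const
  le_G := fun c hc => hle hc
  red_const := hred
  chi_of_red := h.chi_of_red
  mem_Q := h.mem_Q

/-- a disc system is a branch (the constants are read off from the disc system). -/
theorem IsBranch.of_discSys' {C : Subring F} (hle : C ≤ G) {χ : C →+* k} {Q : Place k Ft}
    (h : DiscSys A res C (red.comp (Subring.inclusion hle)) χ Q) :
    IsBranch A res G red C χ Q :=
  IsBranch.of_discSys hle h h.red_const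

/-- a disc system of `SmoothAtlas8` is a branch of its component. -/
theorem IsBranch.of_redOn {B : Base L k} (S : Side B F Ft) {C : Subring F} (hle : C ≤ S.G)
    {χ : C →+* k} {Q : Place k Ft}
    (h : DiscSys B.A B.res C (Fermat.Agent.ORD.IFACEN.SmoothAtlas8.redOn S hle) χ Q) :
    IsBranch B.A B.res S.G S.red C χ Q :=
  IsBranch.of_discSys' hle h

/-- both sides of a node are branches. -/
theorem IsBranch.of_locSide {B : Base L k} {S : Side B F Ft} {C : Subring F} {χ : C →+* k}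
    {Q : Place k Ft} (hb : LocBase B C χ) (hs : LocSide B S C χ Q) :
    IsBranch B.A B.res S.G S.red C χ Q where
  res_surj := B.res_surj
  const_mem := hb.const_mem
  chi_const := hb.chi_const
  le_G := hs.le_G
  red_const := S.red_const
  chi_of_red := hs.chi_of_red
  mem_Q := hs.mem_Q

namespace IsBranch

variable {C : Subring F} {χ : C →+* k} {Q : Place k Ft} (h : IsBranch A res G red C χ Q)
include h

/-- the reduction on `C`. -/
def redC : C →+* Ft := red.comp (Subring.inclusion (S := C) (T := G) fun c hc => h.le_G c hc)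

theorem redC_apply (c : C) : h.redC c = red ⟨(c : F), h.le_G c c.2⟩ := rfl

/-- the constant `a ∈ A` as an element of `C`. -/
def const (a : A) : C := ⟨algebraMap L F (a : L), h.const_mem a⟩

theorem redC_const (a : A) : h.redC (h.const a) = algebraMap k Ft (res a) := h.red_const a

theorem chi_const' (a : A) : χ (h.const a) = res a := h.chi_const a

theorem redC_mem (c : C) : h.redC c ∈ Q.toValuationSubring := (h.mem_Q _).mpr ⟨c, rfl⟩

theorem red_mem {c : F} (hc : c ∈ C) : red ⟨c, h.le_G c hc⟩ ∈ Q.toValuationSubring :=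
  h.redC_mem ⟨c, hc⟩

theorem ord_redC_nonneg (c : C) : 0 ≤ Q.ord (h.redC c) := ffp_ord_nonneg_of_mem Q (h.redC_mem c)

/-- a non-unit of `C` with nonzero reduction vanishes at `Q`. -/
theorem ord_redC_pos {c : C} (hc : χ c = 0) (hr : h.redC c ≠ 0) : 0 < Q.ord (h.redC c) := by
  have h1 := h.ord_redC_nonneg c
  by_contra hnp
  have h0 : Q.ord (h.redC c) = 0 := by omega
  have hmem : (h.redC c)⁻¹ ∈ Q.toValuationSubring := by
    apply ffp_mem_of_ord_nonneg
    rw [Place.ord_inv, h0, neg_zero]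
  obtain ⟨c', hc'⟩ := (h.mem_Q _).mp hmem
  have h2 : h.redC (c * c' - 1) = 0 := by
    rw [map_sub, map_mul, h.redC_apply c', hc', mul_inv_cancel₀ hr, map_one, sub_self]
  have h3 := h.chi_of_red (c * c' - 1) h2
  rw [map_sub, map_mul, hc, zero_mul, map_one, zero_sub, neg_eq_zero] at h3
  exact one_ne_zero h3

/-- **the residue formula**: the value of the reduction at the place is the residue at the closed
point. -/
theorem valF_redC (Hk : LHyp k Ft) (c : C) : valF Hk Q (h.redC c) = χ c := by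
  obtain ⟨a, ha⟩ := h.res_surj (χ c)
  apply valF_unique Hk Q (h.redC_mem c)
  have h0 : χ (c - h.const a) = 0 := by rw [map_sub, h.chi_const', ha, sub_self]
  have e : h.redC (c - h.const a) = h.redC c - algebraMap k Ft (χ c) := by
    rw [map_sub, h.redC_const, ha]
  by_cases hr : h.redC (c - h.const a) = 0
  · left
    rw [e, sub_eq_zero] at hr
    exact hr
  · right
    rw [← e]
    exact h.ord_redC_pos h0 hr

theorem valF_red (Hk : LHyp k Ft) {c : F} (hc : c ∈ C) :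
    valF Hk Q (red ⟨c, h.le_G c hc⟩) = χ ⟨c, hc⟩ := h.valF_redC Hk ⟨c, hc⟩

end IsBranch

/-! ### the place determines the residues -/

section Sep

variable {C₁ C₂ : Subring F} {χ₁ : C₁ →+* k} {χ₂ : C₂ →+* k} {Q₁ Q₂ : Place k Ft}
  (h₁ : IsBranch A res G red C₁ χ₁ Q₁) (h₂ : IsBranch A res G red C₂ χ₂ Q₂) (Hk : LHyp k Ft)

include h₁ h₂ Hk

/-- two closed points of a component with the same place have the same residues on the common
functions. -/
theorem chi_eq_of_Q_eq (hQ : Q₁ = Q₂) {c : F} (hc₁ : c ∈ C₁) (hc₂ : c ∈ C₂) :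
    χ₁ ⟨c, hc₁⟩ = χ₂ ⟨c, hc₂⟩ := by
  subst hQ
  rw [← h₁.valF_red Hk hc₁, ← h₂.valF_red Hk hc₂]

/-- closed points separated by a common function have different places. -/
theorem Q_ne_of_chi_ne {c : F} (hc₁ : c ∈ C₁) (hc₂ : c ∈ C₂) (hne : χ₁ ⟨c, hc₁⟩ ≠ χ₂ ⟨c, hc₂⟩) :
    Q₁ ≠ Q₂ := fun hQ => hne (chi_eq_of_Q_eq h₁ h₂ Hk hQ hc₁ hc₂)

omit Hk in
/-- closed points separated by a function and its inverse (finite / infinite distance) have
different places. -/
theorem Q_ne_of_inv {f : F} (hf0 : f ≠ 0) (hf₁ : f ∈ C₁) (hf₂ : f⁻¹ ∈ C₂)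
    (hχ : χ₂ ⟨f⁻¹, hf₂⟩ = 0) : Q₁ ≠ Q₂ := by
  intro hQ
  subst hQ
  have e : red ⟨f, h₁.le_G f hf₁⟩ * red ⟨f⁻¹, h₂.le_G _ hf₂⟩ = 1 := by
    rw [← map_mul, ← map_one red]
    congr 1
    exact Subtype.ext (mul_inv_cancel₀ hf0)
  have hr1 : red ⟨f, h₁.le_G f hf₁⟩ ≠ 0 := by
    intro h0
    rw [h0, zero_mul] at e
    exact zero_ne_one e
  have hr2 : red ⟨f⁻¹, h₂.le_G _ hf₂⟩ ≠ 0 := by
    intro h0
    rw [h0, mul_zero] at e
    exact zero_ne_one e
  have p1 : 0 ≤ Q₁.ord (red ⟨f, h₁.le_G f hf₁⟩) := h₁.ord_redC_nonneg ⟨f, hf₁⟩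
  have p2 : 0 < Q₁.ord (red ⟨f⁻¹, h₂.le_G _ hf₂⟩) := h₂.ord_redC_pos (c := ⟨f⁻¹, hf₂⟩) hχ hr2
  have p3 := Q₁.ord_mul hr1 hr2
  rw [e, Place.ord_one] at p3
  omega

end Sep

/-! ### the chart level: the place determines the closed point -/

section Chart

variable [Algebra A F] [IsScalarTower A L F]

/-- `(C, χ)` is the local datum of the closed point `χ₀` of the chart `BA`: `BA ⊂ C` and `χ`
restricts to `χ₀`. -/
structure Restricts (BA : Subalgebra A F) (C : Subring F) (χ : C →+* k) (χ₀ : BA →+* k) : Prop where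
  le : ∀ b ∈ BA, b ∈ C
  chi : ∀ b : BA, χ ⟨(b : F), le b b.2⟩ = χ₀ b

/-- the local ring of the chart at the closed point. -/
theorem restricts_locC (BA : Subalgebra A F) (χ₀ : BA →+* k) :
    Restricts BA (locC BA χ₀) (chiC BA χ₀) χ₀ :=
  ⟨fun b hb => le_locC BA χ₀ hb, fun b => chiC_ofBA BA χ₀ b⟩

variable {BA : Subalgebra A F} {C₁ C₂ : Subring F} {χ₁ : C₁ →+* k} {χ₂ : C₂ →+* k}
  {Q₁ Q₂ : Place k Ft} {χ₀ χ₀' : BA →+* k}

/-- the residue formula on the chart. -/
theorem IsBranch.chi0_eq_valF (h₁ : IsBranch A res G red C₁ χ₁ Q₁) (Hk : LHyp k Ft)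
    (r₁ : Restricts BA C₁ χ₁ χ₀) (b : BA) :
    χ₀ b = valF Hk Q₁ (red ⟨(b : F), h₁.le_G _ (r₁.le b b.2)⟩) := by
  rw [h₁.valF_red Hk (r₁.le b b.2), r₁.chi]

/-- **the place determines the closed point of the chart.** -/
theorem chi0_eq_of_Q_eq (h₁ : IsBranch A res G red C₁ χ₁ Q₁) (h₂ : IsBranch A res G red C₂ χ₂ Q₂)
    (Hk : LHyp k Ft) (r₁ : Restricts BA C₁ χ₁ χ₀) (r₂ : Restricts BA C₂ χ₂ χ₀') (hQ : Q₁ = Q₂) :
    χ₀ = χ₀' := by
  apply RingHom.ext
  intro b
  rw [← r₁.chi b, ← r₂.chi b]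
  exact chi_eq_of_Q_eq h₁ h₂ Hk hQ (r₁.le b b.2) (r₂.le b b.2)

/-- … in terms of `Centre8.CPt`. -/
theorem cpt_eq_of_Q_eq {x y : CPt res BA} (h₁ : IsBranch A res G red C₁ χ₁ Q₁)
    (h₂ : IsBranch A res G red C₂ χ₂ Q₂) (Hk : LHyp k Ft) (r₁ : Restricts BA C₁ χ₁ x.χ)
    (r₂ : Restricts BA C₂ χ₂ y.χ) (hQ : Q₁ = Q₂) : x = y :=
  CPt.ext' res (chi0_eq_of_Q_eq h₁ h₂ Hk r₁ r₂ hQ)

/-- … for the local rings of the chart. -/
theorem cpt_eq_of_Q_eq_locC {x y : CPt res BA}
    (h₁ : IsBranch A res G red (locC BA x.χ) (chiC BA x.χ) Q₁)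
    (h₂ : IsBranch A res G red (locC BA y.χ) (chiC BA y.χ) Q₂) (Hk : LHyp k Ft) (hQ : Q₁ = Q₂) :
    x = y :=
  cpt_eq_of_Q_eq h₁ h₂ Hk (restricts_locC BA x.χ) (restricts_locC BA y.χ) hQ

/-- two closed points of a chart separated by a function of the chart have different places. -/
theorem Q_ne_of_witness (h₁ : IsBranch A res G red C₁ χ₁ Q₁) (h₂ : IsBranch A res G red C₂ χ₂ Q₂)
    (Hk : LHyp k Ft) (r₁ : Restricts BA C₁ χ₁ χ₀) (r₂ : Restricts BA C₂ χ₂ χ₀') (b₀ : BA)
    (hb₁ : χ₀ b₀ ≠ 0) (hb₂ : χ₀' b₀ = 0) : Q₁ ≠ Q₂ := by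
  intro hQ
  have := chi0_eq_of_Q_eq h₁ h₂ Hk r₁ r₂ hQ
  rw [this] at hb₁
  exact hb₁ hb₂

/-- **a one-branch point is not a branch of a node** (`pt_ne_src`, `pt_ne_tgt`): the closed point
`(C₁, χ₁)` does not lie on the other component `(Goff, redoff)` (witness `b₀`), the closed point
`(C₂, χ₂)` does. -/
theorem Q_ne_of_off {Ft' : Type*} [Field Ft'] [Algebra k Ft'] {Goff : Subring F}
    {redoff : Goff →+* Ft'} {Q₂' : Place k Ft'}
    (h₁ : IsBranch A res G red C₁ χ₁ Q₁) (h₂ : IsBranch A res G red C₂ χ₂ Q₂)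
    (h₂' : IsBranch A res Goff redoff C₂ χ₂ Q₂') (Hk : LHyp k Ft)
    (r₁ : Restricts BA C₁ χ₁ χ₀) (r₂ : Restricts BA C₂ χ₂ χ₀') (b₀ : BA)
    (hb₁ : χ₀ b₀ ≠ 0) (hoff : redoff ⟨(b₀ : F), h₂'.le_G _ (r₂.le b₀ b₀.2)⟩ = 0) : Q₁ ≠ Q₂ := by
  refine Q_ne_of_witness h₁ h₂ Hk r₁ r₂ b₀ hb₁ ?_
  rw [← r₂.chi b₀]
  exact h₂'.chi_of_red ⟨(b₀ : F), r₂.le b₀ b₀.2⟩ hoff

/-- **a closed point of chart `0` and a closed point at infinity of chart `1` have different
places.** -/
theorem Q_ne_of_charts {B0 B1 : Subalgebra A F} {χ₀ : B0 →+* k} {χ₀' : B1 →+* k}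
    (h₁ : IsBranch A res G red C₁ χ₁ Q₁) (h₂ : IsBranch A res G red C₂ χ₂ Q₂)
    (r₁ : Restricts B0 C₁ χ₁ χ₀) (r₂ : Restricts B1 C₂ χ₂ χ₀') {t : F} (ht0 : t ≠ 0)
    (ht : t ∈ B0) (tinv : B1) (ht1 : (tinv : F) = t⁻¹) (hχ : χ₀' tinv = 0) : Q₁ ≠ Q₂ := by
  have hm : t⁻¹ ∈ C₂ := ht1 ▸ r₂.le tinv tinv.2
  refine Q_ne_of_inv h₁ h₂ ht0 (r₁.le t ht) hm ?_
  rw [← hχ, ← r₂.chi tinv]
  congr 1
  exact Subtype.ext ht1.symm

end Chart

/-! ### the centre of a place of the reduced function field -/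

section CentreQ

variable [Algebra A F] [IsScalarTower A L F]

variable (Hk : LHyp k Ft) (Q : Place k Ft) (BA : Subalgebra A F) (le_G : ∀ b ∈ BA, b ∈ G)
  (hQ : ∀ b : BA, red ⟨(b : F), le_G b b.2⟩ ∈ Q.toValuationSubring)

/-- the reduction of the chart. -/
def redBA (red : G →+* Ft) (BA : Subalgebra A F) (le_G : ∀ b ∈ BA, b ∈ G) : BA →+* Ft :=
  red.comp (Subring.inclusion (S := BA.toSubring) (T := G) le_G)

theorem redBA_apply (b : BA) : redBA red BA le_G b = red ⟨(b : F), le_G b b.2⟩ := rfl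

/-- the reduction of the chart, into the valuation ring of `Q`. -/
def toOQ : BA →+* Q.toValuationSubring :=
  (redBA red BA le_G).codRestrict Q.toValuationSubring.toSubring hQ

/-- **the centre of the place `Q` on the chart**: `b ↦ (red b)(Q)`. -/
noncomputable def chiQ : BA →+* k := (val Hk Q).comp (toOQ Q BA le_G hQ)

theorem chiQ_apply (b : BA) :
    chiQ Hk Q BA le_G hQ b = valF Hk Q (red ⟨(b : F), le_G b b.2⟩) := by
  rw [valF_of_mem Hk Q (hQ b)]
  rfl

/-- the centre lies on the component. -/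
theorem chiQ_on (b : BA) (hb : red ⟨(b : F), le_G b b.2⟩ = 0) : chiQ Hk Q BA le_G hQ b = 0 := by
  rw [chiQ_apply, hb, valF_zero]

theorem chiQ_const
    (hred : ∀ a : A, red ⟨algebraMap L F (a : L),
      (algebraMap_A_eq (F := F) a) ▸ le_G _ (BA.algebraMap_mem a)⟩ = algebraMap k Ft (res a))
    (a : A) : chiQ Hk Q BA le_G hQ (algebraMap A BA a) = res a := by
  rw [chiQ_apply]
  have e : (⟨((algebraMap A BA a : BA) : F), le_G _ (algebraMap A BA a).2⟩ : G) =
      ⟨algebraMap L F (a : L), (algebraMap_A_eq (F := F) a) ▸ le_G _ (BA.algebraMap_mem a)⟩ :=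
    Subtype.ext (by
      show ((algebraMap A BA a : BA) : F) = algebraMap L F (a : L)
      rw [← algebraMap_A_eq]; rfl)
  rw [e, hred, valF_algebraMap]

/-- the centre as a closed point of the chart. -/
noncomputable def cptOfPlace
    (hred : ∀ a : A, red ⟨algebraMap L F (a : L),
      (algebraMap_A_eq (F := F) a) ▸ le_G _ (BA.algebraMap_mem a)⟩ = algebraMap k Ft (res a)) :
    CPt res BA := ⟨chiQ Hk Q BA le_G hQ, chiQ_const Hk Q BA le_G hQ hred⟩

@[simp] theorem cptOfPlace_χ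
    (hred : ∀ a : A, red ⟨algebraMap L F (a : L),
      (algebraMap_A_eq (F := F) a) ▸ le_G _ (BA.algebraMap_mem a)⟩ = algebraMap k Ft (res a)) :
    (cptOfPlace Hk Q BA le_G hQ hred).χ = chiQ Hk Q BA le_G hQ := rfl

variable {Hk Q BA}

include hQ in
/-- **a branch of the centre of `Q` is `Q`** : if the closed point `χ₀` of the chart is the centre of
`Q` and `(C, χ, Q')` is a branch at `χ₀` with `C` the localisation of the chart, then `Q' = Q`. -/
theorem Q_eq_of_chi_eq {C : Subring F} {χ : C →+* k} {Q' : Place k Ft} {χ₀ : BA →+* k}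
    (h : IsBranch A res G red C χ Q') (r : Restricts BA C χ χ₀)
    (hloc : ∀ c : C, ∃ a d : BA, χ₀ d ≠ 0 ∧ (c : F) * (d : F) = (a : F))
    (hχ : ∀ b : BA, χ₀ b = valF Hk Q (red ⟨(b : F), le_G b b.2⟩)) : Q' = Q := by
  have hle : Q'.toValuationSubring ≤ Q.toValuationSubring := by
    intro y hy
    obtain ⟨c, rfl⟩ := (h.mem_Q y).mp hy
    obtain ⟨a, d, hd, e⟩ := hloc c
    -- `red c * red d = red a`
    have e1 : red ⟨(c : F), h.le_G c c.2⟩ * red ⟨(d : F), le_G d d.2⟩ =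
        red ⟨(a : F), le_G a a.2⟩ := by
      rw [← map_mul]
      congr 1
      exact Subtype.ext e
    have hdv : valF Hk Q (red ⟨(d : F), le_G d d.2⟩) ≠ 0 := by rw [← hχ]; exact hd
    have hd0 : red ⟨(d : F), le_G d d.2⟩ ≠ 0 := by
      intro h0
      rw [h0, valF_zero] at hdv
      exact hdv rfl
    have hdo : Q.ord (red ⟨(d : F), le_G d d.2⟩) = 0 := by
      have h1 := ffp_ord_nonneg_of_mem Q (hQ d)
      by_contra hne
      apply hdv
      rw [valF_eq_zero_iff Hk Q (hQ d)]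
      right
      omega
    have e2 : red ⟨(c : F), h.le_G c c.2⟩ =
        red ⟨(a : F), le_G a a.2⟩ * (red ⟨(d : F), le_G d d.2⟩)⁻¹ := by
      rw [← e1]; field_simp
    rw [e2]
    refine Q.toValuationSubring.mul_mem _ _ (hQ a) ?_
    apply ffp_mem_of_ord_nonneg
    rw [Place.ord_inv, hdo, neg_zero]
  have := Fermat.Agent.ES.HECKE.FundIdentity19.valuationSubring_eq_of_le Q' Q.toValuationSubring
    hle Q.ne_top'
  exact Place.ext this.symm

/-- … for the local ring of the chart at the centre of `Q`. -/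
theorem Q_eq_of_locC {Q' : Place k Ft}
    (h : IsBranch A res G red (locC BA (chiQ Hk Q BA le_G hQ)) (chiC BA (chiQ Hk Q BA le_G hQ)) Q') :
    Q' = Q :=
  Q_eq_of_chi_eq (Hk := Hk) le_G hQ h (restricts_locC BA _) (fun c => exists_rep BA _ c)
    (fun b => chiQ_apply Hk Q BA le_G hQ b)

end CentreQ

/-! ### integrality: the centre exists on one of the two charts -/

section Integral

open Polynomial Fermat.Agent.RED.PUR.ChartGeneric22

/-- the reduction of a root of a monic polynomial whose coefficients reduce into a valuation ring `O`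
lies in `O`. -/
theorem red_mem_of_monic_root (O : ValuationSubring Ft) (p : F[X]) (hp : p.Monic)
    (hc : ∀ i, ∃ h : p.coeff i ∈ G, red ⟨_, h⟩ ∈ O) {x : F} (hxG : x ∈ G) (hx : p.eval x = 0) :
    red ⟨x, hxG⟩ ∈ O := by
  have hl : p ∈ lifts (G.subtype) := by
    rw [lifts_iff_coeff_lifts]
    intro n
    exact ⟨⟨p.coeff n, (hc n).1⟩, rfl⟩
  obtain ⟨q, hq, -, hqm⟩ := lifts_and_natDegree_eq_and_monic hl hp
  have hroot : q.eval (⟨x, hxG⟩ : G) = 0 := by
    apply Subtype.ext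
    have h1 : (q.map G.subtype).eval (G.subtype ⟨x, hxG⟩) = G.subtype (q.eval ⟨x, hxG⟩) := by
      rw [eval_map, eval₂_at_apply]
    rw [hq] at h1
    show G.subtype (q.eval ⟨x, hxG⟩) = 0
    rw [← h1]
    exact hx
  have hroot' : (q.map red).eval (red ⟨x, hxG⟩) = 0 := by
    rw [eval_map, eval₂_at_apply, hroot, map_zero]
  refine mem_of_monic_root O (q.map red) (hqm.map red) (fun i => ?_) hroot'
  rw [coeff_map]
  obtain ⟨h, hmem⟩ := hc i
  have e : q.coeff i = ⟨p.coeff i, h⟩ := by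
    apply Subtype.ext
    show G.subtype (q.coeff i) = p.coeff i
    rw [← coeff_map, hq]
  rw [e]
  exact hmem

variable [Algebra A F] [IsScalarTower A L F]

/-- **the reduction of the integral closure of `A[t]` lies in `O` as soon as that of `t` does.** -/
theorem red_mem_of_mem_chart (O : ValuationSubring Ft) (hk : ∀ c : k, algebraMap k Ft c ∈ O)
    (hconst : ∀ a : A, ∃ h : algebraMap L F (a : L) ∈ G, red ⟨_, h⟩ = algebraMap k Ft (res a))
    {t : F} (htG : t ∈ G) (ht : red ⟨t, htG⟩ ∈ O) {b : F} (hb : b ∈ chart A t) (hbG : b ∈ G) :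
    red ⟨b, hbG⟩ ∈ O := by
  rw [mem_chart_iff, isIntegral_subalgebra_iff] at hb
  obtain ⟨p, hp, hcoeff, hx⟩ := hb
  refine red_mem_of_monic_root O p hp (fun i => ?_) hbG hx
  have key : ∀ s ∈ Algebra.adjoin A {t}, ∃ h : s ∈ G, red ⟨s, h⟩ ∈ O := by
    intro s hs
    induction hs using Algebra.adjoin_induction with
    | mem x hx =>
        rw [Set.mem_singleton_iff.mp hx]; exact ⟨htG, ht⟩
    | algebraMap a =>
        obtain ⟨h, e⟩ := hconst a
        rw [algebraMap_A_eq]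
        exact ⟨h, by rw [e]; exact hk _⟩
    | add x y _ _ hx hy =>
        obtain ⟨h1, m1⟩ := hx
        obtain ⟨h2, m2⟩ := hy
        refine ⟨G.add_mem h1 h2, ?_⟩
        have : (⟨x + y, G.add_mem h1 h2⟩ : G) = ⟨x, h1⟩ + ⟨y, h2⟩ := rfl
        rw [this, map_add]
        exact O.add_mem _ _ m1 m2
    | mul x y _ _ hx hy =>
        obtain ⟨h1, m1⟩ := hx
        obtain ⟨h2, m2⟩ := hy
        refine ⟨G.mul_mem h1 h2, ?_⟩
        have : (⟨x * y, G.mul_mem h1 h2⟩ : G) = ⟨x, h1⟩ * ⟨y, h2⟩ := rfl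
        rw [this, map_mul]
        exact O.mul_mem _ _ m1 m2
  exact key _ (hcoeff i)

/-- a function lies in the valuation ring of a place, or its inverse lies in the maximal ideal. -/
theorem mem_or_valF_inv_eq_zero (Hk : LHyp k Ft) (Q : Place k Ft) (f : Ft) :
    f ∈ Q.toValuationSubring ∨ (f⁻¹ ∈ Q.toValuationSubring ∧ valF Hk Q f⁻¹ = 0) := by
  by_cases hf : f ∈ Q.toValuationSubring
  · exact Or.inl hf
  · right
    have hneg : Q.ord f < 0 := by
      by_contra hcon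
      exact hf (ffp_mem_of_ord_nonneg Q (by omega))
    have hpos : 0 < Q.ord f⁻¹ := by rw [Place.ord_inv]; omega
    have hmem : f⁻¹ ∈ Q.toValuationSubring := ffp_mem_of_ord_nonneg Q hpos.le
    exact ⟨hmem, (valF_eq_zero_iff Hk Q hmem).mpr (Or.inr hpos)⟩

/-- **every place of the reduced function field of a component has a centre on one of the two
charts** `chart A t`, `chart A t⁻¹` (at infinity on the second one). -/
theorem exists_centre_of_place (Hk : LHyp k Ft) (Q : Place k Ft)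
    (hconst : ∀ a : A, ∃ h : algebraMap L F (a : L) ∈ G, red ⟨_, h⟩ = algebraMap k Ft (res a))
    {t : F} (ht0 : t ≠ 0) (le0 : ∀ b ∈ chart A t, b ∈ G) (le1 : ∀ b ∈ chart A t⁻¹, b ∈ G) :
    (∃ hQ : ∀ b : chart A t, red ⟨(b : F), le0 b b.2⟩ ∈ Q.toValuationSubring, True) ∨
    (∃ hQ : ∀ b : chart A t⁻¹, red ⟨(b : F), le1 b b.2⟩ ∈ Q.toValuationSubring,
      chiQ Hk Q (chart A t⁻¹) le1 hQ ⟨t⁻¹, self_mem_chart t⁻¹⟩ = 0) := by
  have htG : t ∈ G := le0 t (self_mem_chart t)
  have htiG : t⁻¹ ∈ G := le1 _ (self_mem_chart t⁻¹)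
  have e : red ⟨t, htG⟩ * red ⟨t⁻¹, htiG⟩ = 1 := by
    rw [← map_mul, ← map_one red]
    congr 1
    exact Subtype.ext (mul_inv_cancel₀ ht0)
  have einv : red ⟨t⁻¹, htiG⟩ = (red ⟨t, htG⟩)⁻¹ := eq_inv_of_mul_eq_one_right e
  rcases mem_or_valF_inv_eq_zero Hk Q (red ⟨t, htG⟩) with h | ⟨h, hv⟩
  · left
    exact ⟨fun b => red_mem_of_mem_chart (res := res) Q.toValuationSubring Q.algebraMap_mem' hconst
      htG h b.2 (le0 b b.2), trivial⟩
  · right
    rw [← einv] at h hv
    refine ⟨fun b => red_mem_of_mem_chart (res := res) Q.toValuationSubring Q.algebraMap_mem' hconst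
      htiG h b.2 (le1 b b.2), ?_⟩
    rw [chiQ_apply]
    exact hv

end Integral

/-! ### the two-chart model: `Centre8.Pts` -/

section TwoCharts

open Fermat.Agent.RED.PUR.ChartGeneric22

variable [Algebra A F] [IsScalarTower A L F] {B0 B1 : Subalgebra A F} {tinv : B1}

/-- `(C, χ)` is a local datum of the closed point `x` of the two-chart model. -/
def RestrictsPts (x : Pts res B0 B1 tinv) (C : Subring F) (χ : C →+* k) : Prop :=
  Sum.elim (fun x₀ => Restricts B0 C χ x₀.χ) (fun y => Restricts B1 C χ y.1.χ) x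

/-- the residue map of the local ring `AtlasPts6.ringPts x`. -/
noncomputable def chiPts : ∀ x : Pts res B0 B1 tinv, ringPts x →+* k
  | Sum.inl x₀ => chiC B0 x₀.χ
  | Sum.inr y => chiC B1 y.1.χ

@[simp] theorem chiPts_inl (x₀ : CPt res B0) :
    chiPts (Sum.inl x₀ : Pts res B0 B1 tinv) = chiC B0 x₀.χ := rfl

@[simp] theorem chiPts_inr (y : {y : CPt res B1 // y.χ tinv = 0}) :
    chiPts (Sum.inr y : Pts res B0 B1 tinv) = chiC B1 y.1.χ := rfl

theorem restrictsPts_ringPts (x : Pts res B0 B1 tinv) : RestrictsPts x (ringPts x) (chiPts x) := by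
  rcases x with x₀ | y
  · exact restricts_locC B0 x₀.χ
  · exact restricts_locC B1 y.1.χ

/-- **the place determines the closed point of the two-chart model**: two closed points with
branches on the same component and the same place coincide.  (⇒ `SmoothAtlas.Q_inj`,
`branch_s_inj`, `branch_t_inj`, and `pt_ne_src`, `pt_ne_tgt` since a one-branch point is not a
node.) -/
theorem pts_eq_of_Q_eq {x y : Pts res B0 B1 tinv} {C₁ C₂ : Subring F} {χ₁ : C₁ →+* k}
    {χ₂ : C₂ →+* k} {Q₁ Q₂ : Place k Ft}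
    (h₁ : IsBranch A res G red C₁ χ₁ Q₁) (h₂ : IsBranch A res G red C₂ χ₂ Q₂) (Hk : LHyp k Ft)
    (r₁ : RestrictsPts x C₁ χ₁) (r₂ : RestrictsPts y C₂ χ₂)
    {t : F} (ht0 : t ≠ 0) (ht : t ∈ B0) (ht1 : (tinv : F) = t⁻¹) (hQ : Q₁ = Q₂) : x = y := by
  rcases x with x₀ | x₁ <;> rcases y with y₀ | y₁
  · exact congrArg Sum.inl (cpt_eq_of_Q_eq h₁ h₂ Hk r₁ r₂ hQ)
  · exact absurd hQ (Q_ne_of_charts h₁ h₂ r₁ r₂ ht0 ht tinv ht1 y₁.2)
  · exact absurd hQ.symm (Q_ne_of_charts h₂ h₁ r₂ r₁ ht0 ht tinv ht1 x₁.2)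
  · exact congrArg Sum.inr (Subtype.ext (cpt_eq_of_Q_eq h₁ h₂ Hk r₁ r₂ hQ))

/-- the closed point `x` lies on the component `(G, red)`. -/
def OnPts (red : G →+* Ft) (le0 : ∀ b ∈ B0, b ∈ G) (le1 : ∀ b ∈ B1, b ∈ G)
    (x : Pts res B0 B1 tinv) : Prop :=
  Sum.elim (fun x₀ => ∀ b : B0, red ⟨(b : F), le0 b b.2⟩ = 0 → x₀.χ b = 0)
    (fun y => ∀ b : B1, red ⟨(b : F), le1 b b.2⟩ = 0 → y.1.χ b = 0) x

/-- **every place of the reduced function field of a component is the place of a closed point of the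
two-chart model lying on the component** (⇒ `pt_surj`). -/
theorem exists_pts_of_place (Hk : LHyp k Ft) (Q : Place k Ft)
    (hconst : ∀ a : A, ∃ h : algebraMap L F (a : L) ∈ G, red ⟨_, h⟩ = algebraMap k Ft (res a))
    {t : F} (ht0 : t ≠ 0) (ht : t ∈ B0) (ht1 : (tinv : F) = t⁻¹)
    (hB0 : ∀ b ∈ B0, b ∈ chart A t) (hB1 : ∀ b ∈ B1, b ∈ chart A t⁻¹)
    (le0 : ∀ b ∈ B0, b ∈ G) (le1 : ∀ b ∈ B1, b ∈ G) :
    ∃ x : Pts res B0 B1 tinv, OnPts red le0 le1 x ∧
      ∀ (χ : ringPts x →+* k) (Q' : Place k Ft), IsBranch A res G red (ringPts x) χ Q' →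
        RestrictsPts x (ringPts x) χ → Q' = Q := by
  have htG : t ∈ G := le0 t ht
  have htiG : t⁻¹ ∈ G := ht1 ▸ le1 _ tinv.2
  have e : red ⟨t, htG⟩ * red ⟨t⁻¹, htiG⟩ = 1 := by
    rw [← map_mul, ← map_one red]
    congr 1
    exact Subtype.ext (mul_inv_cancel₀ ht0)
  have einv : red ⟨t⁻¹, htiG⟩ = (red ⟨t, htG⟩)⁻¹ := eq_inv_of_mul_eq_one_right e
  have hred0 : ∀ a : A, red ⟨algebraMap L F (a : L),
      (algebraMap_A_eq (F := F) a) ▸ le0 _ (B0.algebraMap_mem a)⟩ = algebraMap k Ft (res a) :=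
    fun a => (hconst a).2
  have hred1 : ∀ a : A, red ⟨algebraMap L F (a : L),
      (algebraMap_A_eq (F := F) a) ▸ le1 _ (B1.algebraMap_mem a)⟩ = algebraMap k Ft (res a) :=
    fun a => (hconst a).2
  rcases mem_or_valF_inv_eq_zero Hk Q (red ⟨t, htG⟩) with h | ⟨h, hv⟩
  · have hQ : ∀ b : B0, red ⟨(b : F), le0 b b.2⟩ ∈ Q.toValuationSubring := fun b =>
      red_mem_of_mem_chart (res := res) Q.toValuationSubring Q.algebraMap_mem' hconst htG h
        (hB0 b b.2) (le0 b b.2)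
    refine ⟨Sum.inl (cptOfPlace Hk Q B0 le0 hQ hred0), ?_, ?_⟩
    · exact fun b hb => chiQ_on Hk Q B0 le0 hQ b hb
    · intro χ Q' hbr hr
      exact Q_eq_of_chi_eq (Hk := Hk) le0 hQ hbr hr (fun c => exists_rep B0 _ c)
        (fun b => chiQ_apply Hk Q B0 le0 hQ b)
  · rw [← einv] at h hv
    have hQ : ∀ b : B1, red ⟨(b : F), le1 b b.2⟩ ∈ Q.toValuationSubring := fun b =>
      red_mem_of_mem_chart (res := res) Q.toValuationSubring Q.algebraMap_mem' hconst htiG h
        (hB1 b b.2) (le1 b b.2)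
    have hinf : (cptOfPlace Hk Q B1 le1 hQ hred1).χ tinv = 0 := by
      rw [cptOfPlace_χ, chiQ_apply]
      have : (⟨(tinv : F), le1 _ tinv.2⟩ : G) = ⟨t⁻¹, htiG⟩ := Subtype.ext ht1
      rw [this]
      exact hv
    refine ⟨Sum.inr ⟨cptOfPlace Hk Q B1 le1 hQ hred1, hinf⟩, ?_, ?_⟩
    · exact fun b hb => chiQ_on Hk Q B1 le1 hQ b hb
    · intro χ Q' hbr hr
      exact Q_eq_of_chi_eq (Hk := Hk) le1 hQ hbr hr (fun c => exists_rep B1 _ c)
        (fun b => chiQ_apply Hk Q B1 le1 hQ b)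

end TwoCharts

end Fermat.Agent.ORD.IFACEN.PtsDict3
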