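/-
PROGRAMME ORD (S33), chapter IFACE-N (O6, helper3): **the constructor of `AssembleN9.AssemblyData`
from the two-chart model** `Centre8.Pts`.

`PtsData B F Ft ι E` collects, over the two charts `B0 ∋ t`, `B1 ∋ t⁻¹` (integral over `A[t]`,
`A[t⁻¹]`) contained in the Gauss rings of all the components `side v`:

* a splitting `e : Pts B.res B0 B1 tinv ≃ Pt ⊕ E` of the closed points into one-branch points and
  nodes (`AtlasSplit6.splitEquiv`);
* for a one-branch point `x` : its component `comp x`, `le_G`, and a disc system on the local ring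
  `ringPts p` with the residue map `chiPts p` (`sys`, existential in the place `Q`);
* for a node `n` : its two components `src n ≠ tgt n` and a node system on `ringPts p`, `chiPts p`
  (`nsys`, existential in `Q Q' x y u ϖ`);
* `cover` : a closed point lying on the component `v` is a one-branch point of `v` or a node with
  `src = v` or `tgt = v`.

`PtsData.toAssemblyData : AssemblyData B F Ft ι E` : the atlas is `AtlasSplit6.atlas` for the centre map
`Centre8.centre`, the node charts are `NodeSys4.NodeSys.nodeChart`, `ann_eq` is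
`AtlasSplit6.atlas_centre_inr_iff`, and the six fields of the point/place dictionary come from
`PtsDict3.pts_eq_of_Q_eq` and `PtsDict3.exists_pts_of_place`.
`centre_smul_of` : the hypothesis `hcentre` of `AssembleMainN9.torsOrd_of_assembly` from the
invariance of `Centre8.centre`.
-/
import Mathlib
import Fermat.Agent.ORD.IFACEN.PtsDict3
import Fermat.Agent.ORD.IFACEN.AssembleN9

set_option autoImplicit false
set_option linter.unusedSectionVars false
set_option linter.unusedVariables false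
set_option linter.style.longLine false

namespace Fermat.Agent.ORD.IFACEN.PtsAssembly3

open AlgebraicCurve Fermat.Agent.X0.FF Fermat.Agent.RR.LSpace Fermat.Agent.MW.EMB.Value6
open Fermat.Agent.ORD.ANN.Side3 Fermat.Agent.ORD.ANN.Node3
open Fermat.Agent.ORD.IFACEN.DiscSys8 Fermat.Agent.ORD.IFACEN.DiscPlaces8
  Fermat.Agent.ORD.IFACEN.LocAt8 Fermat.Agent.ORD.IFACEN.Centre8
  Fermat.Agent.ORD.IFACEN.SmoothAtlas8 Fermat.Agent.ORD.IFACEN.AtlasSplit6
  Fermat.Agent.ORD.IFACEN.AtlasPts6 Fermat.Agent.ORD.IFACEN.AssembleN9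
  Fermat.Agent.ORD.IFACEN.PtsDict3
open Fermat.Agent.ORD.NODE.NodeSys4
open Fermat.Agent.RED.PUR.ChartGeneric22

noncomputable section

universe uL uk uF uFt uι uE uP

variable {L : Type uL} {k : Type uk} [Field L] [Field k]

/-- **The two-chart model with its one-branch points and nodes.** -/
structure PtsData (B : Base L k) (F : Type uF) (Ft : Type uFt) [Field F] [Algebra L F]
    [Field Ft] [Algebra k Ft] [Algebra B.A F] [IsScalarTower B.A L F]
    (ι : Type uι) (E : Type uE) where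
  HL : LHyp L F
  Hk : LHyp k Ft
  side : ι → Side B F Ft
  /-- the two charts -/
  B0 : Subalgebra B.A F
  B1 : Subalgebra B.A F
  t : F
  tinv : B1
  ht1 : (tinv : F) = t⁻¹
  ht0 : t ∈ B0
  htne : t ≠ 0
  hB0 : ∀ b ∈ B0, b ∈ chart B.A t
  hB1 : ∀ b ∈ B1, b ∈ chart B.A t⁻¹
  le0 : ∀ v, ∀ b ∈ B0, b ∈ (side v).G
  le1 : ∀ v, ∀ b ∈ B1, b ∈ (side v).G
  /-- the splitting of the closed points -/
  Pt : Type uP
  e : Pts B.res B0 B1 tinv ≃ Pt ⊕ E
  /-- the one-branch points -/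
  comp : Pt → ι
  le_G : ∀ x : Pt, ringPts (e.symm (Sum.inl x)) ≤ (side (comp x)).G
  sys : ∀ x : Pt, ∃ Q : Place k Ft, DiscSys B.A B.res (ringPts (e.symm (Sum.inl x)))
    (redOn (side (comp x)) (le_G x)) (chiPts (e.symm (Sum.inl x))) Q
  /-- the nodes -/
  src : E → ι
  tgt : E → ι
  hloop : ∀ n, src n ≠ tgt n
  nsys : ∀ n : E, ∃ (Q Q' : Place k Ft) (x y u : ringPts (e.symm (Sum.inr n))) (ϖ : L),
    NodeSys B (side (src n)) (side (tgt n)) (ringPts (e.symm (Sum.inr n)))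
      (chiPts (e.symm (Sum.inr n))) Q Q' x y u ϖ
  /-- a closed point of a component is a one-branch point of it or one of its nodes -/
  cover : ∀ v (p : Pts B.res B0 B1 tinv), OnPts (side v).red (le0 v) (le1 v) p →
    (∃ x : Pt, e.symm (Sum.inl x) = p ∧ comp x = v) ∨
      (∃ n : E, e.symm (Sum.inr n) = p ∧ (src n = v ∨ tgt n = v))

namespace PtsData

variable {B : Base L k} {F : Type uF} {Ft : Type uFt} [Field F] [Algebra L F]
  [Field Ft] [Algebra k Ft] [Algebra B.A F] [IsScalarTower B.A L F] {ι : Type uι} {E : Type uE}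
  (𝔓 : PtsData.{uL, uk, uF, uFt, uι, uE, uP} B F Ft ι E)

/-! ### the centre map -/

theorem h0 (P : Place L F) (h : 𝔓.t ∈ compVS 𝔓.HL B.A P) : OnChart 𝔓.HL 𝔓.B0 P :=
  fun b hb => (onChart_chart_iff 𝔓.t).mpr h b (𝔓.hB0 b hb)

theorem h1 (P : Place L F) (h : 𝔓.t⁻¹ ∈ compVS 𝔓.HL B.A P) : OnChart 𝔓.HL 𝔓.B1 P :=
  fun b hb => (onChart_chart_iff 𝔓.t⁻¹).mpr h b (𝔓.hB1 b hb)

/-- the centre map of the two-chart model. -/
def c (P : Place L F) : Pts B.res 𝔓.B0 𝔓.B1 𝔓.tinv :=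
  centre 𝔓.HL 𝔓.ht1 𝔓.h0 𝔓.h1 B.res_eq_zero_iff P

theorem hc (P : Place L F) (x : Pts B.res 𝔓.B0 𝔓.B1 𝔓.tinv) :
    𝔓.c P = x ↔ InDisc (ringPts x) P :=
  centre_eq_iff 𝔓.HL 𝔓.ht1 𝔓.h0 𝔓.h1 B.res_surj B.res_eq_zero_iff 𝔓.ht0 𝔓.htne P x

/-! ### the chosen places and coordinates -/

/-- the place of a one-branch point. -/
def Q (x : 𝔓.Pt) : Place k Ft := Classical.choose (𝔓.sys x)

theorem sys' (x : 𝔓.Pt) : DiscSys B.A B.res (ringPts (𝔓.e.symm (Sum.inl x)))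
    (redOn (𝔓.side (𝔓.comp x)) (𝔓.le_G x)) (chiPts (𝔓.e.symm (Sum.inl x))) (𝔓.Q x) :=
  Classical.choose_spec (𝔓.sys x)

/-- the branches of a node. -/
def Qs (n : E) : Place k Ft := Classical.choose (𝔓.nsys n)

def Qt (n : E) : Place k Ft := Classical.choose (Classical.choose_spec (𝔓.nsys n))

def xn (n : E) : ringPts (𝔓.e.symm (Sum.inr n)) :=
  Classical.choose (Classical.choose_spec (Classical.choose_spec (𝔓.nsys n)))

def yn (n : E) : ringPts (𝔓.e.symm (Sum.inr n)) :=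
  Classical.choose (Classical.choose_spec (Classical.choose_spec (Classical.choose_spec (𝔓.nsys n))))

def un (n : E) : ringPts (𝔓.e.symm (Sum.inr n)) :=
  Classical.choose (Classical.choose_spec (Classical.choose_spec (Classical.choose_spec
    (Classical.choose_spec (𝔓.nsys n)))))

def pin (n : E) : L :=
  Classical.choose (Classical.choose_spec (Classical.choose_spec (Classical.choose_spec
    (Classical.choose_spec (Classical.choose_spec (𝔓.nsys n))))))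

theorem nsys' (n : E) : NodeSys B (𝔓.side (𝔓.src n)) (𝔓.side (𝔓.tgt n))
    (ringPts (𝔓.e.symm (Sum.inr n))) (chiPts (𝔓.e.symm (Sum.inr n))) (𝔓.Qs n) (𝔓.Qt n)
    (𝔓.xn n) (𝔓.yn n) (𝔓.un n) (𝔓.pin n) :=
  Classical.choose_spec (Classical.choose_spec (Classical.choose_spec (Classical.choose_spec
    (Classical.choose_spec (Classical.choose_spec (𝔓.nsys n))))))

/-! ### branches -/

theorem isBranch_congr {v w : ι} (hvw : v = w) {C : Subring F} {χ : C →+* k} {Q : Place k Ft}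
    (h : IsBranch B.A B.res (𝔓.side v).G (𝔓.side v).red C χ Q) :
    IsBranch B.A B.res (𝔓.side w).G (𝔓.side w).red C χ Q := by
  subst hvw
  exact h

theorem branch_pt (x : 𝔓.Pt) : IsBranch B.A B.res (𝔓.side (𝔓.comp x)).G (𝔓.side (𝔓.comp x)).red
    (ringPts (𝔓.e.symm (Sum.inl x))) (chiPts (𝔓.e.symm (Sum.inl x))) (𝔓.Q x) :=
  IsBranch.of_redOn (𝔓.side (𝔓.comp x)) (𝔓.le_G x) (𝔓.sys' x)

theorem branch_src (n : E) : IsBranch B.A B.res (𝔓.side (𝔓.src n)).G (𝔓.side (𝔓.src n)).red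
    (ringPts (𝔓.e.symm (Sum.inr n))) (chiPts (𝔓.e.symm (Sum.inr n))) (𝔓.Qs n) :=
  IsBranch.of_locSide (𝔓.nsys' n).base (𝔓.nsys' n).side

theorem branch_tgt (n : E) : IsBranch B.A B.res (𝔓.side (𝔓.tgt n)).G (𝔓.side (𝔓.tgt n)).red
    (ringPts (𝔓.e.symm (Sum.inr n))) (chiPts (𝔓.e.symm (Sum.inr n))) (𝔓.Qt n) :=
  IsBranch.of_locSide (𝔓.nsys' n).base (𝔓.nsys' n).side'

/-- **the place determines the closed point** (all branches on the component `v`). -/
theorem eq_of_branch {v : ι} {p q : Pts B.res 𝔓.B0 𝔓.B1 𝔓.tinv} {Q₁ Q₂ : Place k Ft}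
    (h₁ : IsBranch B.A B.res (𝔓.side v).G (𝔓.side v).red (ringPts p) (chiPts p) Q₁)
    (h₂ : IsBranch B.A B.res (𝔓.side v).G (𝔓.side v).red (ringPts q) (chiPts q) Q₂)
    (hQ : Q₁ = Q₂) : p = q :=
  pts_eq_of_Q_eq h₁ h₂ 𝔓.Hk (restrictsPts_ringPts p) (restrictsPts_ringPts q) 𝔓.htne 𝔓.ht0
    𝔓.ht1 hQ

/-! ### the atlas -/

theorem Q_inj (x y : 𝔓.Pt) (hv : 𝔓.comp x = 𝔓.comp y) (hQ : 𝔓.Q x = 𝔓.Q y) : x = y := by
  have h := 𝔓.eq_of_branch (𝔓.isBranch_congr hv (𝔓.branch_pt x)) (𝔓.branch_pt y) hQ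
  exact Sum.inl.inj (𝔓.e.symm.injective h)

/-- **the smooth atlas.** -/
def atlas : SmoothAtlas.{uL, uk, uF, uFt, uι, uE, uP} B F Ft ι E :=
  AtlasSplit6.atlas 𝔓.HL 𝔓.side 𝔓.c ringPts 𝔓.hc 𝔓.e 𝔓.comp 𝔓.le_G
    (fun x => chiPts (𝔓.e.symm (Sum.inl x))) 𝔓.Q 𝔓.sys' 𝔓.Q_inj

@[simp] theorem atlas_centre (P : Place L F) : 𝔓.atlas.centre P = 𝔓.e (𝔓.c P) := rfl

@[simp] theorem atlas_side : 𝔓.atlas.side = 𝔓.side := rfl

@[simp] theorem atlas_HL : 𝔓.atlas.HL = 𝔓.HL := rfl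

@[simp] theorem atlas_comp (x : 𝔓.Pt) : 𝔓.atlas.comp x = 𝔓.comp x := rfl

@[simp] theorem atlas_Q (x : 𝔓.Pt) : 𝔓.atlas.Q x = 𝔓.Q x := rfl

/-- the node chart of a node. -/
def node (n : E) : NodeChart B 𝔓.HL (𝔓.side (𝔓.src n)) (𝔓.side (𝔓.tgt n)) 𝔓.Hk 𝔓.Hk :=
  (𝔓.nsys' n).nodeChart 𝔓.HL 𝔓.Hk 𝔓.Hk

@[simp] theorem node_Q (n : E) : (𝔓.node n).Q = 𝔓.Qs n := rfl

@[simp] theorem node_Q' (n : E) : (𝔓.node n).Q' = 𝔓.Qt n := rfl

theorem mem_node_ann (n : E) (P : Place L F) :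
    P ∈ (𝔓.node n).ann ↔ InDisc (ringPts (𝔓.e.symm (Sum.inr n))) P := Iff.rfl

/-! ### the assembly -/

/-- **The outputs of O6 from the two-chart model.** -/
def toAssemblyData : AssemblyData.{uL, uk, uF, uFt, uι, uE, uP} B F Ft ι E where
  𝔸 := 𝔓.atlas
  Hk := 𝔓.Hk
  src := 𝔓.src
  tgt := 𝔓.tgt
  node := 𝔓.node
  ann_eq := by
    intro n P
    rw [mem_node_ann]
    exact (atlas_centre_inr_iff 𝔓.HL 𝔓.side 𝔓.c ringPts 𝔓.hc 𝔓.e 𝔓.comp 𝔓.le_G
      (fun x => chiPts (𝔓.e.symm (Sum.inl x))) 𝔓.Q 𝔓.sys' 𝔓.Q_inj P n).symm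
  pt_ne_src := by
    intro x n hv hQ
    have h := 𝔓.eq_of_branch (𝔓.isBranch_congr hv (𝔓.branch_src n)) (𝔓.branch_pt x) hQ
    have := 𝔓.e.symm.injective h
    exact absurd this (by simp)
  pt_ne_tgt := by
    intro x n hv hQ
    have h := 𝔓.eq_of_branch (𝔓.isBranch_congr hv (𝔓.branch_tgt n)) (𝔓.branch_pt x) hQ
    have := 𝔓.e.symm.injective h
    exact absurd this (by simp)
  pt_surj := by
    intro v Q hs ht
    obtain ⟨p, hon, hbr⟩ := exists_pts_of_place (res := B.res) (red := (𝔓.side v).red) 𝔓.Hk Q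
      (fun a => ⟨(𝔓.side v).const_mem a, (𝔓.side v).red_const a⟩) 𝔓.htne 𝔓.ht0 𝔓.ht1 𝔓.hB0 𝔓.hB1
      (𝔓.le0 v) (𝔓.le1 v)
    rcases 𝔓.cover v p hon with ⟨x, rfl, rfl⟩ | ⟨n, rfl, hsv | htv⟩
    · exact ⟨x, rfl, hbr _ _ (𝔓.branch_pt x) (restrictsPts_ringPts _)⟩
    · exact absurd ⟨hsv, hbr _ _ (𝔓.isBranch_congr hsv (𝔓.branch_src n))
        (restrictsPts_ringPts _)⟩ (hs n)
    · exact absurd ⟨htv, hbr _ _ (𝔓.isBranch_congr htv (𝔓.branch_tgt n))
        (restrictsPts_ringPts _)⟩ (ht n)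
  branch_s_inj := by
    intro n n' hv hQ
    have h := 𝔓.eq_of_branch (𝔓.isBranch_congr hv (𝔓.branch_src n)) (𝔓.branch_src n') hQ
    exact Sum.inr.inj (𝔓.e.symm.injective h)
  branch_t_inj := by
    intro n n' hv hQ
    have h := 𝔓.eq_of_branch (𝔓.isBranch_congr hv (𝔓.branch_tgt n)) (𝔓.branch_tgt n') hQ
    exact Sum.inr.inj (𝔓.e.symm.injective h)
  branch_st := by
    intro n n' hv hQ
    have h := 𝔓.eq_of_branch (𝔓.isBranch_congr hv (𝔓.branch_src n)) (𝔓.branch_tgt n') hQ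
    have hn : n = n' := Sum.inr.inj (𝔓.e.symm.injective h)
    subst hn
    exact 𝔓.hloop n hv

@[simp] theorem toAssemblyData_𝔸 : 𝔓.toAssemblyData.𝔸 = 𝔓.atlas := rfl

@[simp] theorem toAssemblyData_src : 𝔓.toAssemblyData.src = 𝔓.src := rfl

@[simp] theorem toAssemblyData_tgt : 𝔓.toAssemblyData.tgt = 𝔓.tgt := rfl

/-- **the centre map of the assembled datum is invariant under every automorphism fixing the centre
map of the two-chart model** (`hcentre` of `AssembleMainN9.torsOrd_of_assembly`). -/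
theorem centre_smul_of {Γ : Type*} [SMul Γ (Place L F)] (σ : Γ)
    (h : ∀ P : Place L F, 𝔓.c (σ • P) = 𝔓.c P) (P : Place L F) :
    𝔓.toAssemblyData.𝔸.centre (σ • P) = 𝔓.toAssemblyData.𝔸.centre P := by
  show 𝔓.e (𝔓.c (σ • P)) = 𝔓.e (𝔓.c P)
  rw [h P]

end PtsData

end

end Fermat.Agent.ORD.IFACEN.PtsAssembly3
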