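/-
PROGRAMME ORD (S33), chapter IFACE-N (O6, helper3): **the assembly for a model with TWO components**
`S₁`, `S₂` over the two charts `B0 ∋ t`, `B1 ∋ t⁻¹`.

Closed points `p : Centre8.Pts B.res B0 B1 tinv`; `On₁ p`, `On₂ p` : `p` lies on the component
(`PtsDict3.OnPts`).  Hypotheses (`TwoCompHyp`):

* `dich` : every closed point lies on one of the two components (`ClosedPtComp6.on_or_on`);
* `sm₁`, `sm₂` : a closed point lying on exactly one component carries a disc system on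
  `ringPts p`, `chiPts p` (helper8, `LevelFamily8.exists_discSys`);
* `nd` : a closed point lying on both components carries a node system (helper4).

Output: `TwoCompHyp.ptsData : PtsData B F Ft (Fin 2) {p // On₁ p ∧ On₂ p}` with
`side = ![S₁, S₂]`, `src ≡ 0`, `tgt ≡ 1`, and
`TwoCompHyp.assembly : AssemblyData B F Ft (Fin 2) {p // On₁ p ∧ On₂ p}` with
`assembly.𝔸.side 0 = S₁`, `assembly.𝔸.side 1 = S₂` by `rfl` (the shape of
`GlueTwoN9.torsOrd_of_sides`).
-/
import Mathlib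
import Fermat.Agent.ORD.IFACEN.PtsAssembly3

set_option autoImplicit false
set_option linter.unusedSectionVars false
set_option linter.unusedVariables false
set_option linter.style.longLine false

namespace Fermat.Agent.ORD.IFACEN.TwoCompAssembly3

open AlgebraicCurve Fermat.Agent.X0.FF Fermat.Agent.RR.LSpace Fermat.Agent.MW.EMB.Value6
open Fermat.Agent.ORD.ANN.Side3 Fermat.Agent.ORD.ANN.Node3
open Fermat.Agent.ORD.IFACEN.DiscSys8 Fermat.Agent.ORD.IFACEN.DiscPlaces8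
  Fermat.Agent.ORD.IFACEN.LocAt8 Fermat.Agent.ORD.IFACEN.Centre8
  Fermat.Agent.ORD.IFACEN.SmoothAtlas8 Fermat.Agent.ORD.IFACEN.AtlasSplit6
  Fermat.Agent.ORD.IFACEN.AtlasPts6 Fermat.Agent.ORD.IFACEN.AssembleN9
  Fermat.Agent.ORD.IFACEN.PtsDict3 Fermat.Agent.ORD.IFACEN.PtsAssembly3
open Fermat.Agent.ORD.NODE.NodeSys4
open Fermat.Agent.RED.PUR.ChartGeneric22

noncomputable section

universe uL uk uF uFt

variable {L : Type uL} {k : Type uk} [Field L] [Field k]
variable {B : Base L k} {F : Type uF} {Ft : Type uFt} [Field F] [Algebra L F]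
  [Field Ft] [Algebra k Ft] [Algebra B.A F] [IsScalarTower B.A L F]

/-- the local ring of a closed point lying on a component is contained in its Gauss ring. -/
theorem ringPts_le_of_onPts (S : Side B F Ft) {B0 B1 : Subalgebra B.A F} {tinv : B1}
    (le0 : ∀ b ∈ B0, b ∈ S.G) (le1 : ∀ b ∈ B1, b ∈ S.G) {p : Pts B.res B0 B1 tinv}
    (hon : OnPts S.red le0 le1 p) : ringPts p ≤ S.G := by
  rcases p with x₀ | y
  · exact (OnComp.mk (χ₀ := x₀.χ) le0 (fun g hg => S.inv_mem hg) hon).locC_le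
  · exact (OnComp.mk (χ₀ := y.1.χ) le1 (fun g hg => S.inv_mem hg) hon).locC_le

/-- **The hypotheses of the two-component assembly.** -/
structure TwoCompHyp (S₁ S₂ : Side B F Ft) (B0 B1 : Subalgebra B.A F) (t : F) (tinv : B1)
    (le0₁ : ∀ b ∈ B0, b ∈ S₁.G) (le1₁ : ∀ b ∈ B1, b ∈ S₁.G)
    (le0₂ : ∀ b ∈ B0, b ∈ S₂.G) (le1₂ : ∀ b ∈ B1, b ∈ S₂.G) : Prop where
  ht1 : (tinv : F) = t⁻¹
  ht0 : t ∈ B0
  htne : t ≠ 0
  hB0 : ∀ b ∈ B0, b ∈ chart B.A t
  hB1 : ∀ b ∈ B1, b ∈ chart B.A t⁻¹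
  /-- every closed point lies on one of the two components -/
  dich : ∀ p : Pts B.res B0 B1 tinv, OnPts S₁.red le0₁ le1₁ p ∨ OnPts S₂.red le0₂ le1₂ p
  /-- one-branch points of the first component -/
  sm₁ : ∀ (p : Pts B.res B0 B1 tinv) (h₁ : OnPts S₁.red le0₁ le1₁ p),
    ¬ OnPts S₂.red le0₂ le1₂ p → ∃ Q : Place k Ft, DiscSys B.A B.res (ringPts p)
      (redOn S₁ (ringPts_le_of_onPts S₁ le0₁ le1₁ h₁)) (chiPts p) Q
  /-- one-branch points of the second component -/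
  sm₂ : ∀ (p : Pts B.res B0 B1 tinv) (h₂ : OnPts S₂.red le0₂ le1₂ p),
    ¬ OnPts S₁.red le0₁ le1₁ p → ∃ Q : Place k Ft, DiscSys B.A B.res (ringPts p)
      (redOn S₂ (ringPts_le_of_onPts S₂ le0₂ le1₂ h₂)) (chiPts p) Q
  /-- the nodes -/
  nd : ∀ p : Pts B.res B0 B1 tinv, OnPts S₁.red le0₁ le1₁ p → OnPts S₂.red le0₂ le1₂ p →
    ∃ (Q Q' : Place k Ft) (x y u : ringPts p) (ϖ : L),
      NodeSys B S₁ S₂ (ringPts p) (chiPts p) Q Q' x y u ϖ

namespace TwoCompHyp

variable {S₁ S₂ : Side B F Ft} {B0 B1 : Subalgebra B.A F} {t : F} {tinv : B1}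
  {le0₁ : ∀ b ∈ B0, b ∈ S₁.G} {le1₁ : ∀ b ∈ B1, b ∈ S₁.G}
  {le0₂ : ∀ b ∈ B0, b ∈ S₂.G} {le1₂ : ∀ b ∈ B1, b ∈ S₂.G}
  (H : TwoCompHyp S₁ S₂ B0 B1 t tinv le0₁ le1₁ le0₂ le1₂)

/-- the two components. -/
def sides (S₁ S₂ : Side B F Ft) : Fin 2 → Side B F Ft := ![S₁, S₂]

@[simp] theorem sides_zero (S₁ S₂ : Side B F Ft) : sides S₁ S₂ 0 = S₁ := rfl

@[simp] theorem sides_one (S₁ S₂ : Side B F Ft) : sides S₁ S₂ 1 = S₂ := rfl

/-- `p` is a node: it lies on both components. -/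
def IsNode (_H : TwoCompHyp S₁ S₂ B0 B1 t tinv le0₁ le1₁ le0₂ le1₂)
    (p : Pts B.res B0 B1 tinv) : Prop :=
  OnPts S₁.red le0₁ le1₁ p ∧ OnPts S₂.red le0₂ le1₂ p

/-- the nodes. -/
abbrev Nodes : Type _ := {p : Pts B.res B0 B1 tinv // H.IsNode p}

/-- the one-branch points. -/
abbrev Smooth : Type _ := {p : Pts B.res B0 B1 tinv // ¬ H.IsNode p}

open Classical in
/-- the component of a one-branch point. -/
def comp (x : H.Smooth) : Fin 2 := if OnPts S₁.red le0₁ le1₁ x.1 then 0 else 1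

theorem le0 (_H : TwoCompHyp S₁ S₂ B0 B1 t tinv le0₁ le1₁ le0₂ le1₂) (v : Fin 2) :
    ∀ b ∈ B0, b ∈ (sides S₁ S₂ v).G :=
  match v with
  | 0 => le0₁
  | 1 => le0₂

theorem le1 (_H : TwoCompHyp S₁ S₂ B0 B1 t tinv le0₁ le1₁ le0₂ le1₂) (v : Fin 2) :
    ∀ b ∈ B1, b ∈ (sides S₁ S₂ v).G :=
  match v with
  | 0 => le1₁
  | 1 => le1₂

theorem on_comp (x : H.Smooth) :
    OnPts (sides S₁ S₂ (H.comp x)).red (H.le0 (H.comp x)) (H.le1 (H.comp x)) x.1 := by
  classical
  have key : ∀ (v : Fin 2), H.comp x = v →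
      OnPts (sides S₁ S₂ v).red (H.le0 v) (H.le1 v) x.1 := by
    intro v hv
    by_cases h : OnPts S₁.red le0₁ le1₁ x.1
    · have h0 : H.comp x = 0 := if_pos h
      have hv0 : v = 0 := hv.symm.trans h0
      subst hv0
      exact h
    · have h1 : H.comp x = 1 := if_neg h
      have hv1 : v = 1 := hv.symm.trans h1
      subst hv1
      exact (H.dich x.1).resolve_left h
  exact key _ rfl

theorem le_G (x : H.Smooth) : ringPts x.1 ≤ (sides S₁ S₂ (H.comp x)).G :=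
  ringPts_le_of_onPts _ _ _ (H.on_comp x)

theorem sys (x : H.Smooth) : ∃ Q : Place k Ft, DiscSys B.A B.res (ringPts x.1)
    (redOn (sides S₁ S₂ (H.comp x)) (H.le_G x)) (chiPts x.1) Q := by
  classical
  have key : ∀ (v : Fin 2) (hv : H.comp x = v) (hle : ringPts x.1 ≤ (sides S₁ S₂ v).G),
      ∃ Q : Place k Ft, DiscSys B.A B.res (ringPts x.1) (redOn (sides S₁ S₂ v) hle) (chiPts x.1) Q := by
    intro v hv hle
    by_cases h : OnPts S₁.red le0₁ le1₁ x.1
    · have h0 : H.comp x = 0 := if_pos h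
      have hv0 : v = 0 := hv.symm.trans h0
      subst hv0
      exact H.sm₁ x.1 h (fun h2 => x.2 ⟨h, h2⟩)
    · have h1 : H.comp x = 1 := if_neg h
      have hv1 : v = 1 := hv.symm.trans h1
      subst hv1
      exact H.sm₂ x.1 ((H.dich x.1).resolve_left h) h
  exact key _ rfl _

/-- **the two-chart data of the two-component model.** -/
def ptsData (HL : LHyp L F) (Hk : LHyp k Ft) : PtsData B F Ft (Fin 2) H.Nodes where
  HL := HL
  Hk := Hk
  side := sides S₁ S₂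
  B0 := B0
  B1 := B1
  t := t
  tinv := tinv
  ht1 := H.ht1
  ht0 := H.ht0
  htne := H.htne
  hB0 := H.hB0
  hB1 := H.hB1
  le0 := H.le0
  le1 := H.le1
  Pt := H.Smooth
  e := splitEquiv H.IsNode
  comp := H.comp
  le_G := H.le_G
  sys := H.sys
  src := fun _ => 0
  tgt := fun _ => 1
  hloop := fun _ => by decide
  nsys := fun n => H.nd n.1 n.2.1 n.2.2
  cover := by
    classical
    intro v p hon
    by_cases hn : H.IsNode p
    · right
      refine ⟨⟨p, hn⟩, rfl, ?_⟩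
      fin_cases v
      · exact Or.inl rfl
      · exact Or.inr rfl
    · left
      refine ⟨⟨p, hn⟩, rfl, ?_⟩
      fin_cases v
      · exact if_pos hon
      · exact if_neg (fun h1 => hn ⟨h1, hon⟩)

/-- **The outputs of O6 for a model with two components.** -/
def assembly (HL : LHyp L F) (Hk : LHyp k Ft) : AssemblyData B F Ft (Fin 2) H.Nodes :=
  (H.ptsData HL Hk).toAssemblyData

theorem assembly_side_zero (HL : LHyp L F) (Hk : LHyp k Ft) :
    (H.assembly HL Hk).𝔸.side 0 = S₁ := rfl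

theorem assembly_side_one (HL : LHyp L F) (Hk : LHyp k Ft) :
    (H.assembly HL Hk).𝔸.side 1 = S₂ := rfl

theorem assembly_src (HL : LHyp L F) (Hk : LHyp k Ft) (n : H.Nodes) :
    (H.assembly HL Hk).src n = 0 := rfl

theorem assembly_tgt (HL : LHyp L F) (Hk : LHyp k Ft) (n : H.Nodes) :
    (H.assembly HL Hk).tgt n = 1 := rfl

/-- the centre map of the two-chart model. -/
theorem ptsData_c (HL : LHyp L F) (Hk : LHyp k Ft) (P : Place L F) :
    (H.ptsData HL Hk).c P =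
      centre HL H.ht1 (H.ptsData HL Hk).h0 (H.ptsData HL Hk).h1 B.res_eq_zero_iff P := rfl

/-- `hcentre` of `AssembleMainN9.torsOrd_of_assembly` from the invariance of the two-chart centre
map. -/
theorem assembly_centre_smul (HL : LHyp L F) (Hk : LHyp k Ft) {Γ : Type*} [SMul Γ (Place L F)]
    (σ : Γ) (h : ∀ P : Place L F, (H.ptsData HL Hk).c (σ • P) = (H.ptsData HL Hk).c P)
    (P : Place L F) :
    (H.assembly HL Hk).𝔸.centre (σ • P) = (H.assembly HL Hk).𝔸.centre P :=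
  (H.ptsData HL Hk).centre_smul_of σ h P

end TwoCompHyp

end

end Fermat.Agent.ORD.IFACEN.TwoCompAssembly3
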