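/-
PROGRAMME ORD (S33), chapter IFACE-N (O6, helper2): **the node systems of the N34 model of
`X₀(M' p)` (the hypothesis `nd` of `TwoCompAssembly3.TwoCompHyp`), reduced to three named inputs.**

Tower of levels `BadFamily8.Lvl (K0 MI)`, charts `chart A t` (levels `B0`) and `chart A t⁻¹` (levels
`B1`), families `BadInstTwo8.lf10/lf20` resp. `lf11/lf21`.  For a closed point `χ₀` of one chart lying
on BOTH components, and a finite level `K₁` such that for all levels `i ⊇ K₁`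

* **(res)**  the closed point `xK i` of level `i` is rational: `∀ b, ∃ r, b - r ∈ xK i`,
* **(hhor)** horizontal primes through `xK i` are centres of places of the tube of `χ₀`,

and, at every level, **(S)** `π ^ N ∈ derIdeal` at every prime of the chart,
`nodeSys0` / `nodeSys1` give `∃ Q Q' x y u ϖ, NodeSys (base A) side1 side2 (locC _ χ₀) (chiC _ χ₀) …`.
Inside: `GoodFamily2.exists_nodeSys_of_cofinal'` with `hne := OneNeTwo3.o1_ne_o2`,
`hnode := NodalNumData.node0/node1`, cofinality from `desc_chart_ge`.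

`nd` : the literal field `nd` of `TwoCompHyp` for `side1`, `side2`, `chart0`, `chart1`.
-/
import Mathlib
import Fermat.Agent.ORD.IFACEN.BadInstTwo8
import Fermat.Agent.ORD.NODE.GoodFamily2
import Fermat.Agent.ORD.IFACEN.TwoCompAssembly3
import Fermat.Agent.ES.N34.OneNeTwo3

set_option autoImplicit false
set_option linter.unusedSectionVars false
set_option linter.unusedVariables false
set_option linter.style.longLine false
set_option synthInstance.maxHeartbeats 400000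

open HahnSeries ModularCurve Polynomial AlgebraicCurve

noncomputable section

namespace Fermat.Agent.ORD.IFACEN.BadNodes2

open Fermat.Agent.RED.Interface4 Fermat.Agent.RED.DESC.PlaceExtend27
  Fermat.Agent.RED.DESC Fermat.Agent.RED.NumInst4
  Fermat.Agent.RED.PUR.GaussGen8 Fermat.Agent.RED.PUR.GaussBridge10
  Fermat.Agent.RED.PUR.ChartGeneric22
  Fermat.Agent.RED.DESC.NumberFieldDVR27
  Fermat.Agent.RED.BASE.Interface12 Fermat.Agent.RED.BASE.EtaQuot12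
  Fermat.Agent.ES.RED.ChartIntegralA1 Fermat.Agent.ES.RED.GaussUnit25
  Fermat.Agent.ES.N34.ModelDefs9 Fermat.Agent.ES.N34.ModelInput13 Fermat.Agent.ES.N34.NumData13
  Fermat.Agent.ES.N34.NodalCore13 Fermat.Agent.ES.N34.NodalCL13
  Fermat.Agent.ES.N34.NodalSmooth13
  Fermat.Agent.ORD.ANN.Side3
  Fermat.Agent.ORD.IFACEN.GaussBad1 Fermat.Agent.ORD.IFACEN.SideOne1
  Fermat.Agent.ORD.IFACEN.SideTwo1
  Fermat.Agent.ORD.IFACEN.BadLevelOne8 Fermat.Agent.ORD.IFACEN.BadFamily8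
  Fermat.Agent.ORD.IFACEN.BadInst8 Fermat.Agent.ORD.IFACEN.BadInstTwo8
  Fermat.Agent.ORD.IFACEN.LevelFamily8 Fermat.Agent.ORD.IFACEN.LocAt8
  Fermat.Agent.ORD.IFACEN.DiscPlaces8
  Fermat.Agent.ORD.NODE.Term0 Fermat.Agent.ORD.NODE.GoodCoords4
  Fermat.Agent.ORD.NODE.NodeFamily2 Fermat.Agent.ORD.NODE.GoodFamily2

/-- fast instance (the canonical search costs seconds). -/
local instance (priority := 100000) algKF (A : ValuationSubring Qbar) (M : ℕ) [NeZero M] :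
    Algebra (kA A) ↥(modularFunctionFieldFullC (kA A) M) := inferInstance

/-- shortcut instance (typeclass search takes seconds to find it). -/
local instance (priority := high) algAKFK (A : ValuationSubring Qbar) (M : ℕ)
    (K : IntermediateField ℚ Qbar) : Algebra ↥(AK A K) ↥(FK M K) := inferInstance

/-- the `A`-algebra structure of `F` for the valuation ring of `SideOne1.base A`. -/
local instance (priority := 100000) algBaseF (A : ValuationSubring Qbar) (N : ℕ) :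
    Algebra ↥(base A).A ↥(Fbar N) :=
  (inferInstance : Algebra ↥A ↥(Fbar N))

/-- the scalar tower `A → ℚ̄ → F` for the valuation ring of `SideOne1.base A`. -/
local instance (priority := 100000) istBase (A : ValuationSubring Qbar) (N : ℕ) :
    @IsScalarTower ↥(base A).A Qbar ↥(Fbar N)
      (ValuationSubring.instAlgebraSubtypeMem (base A).A).toSMul _ (algBaseF A N).toSMul :=
  (inferInstance : IsScalarTower ↥A Qbar ↥(Fbar N))

/-! ### cofinality of the large levels -/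

/-- **the big field and the big chart are the unions of the levels containing a given finite level
`K₁`** (variant of `BadFamily8.desc_chart`). -/
theorem desc_chart_ge (A : ValuationSubring Qbar) (K₀ : IntermediateField ℚ Qbar)
    [FiniteDimensional ℚ K₀] (N : ℕ)
    (s : ↥(Fbar N)) (sK : ∀ i : Lvl K₀, ↥(FK N i.K))
    (hsK : ∀ i : Lvl K₀, baseChangeHom N i.K (sK i) = s)
    (K₁ : IntermediateField ℚ Qbar) [FiniteDimensional ℚ K₁]
    (y : ↥(Fbar N)) (S : List ↥(chart ↥A s)) :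
    ∃ i : Lvl K₀, K₁ ≤ i.K ∧ (∃ x : ↥(FK N i.K), baseChangeHom N i.K x = y) ∧
      ∀ b ∈ S, ∃ b' : ↥(chart ↥(AK A i.K) (sK i)),
        baseChangeHom N i.K (b' : ↥(FK N i.K)) = (b : ↥(Fbar N)) := by
  obtain ⟨K₁', hfd₁, hle₁, Hy⟩ := UnifDescent14.exists_descent_ge N K₀ y
  have key : ∃ K₂ : IntermediateField ℚ Qbar, FiniteDimensional ℚ K₂ ∧ K₁' ≤ K₂ ∧
      ∀ K : IntermediateField ℚ Qbar, K₂ ≤ K → ∀ tK : ↥(FK N K), baseChangeHom N K tK = s →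
        ∀ b ∈ S, ∃ z ∈ chart ↥(AK A K) tK, baseChangeHom N K z = (b : ↥(Fbar N)) := by
    induction S with
    | nil => exact ⟨K₁', hfd₁, le_rfl, fun K _ tK _ b hb => absurd hb (List.not_mem_nil)⟩
    | cons b T ih =>
      obtain ⟨K₂, hfd₂, hle₂, H₂⟩ := ih
      have := hfd₂
      obtain ⟨K₃, hfd₃, hle₃, H₃⟩ :=
        Fermat.Agent.ES.RED.ChartUnion1.exists_chart_descent A N K₂ s (b : ↥(Fbar N)) b.2
      refine ⟨K₃, hfd₃, hle₂.trans hle₃, fun K hK tK htK c hc => ?_⟩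
      rcases List.mem_cons.1 hc with rfl | hc
      · exact H₃ K hK tK htK
      · exact H₂ K (hle₃.trans hK) tK htK c hc
  obtain ⟨K₂, hfd₂, hle₂, H₂⟩ := key
  have := hfd₂
  have hfd : FiniteDimensional ℚ ↥(K₂ ⊔ K₁) := IntermediateField.finiteDimensional_sup K₂ K₁
  obtain ⟨i, hi⟩ := exists_lvl_ge K₀ (K₂ ⊔ K₁) ((hle₁.trans hle₂).trans le_sup_left)
  have hi₂ : K₂ ≤ i.K := le_sup_left.trans hi
  refine ⟨i, le_sup_right.trans hi, Hy i.K (hle₂.trans hi₂), fun b hb => ?_⟩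
  obtain ⟨z, hz, hzb⟩ := H₂ i.K hi₂ (sK i) (hsK i) b hb
  exact ⟨⟨z, hz⟩, hzb⟩

variable (p M' : ℕ) [Fact p.Prime] [NeZero M'] (A : ValuationSubring Qbar)
  (hA : A.LiesOverPrime p) (hpM : ¬ p ∣ M') (h4 : 4 ∣ M')
  (MI : ModelInput 4 8 p M' A)

include hA in
/-- the two Gauss valuation rings differ at every level (`OneNeTwo3.o1_ne_o2`). -/
theorem o1_ne_o2 (i : Lvl (K0 MI)) :
    O1 M' p (piK_unif hA MI i) (hEK MI i) ≠ O2 M' p (piK_unif hA MI i) (hEK MI i) := by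
  haveI : CharP (Res (AK A i.K)) p :=
    Fermat.Agent.RED.DESC.NumberFieldDVR27.charP_residueField_AK A i.K (Fact.out : p.Prime) hA
  exact Fermat.Agent.ES.N34.OneNeTwo3.o1_ne_o2 M' p (piK_unif hA MI i) (hEK MI i)

/-! ### chart `t` -/

section Zero

variable (χ₀ : ↥(chart ↥A (tB p M' h4)) →+* kA A)

/-- the closed point of level `i` below the closed point `χ₀` of `chart A t`. -/
def xK0 (i : Lvl (K0 MI)) : Ideal ↥(B0 A p (htK MI i)) :=
  RingHom.ker (χ₀.comp (((baseChangeHom (M' * p) i.K).comp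
    (B0 A p (htK MI i)).val.toRingHom).codRestrict (chart ↥A (tB p M' h4)).toSubring
    (fun b => baseChangeHom_mem_chart0 p M' A h4 i.K (htK MI i) b.2)))

/-- **the node system of a two-branch closed point of `chart A t`.** -/
theorem nodeSys0
    (hχ₀ : ∀ a : ↥A, χ₀ (algebraMap ↥A ↥(chart ↥A (tB p M' h4)) a) = IsLocalRing.residue ↥A a)
    (hon₁ : ∀ b : ↥(chart ↥A (tB p M' h4)),
      red1 p M' A hA hpM h4 ⟨(b : ↥(Fbar (M' * p))), chart0_le_G1 p M' A hA hpM h4 b.2⟩ = 0 →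
        χ₀ b = 0)
    (hon₂ : ∀ b : ↥(chart ↥A (tB p M' h4)),
      red2 p M' A hA hpM h4 ⟨(b : ↥(Fbar (M' * p))), chart0_le_G2 p M' A hA hpM h4 b.2⟩ = 0 →
        χ₀ b = 0)
    (K₁ : IntermediateField ℚ Qbar) [FiniteDimensional ℚ K₁]
    (hres : ∀ i : Lvl (K0 MI), K₁ ≤ i.K → ∀ b : ↥(B0 A p (htK MI i)), ∃ r : ↥(AK A i.K),
      b - algebraMap ↥(AK A i.K) ↥(B0 A p (htK MI i)) r ∈ xK0 p M' A h4 MI χ₀ i)
    (hhor : ∀ i : Lvl (K0 MI), K₁ ≤ i.K → ∀ ε : ↥(FK (M' * p) i.K),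
      (∀ Pl : Place Qbar ↥(Fbar (M' * p)), InDisc (locC (chart ↥A (tB p M' h4)) χ₀) Pl →
        baseChangeHom (M' * p) i.K ε ∈ Pl.toValuationSubring) →
      HorInt (piK hA MI i) (B0 A p (htK MI i)) (xK0 p M' A h4 MI χ₀ i) ε)
    (hS : ∀ (i : Lvl (K0 MI)) (𝔪 : Ideal ↥(B0 A p (htK MI i))) [𝔪.IsPrime], ∃ N : ℕ,
      algebraMap ↥(AK A i.K) ↥(locSub (B0 A p (htK MI i)) 𝔪) (piK hA MI i) ^ N ∈
        derIdeal ↥(AK A i.K) ↥(locSub (B0 A p (htK MI i)) 𝔪)) :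
    ∃ (Q Q' : Place (kA A) ↥(modularFunctionFieldFullC (kA A) M'))
      (x y u : locC (chart ↥A (tB p M' h4)) χ₀) (ϖ : Qbar),
      Fermat.Agent.ORD.NODE.NodeSys4.NodeSys (base A) (side1 p M' A hA hpM h4)
        (side2 p M' A hA hpM h4) (locC (chart ↥A (tB p M' h4)) χ₀)
        (chiC (chart ↥A (tB p M' h4)) χ₀) Q Q' x y u ϖ := by
  have H₁ := lf10 p M' A hA hpM h4 MI
  have H₂ := lf20 p M' A hA hpM h4 MI
  exact exists_nodeSys_of_cofinal' (B := base A) (S := side1 p M' A hA hpM h4)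
    (S' := side2 p M' A hA hpM h4) H₁ H₂ χ₀ hχ₀ hon₁ hon₂ (o1_ne_o2 p M' A hA MI)
    (fun i => K₁ ≤ i.K)
    (fun y T => desc_chart_ge A (K0 MI) (M' * p) (tB p M' h4) (fun i => tN p (htK MI i))
      (fun i => baseChangeHom_tN p M' h4 i.K (htK MI i)) K₁ y T)
    hres hhor
    (fun i 𝔪 hmax hπ h1 h2 => (nodalK p M' A hA MI i).node0 𝔪 hmax hπ h1 h2)
    hS

end Zero

/-! ### chart `t⁻¹` -/

section One

variable (χ₀ : ↥(chart ↥A (tB p M' h4)⁻¹) →+* kA A)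

/-- the closed point of level `i` below the closed point `χ₀` of `chart A t⁻¹`. -/
def xK1 (i : Lvl (K0 MI)) : Ideal ↥(B1 A p (htK MI i)) :=
  RingHom.ker (χ₀.comp (((baseChangeHom (M' * p) i.K).comp
    (B1 A p (htK MI i)).val.toRingHom).codRestrict (chart ↥A (tB p M' h4)⁻¹).toSubring
    (fun b => baseChangeHom_mem_chart1 p M' A h4 i.K (htK MI i) b.2)))

/-- **the node system of a two-branch closed point of `chart A t⁻¹`.** -/
theorem nodeSys1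
    (hχ₀ : ∀ a : ↥A, χ₀ (algebraMap ↥A ↥(chart ↥A (tB p M' h4)⁻¹) a) = IsLocalRing.residue ↥A a)
    (hon₁ : ∀ b : ↥(chart ↥A (tB p M' h4)⁻¹),
      red1 p M' A hA hpM h4 ⟨(b : ↥(Fbar (M' * p))), chart1_le_G1 p M' A hA hpM h4 b.2⟩ = 0 →
        χ₀ b = 0)
    (hon₂ : ∀ b : ↥(chart ↥A (tB p M' h4)⁻¹),
      red2 p M' A hA hpM h4 ⟨(b : ↥(Fbar (M' * p))), chart1_le_G2 p M' A hA hpM h4 b.2⟩ = 0 →
        χ₀ b = 0)
    (K₁ : IntermediateField ℚ Qbar) [FiniteDimensional ℚ K₁]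
    (hres : ∀ i : Lvl (K0 MI), K₁ ≤ i.K → ∀ b : ↥(B1 A p (htK MI i)), ∃ r : ↥(AK A i.K),
      b - algebraMap ↥(AK A i.K) ↥(B1 A p (htK MI i)) r ∈ xK1 p M' A h4 MI χ₀ i)
    (hhor : ∀ i : Lvl (K0 MI), K₁ ≤ i.K → ∀ ε : ↥(FK (M' * p) i.K),
      (∀ Pl : Place Qbar ↥(Fbar (M' * p)), InDisc (locC (chart ↥A (tB p M' h4)⁻¹) χ₀) Pl →
        baseChangeHom (M' * p) i.K ε ∈ Pl.toValuationSubring) →
      HorInt (piK hA MI i) (B1 A p (htK MI i)) (xK1 p M' A h4 MI χ₀ i) ε)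
    (hS : ∀ (i : Lvl (K0 MI)) (𝔪 : Ideal ↥(B1 A p (htK MI i))) [𝔪.IsPrime], ∃ N : ℕ,
      algebraMap ↥(AK A i.K) ↥(locSub (B1 A p (htK MI i)) 𝔪) (piK hA MI i) ^ N ∈
        derIdeal ↥(AK A i.K) ↥(locSub (B1 A p (htK MI i)) 𝔪)) :
    ∃ (Q Q' : Place (kA A) ↥(modularFunctionFieldFullC (kA A) M'))
      (x y u : locC (chart ↥A (tB p M' h4)⁻¹) χ₀) (ϖ : Qbar),
      Fermat.Agent.ORD.NODE.NodeSys4.NodeSys (base A) (side1 p M' A hA hpM h4)
        (side2 p M' A hA hpM h4) (locC (chart ↥A (tB p M' h4)⁻¹) χ₀)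
        (chiC (chart ↥A (tB p M' h4)⁻¹) χ₀) Q Q' x y u ϖ := by
  have H₁ := lf11 p M' A hA hpM h4 MI
  have H₂ := lf21 p M' A hA hpM h4 MI
  exact exists_nodeSys_of_cofinal' (B := base A) (S := side1 p M' A hA hpM h4)
    (S' := side2 p M' A hA hpM h4) H₁ H₂ χ₀ hχ₀ hon₁ hon₂ (o1_ne_o2 p M' A hA MI)
    (fun i => K₁ ≤ i.K)
    (fun y T => desc_chart_ge A (K0 MI) (M' * p) (tB p M' h4)⁻¹ (fun i => (tN p (htK MI i))⁻¹)
      (fun i => by rw [map_inv₀, baseChangeHom_tN p M' h4 i.K (htK MI i)]) K₁ y T)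
    hres hhor
    (fun i 𝔪 hmax hπ h1 h2 => (nodalK p M' A hA MI i).node1 𝔪 hmax hπ h1 h2)
    hS

end One

/-! ### the field `nd` of `TwoCompHyp` -/

open Fermat.Agent.ORD.IFACEN.Centre8 Fermat.Agent.ORD.IFACEN.AtlasPts6
  Fermat.Agent.ORD.IFACEN.PtsDict3 in
/-- **The hypothesis `nd` of `TwoCompAssembly3.TwoCompHyp` for the N34 model**: every closed point of
the two-chart model lying on both components carries a node system, given (res) + (hhor) at the large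
levels of every two-branch closed point and (S) on both charts. -/
theorem nd (tinv : ↥(chart ↥A (tB p M' h4)⁻¹))
    (le0₁ : ∀ b ∈ chart ↥A (tB p M' h4), b ∈ (side1 p M' A hA hpM h4).G)
    (le1₁ : ∀ b ∈ chart ↥A (tB p M' h4)⁻¹, b ∈ (side1 p M' A hA hpM h4).G)
    (le0₂ : ∀ b ∈ chart ↥A (tB p M' h4), b ∈ (side2 p M' A hA hpM h4).G)
    (le1₂ : ∀ b ∈ chart ↥A (tB p M' h4)⁻¹, b ∈ (side2 p M' A hA hpM h4).G)
    (h0 : ∀ χ₀ : ↥(chart ↥A (tB p M' h4)) →+* kA A,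
      (∀ a : ↥A, χ₀ (algebraMap ↥A ↥(chart ↥A (tB p M' h4)) a) = IsLocalRing.residue ↥A a) →
      (∀ b : ↥(chart ↥A (tB p M' h4)),
        red1 p M' A hA hpM h4 ⟨(b : ↥(Fbar (M' * p))), chart0_le_G1 p M' A hA hpM h4 b.2⟩ = 0 →
          χ₀ b = 0) →
      (∀ b : ↥(chart ↥A (tB p M' h4)),
        red2 p M' A hA hpM h4 ⟨(b : ↥(Fbar (M' * p))), chart0_le_G2 p M' A hA hpM h4 b.2⟩ = 0 →
          χ₀ b = 0) →
      ∃ (K₁ : IntermediateField ℚ Qbar) (_ : FiniteDimensional ℚ K₁),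
        (∀ i : Lvl (K0 MI), K₁ ≤ i.K → ∀ b : ↥(B0 A p (htK MI i)), ∃ r : ↥(AK A i.K),
          b - algebraMap ↥(AK A i.K) ↥(B0 A p (htK MI i)) r ∈ xK0 p M' A h4 MI χ₀ i) ∧
        (∀ i : Lvl (K0 MI), K₁ ≤ i.K → ∀ ε : ↥(FK (M' * p) i.K),
          (∀ Pl : Place Qbar ↥(Fbar (M' * p)), InDisc (locC (chart ↥A (tB p M' h4)) χ₀) Pl →
            baseChangeHom (M' * p) i.K ε ∈ Pl.toValuationSubring) →
          HorInt (piK hA MI i) (B0 A p (htK MI i)) (xK0 p M' A h4 MI χ₀ i) ε))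
    (h1 : ∀ χ₀ : ↥(chart ↥A (tB p M' h4)⁻¹) →+* kA A,
      (∀ a : ↥A, χ₀ (algebraMap ↥A ↥(chart ↥A (tB p M' h4)⁻¹) a) = IsLocalRing.residue ↥A a) →
      (∀ b : ↥(chart ↥A (tB p M' h4)⁻¹),
        red1 p M' A hA hpM h4 ⟨(b : ↥(Fbar (M' * p))), chart1_le_G1 p M' A hA hpM h4 b.2⟩ = 0 →
          χ₀ b = 0) →
      (∀ b : ↥(chart ↥A (tB p M' h4)⁻¹),
        red2 p M' A hA hpM h4 ⟨(b : ↥(Fbar (M' * p))), chart1_le_G2 p M' A hA hpM h4 b.2⟩ = 0 →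
          χ₀ b = 0) →
      ∃ (K₁ : IntermediateField ℚ Qbar) (_ : FiniteDimensional ℚ K₁),
        (∀ i : Lvl (K0 MI), K₁ ≤ i.K → ∀ b : ↥(B1 A p (htK MI i)), ∃ r : ↥(AK A i.K),
          b - algebraMap ↥(AK A i.K) ↥(B1 A p (htK MI i)) r ∈ xK1 p M' A h4 MI χ₀ i) ∧
        (∀ i : Lvl (K0 MI), K₁ ≤ i.K → ∀ ε : ↥(FK (M' * p) i.K),
          (∀ Pl : Place Qbar ↥(Fbar (M' * p)), InDisc (locC (chart ↥A (tB p M' h4)⁻¹) χ₀) Pl →
            baseChangeHom (M' * p) i.K ε ∈ Pl.toValuationSubring) →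
          HorInt (piK hA MI i) (B1 A p (htK MI i)) (xK1 p M' A h4 MI χ₀ i) ε))
    (hS0 : ∀ (i : Lvl (K0 MI)) (𝔪 : Ideal ↥(B0 A p (htK MI i))) [𝔪.IsPrime], ∃ N : ℕ,
      algebraMap ↥(AK A i.K) ↥(locSub (B0 A p (htK MI i)) 𝔪) (piK hA MI i) ^ N ∈
        derIdeal ↥(AK A i.K) ↥(locSub (B0 A p (htK MI i)) 𝔪))
    (hS1 : ∀ (i : Lvl (K0 MI)) (𝔪 : Ideal ↥(B1 A p (htK MI i))) [𝔪.IsPrime], ∃ N : ℕ,
      algebraMap ↥(AK A i.K) ↥(locSub (B1 A p (htK MI i)) 𝔪) (piK hA MI i) ^ N ∈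
        derIdeal ↥(AK A i.K) ↥(locSub (B1 A p (htK MI i)) 𝔪))
    (pt : Pts (base A).res (chart ↥A (tB p M' h4)) (chart ↥A (tB p M' h4)⁻¹) tinv)
    (hpt₁ : OnPts (side1 p M' A hA hpM h4).red le0₁ le1₁ pt)
    (hpt₂ : OnPts (side2 p M' A hA hpM h4).red le0₂ le1₂ pt) :
    ∃ (Q Q' : Place (kA A) ↥(modularFunctionFieldFullC (kA A) M'))
      (x y u : ringPts pt) (ϖ : Qbar),
      Fermat.Agent.ORD.NODE.NodeSys4.NodeSys (base A) (side1 p M' A hA hpM h4)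
        (side2 p M' A hA hpM h4) (ringPts pt) (chiPts pt) Q Q' x y u ϖ := by
  rcases pt with x₀ | y₀
  · have hon₁ : ∀ b : ↥(chart ↥A (tB p M' h4)),
        red1 p M' A hA hpM h4 ⟨(b : ↥(Fbar (M' * p))), chart0_le_G1 p M' A hA hpM h4 b.2⟩ = 0 →
          x₀.χ b = 0 := fun b hb => hpt₁ b hb
    have hon₂ : ∀ b : ↥(chart ↥A (tB p M' h4)),
        red2 p M' A hA hpM h4 ⟨(b : ↥(Fbar (M' * p))), chart0_le_G2 p M' A hA hpM h4 b.2⟩ = 0 →
          x₀.χ b = 0 := fun b hb => hpt₂ b hb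
    obtain ⟨K₁, hfd, hres, hhor⟩ := h0 x₀.χ x₀.const hon₁ hon₂
    exact nodeSys0 p M' A hA hpM h4 MI x₀.χ x₀.const hon₁ hon₂ K₁ hres hhor hS0
  · have hon₁ : ∀ b : ↥(chart ↥A (tB p M' h4)⁻¹),
        red1 p M' A hA hpM h4 ⟨(b : ↥(Fbar (M' * p))), chart1_le_G1 p M' A hA hpM h4 b.2⟩ = 0 →
          y₀.1.χ b = 0 := fun b hb => hpt₁ b hb
    have hon₂ : ∀ b : ↥(chart ↥A (tB p M' h4)⁻¹),
        red2 p M' A hA hpM h4 ⟨(b : ↥(Fbar (M' * p))), chart1_le_G2 p M' A hA hpM h4 b.2⟩ = 0 →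
          y₀.1.χ b = 0 := fun b hb => hpt₂ b hb
    obtain ⟨K₁, hfd, hres, hhor⟩ := h1 y₀.1.χ y₀.1.const hon₁ hon₂
    exact nodeSys1 p M' A hA hpM h4 MI y₀.1.χ y₀.1.const hon₁ hon₂ K₁ hres hhor hS1

end Fermat.Agent.ORD.IFACEN.BadNodes2
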