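/-
Programme ORD (S33), chapter IFACEN (helper7): **finiteness of the set of nodes** (`[Finite E]`,
an instance hypothesis of `FinalOrd2.torsOrd_of_datum` / `AssembleMainN9.torsOrd_of_assembly`).

* `finite_of_zeros` : an injective family of places of `Ft / k` at each of which one of finitely many
  nonzero functions has a zero (or a pole) is finite;
* `finite_edges_of_branches` : `E` is finite as soon as every source branch is a zero of one of
  finitely many nonzero functions on its component (all nodes having the same source);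
* `finite_edges` : for a datum all of whose nodes join `v₁` to `v₂`: if some `g`, integral on both
  components and without poles on the annuli, has `red_{v₂} g = 0 ≠ red_{v₁} g` (e.g. `g` in a chart
  ring containing all the nodes and in the prime of the second component), then `E` is finite:
  by (NODE) (`MatchedDatum3.nodeMatched`) `red_{v₁} g` vanishes at every source branch, and distinct
  nodes have distinct source branches.
* `finite_edges_family` : the same with finitely many functions `g i` (several charts), each node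
  being covered by one of them.
-/
import Mathlib
import Fermat.Agent.ORD.ANN.MatchedDatum3
import Fermat.Agent.X0.FFDict

set_option autoImplicit false
set_option linter.unusedSectionVars false
set_option linter.style.longLine false

namespace Fermat.Agent.ORD.IFACEN.FiniteEdges7

open AlgebraicCurve Fermat.Agent.X0.FF Fermat.Agent.RR.LSpace Fermat.Agent.MW.EMB.Value6
open Fermat.Agent.ORD.SEMIRED.SemiRedDatum9 Fermat.Agent.ORD.ANN.MatchedDatum3

section Zeros

variable {k Ft : Type*} [Field k] [Field Ft] [Algebra k Ft]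

/-- the places where a nonzero function has a zero or a pole are finitely many. -/
theorem finite_ord_ne_zero (Hk : LHyp k Ft) {f : Ft} (hf : f ≠ 0) :
    {Q : Place k Ft | Q.ord f ≠ 0}.Finite := by
  obtain ⟨D, hD, -⟩ := Hk.principal f hf
  refine (D.support.finite_toSet).subset fun Q hQ => ?_
  have hQ' : Q.ord f ≠ 0 := hQ
  simp only [Finset.mem_coe, Finsupp.mem_support_iff]
  rw [hD Q]; exact hQ'

/-- an injective family of places, each of which is a zero or a pole of one of finitely many nonzero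
functions, is finite. -/
theorem finite_of_zeros (Hk : LHyp k Ft) {E : Type*} (Q : E → Place k Ft)
    (hinj : Function.Injective Q) (S : Finset Ft) (h0 : ∀ f ∈ S, f ≠ 0)
    (h : ∀ e, ∃ f ∈ S, (Q e).ord f ≠ 0) : Finite E := by
  have hfin : (⋃ f ∈ (S : Set Ft), {Q : Place k Ft | Q.ord f ≠ 0}).Finite := by
    refine Set.Finite.biUnion S.finite_toSet fun f hf => ?_
    by_cases hf0 : f = 0
    · exact absurd hf0 (h0 f hf)
    · exact finite_ord_ne_zero Hk hf0
  have hsub : Set.range Q ⊆ ⋃ f ∈ (S : Set Ft), {Q : Place k Ft | Q.ord f ≠ 0} := by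
    rintro _ ⟨e, rfl⟩
    obtain ⟨f, hf, hne⟩ := h e
    exact Set.mem_biUnion (Finset.mem_coe.mpr hf) hne
  have hr : (Set.range Q).Finite := hfin.subset hsub
  have := hr.to_subtype
  exact Finite.of_injective (fun e => (⟨Q e, Set.mem_range_self e⟩ : Set.range Q))
    (fun a b hab => hinj (congrArg Subtype.val hab))

end Zeros

section Datum

variable {L F k Ft : Type*} [Field L] [Field F] [Algebra L F] [Field k] [Field Ft] [Algebra k Ft]
variable {ι E : Type*} (𝔻 : SemiRedDatum L F k Ft ι E)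

/-- `E` is finite as soon as all nodes have the same source and every source branch is a zero or a
pole of one of finitely many nonzero functions. -/
theorem finite_edges_of_branches (v₁ : ι) (hsrc : ∀ e, 𝔻.src e = v₁) (S : Finset Ft)
    (h0 : ∀ f ∈ S, f ≠ 0) (h : ∀ e, ∃ f ∈ S, (𝔻.Qs e).ord f ≠ 0) : Finite E :=
  finite_of_zeros 𝔻.Hk (fun e => 𝔻.Qs e)
    (fun e e' hee' => 𝔻.branch_s_inj e e' ((hsrc e).trans (hsrc e').symm) hee') S h0 h

/-- transport of the reduction along an equality of components. -/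
theorem red_congr {v w : ι} (hvw : v = w) (g : F) (hv : g ∈ 𝔻.G v) (hw : g ∈ 𝔻.G w) :
    𝔻.red v ⟨g, hv⟩ = 𝔻.red w ⟨g, hw⟩ := by
  subst hvw
  rfl

/-- the reduction on the source component of a function integral on both components, without poles
on the annulus of `e`, whose reduction on the target component is `0`, vanishes at the source
branch. -/
theorem ord_pos_of_red_tgt_eq_zero (e : E) (g : F) (hs : g ∈ 𝔻.G (𝔻.src e))
    (ht : g ∈ 𝔻.G (𝔻.tgt e)) (hpf : 𝔻.PoleFreeAnn g e)
    (hr1 : 𝔻.red (𝔻.src e) ⟨g, hs⟩ ≠ 0) (hr2 : 𝔻.red (𝔻.tgt e) ⟨g, ht⟩ = 0) :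
    0 < (𝔻.Qs e).ord (𝔻.red (𝔻.src e) ⟨g, hs⟩) := by
  obtain ⟨h1, -, h3, -⟩ := nodeMatched 𝔻 e g hs ht hpf
  rw [hr2, valF_zero] at h3
  have hmem : 𝔻.red (𝔻.src e) ⟨g, hs⟩ ∈ (𝔻.Qs e).toValuationSubring := mem_of_ord_nonneg _ h1
  rcases (valF_eq_zero_iff 𝔻.Hk (𝔻.Qs e) hmem).mp h3 with h | h
  · exact absurd h hr1
  · exact h

/-- **finiteness of the set of nodes**, several functions (e.g. one per chart): all nodes join `v₁`
to `v₂`; every node `e` is covered by some `g i`, integral on both components, without poles on the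
annulus of `e`, with `red_{v₂} (g i) = 0 ≠ red_{v₁} (g i)`. -/
theorem finite_edges_family (v₁ v₂ : ι) (hsrc : ∀ e, 𝔻.src e = v₁) (htgt : ∀ e, 𝔻.tgt e = v₂)
    {n : ℕ} (g : Fin n → F) (h1 : ∀ i, g i ∈ 𝔻.G v₁) (h2 : ∀ i, g i ∈ 𝔻.G v₂)
    (hr1 : ∀ i, 𝔻.red v₁ ⟨g i, h1 i⟩ ≠ 0) (hr2 : ∀ i, 𝔻.red v₂ ⟨g i, h2 i⟩ = 0)
    (hcov : ∀ e, ∃ i, 𝔻.PoleFreeAnn (g i) e) : Finite E := by
  classical
  refine finite_edges_of_branches 𝔻 v₁ hsrc
    (Finset.univ.image fun i => 𝔻.red v₁ ⟨g i, h1 i⟩) ?_ ?_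
  · intro f hf
    obtain ⟨i, -, rfl⟩ := Finset.mem_image.mp hf
    exact hr1 i
  · intro e
    obtain ⟨i, hpf⟩ := hcov e
    refine ⟨_, Finset.mem_image.mpr ⟨i, Finset.mem_univ i, rfl⟩, ?_⟩
    have hs : g i ∈ 𝔻.G (𝔻.src e) := by rw [hsrc e]; exact h1 i
    have ht : g i ∈ 𝔻.G (𝔻.tgt e) := by rw [htgt e]; exact h2 i
    have e1 : 𝔻.red (𝔻.src e) ⟨g i, hs⟩ = 𝔻.red v₁ ⟨g i, h1 i⟩ := red_congr 𝔻 (hsrc e) _ _ _
    have e2 : 𝔻.red (𝔻.tgt e) ⟨g i, ht⟩ = 𝔻.red v₂ ⟨g i, h2 i⟩ := red_congr 𝔻 (htgt e) _ _ _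
    have hpos := ord_pos_of_red_tgt_eq_zero 𝔻 e (g i) hs ht hpf (by rw [e1]; exact hr1 i)
      (by rw [e2]; exact hr2 i)
    rw [e1] at hpos
    exact hpos.ne'

/-- **finiteness of the set of nodes**, one function. -/
theorem finite_edges (v₁ v₂ : ι) (hsrc : ∀ e, 𝔻.src e = v₁) (htgt : ∀ e, 𝔻.tgt e = v₂)
    (g : F) (h1 : g ∈ 𝔻.G v₁) (h2 : g ∈ 𝔻.G v₂) (hpf : ∀ e, 𝔻.PoleFreeAnn g e)
    (hr1 : 𝔻.red v₁ ⟨g, h1⟩ ≠ 0) (hr2 : 𝔻.red v₂ ⟨g, h2⟩ = 0) : Finite E :=
  finite_edges_family 𝔻 v₁ v₂ hsrc htgt (n := 1) (fun _ => g) (fun _ => h1) (fun _ => h2)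
    (fun _ => hr1) (fun _ => hr2) (fun e => ⟨0, hpf e⟩)

end Datum

end Fermat.Agent.ORD.IFACEN.FiniteEdges7
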