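/-
PROGRAMME ORD (S33), chapter IFACE-N (O6, helper1): **`[Finite E]` for the two-chart model**
(`PtsAssembly3.PtsData`), with NO separator input.

All nodes join the component `v₁` to the component `v₂`.  A node `n` of the chart `B_c` has a node
system `x y = ϖ u` on its local ring `locC B_c χ`; then `red_{v₂} x = 0 ≠ red_{v₁} x`, and writing
`x = a / d` with `a, d ∈ B_c`, `χ d ≠ 0`, the numerator `a ∈ B_c` is a GLOBAL separator of the chart:
`red_{v₂} a = 0 ≠ red_{v₁} a`.  It has no pole on the annulus of any node of the same chart, hence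
(helper7's `FiniteEdges7.ord_pos_of_red_tgt_eq_zero` = (NODE)) `red_{v₁} a` vanishes at the source
branch of every node of the chart.  Two functions (one per chart having a node) suffice:
`FiniteEdges7.finite_edges_of_branches`.

* `exists_sep_of_nodeSys` : the separator of a chart from ONE node system;
* `poleFreeAnn_of_mem` : an element of the local ring of a node has no pole on its annulus;
* **`finite_edges`** : `Finite E`.
-/
import Mathlib
import Fermat.Agent.ORD.IFACEN.PtsAssembly3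
import Fermat.Agent.ORD.IFACEN.FiniteEdges7

set_option autoImplicit false
set_option linter.unusedSectionVars false
set_option linter.unusedVariables false
set_option linter.style.longLine false

namespace Fermat.Agent.ORD.IFACEN.PtsFinite1

open AlgebraicCurve Fermat.Agent.X0.FF Fermat.Agent.RR.LSpace Fermat.Agent.MW.EMB.Value6
open Fermat.Agent.ORD.ANN.Side3 Fermat.Agent.ORD.ANN.Node3
open Fermat.Agent.ORD.SEMIRED.SemiRedDatum9
open Fermat.Agent.ORD.IFACEN.DiscSys8 Fermat.Agent.ORD.IFACEN.DiscPlaces8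
  Fermat.Agent.ORD.IFACEN.LocAt8 Fermat.Agent.ORD.IFACEN.Centre8
  Fermat.Agent.ORD.IFACEN.SmoothAtlas8 Fermat.Agent.ORD.IFACEN.AtlasSplit6
  Fermat.Agent.ORD.IFACEN.AtlasPts6 Fermat.Agent.ORD.IFACEN.AssembleN9
  Fermat.Agent.ORD.IFACEN.PtsDict3 Fermat.Agent.ORD.IFACEN.PtsAssembly3
  Fermat.Agent.ORD.IFACEN.FiniteEdges7
open Fermat.Agent.ORD.NODE.NodeSys4

noncomputable section

universe uL uk uF uFt uι uE uP

variable {L : Type uL} {k : Type uk} [Field L] [Field k]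

/-! ### the separator of a chart from one node system -/

section Sep

variable {F : Type uF} {Ft : Type uFt} [Field F] [Algebra L F] [Field Ft] [Algebra k Ft]
variable {B : Base L k} [Algebra B.A F] [IsScalarTower B.A L F]

/-- **the numerator of the node coordinate is a global separator of the chart.** -/
theorem exists_sep_of_nodeSys (BA : Subalgebra B.A F) (χ₀ : BA →+* k) {S S' : Side B F Ft}
    (le : ∀ b ∈ BA, b ∈ S.G) (le' : ∀ b ∈ BA, b ∈ S'.G)
    {Q Q' : Place k Ft} {x y u : locC BA χ₀} {ϖ : L}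
    (h : NodeSys B S S' (locC BA χ₀) (chiC BA χ₀) Q Q' x y u ϖ) :
    ∃ a : BA, S.red ⟨(a : F), le a a.2⟩ ≠ 0 ∧ S'.red ⟨(a : F), le' a a.2⟩ = 0 := by
  obtain ⟨a, d, hd, e⟩ := exists_rep BA χ₀ x
  have h1 : x * ofBA BA χ₀ d = ofBA BA χ₀ a := Subtype.ext e
  refine ⟨a, ?_, ?_⟩
  · -- `red a = red x * red d ≠ 0`
    have h2 := congrArg h.side.redC h1
    rw [map_mul] at h2
    have hx : h.side.redC x ≠ 0 := h.redx_ne
    have hdd : h.side.redC (ofBA BA χ₀ d) ≠ 0 :=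
      h.side.redC_ne_zero_of_chi (by rw [chiC_ofBA]; exact hd)
    have h3 : h.side.redC (ofBA BA χ₀ a) ≠ 0 := by
      rw [← h2]; exact mul_ne_zero hx hdd
    exact h3
  · -- `red' x = 0`
    have e1 := congrArg h.side'.redC h.mulC
    rw [map_mul, map_mul, h.side'.redC_const h.base, h.res_piA, map_zero, zero_mul] at e1
    have hx0 : h.side'.redC x = 0 := by
      rcases mul_eq_zero.mp e1 with h0 | h0
      · exact h0
      · exact absurd h0 h.redy_ne
    have h2 := congrArg h.side'.redC h1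
    rw [map_mul, hx0, zero_mul] at h2
    exact h2.symm

end Sep

/-! ### finiteness -/

section Fin

variable {B : Base L k} {F : Type uF} {Ft : Type uFt} [Field F] [Algebra L F]
  [Field Ft] [Algebra k Ft] [Algebra B.A F] [IsScalarTower B.A L F] {ι : Type uι} {E : Type uE}
  (𝔓 : PtsData.{uL, uk, uF, uFt, uι, uE, uP} B F Ft ι E)

/-- an element of the local ring of a node has no pole on its annulus. -/
theorem poleFreeAnn_of_mem (n : E) {g : F} (hg : g ∈ ringPts (𝔓.e.symm (Sum.inr n))) :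
    𝔓.toAssemblyData.toSemiRedDatum.PoleFreeAnn g n := by
  intro P hP
  have h1 : P ∈ (𝔓.toAssemblyData.toSemiRedDatum.node n).ann :=
    (𝔓.toAssemblyData.toSemiRedDatum.r_ann n P).mpr hP
  have h2 : InDisc (ringPts (𝔓.e.symm (Sum.inr n))) P := (𝔓.mem_node_ann n P).mp h1
  exact ffp_ord_nonneg_of_mem P (h2 g hg)

/-- **the separator of the chart of a closed point carrying a node system**: it lies in the local
ring of every closed point of the same chart. -/
theorem exists_sep (v₁ v₂ : ι) (p : Pts B.res 𝔓.B0 𝔓.B1 𝔓.tinv)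
    {Q Q' : Place k Ft} {x y u : ringPts p} {ϖ : L}
    (h : NodeSys B (𝔓.side v₁) (𝔓.side v₂) (ringPts p) (chiPts p) Q Q' x y u ϖ) :
    ∃ (g : F) (h1 : g ∈ (𝔓.side v₁).G) (h2 : g ∈ (𝔓.side v₂).G),
      (𝔓.side v₁).red ⟨g, h1⟩ ≠ 0 ∧ (𝔓.side v₂).red ⟨g, h2⟩ = 0 ∧
        ∀ p' : Pts B.res 𝔓.B0 𝔓.B1 𝔓.tinv, p'.isLeft = p.isLeft → g ∈ ringPts p' := by
  rcases p with x₀ | y₀
  · obtain ⟨a, ha1, ha2⟩ := exists_sep_of_nodeSys 𝔓.B0 x₀.χ (𝔓.le0 v₁) (𝔓.le0 v₂) h
    refine ⟨(a : F), 𝔓.le0 v₁ a a.2, 𝔓.le0 v₂ a a.2, ha1, ha2, ?_⟩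
    rintro (x₁ | y₁) hp'
    · exact le_locC 𝔓.B0 x₁.χ a.2
    · exact absurd hp' (by simp)
  · obtain ⟨a, ha1, ha2⟩ := exists_sep_of_nodeSys 𝔓.B1 y₀.1.χ (𝔓.le1 v₁) (𝔓.le1 v₂) h
    refine ⟨(a : F), 𝔓.le1 v₁ a a.2, 𝔓.le1 v₂ a a.2, ha1, ha2, ?_⟩
    rintro (x₁ | y₁) hp'
    · exact absurd hp' (by simp)
    · exact le_locC 𝔓.B1 y₁.1.χ a.2

/-- **`[Finite E]`** : the two-chart model has finitely many nodes, as soon as they all join the
same two components. -/
theorem finite_edges (v₁ v₂ : ι) (hsrc : ∀ n, 𝔓.src n = v₁) (htgt : ∀ n, 𝔓.tgt n = v₂) :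
    Finite E := by
  classical
  set 𝔻 := 𝔓.toAssemblyData.toSemiRedDatum with h𝔻
  have hsrc' : ∀ n, 𝔻.src n = v₁ := hsrc
  have htgt' : ∀ n, 𝔻.tgt n = v₂ := htgt
  -- per node: a nonzero function on `v₁` vanishing at the source branch of every node of its chart
  have key : ∀ n : E, ∃ f : Ft, f ≠ 0 ∧ ∀ n' : E,
      (𝔓.e.symm (Sum.inr n')).isLeft = (𝔓.e.symm (Sum.inr n)).isLeft → (𝔻.Qs n').ord f ≠ 0 := by
    intro n
    have hn := 𝔓.nsys' n
    rw [hsrc n, htgt n] at hn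
    obtain ⟨g, h1, h2, hr1, hr2, hmem⟩ := exists_sep 𝔓 v₁ v₂ _ hn
    refine ⟨(𝔓.side v₁).red ⟨g, h1⟩, hr1, fun n' hn' => ?_⟩
    have hs : g ∈ 𝔻.G (𝔻.src n') := by rw [hsrc' n']; exact h1
    have ht : g ∈ 𝔻.G (𝔻.tgt n') := by rw [htgt' n']; exact h2
    have e1 : 𝔻.red (𝔻.src n') ⟨g, hs⟩ = 𝔻.red v₁ ⟨g, h1⟩ := red_congr 𝔻 (hsrc' n') _ _ _
    have e2 : 𝔻.red (𝔻.tgt n') ⟨g, ht⟩ = 𝔻.red v₂ ⟨g, h2⟩ := red_congr 𝔻 (htgt' n') _ _ _
    have hpos := ord_pos_of_red_tgt_eq_zero 𝔻 n' g hs ht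
      (poleFreeAnn_of_mem 𝔓 n' (hmem _ hn')) (by rw [e1]; exact hr1) (by rw [e2]; exact hr2)
    rw [e1] at hpos
    exact hpos.ne'
  choose f hf0 hf using key
  -- one function per chart having a node
  let fb : Bool → Ft := fun b =>
    if hb : ∃ n : E, (𝔓.e.symm (Sum.inr n)).isLeft = b then f (Classical.choose hb) else 1
  refine finite_edges_of_branches 𝔻 v₁ hsrc' (Finset.univ.image fb) ?_ ?_
  · intro φ hφ
    obtain ⟨b, -, rfl⟩ := Finset.mem_image.mp hφ
    show (if hb : ∃ n : E, (𝔓.e.symm (Sum.inr n)).isLeft = b then f (Classical.choose hb) else 1) ≠ 0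
    split_ifs with hb
    · exact hf0 _
    · exact one_ne_zero
  · intro n
    have hb : ∃ m : E, (𝔓.e.symm (Sum.inr m)).isLeft = (𝔓.e.symm (Sum.inr n)).isLeft := ⟨n, rfl⟩
    refine ⟨fb ((𝔓.e.symm (Sum.inr n)).isLeft), Finset.mem_image.mpr ⟨_, Finset.mem_univ _, rfl⟩, ?_⟩
    show (𝔻.Qs n).ord (if hb : ∃ m : E, (𝔓.e.symm (Sum.inr m)).isLeft =
      (𝔓.e.symm (Sum.inr n)).isLeft then f (Classical.choose hb) else 1) ≠ 0
    rw [dif_pos hb]
    exact hf (Classical.choose hb) n (Classical.choose_spec hb).symm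

end Fin

end

end Fermat.Agent.ORD.IFACEN.PtsFinite1
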