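/-
PROGRAMME ORD (S33), chapter IFACE-N (O6, helper1): **reducedness of the special fibre of a chart from
a point-independent family of levels** (`LevelFamily8.LevelFamily`): `red_on b = 0 = red_off b`
⟹ `b ∈ ϖ · BA` for a nonunit `ϖ` of `A`, hence every closed point kills `b`
(`ClosedPtComp6.Reduced`), and the dichotomy: every closed point of the chart lies on one of the
two components.
-/
import Mathlib
import Fermat.Agent.ORD.IFACEN.LevelFamily8
import Fermat.Agent.ORD.IFACEN.ClosedPtComp6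

set_option autoImplicit false
set_option linter.unusedSectionVars false
set_option linter.style.longLine false

namespace Fermat.Agent.ORD.IFACEN.ReducedFamily1

open AlgebraicCurve Fermat.Agent.ORD.IFACEN.LocAt8 Fermat.Agent.ORD.IFACEN.LevelFamily8
  Fermat.Agent.ORD.IFACEN.ClosedPtComp6

variable {L F k Ft : Type*} [Field L] [Field F] [Algebra L F] [Field k] [Field Ft] [Algebra k Ft]
variable {A : ValuationSubring L} [Algebra A F] [IsScalarTower A L F]
variable {res : A →+* k} {BA : Subalgebra A F} {s : BA}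
  {Gon : Subring F} {redon : Gon →+* Ft} {Goff : Subring F} {redoff : Goff →+* Ft}
variable {I : Type*} {RK FK : I → Type*} [∀ i, CommRing (RK i)] [∀ i, Field (FK i)]
  [∀ i, Algebra (RK i) (FK i)] {BK : ∀ i, Subalgebra (RK i) (FK i)} {πK : ∀ i, RK i}
  {j : ∀ i, FK i →+* F} {Oon Ooff : ∀ i, ValuationSubring (FK i)}

/-- **the special fibre of the chart is `ϖ`-saturated**: an element of the chart whose two reductions
vanish is divisible in the chart by a nonunit constant. -/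
theorem exists_eq_mul_of_red_eq_zero
    (H : LevelFamily res BA s Gon redon Goff redoff RK FK BK πK j Oon Ooff) (b : BA)
    (h1 : redon ⟨(b : F), H.le_Gon b b.2⟩ = 0) (h2 : redoff ⟨(b : F), H.le_Goff b b.2⟩ = 0) :
    ∃ (ϖ : A) (c : BA), ϖ ≠ 0 ∧ res ϖ = 0 ∧ b = algebraMap A BA ϖ * c := by
  obtain ⟨i, -, hS⟩ := H.desc (b : F) [b]
  obtain ⟨bK, hbK⟩ := hS b (by simp)
  obtain ⟨ϖ, hϖ0, hϖ, eϖ⟩ := H.pi_const i
  have hπ0 : algebraMap (RK i) (FK i) (πK i) ≠ 0 := by
    intro h0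
    rw [h0, map_zero] at eϖ
    have : (ϖ : L) = 0 := (map_eq_zero (algebraMap L F)).mp eϖ.symm
    exact hϖ0 (Subtype.ext this)
  have hmem : (bK : FK i) ∈ Oon i := H.le_on i _ bK.2
  have h1' : redon ⟨j i (bK : FK i), (H.on_iff i _).2 hmem⟩ = 0 := by
    rw [← h1]; congr 1; exact Subtype.ext hbK
  have h2' : redoff ⟨j i (bK : FK i), H.le_Goff _ (H.j_mem i _ bK.2)⟩ = 0 := by
    rw [← h2]; congr 1; exact Subtype.ext hbK
  obtain ⟨c₁, hc₁, e₁⟩ := (H.on_zero_iff i _ hmem).mp h1'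
  obtain ⟨c₂, hc₂, e₂⟩ := H.off_zero i bK h2'
  have hcc : c₁ = c₂ := mul_left_cancel₀ hπ0 (e₁.symm.trans e₂)
  have hcB : c₁ ∈ BK i := H.sat i _ bK.2 c₁ hc₁ (hcc ▸ hc₂) e₁
  refine ⟨ϖ, ⟨j i c₁, H.j_mem i _ hcB⟩, hϖ0, hϖ, ?_⟩
  apply Subtype.ext
  show (b : F) = ((algebraMap A BA ϖ : BA) : F) * j i c₁
  have : ((algebraMap A BA ϖ : BA) : F) = algebraMap L F (ϖ : L) := by
    rw [← algebraMap_A_eq]; rfl
  rw [this, ← eϖ, ← map_mul, ← e₁, hbK]

/-- **the special fibre of the chart is reduced with the two components `on`, `off`** (at every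
closed point). -/
theorem reduced (H : LevelFamily res BA s Gon redon Goff redoff RK FK BK πK j Oon Ooff)
    (χ₀ : BA →+* k) (hχ₀ : ∀ a : A, χ₀ (algebraMap A BA a) = res a) :
    Reduced BA χ₀ redon redoff H.le_Gon H.le_Goff := by
  intro b h1 h2
  obtain ⟨ϖ, c, -, hϖ, e⟩ := exists_eq_mul_of_red_eq_zero H b h1 h2
  rw [e, map_mul, hχ₀, hϖ, zero_mul]

/-- **dichotomy**: every closed point of the chart lies on the component `on` or on the component
`off`. -/
theorem on_or_off (H : LevelFamily res BA s Gon redon Goff redoff RK FK BK πK j Oon Ooff)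
    (χ₀ : BA →+* k) (hχ₀ : ∀ a : A, χ₀ (algebraMap A BA a) = res a) :
    (∀ b : BA, redon ⟨(b : F), H.le_Gon b b.2⟩ = 0 → χ₀ b = 0) ∨
      (∀ b : BA, redoff ⟨(b : F), H.le_Goff b b.2⟩ = 0 → χ₀ b = 0) :=
  on_or_on (reduced H χ₀ hχ₀)

end Fermat.Agent.ORD.IFACEN.ReducedFamily1
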