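/-
PROGRAMME ORD (S33), chapter IFACE-N (O6b "smooth discs", helper8): **the one-branch closed points
of the two-chart model of `X₀(M' p)` in the vocabulary of helper3's `TwoCompAssembly3.TwoCompHyp`**
(`S₁ := side1`, `S₂ := side2`, `B0 := chart0`, `B1 := chart1`, `t := tB` of `ChartOne1`).

* `sm1`, `sm2` : the fields `sm₁`, `sm₂` of `TwoCompHyp` (literal shape);
* `dich` : the field `dich` (helper1's `ReducedFamily1.reduced` + helper6's `on_or_on`);
* `twoCompHyp` : the whole `TwoCompHyp` from the nodes `nd` alone.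
-/
import Mathlib
import Fermat.Agent.ORD.IFACEN.BadInstTwo8
import Fermat.Agent.ORD.IFACEN.TwoCompAssembly3
import Fermat.Agent.ORD.IFACEN.ReducedFamily1

set_option autoImplicit false
set_option linter.unusedSectionVars false
set_option linter.style.longLine false
set_option synthInstance.maxHeartbeats 400000

open HahnSeries ModularCurve Polynomial AlgebraicCurve

noncomputable section

namespace Fermat.Agent.ORD.IFACEN.SmoothPts8

open Fermat.Agent.RED.Interface4 Fermat.Agent.ES.RED.ChartIntegralA1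
  Fermat.Agent.RED.PUR.ChartGeneric22
  Fermat.Agent.RED.BASE.Interface12 Fermat.Agent.RED.BASE.EtaQuot12
  Fermat.Agent.ES.N34.ModelInput13
  Fermat.Agent.X0.FF Fermat.Agent.RR.LSpace
  Fermat.Agent.ORD.ANN.Side3 Fermat.Agent.ORD.ANN.Node3
  Fermat.Agent.ORD.NODE.NodeSys4
  Fermat.Agent.ORD.IFACEN.GaussBad1 Fermat.Agent.ORD.IFACEN.SideOne1
  Fermat.Agent.ORD.IFACEN.SideTwo1 Fermat.Agent.ORD.IFACEN.ChartOne1
  Fermat.Agent.ORD.IFACEN.ChartTwo1
  Fermat.Agent.ORD.IFACEN.LevelFamily8 Fermat.Agent.ORD.IFACEN.LocAt8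
  Fermat.Agent.ORD.IFACEN.DiscSys8 Fermat.Agent.ORD.IFACEN.DiscPlaces8
  Fermat.Agent.ORD.IFACEN.Centre8 Fermat.Agent.ORD.IFACEN.SmoothAtlas8
  Fermat.Agent.ORD.IFACEN.AtlasPts6 Fermat.Agent.ORD.IFACEN.PtsDict3
  Fermat.Agent.ORD.IFACEN.ClosedPtComp6
  Fermat.Agent.ORD.IFACEN.TwoCompAssembly3

/-- fast instance (the canonical search costs seconds). -/
local instance (priority := 100000) algKF (A : ValuationSubring Qbar) (M : ℕ) [NeZero M] :
    Algebra (kA A) ↥(modularFunctionFieldFullC (kA A) M) := inferInstance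

/-- the `A`-algebra structure of `F` for the valuation ring of `SideOne1.base A` (`(base A).A = A` is
not visible to instance search; same as in helper9's `ModelGlue9`). -/
local instance (priority := 100000) algBaseF (A : ValuationSubring Qbar) (N : ℕ) :
    Algebra ↥(base A).A ↥(Fbar N) :=
  (inferInstance : Algebra ↥A ↥(Fbar N))

/-- the scalar tower `A → ℚ̄ → F` for the valuation ring of `SideOne1.base A`. -/
local instance (priority := 100000) istBase (A : ValuationSubring Qbar) (N : ℕ) :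
    @IsScalarTower ↥(base A).A Qbar ↥(Fbar N)
      (ValuationSubring.instAlgebraSubtypeMem (base A).A).toSMul _ (algBaseF A N).toSMul :=
  (inferInstance : IsScalarTower ↥A Qbar ↥(Fbar N))

variable (p M' : ℕ) [Fact p.Prime] [NeZero M'] (A : ValuationSubring Qbar)
  (hA : A.LiesOverPrime p) (hpM : ¬ p ∣ M') (h4 : 4 ∣ M')

/-- `t⁻¹` in the chart `t ≠ 0`. -/
def tinv : ↥(chart1 p M' A h4) := ⟨(tB p M' h4)⁻¹, self_mem_chart _⟩

@[simp] theorem coe_tinv : ((tinv p M' A h4 : ↥(chart1 p M' A h4)) : ↥(Fbar (M' * p))) =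
    (tB p M' h4)⁻¹ := rfl

theorem le0₁ : ∀ b ∈ chart0 p M' A h4, b ∈ (side1 p M' A hA hpM h4).G :=
  fun _ hb => Fermat.Agent.ORD.IFACEN.ChartOne1.chart0_le_G1 p M' A hA hpM h4 hb

theorem le1₁ : ∀ b ∈ chart1 p M' A h4, b ∈ (side1 p M' A hA hpM h4).G :=
  fun _ hb => Fermat.Agent.ORD.IFACEN.ChartOne1.chart1_le_G1 p M' A hA hpM h4 hb

theorem le0₂ : ∀ b ∈ chart0 p M' A h4, b ∈ (side2 p M' A hA hpM h4).G :=
  fun _ hb => Fermat.Agent.ORD.IFACEN.ChartTwo1.chart0_le_G2 p M' A hA hpM h4 hb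

theorem le1₂ : ∀ b ∈ chart1 p M' A h4, b ∈ (side2 p M' A hA hpM h4).G :=
  fun _ hb => Fermat.Agent.ORD.IFACEN.ChartTwo1.chart1_le_G2 p M' A hA hpM h4 hb

variable (MI : ModelInput 4 8 p M' A)

/-- the closed points of the two-chart model. -/
abbrev PtsM : Type _ :=
  Pts (base A).res (chart0 p M' A h4) (chart1 p M' A h4) (tinv p M' A h4)

include MI in
/-- **`sm₁`**: a closed point on the component through `∞` and off the component through `0`
carries a smooth residue disc. -/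
theorem sm1 (x : PtsM p M' A h4)
    (h₁ : OnPts (side1 p M' A hA hpM h4).red (le0₁ p M' A hA hpM h4) (le1₁ p M' A hA hpM h4) x)
    (h₂ : ¬ OnPts (side2 p M' A hA hpM h4).red (le0₂ p M' A hA hpM h4)
      (le1₂ p M' A hA hpM h4) x) :
    ∃ Q : Place (kA A) ↥(modularFunctionFieldFullC (kA A) M'),
      DiscSys (base A).A (base A).res (ringPts x)
        (redOn (side1 p M' A hA hpM h4) (ringPts_le_of_onPts (side1 p M' A hA hpM h4)
          (le0₁ p M' A hA hpM h4) (le1₁ p M' A hA hpM h4) h₁)) (chiPts x) Q := by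
  rcases x with x₀ | y
  · have h₂' : ¬ ∀ b : ↥(chart0 p M' A h4), (side2 p M' A hA hpM h4).red
        ⟨(b : ↥(Fbar (M' * p))), le0₂ p M' A hA hpM h4 b b.2⟩ = 0 → x₀.χ b = 0 := h₂
    push Not at h₂'
    obtain ⟨b₀, hoff, hb₀⟩ := h₂'
    exact Fermat.Agent.ORD.IFACEN.BadInstTwo8.exists_discSys10 p M' A hA hpM h4 MI x₀.χ x₀.const
      h₁ b₀ hb₀ hoff
  · have h₂' : ¬ ∀ b : ↥(chart1 p M' A h4), (side2 p M' A hA hpM h4).red
        ⟨(b : ↥(Fbar (M' * p))), le1₂ p M' A hA hpM h4 b b.2⟩ = 0 → y.1.χ b = 0 := h₂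
    push Not at h₂'
    obtain ⟨b₀, hoff, hb₀⟩ := h₂'
    exact Fermat.Agent.ORD.IFACEN.BadInstTwo8.exists_discSys11 p M' A hA hpM h4 MI y.1.χ y.1.const
      h₁ b₀ hb₀ hoff

include MI in
/-- **`sm₂`**: a closed point on the component through `0` and off the component through `∞`
carries a smooth residue disc. -/
theorem sm2 (x : PtsM p M' A h4)
    (h₂ : OnPts (side2 p M' A hA hpM h4).red (le0₂ p M' A hA hpM h4) (le1₂ p M' A hA hpM h4) x)
    (h₁ : ¬ OnPts (side1 p M' A hA hpM h4).red (le0₁ p M' A hA hpM h4)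
      (le1₁ p M' A hA hpM h4) x) :
    ∃ Q : Place (kA A) ↥(modularFunctionFieldFullC (kA A) M'),
      DiscSys (base A).A (base A).res (ringPts x)
        (redOn (side2 p M' A hA hpM h4) (ringPts_le_of_onPts (side2 p M' A hA hpM h4)
          (le0₂ p M' A hA hpM h4) (le1₂ p M' A hA hpM h4) h₂)) (chiPts x) Q := by
  rcases x with x₀ | y
  · have h₁' : ¬ ∀ b : ↥(chart0 p M' A h4), (side1 p M' A hA hpM h4).red
        ⟨(b : ↥(Fbar (M' * p))), le0₁ p M' A hA hpM h4 b b.2⟩ = 0 → x₀.χ b = 0 := h₁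
    push Not at h₁'
    obtain ⟨b₀, hoff, hb₀⟩ := h₁'
    exact Fermat.Agent.ORD.IFACEN.BadInstTwo8.exists_discSys20 p M' A hA hpM h4 MI x₀.χ x₀.const
      h₂ b₀ hb₀ hoff
  · have h₁' : ¬ ∀ b : ↥(chart1 p M' A h4), (side1 p M' A hA hpM h4).red
        ⟨(b : ↥(Fbar (M' * p))), le1₁ p M' A hA hpM h4 b b.2⟩ = 0 → y.1.χ b = 0 := h₁
    push Not at h₁'
    obtain ⟨b₀, hoff, hb₀⟩ := h₁'
    exact Fermat.Agent.ORD.IFACEN.BadInstTwo8.exists_discSys21 p M' A hA hpM h4 MI y.1.χ y.1.const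
      h₂ b₀ hb₀ hoff

include MI in
/-- reducedness at every closed point of the chart `t ≠ ∞`. -/
theorem reduced0 (χ : ↥(chart0 p M' A h4) →+* kA A)
    (hχ : ∀ a : ↥A, χ (algebraMap ↥A ↥(chart0 p M' A h4) a) = IsLocalRing.residue ↥A a) :
    Reduced (chart0 p M' A h4) χ (side1 p M' A hA hpM h4).red (side2 p M' A hA hpM h4).red
      (le0₁ p M' A hA hpM h4) (le0₂ p M' A hA hpM h4) :=
  Fermat.Agent.ORD.IFACEN.ReducedFamily1.reduced (Fermat.Agent.ORD.IFACEN.BadInstTwo8.lf10 p M' A hA hpM h4 MI) χ hχ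

include MI in
/-- reducedness at every closed point of the chart `t ≠ 0`. -/
theorem reduced1 (χ : ↥(chart1 p M' A h4) →+* kA A)
    (hχ : ∀ a : ↥A, χ (algebraMap ↥A ↥(chart1 p M' A h4) a) = IsLocalRing.residue ↥A a) :
    Reduced (chart1 p M' A h4) χ (side1 p M' A hA hpM h4).red (side2 p M' A hA hpM h4).red
      (le1₁ p M' A hA hpM h4) (le1₂ p M' A hA hpM h4) :=
  Fermat.Agent.ORD.IFACEN.ReducedFamily1.reduced (Fermat.Agent.ORD.IFACEN.BadInstTwo8.lf11 p M' A hA hpM h4 MI) χ hχ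

include MI in
/-- **`dich`**: every closed point lies on one of the two components. -/
theorem dich (x : PtsM p M' A h4) :
    OnPts (side1 p M' A hA hpM h4).red (le0₁ p M' A hA hpM h4) (le1₁ p M' A hA hpM h4) x ∨
      OnPts (side2 p M' A hA hpM h4).red (le0₂ p M' A hA hpM h4) (le1₂ p M' A hA hpM h4) x := by
  rcases x with x₀ | y
  · exact on_or_on (reduced0 p M' A hA hpM h4 MI x₀.χ x₀.const)
  · exact on_or_on (reduced1 p M' A hA hpM h4 MI y.1.χ y.1.const)

include MI in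
/-- **The hypotheses of the two-component assembly for the model of `X₀(M' p)`, from the nodes
alone.** -/
theorem twoCompHyp
    (nd : ∀ x : PtsM p M' A h4,
      OnPts (side1 p M' A hA hpM h4).red (le0₁ p M' A hA hpM h4) (le1₁ p M' A hA hpM h4) x →
      OnPts (side2 p M' A hA hpM h4).red (le0₂ p M' A hA hpM h4) (le1₂ p M' A hA hpM h4) x →
      ∃ (Q Q' : Place (kA A) ↥(modularFunctionFieldFullC (kA A) M')) (a b u : ringPts x)
        (ϖ : Qbar), NodeSys (base A) (side1 p M' A hA hpM h4) (side2 p M' A hA hpM h4)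
          (ringPts x) (chiPts x) Q Q' a b u ϖ) :
    TwoCompHyp (B := base A) (side1 p M' A hA hpM h4) (side2 p M' A hA hpM h4) (chart0 p M' A h4)
      (chart1 p M' A h4) (tB p M' h4) (tinv p M' A h4) (le0₁ p M' A hA hpM h4)
      (le1₁ p M' A hA hpM h4) (le0₂ p M' A hA hpM h4) (le1₂ p M' A hA hpM h4) where
  ht1 := rfl
  ht0 := self_mem_chart _
  htne := Fermat.Agent.ORD.IFACEN.BadLevelOne8.tB_ne_zero p M' h4
  hB0 := fun _ hb => hb
  hB1 := fun _ hb => hb
  dich := dich p M' A hA hpM h4 MI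
  sm₁ := sm1 p M' A hA hpM h4 MI
  sm₂ := sm2 p M' A hA hpM h4 MI
  nd := nd

end Fermat.Agent.ORD.IFACEN.SmoothPts8
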