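/-
Programme ORD (S33), chapter IFACE-N (helper6): **inertia does not move the centre of a place.**

Abstract, on helper8's `Centre8` (`compVS`, `OnChart`, `valP`, `chiP`, two-chart `centre`).
`σ : SemilinearAut L F` with

* (A)   `baseAut σ` stabilises the valuation ring `A` of the constants (`hA`),
* (RES) and induces the identity on the residue field (`hres`),
* (B)   `σ` stabilises the chart `BA` (`hB`),
* (FIX) every closed point `χ` of the chart kills `σ • b - b` (`hχ`; in the model: `χ` lies on a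
        component `v`, `ker red_v ∩ BA ⊆ ker χ`, and `red_v (σ • b) = red_v b` for inertia:
        `fix_of_comp`).

Then `σ • f ∈ compVS (σ • P) ↔ f ∈ compVS P`, `OnChart BA (σ • P) ↔ OnChart BA P`,
`valP (σ • P) (σ • b) = baseAut σ (valP P b)`, `chiP (σ • P) = chiP P`, and for the two-chart model
(`σ • t = t`) **`centre (σ • P) = centre P`** — the hypothesis of helper9's
`AssembleN9.r_smul_of_centre` / `discCompatN_of_centre`.
-/
import Mathlib
import Fermat.Agent.ORD.IFACEN.Centre8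
import Fermat.Agent.MW.EMB.GalVal1

set_option autoImplicit false
set_option linter.unusedSectionVars false
set_option linter.style.longLine false

namespace Fermat.Agent.ORD.IFACEN.CentreGal6

open AlgebraicCurve Fermat.Agent.X0.FF Fermat.Agent.RR.LSpace Fermat.Agent.MW.EMB.Value6
open Fermat.Agent.ORD.IFACEN.LocAt8 Fermat.Agent.ORD.IFACEN.DiscPlaces8
  Fermat.Agent.ORD.IFACEN.Centre8
open Fermat.Agent.MW.EMB.GalVal1 (smul_mem_smul_iff)

variable {L F k : Type*} [Field L] [Field F] [Algebra L F] [Field k]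

/-! ### the composite valuation ring -/

section Comp

variable (HL : LHyp L F) {A : ValuationSubring L} (σ : SemilinearAut L F)
  (hA : ∀ z : L, z ∈ A ↔ SemilinearAut.baseAut σ z ∈ A)

/-- (A) from the invariance of the valuation of `A` (the field `val_base` of
`Inertial3.Inertial`). -/
theorem mem_iff_of_valuation (h : ∀ z : L, A.valuation (SemilinearAut.baseAut σ z) = A.valuation z)
    (z : L) : z ∈ A ↔ SemilinearAut.baseAut σ z ∈ A := by
  rw [← A.valuation_le_one_iff, ← A.valuation_le_one_iff, h z]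

include hA in
theorem val_smul (P : Place L F) {f : F} (hf : f ∈ P.toValuationSubring)
    (hf' : σ • f ∈ (σ • P).toValuationSubring) :
    val HL (σ • P) ⟨σ • f, hf'⟩ = SemilinearAut.baseAut σ (val HL P ⟨f, hf⟩) := by
  have h := Fermat.Agent.MW.EMB.GalVal1.valF_smul HL σ P f
  rwa [valF_of_mem HL _ hf', valF_of_mem HL _ hf] at h

include hA in
/-- `σ` carries the composite ring of `P` onto that of `σ • P`. -/
theorem smul_mem_compVS_iff (P : Place L F) (f : F) :
    σ • f ∈ compVS HL A (σ • P) ↔ f ∈ compVS HL A P := by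
  constructor
  · rintro ⟨hf', hv⟩
    have hf : f ∈ P.toValuationSubring := (smul_mem_smul_iff σ P f).mp hf'
    refine ⟨hf, ?_⟩
    rw [val_smul HL σ hA P hf hf'] at hv
    exact (hA _).mpr hv
  · rintro ⟨hf, hv⟩
    have hf' : σ • f ∈ (σ • P).toValuationSubring := (smul_mem_smul_iff σ P f).mpr hf
    refine ⟨hf', ?_⟩
    rw [val_smul HL σ hA P hf hf']
    exact (hA _).mp hv

include hA in
theorem mem_compVS_smul_iff (P : Place L F) (f : F) :
    f ∈ compVS HL A (σ • P) ↔ σ⁻¹ • f ∈ compVS HL A P := by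
  rw [← smul_mem_compVS_iff HL σ hA P (σ⁻¹ • f), smul_inv_smul]

end Comp

/-! ### one chart -/

section Chart

variable {A : ValuationSubring L} [Algebra A F] [IsScalarTower A L F]
variable (res : A →+* k) (HL : LHyp L F) (σ : SemilinearAut L F)
  (hA : ∀ z : L, z ∈ A ↔ SemilinearAut.baseAut σ z ∈ A)
  {BA : Subalgebra A F} (hB : ∀ b : F, b ∈ BA ↔ σ • b ∈ BA)

include hA hB in
/-- (B) the chart is centred at `σ • P` iff at `P`. -/
theorem onChart_smul_iff (P : Place L F) : OnChart HL BA (σ • P) ↔ OnChart HL BA P := by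
  constructor
  · intro h b hb
    exact (smul_mem_compVS_iff HL σ hA P b).mp (h _ ((hB b).mp hb))
  · intro h b hb
    rw [mem_compVS_smul_iff HL σ hA P b]
    refine h _ ((hB _).mpr ?_)
    rw [smul_inv_smul]; exact hb

include hA in
/-- the value map is `σ`-equivariant. -/
theorem coe_valP_smul {P : Place L F} (h : OnChart HL BA P) (h' : OnChart HL BA (σ • P))
    (b : BA) (hb' : σ • (b : F) ∈ BA) :
    ((valP h' ⟨σ • (b : F), hb'⟩ : A) : L) = SemilinearAut.baseAut σ ((valP h b : A) : L) := by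
  rw [coe_valP, coe_valP]
  exact val_smul HL σ hA P (h b b.2).1 _

variable (hres : ∀ (a : A) (ha : SemilinearAut.baseAut σ (a : L) ∈ A),
  res ⟨SemilinearAut.baseAut σ (a : L), ha⟩ = res a)

include hA hres in
/-- (RES) the centre of `σ • P` at `σ • b` is the centre of `P` at `b`. -/
theorem chiP_smul_apply {P : Place L F} (h : OnChart HL BA P) (h' : OnChart HL BA (σ • P))
    (b : BA) (hb' : σ • (b : F) ∈ BA) :
    chiP res h' ⟨σ • (b : F), hb'⟩ = chiP res h b := by
  show res (valP h' ⟨σ • (b : F), hb'⟩) = res (valP h b)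
  have e := coe_valP_smul HL σ hA h h' b hb'
  have ha : SemilinearAut.baseAut σ ((valP h b : A) : L) ∈ A := by
    rw [← e]; exact (valP h' ⟨σ • (b : F), hb'⟩).2
  rw [← hres (valP h b) ha]
  congr 1
  exact Subtype.ext e

variable (hχ : ∀ χ : BA →+* k, (∀ a : A, χ (algebraMap A BA a) = res a) →
  ∀ (b : BA) (hb' : σ • (b : F) ∈ BA), χ ⟨σ • (b : F), hb'⟩ = χ b)

include hA hB hres hχ in
/-- **(FIX) the centre of `σ • P` on the chart is the centre of `P`.** -/
theorem chiP_smul {P : Place L F} (h : OnChart HL BA P) (h' : OnChart HL BA (σ • P)) :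
    chiP res h' = chiP res h := by
  ext b
  have hb' : σ • (b : F) ∈ BA := (hB _).mp b.2
  rw [← hχ (chiP res h') (chiP_const res h') b hb']
  exact chiP_smul_apply res HL σ hA hres h h' b hb'

/-- (FIX) from the components: if the closed point `χ` lies on a component (`ker red ∩ BA ⊆ ker χ`)
whose reduction is `σ`-invariant on the chart, then `χ (σ • b) = χ b`. -/
theorem fix_of_comp {Ft : Type*} [Ring Ft] {G : Subring F} (red : G →+* Ft)
    (hBG : ∀ b ∈ BA, b ∈ G) (χ : BA →+* k)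
    (hker : ∀ (b : BA), red ⟨(b : F), hBG b b.2⟩ = 0 → χ b = 0)
    (hred : ∀ (b : BA) (hb' : σ • (b : F) ∈ BA),
      red ⟨σ • (b : F), hBG _ hb'⟩ = red ⟨(b : F), hBG b b.2⟩)
    (b : BA) (hb' : σ • (b : F) ∈ BA) : χ ⟨σ • (b : F), hb'⟩ = χ b := by
  have h0 : χ (⟨σ • (b : F), hb'⟩ - b) = 0 := by
    apply hker
    have e : (⟨((⟨σ • (b : F), hb'⟩ - b : BA) : F), hBG _ (⟨σ • (b : F), hb'⟩ - b : BA).2⟩ : G) =
        ⟨σ • (b : F), hBG _ hb'⟩ - ⟨(b : F), hBG b b.2⟩ := Subtype.ext rfl
    rw [e, map_sub, hred b hb', sub_self]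
  rwa [map_sub, sub_eq_zero] at h0

end Chart

/-! ### the two-chart centre map -/

section TwoCharts

variable {A : ValuationSubring L} [Algebra A F] [IsScalarTower A L F]
variable {res : A →+* k} (HL : LHyp L F)
variable {B0 B1 : Subalgebra A F} {tinv : B1} {t : F} (ht1 : (tinv : F) = t⁻¹)
  (h0 : ∀ P : Place L F, t ∈ compVS HL A P → OnChart HL B0 P)
  (h1 : ∀ P : Place L F, t⁻¹ ∈ compVS HL A P → OnChart HL B1 P)
  (hzero : ∀ a : A, res a = 0 ↔ ¬ IsUnit a)
variable (σ : SemilinearAut L F)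
  (hA : ∀ z : L, z ∈ A ↔ SemilinearAut.baseAut σ z ∈ A)
  (hres : ∀ (a : A) (ha : SemilinearAut.baseAut σ (a : L) ∈ A),
    res ⟨SemilinearAut.baseAut σ (a : L), ha⟩ = res a)
  (hσt : σ • t = t)
  (hB0 : ∀ b : F, b ∈ B0 ↔ σ • b ∈ B0) (hB1 : ∀ b : F, b ∈ B1 ↔ σ • b ∈ B1)
  (hχ0 : ∀ χ : B0 →+* k, (∀ a : A, χ (algebraMap A B0 a) = res a) →
    ∀ (b : B0) (hb' : σ • (b : F) ∈ B0), χ ⟨σ • (b : F), hb'⟩ = χ b)
  (hχ1 : ∀ χ : B1 →+* k, (∀ a : A, χ (algebraMap A B1 a) = res a) →
    ∀ (b : B1) (hb' : σ • (b : F) ∈ B1), χ ⟨σ • (b : F), hb'⟩ = χ b)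

include hA hσt in
theorem t_mem_compVS_smul_iff (P : Place L F) :
    t ∈ compVS HL A (σ • P) ↔ t ∈ compVS HL A P := by
  conv_lhs => rw [← hσt]
  exact smul_mem_compVS_iff HL σ hA P t

include hA hres hσt hB0 hB1 hχ0 hχ1 in
/-- **Inertia does not move the centre.** -/
theorem centre_smul (P : Place L F) :
    centre HL ht1 h0 h1 hzero (σ • P) = centre HL ht1 h0 h1 hzero P := by
  classical
  unfold centre
  by_cases hP : t ∈ compVS HL A P
  · have hP' : t ∈ compVS HL A (σ • P) := (t_mem_compVS_smul_iff HL σ hA hσt P).mpr hP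
    rw [dif_pos hP, dif_pos hP']
    congr 1
    apply CPt.ext'
    exact chiP_smul res HL σ hA hB0 hres hχ0 (h0 P hP) (h0 (σ • P) hP')
  · have hP' : t ∉ compVS HL A (σ • P) := fun h => hP ((t_mem_compVS_smul_iff HL σ hA hσt P).mp h)
    rw [dif_neg hP, dif_neg hP']
    congr 1
    apply Subtype.ext
    apply CPt.ext'
    exact chiP_smul res HL σ hA hB1 hres hχ1 (h1 P (inv_mem_of_not_mem HL A P hP).1)
      (h1 (σ • P) (inv_mem_of_not_mem HL A (σ • P) hP').1)

end TwoCharts

end Fermat.Agent.ORD.IFACEN.CentreGal6
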