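/-
Programme ORD (S33), chapter IFACE-N (helper6): **a semilinear automorphism fixing `t` and
stabilising `A` stabilises the chart `chart A t`** (the integral closure of `A[t]` in `F`) — the
hypotheses `hB0`, `hB1` of `CentreGal6.centre_smul` for `B0 = chart A t`, `B1 = chart A t⁻¹`.

* `smul_mem_adjoin`, `smul_mem_chart` : `σ • (A[t]) ⊆ A[t]`, `σ • chart A t ⊆ chart A t`;
* `smul_mem_chart_iff`, `smul_mem_chart_inv_iff` : the two-sided statements.
-/
import Mathlib
import Fermat.Agent.ORD.IFACEN.CentreGal6

set_option autoImplicit false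
set_option linter.unusedSectionVars false
set_option linter.style.longLine false

namespace Fermat.Agent.ORD.IFACEN.ChartGal6

open AlgebraicCurve Polynomial Fermat.Agent.ORD.IFACEN.LocAt8 Fermat.Agent.RED.PUR.ChartGeneric22

variable {L F : Type*} [Field L] [Field F] [Algebra L F]
variable {A : ValuationSubring L} [Algebra A F] [IsScalarTower A L F]

section OneWay

variable (σ : SemilinearAut L F) (hA : ∀ z : L, z ∈ A → SemilinearAut.baseAut σ z ∈ A)
  {t : F} (ht : σ • t = t)

include hA ht in
theorem smul_mem_adjoin {s : F} (hs : s ∈ Algebra.adjoin A {t}) :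
    σ • s ∈ Algebra.adjoin A {t} := by
  induction hs using Algebra.adjoin_induction with
  | mem x hx =>
      rw [Set.mem_singleton_iff.mp hx, ht]
      exact Algebra.self_mem_adjoin_singleton A t
  | algebraMap a =>
      rw [algebraMap_A_eq, SemilinearAut.smul_algebraMap]
      have : algebraMap L F (SemilinearAut.baseAut σ (a : L)) =
          algebraMap A F ⟨SemilinearAut.baseAut σ (a : L), hA _ a.2⟩ := by
        rw [algebraMap_A_eq]
      rw [this]
      exact Subalgebra.algebraMap_mem _ _
  | add x y _ _ hx hy =>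
      rw [smul_add]; exact Subalgebra.add_mem _ hx hy
  | mul x y _ _ hx hy =>
      rw [smul_mul']; exact Subalgebra.mul_mem _ hx hy

include hA ht in
theorem smul_mem_chart {x : F} (hx : x ∈ chart A t) : σ • x ∈ chart A t := by
  rw [mem_chart_iff, isIntegral_subalgebra_iff] at hx ⊢
  obtain ⟨P, hP, hcoeff, hPx⟩ := hx
  refine ⟨P.map (SemilinearAut.toRingAut σ : F →+* F), hP.map _, fun i => ?_, ?_⟩
  · rw [coeff_map]
    exact smul_mem_adjoin σ hA ht (hcoeff i)
  · have h := Polynomial.eval_map_apply (p := P) (SemilinearAut.toRingAut σ : F →+* F) x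
    rw [hPx, map_zero] at h
    exact h

end OneWay

section TwoWay

variable (σ : SemilinearAut L F) (hA : ∀ z : L, z ∈ A ↔ SemilinearAut.baseAut σ z ∈ A)
  {t : F} (ht : σ • t = t)

include hA in
theorem inv_mem (z : L) (hz : z ∈ A) : SemilinearAut.baseAut σ⁻¹ z ∈ A := by
  rw [hA, SemilinearAut.baseAut_inv]
  have : SemilinearAut.baseAut σ ((SemilinearAut.baseAut σ).symm z) = z :=
    (SemilinearAut.baseAut σ).apply_symm_apply z
  rw [this]
  exact hz

include ht in
theorem inv_smul_t : σ⁻¹ • t = t := by
  conv_lhs => rw [← ht]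
  exact inv_smul_smul σ t

include hA ht in
/-- **`σ` stabilises the chart.** -/
theorem smul_mem_chart_iff (b : F) : b ∈ chart A t ↔ σ • b ∈ chart A t := by
  constructor
  · exact smul_mem_chart σ (fun z hz => (hA z).mp hz) ht
  · intro h
    have := smul_mem_chart σ⁻¹ (inv_mem σ hA) (inv_smul_t σ ht) h
    rwa [inv_smul_smul] at this

include hA ht in
/-- **`σ` stabilises the chart at infinity.** -/
theorem smul_mem_chart_inv_iff (b : F) : b ∈ chart A t⁻¹ ↔ σ • b ∈ chart A t⁻¹ := by
  have ht' : σ • t⁻¹ = t⁻¹ := by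
    rw [SemilinearAut.smul_def, map_inv₀, ← SemilinearAut.smul_def, ht]
  exact smul_mem_chart_iff σ hA ht' b

end TwoWay

end Fermat.Agent.ORD.IFACEN.ChartGal6
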