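/-
Programme ORD (S33), chapter IFACE-N (helper6): **closed points of a chart and the two components
of the special fibre.**  `BA ⊂ F` a chart over `A`, `χ : BA →+* k` a closed point, `G₁, G₂ ⊂ F` the
Gauss rings of the two components with reductions `red₁, red₂`, `BA ⊂ G₁ ⊓ G₂`.

* `Reduced BA χ red₁ red₂` : `red₁ b = 0 → red₂ b = 0 → χ b = 0` (the special fibre of the chart is
  reduced with components `1, 2`: `ker red₁ ∩ ker red₂ ∩ BA ⊂ rad (m_A BA)`);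
* `reduced_of_level` : **reducedness from ONE finite level** through which `b` factors: the fields
  `j_mem pi_const sat le on_G red_zero_iff` of helper8's `LevelAt8.LevelAt` / helper4's
  `NodeLevelAt4` for BOTH components (`b_K = π c₁ = π c₂`, `c ∈ O₁ ⊓ O₂`, saturation `c ∈ B_K`,
  `b = ϖ · j c`);
* `on_or_on` : **dichotomy** — a closed point lies on component `1` or on component `2`
  (`LocAt8.OnComp.on` for one of them);
* `fix_of_reduced` : for `σ` with `red_v (σ • b) = red_v b` (`v = 1, 2`; inertia, helper5's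
  GalSide5) every closed point kills `σ • b − b` : the hypothesis `hχ` of
  `CentreGal6.centre_smul`.
-/
import Mathlib
import Fermat.Agent.ORD.IFACEN.CentreGal6

set_option autoImplicit false
set_option linter.unusedSectionVars false
set_option linter.style.longLine false

namespace Fermat.Agent.ORD.IFACEN.ClosedPtComp6

open AlgebraicCurve Fermat.Agent.ORD.IFACEN.LocAt8

variable {L F k Ft₁ Ft₂ : Type*} [Field L] [Field F] [Algebra L F] [Field k]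
  [CommRing Ft₁] [CommRing Ft₂]
variable {A : ValuationSubring L} [Algebra A F] [IsScalarTower A L F]

section Dich

variable (BA : Subalgebra A F) (χ : BA →+* k) {G₁ G₂ : Subring F} (red₁ : G₁ →+* Ft₁)
  (red₂ : G₂ →+* Ft₂) (le₁ : ∀ b ∈ BA, b ∈ G₁) (le₂ : ∀ b ∈ BA, b ∈ G₂)

/-- the closed point sees a reduced special fibre with the two components `1, 2`. -/
def Reduced : Prop :=
  ∀ b : BA, red₁ ⟨(b : F), le₁ b b.2⟩ = 0 → red₂ ⟨(b : F), le₂ b b.2⟩ = 0 → χ b = 0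

variable {BA χ red₁ red₂ le₁ le₂}

/-- **Dichotomy**: a closed point lies on one of the two components. -/
theorem on_or_on [IsDomain Ft₁] [IsDomain Ft₂] (h : Reduced BA χ red₁ red₂ le₁ le₂) :
    (∀ b : BA, red₁ ⟨(b : F), le₁ b b.2⟩ = 0 → χ b = 0) ∨
      (∀ b : BA, red₂ ⟨(b : F), le₂ b b.2⟩ = 0 → χ b = 0) := by
  by_contra hcon
  rw [not_or] at hcon
  obtain ⟨h1, h2⟩ := hcon
  push Not at h1 h2
  obtain ⟨b₁, hb₁, hχ₁⟩ := h1
  obtain ⟨b₂, hb₂, hχ₂⟩ := h2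
  have e1 : (⟨((b₁ * b₂ : BA) : F), le₁ _ (b₁ * b₂).2⟩ : G₁) =
      ⟨(b₁ : F), le₁ b₁ b₁.2⟩ * ⟨(b₂ : F), le₁ b₂ b₂.2⟩ := Subtype.ext rfl
  have e2 : (⟨((b₁ * b₂ : BA) : F), le₂ _ (b₁ * b₂).2⟩ : G₂) =
      ⟨(b₁ : F), le₂ b₁ b₁.2⟩ * ⟨(b₂ : F), le₂ b₂ b₂.2⟩ := Subtype.ext rfl
  have h0 := h (b₁ * b₂) (by rw [e1, map_mul, hb₁, zero_mul]) (by rw [e2, map_mul, hb₂, mul_zero])
  rw [map_mul] at h0
  rcases mul_eq_zero.mp h0 with h3 | h3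
  · exact hχ₁ h3
  · exact hχ₂ h3

/-- **Inertia fixes the closed points**: if both reductions are `σ`-invariant on the chart, every
closed point kills `σ • b − b`. -/
theorem fix_of_reduced (σ : SemilinearAut L F) (h : Reduced BA χ red₁ red₂ le₁ le₂)
    (hσ₁ : ∀ (b : BA) (hb' : σ • (b : F) ∈ BA),
      red₁ ⟨σ • (b : F), le₁ _ hb'⟩ = red₁ ⟨(b : F), le₁ b b.2⟩)
    (hσ₂ : ∀ (b : BA) (hb' : σ • (b : F) ∈ BA),
      red₂ ⟨σ • (b : F), le₂ _ hb'⟩ = red₂ ⟨(b : F), le₂ b b.2⟩)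
    (b : BA) (hb' : σ • (b : F) ∈ BA) : χ ⟨σ • (b : F), hb'⟩ = χ b := by
  have h0 : χ (⟨σ • (b : F), hb'⟩ - b) = 0 := by
    apply h
    · have e : (⟨((⟨σ • (b : F), hb'⟩ - b : BA) : F), le₁ _ (⟨σ • (b : F), hb'⟩ - b : BA).2⟩ : G₁) =
          ⟨σ • (b : F), le₁ _ hb'⟩ - ⟨(b : F), le₁ b b.2⟩ := Subtype.ext rfl
      rw [e, map_sub, hσ₁ b hb', sub_self]
    · have e : (⟨((⟨σ • (b : F), hb'⟩ - b : BA) : F), le₂ _ (⟨σ • (b : F), hb'⟩ - b : BA).2⟩ : G₂) =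
          ⟨σ • (b : F), le₂ _ hb'⟩ - ⟨(b : F), le₂ b b.2⟩ := Subtype.ext rfl
      rw [e, map_sub, hσ₂ b hb', sub_self]
  rwa [map_sub, sub_eq_zero] at h0

end Dich

/-! ### reducedness from one finite level -/

section Level

variable (res : A →+* k) (BA : Subalgebra A F) (χ : BA →+* k)
  (hχ : ∀ a : A, χ (algebraMap A BA a) = res a)
  {G₁ G₂ : Subring F} (red₁ : G₁ →+* Ft₁) (red₂ : G₂ →+* Ft₂)
  (le₁ : ∀ b ∈ BA, b ∈ G₁) (le₂ : ∀ b ∈ BA, b ∈ G₂)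
variable {RK FK : Type*} [CommRing RK] [Field FK] [Algebra RK FK]
  (BK : Subalgebra RK FK) (πK : RK) (j : FK →+* F) (O₁ O₂ : ValuationSubring FK)
  (j_mem : ∀ b ∈ BK, j b ∈ BA)
  (pi_const : ∃ ϖ : A, ϖ ≠ 0 ∧ res ϖ = 0 ∧ j (algebraMap RK FK πK) = algebraMap L F (ϖ : L))
  (sat : ∀ b ∈ BK, ∀ c : FK, c ∈ O₁ → c ∈ O₂ → b = algebraMap RK FK πK * c → c ∈ BK)
  (leO₁ : ∀ b ∈ BK, b ∈ O₁) (leO₂ : ∀ b ∈ BK, b ∈ O₂)
  (on_G₁ : ∀ f ∈ O₁, j f ∈ G₁) (on_G₂ : ∀ f ∈ O₂, j f ∈ G₂)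
  (rz₁ : ∀ (f : FK) (hf : f ∈ O₁), red₁ ⟨j f, on_G₁ f hf⟩ = 0 →
    ∃ c ∈ O₁, f = algebraMap RK FK πK * c)
  (rz₂ : ∀ (f : FK) (hf : f ∈ O₂), red₂ ⟨j f, on_G₂ f hf⟩ = 0 →
    ∃ c ∈ O₂, f = algebraMap RK FK πK * c)

include hχ j_mem pi_const sat rz₁ rz₂ leO₁ leO₂ in
/-- **Reducedness at an element coming from the level**: `b = j b_K`, `red₁ b = 0 = red₂ b`
⟹ `χ b = 0`. -/
theorem chi_eq_zero_of_level (b : BA) (bK : BK) (hb : j (bK : FK) = (b : F))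
    (h1 : red₁ ⟨(b : F), le₁ b b.2⟩ = 0) (h2 : red₂ ⟨(b : F), le₂ b b.2⟩ = 0) : χ b = 0 := by
  obtain ⟨ϖ, hϖ0, hϖ, eϖ⟩ := pi_const
  have hπ0 : algebraMap RK FK πK ≠ 0 := by
    intro h0
    rw [h0, map_zero] at eϖ
    have : (ϖ : L) = 0 := (map_eq_zero (algebraMap L F)).mp eϖ.symm
    exact hϖ0 (Subtype.ext this)
  have h1' : red₁ ⟨j (bK : FK), on_G₁ _ (leO₁ _ bK.2)⟩ = 0 := by
    rw [← h1]; congr 1; exact Subtype.ext hb
  have h2' : red₂ ⟨j (bK : FK), on_G₂ _ (leO₂ _ bK.2)⟩ = 0 := by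
    rw [← h2]; congr 1; exact Subtype.ext hb
  obtain ⟨c₁, hc₁, e₁⟩ := rz₁ _ (leO₁ _ bK.2) h1'
  obtain ⟨c₂, hc₂, e₂⟩ := rz₂ _ (leO₂ _ bK.2) h2'
  have hcc : c₁ = c₂ := mul_left_cancel₀ hπ0 (e₁.symm.trans e₂)
  have hcB : c₁ ∈ BK := sat _ bK.2 c₁ hc₁ (hcc ▸ hc₂) e₁
  have e : b = algebraMap A BA ϖ * ⟨j c₁, j_mem _ hcB⟩ := by
    apply Subtype.ext
    show (b : F) = ((algebraMap A BA ϖ : BA) : F) * j c₁
    have : ((algebraMap A BA ϖ : BA) : F) = algebraMap L F (ϖ : L) := by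
      rw [← algebraMap_A_eq]; rfl
    rw [this, ← eϖ, ← map_mul, ← e₁, hb]
  rw [e, map_mul, hχ, hϖ, zero_mul]

end Level

end Fermat.Agent.ORD.IFACEN.ClosedPtComp6
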