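/-
PROGRAMME ORD (S33), chapter IFACE-N (O6, helper9): **the inertia-fixed separating coordinate on the
component through `∞`** of the special fibre of `X₀(M' p)` (input `t v`, `hgen`, `hsep`, `ht` of
`AssembleMainN9.torsOrd_of_assembly` / `UnifN9.exists_bad_unifN` for `v = ∞`).

`4 ∣ M'`, `p ∤ M'`, `A ≤ ℚ̄` over `p`.  The Hauptmodul `t = tq 4 8` of `X₀(4)` lies in
`ℚ̄ · F_{M' p}` (`4 ∣ M' p`), has `A`-integral (indeed rational) `q`-expansion, so it is an element
`t1` of the Gauss ring `G1` of helper1's `SideOne1`; its reduction `red1 t1` is the Hauptmodul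
`t̃ = tRes` of the GOOD level `M'`, a separating transcendental generator of `k · F̃_{M'}`
(`ES/RED/SpecialGen25`); and `t1` is fixed by the whole arithmetic Galois group.
-/
import Mathlib
import Fermat.Agent.ORD.IFACEN.SideOne1
import Fermat.Agent.ES.RED.SpecialInv25
import Fermat.Agent.ES.P36.CuspValUnr26

set_option autoImplicit false
set_option linter.unusedSectionVars false
set_option linter.style.longLine false
set_option synthInstance.maxHeartbeats 400000

open HahnSeries ModularCurve Polynomial IntermediateField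

noncomputable section

namespace Fermat.Agent.ORD.IFACEN.CoordOne9

open Fermat.Agent.X0 Fermat.Agent.X0.FF
open Fermat.Agent.RED.Interface4 Fermat.Agent.RED.BASE Fermat.Agent.RED.BASE.Hauptmodul12
  Fermat.Agent.RED.BASE.EtaQuot12
  Fermat.Agent.ES.RED.ChartIntegralA1 Fermat.Agent.ES.RED.SpecialGen25 Fermat.Agent.ES.RED.SpecialInv25
  Fermat.Agent.ORD.IFACEN.GaussBad1 Fermat.Agent.ORD.IFACEN.SideOne1

/-- fast instance (the canonical search costs seconds). -/
local instance (priority := 100000) algKF' (A : ValuationSubring Qbar) (M : ℕ) [NeZero M] :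
    Algebra (kA A) ↥(modularFunctionFieldFullC (kA A) M) := inferInstance

variable (p M' : ℕ) [Fact p.Prime] [NeZero M'] (A : ValuationSubring Qbar)
  (hA : A.LiesOverPrime p) (hpM : ¬ p ∣ M') (h4 : 4 ∣ M')

instance neZero_four : NeZero 4 := ⟨by norm_num⟩

include h4 in
/-- `t ∈ ℚ̄ · F_{M'}`. -/
theorem tMem_good : Interface12.TMem 4 8 M' := tMem_of_dvd baseHyp_four h4

include h4 in
/-- `t ∈ ℚ̄ · F_{M' p}`. -/
theorem tMem_bad : Interface12.TMem 4 8 (M' * p) :=
  tMem_of_dvd baseHyp_four (Dvd.dvd.mul_right h4 p)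

/-- the Hauptmodul of `X₀(4)` as a function on `X₀(M' p)`. -/
def tBad : ↥(Fbar (M' * p)) := Interface12.tF (M' * p) (tMem_bad p M' h4)

theorem coe_tBad :
    ((tBad p M' h4 : ↥(Fbar (M' * p))) : LaurentSeries Qbar) = coeffMap A.subtype (tq ↥A 4 8) :=
  coe_tF 4 8 (M' * p) (tMem_bad p M' h4) A

theorem tBad_mem_intF : tBad p M' h4 ∈ intF A (M' * p) :=
  ⟨tq ↥A 4 8, (coe_tBad p M' A h4).symm⟩

/-- **the coordinate on the component through `∞`.** -/
def t1 : ↥(G1 p M' A hA hpM h4) :=
  ⟨tBad p M' h4, intF_le_G1 p M' A hA hpM h4 (tBad_mem_intF p M' A h4)⟩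

@[simp] theorem coe_t1 : ((t1 p M' A hA hpM h4 : ↥(G1 p M' A hA hpM h4)) : ↥(Fbar (M' * p))) =
    tBad p M' h4 := rfl

/-- **its reduction is the Hauptmodul of the good level.** -/
theorem red1_t1 : red1 p M' A hA hpM h4 (t1 p M' A hA hpM h4) =
    tRes 4 8 M' p hpM (tMem_good M' h4) (tGenBase' baseHyp_four) A hA := by
  have h := red1_of_mem p M' A hA hpM h4 ⟨tBad p M' h4, tBad_mem_intF p M' A h4⟩
  have h' : red1 p M' A hA hpM h4 (t1 p M' A hA hpM h4) =
      redB p M' A hA hpM h4 ⟨tBad p M' h4, tBad_mem_intF p M' A h4⟩ := h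
  rw [h']
  apply Subtype.ext
  rw [coe_redB_eq_of p M' hA hpM h4 (Y := tq ↥A 4 8) (coe_tBad p M' A h4).symm, coe_tRes_eq]

/-- the reduced coordinate is a transcendental generator … -/
theorem isGen_red1_t1 : FF.IsGen (kA A) (red1 p M' A hA hpM h4 (t1 p M' A hA hpM h4)) := by
  rw [red1_t1]
  exact isGen_tRes 4 8 M' p hpM (tMem_good M' h4) (tGenBase' baseHyp_four) A hA

/-- … and separating. -/
theorem isSeparable_red1_t1 :
    Algebra.IsSeparable ↥((kA A)⟮red1 p M' A hA hpM h4 (t1 p M' A hA hpM h4)⟯ :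
        IntermediateField (kA A) ↥(modularFunctionFieldFullC (kA A) M'))
      ↥(modularFunctionFieldFullC (kA A) M') := by
  rw [red1_t1]
  exact isSeparable_tRes 4 8 M' p hpM (tMem_good M' h4) (tGenBase' baseHyp_four) A hA

/-- **the coordinate is Galois-fixed.** -/
theorem smul_tBad (τ : Qbar ≃ₐ[ℚ] Qbar) :
    arithmeticGalois (modularFunctionFieldFull (M' * p)) τ • tBad p M' h4 = tBad p M' h4 :=
  Fermat.Agent.ES.P36.CuspValUnr26.galB_smul_tF (tMem_bad p M' h4) τ

end Fermat.Agent.ORD.IFACEN.CoordOne9
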