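/-
PROGRAMME ORD (S33), chapter IFACE-N (O6, helper9): **the Fricke involution `W_N` of `ℚ̄ · F_N`
commutes with the coefficientwise Galois action** (`ℚ̄`-level version of
`FrickeFK8.frickeFK_arithmeticRingAut`), and the Galois-fixed coordinate on the component through the
cusp `0`: `W (t)` for the Galois-fixed coordinate `t` of the component through `∞`.

* `smul_jdF` : the generators `x_d = j(q^d)` have rational coefficients;
* `frickeBar_smul : W (τ • f) = τ • W f`;
* `smul_frickeBar_of_fixed : τ • t = t → τ • W t = W t`.
-/
import Mathlib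
import Fermat.Agent.ES.N34.FrickeFK8

set_option autoImplicit false
set_option linter.unusedSectionVars false
set_option linter.style.longLine false

open HahnSeries ModularCurve AlgebraicCurve

noncomputable section

namespace Fermat.Agent.ORD.IFACEN.FrickeGal9

open Fermat.Agent.X0 Fermat.Agent.ES.N34.FrickeFK8

variable (N : ℕ) [NeZero N]

/-- the generators `x_d` have rational coefficients. -/
theorem smul_jdF (τ : Kbar ≃ₐ[ℚ] Kbar) (d : ℕ) [NeZero d] (hd : d ∣ N) :
    arithmeticGalois (modularFunctionFieldFull N) τ • jdF N d hd = jdF N d hd := by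
  apply Subtype.ext
  rw [coe_arithmeticGalois_smul, FracR.coe_jdF, ModularCurve.coeffEmb, coeffMap_coeffMap]
  exact coeffMap_congr (RingHom.ext fun r => τ.commutes r) _

/-- **`W_N` commutes with the arithmetic Galois action.** -/
theorem frickeBar_smul (τ : Kbar ≃ₐ[ℚ] Kbar) (f : FF N) :
    frickeBar N (arithmeticGalois (modularFunctionFieldFull N) τ • f) =
      arithmeticGalois (modularFunctionFieldFull N) τ • frickeBar N f := by
  set σ := arithmeticGalois (modularFunctionFieldFull N) τ with hσ
  have hR : ∀ u : Rsub N, frickeBar N (σ • (u : FF N)) = σ • frickeBar N (u : FF N) := by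
    intro u
    induction u using FracR.Rsub_induction with
    | hgen d hd =>
        obtain ⟨e, hde⟩ := hd
        have he0 : e ≠ 0 := by
          rintro rfl
          exact NeZero.ne N (by rw [hde, mul_zero])
        haveI : NeZero e := ⟨he0⟩
        rw [FracR.coe_jdR, hσ, smul_jdF, frickeBar_jdF N d e hde.symm, smul_jdF]
    | hconst c =>
        show frickeBar N (σ • algebraMap Kbar (FF N) c) = σ • frickeBar N (algebraMap Kbar (FF N) c)
        rw [SemilinearAut.smul_algebraMap, AlgHom.commutes, AlgHom.commutes,
          SemilinearAut.smul_algebraMap]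
    | hadd u v hu hv =>
        rw [Subalgebra.coe_add, smul_add, map_add, hu, hv, map_add, smul_add]
    | hmul u v hu hv =>
        rw [Subalgebra.coe_mul, smul_mul', map_mul, hu, hv, map_mul, smul_mul']
  have hdiv : ∀ a b : FF N, σ • (a / b) = σ • a / σ • b := fun a b => by
    rw [SemilinearAut.smul_def, SemilinearAut.smul_def, SemilinearAut.smul_def, map_div₀]
  obtain ⟨r, s, rfl⟩ := FracR.exists_div N f
  rw [hdiv, map_div₀, hR, hR, map_div₀, hdiv]

/-- the Fricke transform of a Galois-fixed function is Galois-fixed. -/
theorem smul_frickeBar_of_fixed (τ : Kbar ≃ₐ[ℚ] Kbar) {t : FF N}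
    (ht : arithmeticGalois (modularFunctionFieldFull N) τ • t = t) :
    arithmeticGalois (modularFunctionFieldFull N) τ • frickeBar N t = frickeBar N t := by
  rw [← frickeBar_smul, ht]

end Fermat.Agent.ORD.IFACEN.FrickeGal9
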