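/-
Programme ORD (S33), chapter IFACE-N (helper6; insurance for O6a "GalSide"): **the decomposition
group of `A` acts on the two components of the special fibre of `X₀(M' p)`**.

`g ∈ D_A = A.decompositionSubgroup ℚ`, `σ := GalInst1.gal A (M' p) g` (the coefficientwise
semilinear automorphism of `ℚ̄ · F_{M' p}`), `σ̃ := GalInst1.galRes A M' g` (the induced
automorphism of `k · F̃_{M'}`).

* `smul_mem_intF`, `redB_smul` : `σ` preserves the `A`-integral `q`-expansions, and
  `redB (σ y) = σ̃ (redB y)`;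
* `smul_mem_G1`, `red1_smul` : the same for the Gauss valuation ring `G1` and `red1`
  (`GalDatum1.map_mem_fracRing / fracRed_map`);
* `red1_smul_of_mem_inertia` : for `τ` in the inertia group `red1 (τ y) = red1 y`;
* transport to the component through the cusp `0`, for ANY `(G2, red2)` which is the Fricke transport
  of `(G1, red1)` (helper9's `CoordTwo9` convention): `smul_mem_G2`, `red2_smul`,
  `red2_smul_of_mem_inertia` (`FrickeGal9.frickeBar_smul`);
* `valuation_smul` : **`A.valuation (τ z) = A.valuation z`** for `τ ∈ D_A` (`L / K₀` algebraic; the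
  orbit argument: `τ^n z = z`, and a product of `n` elements of `m_A` is not `1`) — the field
  `val_base` of `Inertial3.Inertial`.
-/
import Mathlib
import Fermat.Agent.ORD.IFACEN.SideOne1
import Fermat.Agent.ORD.IFACEN.FrickeGal9
import Fermat.Agent.FF.IFACE.GalDatum1

set_option autoImplicit false
set_option linter.unusedSectionVars false
set_option linter.style.longLine false
set_option synthInstance.maxHeartbeats 400000

open HahnSeries ModularCurve AlgebraicCurve

noncomputable section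

namespace Fermat.Agent.ORD.IFACEN.GalSide6

open Fermat.Agent.RED.Interface4 Fermat.Agent.RED.PUR.GaussGen8
  Fermat.Agent.ES.RED.ChartIntegralA1 Fermat.Agent.ES.RED.GaloisRed21
  Fermat.Agent.ES.KRON.FrobPlace13 Fermat.Agent.ES.N34.FrickeFK8
  Fermat.Agent.FF.IFACE.GaussVal1 Fermat.Agent.FF.IFACE.GalInst1 Fermat.Agent.FF.IFACE.GalDatum1
  Fermat.Agent.ORD.IFACEN.GaussBad1 Fermat.Agent.ORD.IFACEN.SideOne1
  Fermat.Agent.ORD.IFACEN.FrickeGal9

/-- fast instance (the canonical search costs seconds). -/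
local instance (priority := 100000) algKF6 (A : ValuationSubring Qbar) (M : ℕ) [NeZero M] :
    Algebra (kA A) ↥(modularFunctionFieldFullC (kA A) M) := inferInstance

/-! ### the valuation of `A` is `D_A`-invariant -/

section Val

variable {K₀ L : Type*} [Field K₀] [Field L] [Algebra K₀ L] [Algebra.IsAlgebraic K₀ L]
  (A : ValuationSubring L)

/-- an automorphism of an algebraic extension has finite order on every element. -/
theorem exists_pow_apply_eq (τ : L ≃ₐ[K₀] L) (z : L) : ∃ n : ℕ, 0 < n ∧ (τ ^ n) z = z := by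
  classical
  have hz : IsAlgebraic K₀ z := Algebra.IsAlgebraic.isAlgebraic z
  have hint : IsIntegral K₀ z := hz.isIntegral
  have hfin : ((minpoly K₀ z).rootSet L).Finite := Polynomial.rootSet_finite _ _
  have hmem : ∀ i : ℕ, (τ ^ i) z ∈ (minpoly K₀ z).rootSet L := by
    intro i
    rw [Polynomial.mem_rootSet]
    refine ⟨minpoly.ne_zero hint, ?_⟩
    have h := Polynomial.aeval_algHom_apply ((τ ^ i : L ≃ₐ[K₀] L) : L →ₐ[K₀] L) z (minpoly K₀ z)
    rw [minpoly.aeval, map_zero] at h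
    exact h
  haveI : Finite ((minpoly K₀ z).rootSet L) := hfin.to_subtype
  obtain ⟨i, j, hij, h⟩ := Finite.exists_ne_map_eq_of_infinite
    (fun i : ℕ => (⟨(τ ^ i) z, hmem i⟩ : (minpoly K₀ z).rootSet L))
  have h' : (τ ^ i) z = (τ ^ j) z := congrArg Subtype.val h
  rcases Nat.lt_or_gt_of_ne hij with hlt | hlt
  · refine ⟨j - i, Nat.sub_pos_of_lt hlt, ?_⟩
    have e : τ ^ j = τ ^ i * τ ^ (j - i) := by rw [← _root_.pow_add, Nat.add_sub_cancel' hlt.le]
    rw [e, AlgEquiv.mul_apply] at h'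
    exact ((τ ^ i).injective h').symm
  · refine ⟨i - j, Nat.sub_pos_of_lt hlt, ?_⟩
    have e : τ ^ i = τ ^ j * τ ^ (i - j) := by rw [← _root_.pow_add, Nat.add_sub_cancel' hlt.le]
    rw [e, AlgEquiv.mul_apply] at h'
    exact (τ ^ j).injective h'

/-- `D_A` stabilises `A`. -/
theorem decomp_mem (g : A.decompositionSubgroup K₀) {a : L} (ha : a ∈ A) :
    (g : L ≃ₐ[K₀] L) a ∈ A := (sigmaA A g ⟨a, ha⟩).2

theorem decomp_pow_mem (g : A.decompositionSubgroup K₀) (i : ℕ) {a : L} (ha : a ∈ A) :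
    ((g : L ≃ₐ[K₀] L) ^ i) a ∈ A := by
  have h := decomp_mem A (g ^ i) ha
  rwa [Subgroup.coe_pow] at h

/-- for `g ∈ D_A` the quotient `g z / z` lies in `A`. -/
theorem decomp_div_mem (g : A.decompositionSubgroup K₀) {z : L} (hz : z ≠ 0) :
    (g : L ≃ₐ[K₀] L) z / z ∈ A := by
  set τ : L ≃ₐ[K₀] L := (g : L ≃ₐ[K₀] L) with hτ
  by_contra hu
  have hτz : τ z ≠ 0 := fun h => hz ((map_eq_zero τ).mp h)
  set w : L := z / τ z with hw
  have hwA : w ∈ A := by
    have := (A.mem_or_inv_mem (τ z / z)).resolve_left hu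
    rwa [inv_div] at this
  have hwz : w * τ z = z := by rw [hw, div_mul_cancel₀ _ hτz]
  -- telescoping
  have key : ∀ n : ℕ, (∏ i ∈ Finset.range n, (τ ^ i) w) * (τ ^ n) z = z := by
    intro n
    induction n with
    | zero => simp
    | succ n ih =>
      rw [Finset.prod_range_succ, mul_assoc]
      have : (τ ^ n) w * (τ ^ (n + 1)) z = (τ ^ n) z := by
        rw [pow_succ, AlgEquiv.mul_apply, ← map_mul, hwz]
      rw [this, ih]
  obtain ⟨n, hn, hnz⟩ := exists_pow_apply_eq τ z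
  obtain ⟨m, rfl⟩ : ∃ m, n = m + 1 := ⟨n - 1, by omega⟩
  have h1 := key (m + 1)
  rw [hnz] at h1
  have h2 : (∏ i ∈ Finset.range (m + 1), (τ ^ i) w) = 1 := by
    have := mul_right_cancel₀ hz (h1.trans (one_mul z).symm)
    exact this
  rw [Finset.prod_range_succ', pow_zero, AlgEquiv.one_apply] at h2
  have hw0 : w ≠ 0 := div_ne_zero hz hτz
  have h3 : w⁻¹ = ∏ i ∈ Finset.range m, (τ ^ (i + 1)) w := (eq_inv_of_mul_eq_one_left h2).symm
  apply hu
  have h4 : τ z / z = w⁻¹ := by rw [hw, inv_div]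
  rw [h4, h3]
  exact Subring.prod_mem A.toSubring fun i _ => decomp_pow_mem A g (i + 1) hwA

/-- **the valuation of `A` is invariant under the decomposition group.** -/
theorem valuation_smul (g : A.decompositionSubgroup K₀) (z : L) :
    A.valuation ((g : L ≃ₐ[K₀] L) z) = A.valuation z := by
  rcases eq_or_ne z 0 with rfl | hz
  · rw [map_zero]
  set τ : L ≃ₐ[K₀] L := (g : L ≃ₐ[K₀] L) with hτ
  have hτz : τ z ≠ 0 := fun h => hz ((map_eq_zero τ).mp h)
  have h1 : A.valuation (τ z / z) ≤ 1 := (A.valuation_le_one_iff _).mpr (decomp_div_mem A g hz)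
  have h2 : A.valuation (z / τ z) ≤ 1 := by
    have h := decomp_div_mem A g⁻¹ hτz
    have e : ((g⁻¹ : A.decompositionSubgroup K₀) : L ≃ₐ[K₀] L) (τ z) = z := by
      rw [Subgroup.coe_inv]
      exact τ.symm_apply_apply z
    rw [e] at h
    exact (A.valuation_le_one_iff _).mpr h
  rw [map_div₀] at h1 h2
  have hvz : A.valuation z ≠ 0 := (Valuation.ne_zero_iff _).mpr hz
  have hvτ : A.valuation (τ z) ≠ 0 := (Valuation.ne_zero_iff _).mpr hτz
  have h1' : A.valuation (τ z) ≤ A.valuation z := by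
    have := (div_le_one₀ (zero_lt_iff.mpr hvz)).mp h1
    exact this
  have h2' : A.valuation z ≤ A.valuation (τ z) := by
    have := (div_le_one₀ (zero_lt_iff.mpr hvτ)).mp h2
    exact this
  exact le_antisymm h1' h2'

end Val

/-! ### the component through `∞` -/

section One

variable (p M' : ℕ) [Fact p.Prime] [NeZero M'] (A : ValuationSubring Qbar)
  (hA : A.LiesOverPrime p) (hpM : ¬ p ∣ M') (h4 : 4 ∣ M')

/-- the coefficientwise Galois action on series. -/
theorem coe_gal_smul (g : A.decompositionSubgroup ℚ) (y : ↥(Fbar (M' * p))) :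
    ((gal A (M' * p) g • y : ↥(Fbar (M' * p))) : LaurentSeries Qbar) =
      coeffMap ((((g : Qbar ≃ₐ[ℚ] Qbar)) : Qbar ≃+* Qbar) : Qbar →+* Qbar)
        (y : LaurentSeries Qbar) := rfl

/-- **`D_A` preserves the `A`-integral `q`-expansions.** -/
theorem smul_mem_intF (g : A.decompositionSubgroup ℚ) {y : ↥(Fbar (M' * p))}
    (hy : y ∈ intF A (M' * p)) : gal A (M' * p) g • y ∈ intF A (M' * p) := by
  obtain ⟨Y, hY⟩ := (mem_intF_iff A (M' * p)).mp hy
  refine (mem_intF_iff A (M' * p)).mpr ⟨coeffMap (sigmaA A g) Y, ?_⟩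
  rw [coeffMap_subtype_sigmaA, hY, coe_gal_smul]

/-- **the reduction of integral `q`-expansions is `D_A`-equivariant.** -/
theorem redB_smul (g : A.decompositionSubgroup ℚ) (y : intF A (M' * p)) :
    redB p M' A hA hpM h4 ⟨gal A (M' * p) g • (y : ↥(Fbar (M' * p))),
        smul_mem_intF p M' A g y.2⟩ =
      galRes A M' g • redB p M' A hA hpM h4 y := by
  apply Subtype.ext
  have h1 : coeffMap A.subtype (coeffMap (sigmaA A g) (seriesHom A (M' * p) y)) =
      (((⟨gal A (M' * p) g • (y : ↥(Fbar (M' * p))), smul_mem_intF p M' A g y.2⟩ :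
        intF A (M' * p)) : ↥(Fbar (M' * p))) : LaurentSeries Qbar) := by
    rw [coeffMap_subtype_sigmaA, coeffMap_seriesHom, coe_gal_smul]
  rw [coe_redB_eq_of p M' hA hpM h4 h1, coe_coeffSemi_smul, coe_redB, coeffMap_residue_sigmaA]

/-- the ring endomorphism of `ℚ̄ · F_{M' p}` underlying `gal g`. -/
def galHomB (g : A.decompositionSubgroup ℚ) : ↥(Fbar (M' * p)) →+* ↥(Fbar (M' * p)) :=
  ((SemilinearAut.toRingAut (gal A (M' * p) g) : _ ≃+* _) : _ →+* _)

theorem galHomB_apply (g : A.decompositionSubgroup ℚ) (y : ↥(Fbar (M' * p))) :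
    galHomB p M' A g y = gal A (M' * p) g • y := rfl

/-- **the Gauss valuation ring of the component through `∞` is `D_A`-stable.** -/
theorem smul_mem_G1 (g : A.decompositionSubgroup ℚ) {y : ↥(Fbar (M' * p))}
    (hy : y ∈ G1 p M' A hA hpM h4) : gal A (M' * p) g • y ∈ G1 p M' A hA hpM h4 :=
  map_mem_fracRing (redB p M' A hA hpM h4) (galHomB p M' A g) (galResHom A M' g)
    (fun a => smul_mem_intF p M' A g a.2) (fun a => redB_smul p M' A hA hpM h4 g a) hy

/-- **`red1` is `D_A`-equivariant.** -/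
theorem red1_smul (g : A.decompositionSubgroup ℚ) (y : ↥(G1 p M' A hA hpM h4)) :
    red1 p M' A hA hpM h4 ⟨gal A (M' * p) g • (y : ↥(Fbar (M' * p))),
        smul_mem_G1 p M' A hA hpM h4 g y.2⟩ =
      galRes A M' g • red1 p M' A hA hpM h4 y :=
  fracRed_map (redB p M' A hA hpM h4) (galHomB p M' A g) (galResHom A M' g)
    (fun a => smul_mem_intF p M' A g a.2) (fun a => redB_smul p M' A hA hpM h4 g a) y

/-- inertia: the arithmetic Galois action preserves `G1` … -/
theorem smul_mem_G1_of_mem_inertia {τ : Qbar ≃ₐ[ℚ] Qbar} (hτ : τ ∈ A.inertiaSubgroupIn ℚ)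
    {y : ↥(Fbar (M' * p))} (hy : y ∈ G1 p M' A hA hpM h4) :
    arithmeticGalois (modularFunctionFieldFull (M' * p)) τ • y ∈ G1 p M' A hA hpM h4 := by
  obtain ⟨h, -⟩ := galRes_of_mem_inertia A M' hτ
  exact smul_mem_G1 p M' A hA hpM h4 ⟨τ, h⟩ hy

/-- … **and commutes with `red1`.** -/
theorem red1_smul_of_mem_inertia {τ : Qbar ≃ₐ[ℚ] Qbar} (hτ : τ ∈ A.inertiaSubgroupIn ℚ)
    (y : ↥(Fbar (M' * p))) (hy : y ∈ G1 p M' A hA hpM h4) :
    red1 p M' A hA hpM h4 ⟨arithmeticGalois (modularFunctionFieldFull (M' * p)) τ • y,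
        smul_mem_G1_of_mem_inertia p M' A hA hpM h4 hτ hy⟩ =
      red1 p M' A hA hpM h4 ⟨y, hy⟩ := by
  obtain ⟨h, h1⟩ := galRes_of_mem_inertia A M' hτ
  have := red1_smul p M' A hA hpM h4 ⟨τ, h⟩ ⟨y, hy⟩
  rw [h1, one_smul] at this
  exact this

end One

/-! ### the component through the cusp `0` (Fricke transport) -/

section Two

variable (p M' : ℕ) [Fact p.Prime] [NeZero M'] (A : ValuationSubring Qbar)
  (hA : A.LiesOverPrime p) (hpM : ¬ p ∣ M') (h4 : 4 ∣ M')
variable {G2 : Subring ↥(Fbar (M' * p))} (red2 : ↥G2 →+* ↥(modularFunctionFieldFullC (kA A) M'))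
  (hG2 : ∀ y : ↥(Fbar (M' * p)), y ∈ G2 ↔ frickeBar (M' * p) y ∈ G1 p M' A hA hpM h4)
  (hred2 : ∀ (y : ↥(Fbar (M' * p))) (hy : y ∈ G2),
    red2 ⟨y, hy⟩ = red1 p M' A hA hpM h4 ⟨frickeBar (M' * p) y, (hG2 y).mp hy⟩)

include hG2 in
/-- **the Gauss ring of the second component is `D_A`-stable.** -/
theorem smul_mem_G2 (g : A.decompositionSubgroup ℚ) {y : ↥(Fbar (M' * p))} (hy : y ∈ G2) :
    gal A (M' * p) g • y ∈ G2 := by
  rw [hG2, frickeBar_smul]
  exact smul_mem_G1 p M' A hA hpM h4 g ((hG2 y).mp hy)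

include hred2 in
/-- **`red2` is `D_A`-equivariant.** -/
theorem red2_smul (g : A.decompositionSubgroup ℚ) (y : ↥(Fbar (M' * p))) (hy : y ∈ G2) :
    red2 ⟨gal A (M' * p) g • y, smul_mem_G2 p M' A hA hpM h4 hG2 g hy⟩ =
      galRes A M' g • red2 ⟨y, hy⟩ := by
  rw [hred2, hred2, ← red1_smul p M' A hA hpM h4 g ⟨frickeBar (M' * p) y, (hG2 y).mp hy⟩]
  congr 1
  exact Subtype.ext (frickeBar_smul (M' * p) _ y)

include hG2 in
theorem smul_mem_G2_of_mem_inertia {τ : Qbar ≃ₐ[ℚ] Qbar} (hτ : τ ∈ A.inertiaSubgroupIn ℚ)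
    {y : ↥(Fbar (M' * p))} (hy : y ∈ G2) :
    arithmeticGalois (modularFunctionFieldFull (M' * p)) τ • y ∈ G2 := by
  obtain ⟨h, -⟩ := galRes_of_mem_inertia A M' hτ
  exact smul_mem_G2 p M' A hA hpM h4 hG2 ⟨τ, h⟩ hy

include hred2 in
/-- **inertia commutes with `red2`.** -/
theorem red2_smul_of_mem_inertia {τ : Qbar ≃ₐ[ℚ] Qbar} (hτ : τ ∈ A.inertiaSubgroupIn ℚ)
    (y : ↥(Fbar (M' * p))) (hy : y ∈ G2) :
    red2 ⟨arithmeticGalois (modularFunctionFieldFull (M' * p)) τ • y,
        smul_mem_G2_of_mem_inertia p M' A hA hpM h4 hG2 hτ hy⟩ = red2 ⟨y, hy⟩ := by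
  obtain ⟨h, h1⟩ := galRes_of_mem_inertia A M' hτ
  have := red2_smul p M' A hA hpM h4 red2 hG2 hred2 ⟨τ, h⟩ y hy
  rw [h1, one_smul] at this
  exact this

end Two

/-! ### the field `val_base` for inertia -/

/-- the valuation of `A` is invariant under the base automorphism of an inertia element. -/
theorem valuation_baseAut_of_mem_inertia (A : ValuationSubring Qbar) (N : ℕ) [NeZero N]
    {τ : Qbar ≃ₐ[ℚ] Qbar} (hτ : τ ∈ A.inertiaSubgroupIn ℚ) (z : Qbar) :
    A.valuation (SemilinearAut.baseAut (arithmeticGalois (modularFunctionFieldFull N) τ) z) =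
      A.valuation z := by
  obtain ⟨h, -⟩ := galRes_of_mem_inertia A N hτ
  haveI : Algebra.IsAlgebraic ℚ Qbar := AlgebraicClosure.isAlgebraic ℚ
  exact valuation_smul A ⟨τ, h⟩ z

end Fermat.Agent.ORD.IFACEN.GalSide6
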