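/-
Programme ORD (S33), chapter IFACE-N (helper6): **`hinert`** — inertia elements are `Inertial`
(helper3's `Inertial3.Inertial`) for any semistable datum over `SideOne1.base A` whose sides are
`side1` / `side2`.

* `InertSide S σ` : `σ` stabilises the Gauss ring of the side `S` and commutes with its reduction;
* `inertial_of_inertSide` : `val_base` + `InertSide` on every side ⟹ `Inertial`;
* `inertSide_side1`, `inertSide_side2` : for `τ` in the inertia group of `A`,
  `σ := arithmeticGalois (modularFunctionFieldFull (M' * p)) τ` (from `GalSide6`);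
* `valuation_base` : the field `val_base` for `base A`;
* `inertial_of_two` : `Inertial 𝔻 σ` for `𝔻 : SemiRed (base A) HL (fun _ : Fin 2 => Ft) E` with
  `𝔻.side 0 = side1`, `𝔻.side 1 = side2`.
-/
import Mathlib
import Fermat.Agent.ORD.IFACEN.GalSide6
import Fermat.Agent.ORD.IFACEN.SideTwo1
import Fermat.Agent.ORD.ANN.Inertial3

set_option autoImplicit false
set_option linter.unusedSectionVars false
set_option linter.style.longLine false
set_option synthInstance.maxHeartbeats 400000

open HahnSeries ModularCurve AlgebraicCurve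

noncomputable section

namespace Fermat.Agent.ORD.IFACEN.InertSide6

open Fermat.Agent.X0.FF Fermat.Agent.RR.LSpace
open Fermat.Agent.RED.Interface4 Fermat.Agent.ES.RED.ChartIntegralA1 Fermat.Agent.ES.N34.FrickeFK8
  Fermat.Agent.ORD.ANN.Side3 Fermat.Agent.ORD.ANN.SemiRed3 Fermat.Agent.ORD.ANN.Inertial3
  Fermat.Agent.ORD.IFACEN.GaussBad1 Fermat.Agent.ORD.IFACEN.SideOne1
  Fermat.Agent.ORD.IFACEN.SideTwo1 Fermat.Agent.ORD.IFACEN.GalSide6

/-- fast instance (the canonical search costs seconds). -/
local instance (priority := 100000) algKF7 (A : ValuationSubring Qbar) (M : ℕ) [NeZero M] :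
    Algebra (kA A) ↥(modularFunctionFieldFullC (kA A) M) := inferInstance

/-! ### abstract -/

section Abstract

variable {L k F : Type*} [Field L] [Field k] [Field F] [Algebra L F]
variable {B : Base L k}

/-- `σ` stabilises the Gauss ring of the side and commutes with its reduction. -/
def InertSide {Ft : Type*} [Field Ft] [Algebra k Ft] (S : Side B F Ft) (σ : SemilinearAut L F) :
    Prop :=
  ∀ (y : F) (hy : y ∈ S.G), ∃ h : σ • y ∈ S.G, S.red ⟨σ • y, h⟩ = S.red ⟨y, hy⟩

theorem inertial_of_inertSide {HL : LHyp L F} {V : Type*} {Ft : V → Type*}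
    [∀ v, Field (Ft v)] [∀ v, Algebra k (Ft v)] {E : Type*} (𝔻 : SemiRed B HL Ft E)
    (σ : SemilinearAut L F)
    (hval : ∀ z : L, B.A.valuation (SemilinearAut.baseAut σ z) = B.A.valuation z)
    (h : ∀ v, InertSide (𝔻.side v) σ) : Inertial 𝔻 σ where
  val_base := hval
  map_G v y hy := (h v y hy).1
  red_smul v y hy := (h v y hy).2

end Abstract

/-! ### the two components of `X₀(M' p)` -/

section Model

variable (p M' : ℕ) [Fact p.Prime] [NeZero M'] (A : ValuationSubring Qbar)
  (hA : A.LiesOverPrime p) (hpM : ¬ p ∣ M') (h4 : 4 ∣ M')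
  {τ : Qbar ≃ₐ[ℚ] Qbar} (hτ : τ ∈ A.inertiaSubgroupIn ℚ)

include hτ in
theorem inertSide_side1 :
    InertSide (side1 p M' A hA hpM h4)
      (arithmeticGalois (modularFunctionFieldFull (M' * p)) τ) :=
  fun y hy => ⟨smul_mem_G1_of_mem_inertia p M' A hA hpM h4 hτ hy,
    red1_smul_of_mem_inertia p M' A hA hpM h4 hτ y hy⟩

theorem hG2 (y : ↥(Fbar (M' * p))) :
    y ∈ G2 p M' A hA hpM h4 ↔ frickeBar (M' * p) y ∈ G1 p M' A hA hpM h4 := by
  rw [← W_eq]; exact Iff.rfl

theorem hred2 (y : ↥(Fbar (M' * p))) (hy : y ∈ G2 p M' A hA hpM h4) :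
    red2 p M' A hA hpM h4 ⟨y, hy⟩ =
      red1 p M' A hA hpM h4 ⟨frickeBar (M' * p) y, (hG2 p M' A hA hpM h4 y).mp hy⟩ := by
  rw [red2_apply]
  congr 1
  apply Subtype.ext
  show W p M' y = frickeBar (M' * p) y
  rw [W_eq]

include hτ in
theorem inertSide_side2 :
    InertSide (side2 p M' A hA hpM h4)
      (arithmeticGalois (modularFunctionFieldFull (M' * p)) τ) :=
  fun y hy => ⟨smul_mem_G2_of_mem_inertia p M' A hA hpM h4 (hG2 p M' A hA hpM h4) hτ hy,
    red2_smul_of_mem_inertia p M' A hA hpM h4 (red2 p M' A hA hpM h4) (hG2 p M' A hA hpM h4)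
      (hred2 p M' A hA hpM h4) hτ y hy⟩

include hτ in
/-- the field `val_base` for `base A`. -/
theorem valuation_base (z : Qbar) :
    (base A).A.valuation
        (SemilinearAut.baseAut (arithmeticGalois (modularFunctionFieldFull (M' * p)) τ) z) =
      (base A).A.valuation z :=
  valuation_baseAut_of_mem_inertia A (M' * p) hτ z

include hτ in
/-- **`hinert`**: inertia elements are `Inertial` for a two-component datum with sides
`side1`, `side2`. -/
theorem inertial_of_two {HL : LHyp Qbar ↥(Fbar (M' * p))} {E : Type*}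
    (𝔻 : SemiRed (base A) HL (fun _ : Fin 2 => ↥(modularFunctionFieldFullC (kA A) M')) E)
    (h0 : 𝔻.side 0 = side1 p M' A hA hpM h4) (h1 : 𝔻.side 1 = side2 p M' A hA hpM h4) :
    Inertial 𝔻 (arithmeticGalois (modularFunctionFieldFull (M' * p)) τ) := by
  refine inertial_of_inertSide 𝔻 _ (valuation_base p M' A hτ) fun v => ?_
  fin_cases v
  · show InertSide (𝔻.side 0) _
    rw [h0]; exact inertSide_side1 p M' A hA hpM h4 hτ
  · show InertSide (𝔻.side 1) _
    rw [h1]; exact inertSide_side2 p M' A hA hpM h4 hτ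

end Model

end Fermat.Agent.ORD.IFACEN.InertSide6
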