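/-
Programme ORD (S33), chapter IFACE-N (helper6): **`hcentre`** — inertia does not move the centre map
of helper3's `PtsAssembly3.PtsData`.

* `reduced_of_family` : for a chart carrying helper8's `LevelFamily8.LevelFamily` (seen from ANY
  component) every closed point `χ` is `ClosedPtComp6.Reduced` w.r.t. `(redon, redoff)`:
  `redon b = 0 → redoff b = 0 → χ b = 0` (`desc` + `on_zero_iff` + `off_zero` + `sat`);
* `PtsData.c_smul` : `CentreGal6.centre_smul` in `PtsData` vocabulary;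
* `PtsData.c_smul_of_inertSide` : for `σ` with `val_base`, `hres`, `σ • t = t`, stable charts,
  `InertSide` on two sides `v₁ v₂` and `Reduced` at every closed point of both charts:
  `𝔓.c (σ • P) = 𝔓.c P`; **`PtsData.hcentre_of_inertSide`** : the same for
  `𝔓.toAssemblyData.𝔸.centre`;
* `mem_iff_of_mem_inertia`, `res_of_mem_inertia` : `hA`, `hres` for `SideOne1.base A` and
  `σ := arithmeticGalois _ τ`, `τ` in the inertia group of `A`.
-/
import Mathlib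
import Fermat.Agent.ORD.IFACEN.CentreGal6
import Fermat.Agent.ORD.IFACEN.ChartGal6
import Fermat.Agent.ORD.IFACEN.ClosedPtComp6
import Fermat.Agent.ORD.IFACEN.InertSide6
import Fermat.Agent.ORD.IFACEN.LevelFamily8
import Fermat.Agent.ORD.IFACEN.PtsAssembly3
import Fermat.Agent.ORD.IFACEN.ChartOne1
import Fermat.Agent.ORD.IFACEN.CoordOne9

set_option autoImplicit false
set_option linter.unusedSectionVars false
set_option linter.style.longLine false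
set_option synthInstance.maxHeartbeats 400000

open AlgebraicCurve

noncomputable section

namespace Fermat.Agent.ORD.IFACEN.CentreInert6

open Fermat.Agent.X0.FF Fermat.Agent.RR.LSpace
open Fermat.Agent.ORD.ANN.Side3
open Fermat.Agent.ORD.IFACEN.LocAt8 Fermat.Agent.ORD.IFACEN.Centre8
  Fermat.Agent.ORD.IFACEN.CentreGal6 Fermat.Agent.ORD.IFACEN.ClosedPtComp6
  Fermat.Agent.ORD.IFACEN.InertSide6 Fermat.Agent.ORD.IFACEN.LevelFamily8
  Fermat.Agent.ORD.IFACEN.PtsAssembly3 Fermat.Agent.ORD.IFACEN.AtlasPts6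

/-! ### reducedness from a level family -/

section Family

variable {L F k Ft : Type*} [Field L] [Field F] [Algebra L F] [Field k] [Field Ft] [Algebra k Ft]
variable {A : ValuationSubring L} [Algebra A F] [IsScalarTower A L F]
variable {res : A →+* k} {BA : Subalgebra A F} {s : BA}
  {Gon : Subring F} {redon : Gon →+* Ft} {Goff : Subring F} {redoff : Goff →+* Ft}
variable {I : Type*} {RK FK : I → Type*} [∀ i, CommRing (RK i)] [∀ i, Field (FK i)]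
  [∀ i, Algebra (RK i) (FK i)] {BK : ∀ i, Subalgebra (RK i) (FK i)} {πK : ∀ i, RK i}
  {j : ∀ i, FK i →+* F} {Oon Ooff : ∀ i, ValuationSubring (FK i)}

/-- **every closed point of a chart with a level family sees a reduced special fibre.** -/
theorem reduced_of_family (H : LevelFamily res BA s Gon redon Goff redoff RK FK BK πK j Oon Ooff)
    (χ : BA →+* k) (hχ : ∀ a : A, χ (algebraMap A BA a) = res a) :
    Reduced BA χ redon redoff H.le_Gon H.le_Goff := by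
  intro b h1 h2
  obtain ⟨i, -, hS⟩ := H.desc 0 [b]
  obtain ⟨bK, hbK⟩ := hS b (by simp)
  obtain ⟨ϖ, hϖ0, hϖ, eϖ⟩ := H.pi_const i
  have hπ0 : algebraMap (RK i) (FK i) (πK i) ≠ 0 := by
    intro h0
    rw [h0, map_zero] at eϖ
    have : (ϖ : L) = 0 := (map_eq_zero (algebraMap L F)).mp eϖ.symm
    exact hϖ0 (Subtype.ext this)
  have h1' : redon ⟨j i (bK : FK i), (H.on_iff i _).2 (H.le_on i _ bK.2)⟩ = 0 := by
    rw [← h1]; congr 1; exact Subtype.ext hbK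
  have h2' : redoff ⟨j i (bK : FK i), H.le_Goff _ (H.j_mem i _ bK.2)⟩ = 0 := by
    rw [← h2]; congr 1; exact Subtype.ext hbK
  obtain ⟨c₁, hc₁, e₁⟩ := (H.on_zero_iff i _ (H.le_on i _ bK.2)).mp h1'
  obtain ⟨c₂, hc₂, e₂⟩ := H.off_zero i bK h2'
  have hcc : c₁ = c₂ := mul_left_cancel₀ hπ0 (e₁.symm.trans e₂)
  have hcB : c₁ ∈ BK i := H.sat i _ bK.2 c₁ hc₁ (hcc ▸ hc₂) e₁
  have e : b = algebraMap A BA ϖ * ⟨j i c₁, H.j_mem i _ hcB⟩ := by
    apply Subtype.ext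
    show (b : F) = ((algebraMap A BA ϖ : BA) : F) * j i c₁
    have : ((algebraMap A BA ϖ : BA) : F) = algebraMap L F (ϖ : L) := by
      rw [← algebraMap_A_eq]; rfl
    rw [this, ← eϖ, ← map_mul, ← e₁, hbK]
  rw [e, map_mul, hχ, hϖ, zero_mul]

end Family

/-! ### the centre map of `PtsData` -/

section Pts

universe uL uk uF uFt uι uE uP

variable {L : Type uL} {k : Type uk} [Field L] [Field k]
variable {B : Base L k} {F : Type uF} {Ft : Type uFt} [Field F] [Algebra L F]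
  [Field Ft] [Algebra k Ft] [Algebra B.A F] [IsScalarTower B.A L F] {ι : Type uι} {E : Type uE}
  (𝔓 : PtsData.{uL, uk, uF, uFt, uι, uE, uP} B F Ft ι E)

/-- `CentreGal6.centre_smul` for the centre map of `PtsData`. -/
theorem c_smul (σ : SemilinearAut L F)
    (hA : ∀ z : L, z ∈ B.A ↔ SemilinearAut.baseAut σ z ∈ B.A)
    (hres : ∀ (a : B.A) (ha : SemilinearAut.baseAut σ (a : L) ∈ B.A),
      B.res ⟨SemilinearAut.baseAut σ (a : L), ha⟩ = B.res a)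
    (hσt : σ • 𝔓.t = 𝔓.t)
    (hB0 : ∀ b : F, b ∈ 𝔓.B0 ↔ σ • b ∈ 𝔓.B0) (hB1 : ∀ b : F, b ∈ 𝔓.B1 ↔ σ • b ∈ 𝔓.B1)
    (hχ0 : ∀ χ : 𝔓.B0 →+* k, (∀ a : B.A, χ (algebraMap B.A 𝔓.B0 a) = B.res a) →
      ∀ (b : 𝔓.B0) (hb' : σ • (b : F) ∈ 𝔓.B0), χ ⟨σ • (b : F), hb'⟩ = χ b)
    (hχ1 : ∀ χ : 𝔓.B1 →+* k, (∀ a : B.A, χ (algebraMap B.A 𝔓.B1 a) = B.res a) →
      ∀ (b : 𝔓.B1) (hb' : σ • (b : F) ∈ 𝔓.B1), χ ⟨σ • (b : F), hb'⟩ = χ b)
    (P : Place L F) : 𝔓.c (σ • P) = 𝔓.c P :=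
  centre_smul 𝔓.HL 𝔓.ht1 𝔓.h0 𝔓.h1 B.res_eq_zero_iff σ hA hres hσt hB0 hB1 hχ0 hχ1 P

/-- **inertia does not move the centre**: from `InertSide` on two sides and reducedness of the
special fibre of both charts at every closed point. -/
theorem c_smul_of_inertSide (σ : SemilinearAut L F)
    (hval : ∀ z : L, B.A.valuation (SemilinearAut.baseAut σ z) = B.A.valuation z)
    (hres : ∀ (a : B.A) (ha : SemilinearAut.baseAut σ (a : L) ∈ B.A),
      B.res ⟨SemilinearAut.baseAut σ (a : L), ha⟩ = B.res a)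
    (hσt : σ • 𝔓.t = 𝔓.t)
    (hB0 : ∀ b : F, b ∈ 𝔓.B0 ↔ σ • b ∈ 𝔓.B0) (hB1 : ∀ b : F, b ∈ 𝔓.B1 ↔ σ • b ∈ 𝔓.B1)
    (v₁ v₂ : ι) (h₁ : InertSide (𝔓.side v₁) σ) (h₂ : InertSide (𝔓.side v₂) σ)
    (hred0 : ∀ χ : 𝔓.B0 →+* k, (∀ a : B.A, χ (algebraMap B.A 𝔓.B0 a) = B.res a) →
      Reduced 𝔓.B0 χ (𝔓.side v₁).red (𝔓.side v₂).red (𝔓.le0 v₁) (𝔓.le0 v₂))
    (hred1 : ∀ χ : 𝔓.B1 →+* k, (∀ a : B.A, χ (algebraMap B.A 𝔓.B1 a) = B.res a) →
      Reduced 𝔓.B1 χ (𝔓.side v₁).red (𝔓.side v₂).red (𝔓.le1 v₁) (𝔓.le1 v₂))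
    (P : Place L F) : 𝔓.c (σ • P) = 𝔓.c P := by
  refine c_smul 𝔓 σ (mem_iff_of_valuation σ hval) hres hσt hB0 hB1 ?_ ?_ P
  · intro χ hχ b hb'
    exact fix_of_reduced σ (hred0 χ hχ)
      (fun b hb' => by
        obtain ⟨h, e⟩ := h₁ (b : F) (𝔓.le0 v₁ _ b.2)
        exact e)
      (fun b hb' => by
        obtain ⟨h, e⟩ := h₂ (b : F) (𝔓.le0 v₂ _ b.2)
        exact e) b hb'
  · intro χ hχ b hb'
    exact fix_of_reduced σ (hred1 χ hχ)
      (fun b hb' => by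
        obtain ⟨h, e⟩ := h₁ (b : F) (𝔓.le1 v₁ _ b.2)
        exact e)
      (fun b hb' => by
        obtain ⟨h, e⟩ := h₂ (b : F) (𝔓.le1 v₂ _ b.2)
        exact e) b hb'

/-- **`hcentre`** for the assembled datum. -/
theorem hcentre_of_inertSide (σ : SemilinearAut L F)
    (hval : ∀ z : L, B.A.valuation (SemilinearAut.baseAut σ z) = B.A.valuation z)
    (hres : ∀ (a : B.A) (ha : SemilinearAut.baseAut σ (a : L) ∈ B.A),
      B.res ⟨SemilinearAut.baseAut σ (a : L), ha⟩ = B.res a)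
    (hσt : σ • 𝔓.t = 𝔓.t)
    (hB0 : ∀ b : F, b ∈ 𝔓.B0 ↔ σ • b ∈ 𝔓.B0) (hB1 : ∀ b : F, b ∈ 𝔓.B1 ↔ σ • b ∈ 𝔓.B1)
    (v₁ v₂ : ι) (h₁ : InertSide (𝔓.side v₁) σ) (h₂ : InertSide (𝔓.side v₂) σ)
    (hred0 : ∀ χ : 𝔓.B0 →+* k, (∀ a : B.A, χ (algebraMap B.A 𝔓.B0 a) = B.res a) →
      Reduced 𝔓.B0 χ (𝔓.side v₁).red (𝔓.side v₂).red (𝔓.le0 v₁) (𝔓.le0 v₂))
    (hred1 : ∀ χ : 𝔓.B1 →+* k, (∀ a : B.A, χ (algebraMap B.A 𝔓.B1 a) = B.res a) →
      Reduced 𝔓.B1 χ (𝔓.side v₁).red (𝔓.side v₂).red (𝔓.le1 v₁) (𝔓.le1 v₂))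
    (P : Place L F) :
    𝔓.toAssemblyData.𝔸.centre (σ • P) = 𝔓.toAssemblyData.𝔸.centre P :=
  𝔓.centre_smul_of σ
    (c_smul_of_inertSide 𝔓 σ hval hres hσt hB0 hB1 v₁ v₂ h₁ h₂ hred0 hred1) P

end Pts

/-! ### the concrete inertia hypotheses over `SideOne1.base A` -/

section Model

open ModularCurve Fermat.Agent.RED.Interface4 Fermat.Agent.ES.RED.ChartIntegralA1
  Fermat.Agent.ES.RED.GaloisRed21 Fermat.Agent.FF.IFACE.GalInst1
  Fermat.Agent.ORD.IFACEN.SideOne1 Fermat.Agent.ORD.IFACEN.GalSide6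
  Fermat.Agent.ORD.IFACEN.ChartOne1 Fermat.Agent.ORD.IFACEN.CoordOne9
  Fermat.Agent.ORD.IFACEN.ChartGal6

variable (A : ValuationSubring Qbar) {τ : Qbar ≃ₐ[ℚ] Qbar} (hτ : τ ∈ A.inertiaSubgroupIn ℚ)

include hτ in
/-- `hA` : inertia stabilises `A`. -/
theorem mem_iff_of_mem_inertia (N : ℕ) [NeZero N] (z : Qbar) :
    z ∈ A ↔ SemilinearAut.baseAut (arithmeticGalois (modularFunctionFieldFull N) τ) z ∈ A :=
  mem_iff_of_valuation _ (valuation_baseAut_of_mem_inertia A N hτ) z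

include hτ in
/-- `hres` : inertia acts trivially on the residue field. -/
theorem res_of_mem_inertia (N : ℕ) [NeZero N] (a : (base A).A)
    (ha : SemilinearAut.baseAut (arithmeticGalois (modularFunctionFieldFull N) τ) (a : Qbar) ∈
      (base A).A) :
    (base A).res ⟨SemilinearAut.baseAut (arithmeticGalois (modularFunctionFieldFull N) τ)
      (a : Qbar), ha⟩ = (base A).res a := by
  obtain ⟨h, h1⟩ := psiRes_eq_one_of_mem_inertia A hτ
  have h2 := psiRes_residue A ⟨τ, h⟩ a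
  rw [h1] at h2
  have h3 : (⟨SemilinearAut.baseAut (arithmeticGalois (modularFunctionFieldFull N) τ)
      (a : Qbar), ha⟩ : A) = sigmaA A ⟨τ, h⟩ a := Subtype.ext rfl
  have h5 : IsLocalRing.residue ↥A (sigmaA A ⟨τ, h⟩ a) = IsLocalRing.residue ↥A a := h2.symm
  exact (congrArg (IsLocalRing.residue ↥A) h3).trans h5

variable (p M' : ℕ) [Fact p.Prime] [NeZero M'] (h4 : 4 ∣ M')

include hτ in
/-- inertia stabilises the chart `t ≠ ∞` … -/
theorem smul_mem_chart0_iff (b : ↥(Fbar (M' * p))) :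
    b ∈ chart0 p M' A h4 ↔
      arithmeticGalois (modularFunctionFieldFull (M' * p)) τ • b ∈ chart0 p M' A h4 :=
  smul_mem_chart_iff _ (mem_iff_of_mem_inertia A hτ (M' * p)) (smul_tBad p M' h4 τ) b

include hτ in
/-- … and the chart `t ≠ 0`. -/
theorem smul_mem_chart1_iff (b : ↥(Fbar (M' * p))) :
    b ∈ chart1 p M' A h4 ↔
      arithmeticGalois (modularFunctionFieldFull (M' * p)) τ • b ∈ chart1 p M' A h4 :=
  smul_mem_chart_inv_iff _ (mem_iff_of_mem_inertia A hτ (M' * p)) (smul_tBad p M' h4 τ) b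

end Model

end Fermat.Agent.ORD.IFACEN.CentreInert6
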