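/-
PROGRAMME ORD (S33), chapter IFACE-N (O6, helper9): **the inertia-fixed separating coordinate on the
component through the cusp `0`** of the special fibre of `X₀(M' p)`: the Fricke transform `W (t)` of
the coordinate `t` of the component through `∞` (`CoordOne9`).

Stated for ANY description `(G2, red2)` of the second component as the Fricke transport of the first:
`y ∈ G2 ↔ W y ∈ G1` and `red2 y = red1 (W y)` (both `Iff.rfl` / `rfl` for `G2 := G1.comap W`,
`red2 := red1 ∘ W`).  Then `t2 := W t ∈ G2`, `red2 t2 = red1 t = t̃` (Hauptmodul of the good level: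
transcendental generator, separating), and `t2` is Galois-fixed (`FrickeGal9.frickeBar_smul`).
-/
import Mathlib
import Fermat.Agent.ORD.IFACEN.CoordOne9
import Fermat.Agent.ORD.IFACEN.FrickeGal9

set_option autoImplicit false
set_option linter.unusedSectionVars false
set_option linter.style.longLine false
set_option synthInstance.maxHeartbeats 400000

open HahnSeries ModularCurve Polynomial IntermediateField

noncomputable section

namespace Fermat.Agent.ORD.IFACEN.CoordTwo9

open Fermat.Agent.X0 Fermat.Agent.X0.FF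
open Fermat.Agent.RED.Interface4 Fermat.Agent.RED.BASE Fermat.Agent.RED.BASE.Hauptmodul12
  Fermat.Agent.RED.BASE.EtaQuot12 Fermat.Agent.ES.RED.ChartIntegralA1
  Fermat.Agent.ES.RED.SpecialGen25 Fermat.Agent.ES.RED.SpecialInv25 Fermat.Agent.ES.N34.FrickeFK8
  Fermat.Agent.ORD.IFACEN.GaussBad1 Fermat.Agent.ORD.IFACEN.SideOne1
  Fermat.Agent.ORD.IFACEN.CoordOne9 Fermat.Agent.ORD.IFACEN.FrickeGal9

/-- fast instance (the canonical search costs seconds). -/
local instance (priority := 100000) algKF'' (A : ValuationSubring Qbar) (M : ℕ) [NeZero M] :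
    Algebra (kA A) ↥(modularFunctionFieldFullC (kA A) M) := inferInstance

variable (p M' : ℕ) [Fact p.Prime] [NeZero M'] (A : ValuationSubring Qbar)
  (hA : A.LiesOverPrime p) (hpM : ¬ p ∣ M') (h4 : 4 ∣ M')

/-- the Fricke transform of the Hauptmodul. -/
def tBad2 : ↥(Fbar (M' * p)) := frickeBar (M' * p) (tBad p M' h4)

theorem frickeBar_tBad2 : frickeBar (M' * p) (tBad2 p M' h4) = tBad p M' h4 :=
  frickeBar_frickeBar (M' * p) _

/-- **the coordinate of the second component is Galois-fixed.** -/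
theorem smul_tBad2 (τ : Qbar ≃ₐ[ℚ] Qbar) :
    arithmeticGalois (modularFunctionFieldFull (M' * p)) τ • tBad2 p M' h4 = tBad2 p M' h4 :=
  smul_frickeBar_of_fixed (M' * p) τ (smul_tBad p M' h4 τ)

section Transport

variable {G2 : Subring ↥(Fbar (M' * p))} (red2 : ↥G2 →+* ↥(modularFunctionFieldFullC (kA A) M'))
  (hG2 : ∀ y : ↥(Fbar (M' * p)), y ∈ G2 ↔ frickeBar (M' * p) y ∈ G1 p M' A hA hpM h4)
  (hred2 : ∀ (y : ↥(Fbar (M' * p))) (hy : y ∈ G2),
    red2 ⟨y, hy⟩ = red1 p M' A hA hpM h4 ⟨frickeBar (M' * p) y, (hG2 y).mp hy⟩)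

include hG2 in
theorem tBad2_mem : tBad2 p M' h4 ∈ G2 := by
  rw [hG2, frickeBar_tBad2]
  exact (t1 p M' A hA hpM h4).2

/-- **the coordinate on the component through the cusp `0`.** -/
def t2 : ↥G2 := ⟨tBad2 p M' h4, tBad2_mem p M' A hA hpM h4 hG2⟩

include hred2 in
/-- **its reduction is the Hauptmodul of the good level.** -/
theorem red2_t2 : red2 (t2 p M' A hA hpM h4 hG2) =
    tRes 4 8 M' p hpM (tMem_good M' h4) (tGenBase' baseHyp_four) A hA := by
  rw [← red1_t1 p M' A hA hpM h4]
  have h := hred2 (tBad2 p M' h4) (tBad2_mem p M' A hA hpM h4 hG2)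
  have h' : red2 (t2 p M' A hA hpM h4 hG2) =
      red1 p M' A hA hpM h4 ⟨frickeBar (M' * p) (tBad2 p M' h4),
        (hG2 _).mp (tBad2_mem p M' A hA hpM h4 hG2)⟩ := h
  rw [h']
  congr 1
  exact Subtype.ext (frickeBar_tBad2 p M' h4)

include hred2 in
theorem isGen_red2_t2 : FF.IsGen (kA A) (red2 (t2 p M' A hA hpM h4 hG2)) := by
  rw [red2_t2 p M' A hA hpM h4 red2 hG2 hred2]
  exact isGen_tRes 4 8 M' p hpM (tMem_good M' h4) (tGenBase' baseHyp_four) A hA

include hred2 in
theorem isSeparable_red2_t2 :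
    Algebra.IsSeparable ↥((kA A)⟮red2 (t2 p M' A hA hpM h4 hG2)⟯ :
        IntermediateField (kA A) ↥(modularFunctionFieldFullC (kA A) M'))
      ↥(modularFunctionFieldFullC (kA A) M') := by
  rw [red2_t2 p M' A hA hpM h4 red2 hG2 hred2]
  exact isSeparable_tRes 4 8 M' p hpM (tMem_good M' h4) (tGenBase' baseHyp_four) A hA

end Transport

end Fermat.Agent.ORD.IFACEN.CoordTwo9
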