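/-
Programme ORD (S33), chapter IFACEN (helper7): **the residue field `κ = k_A` of a valuation subring `A`
of `ℚ̄` (or of any algebraically closed field) over `p`**: the instance hypotheses
`[CharP κ p] [PerfectRing κ p] [Infinite κ]` (and `IsAlgClosed κ`) of
`ORD/FINAL/FinalOrd2.torsOrd_of_datum`, `ORD/ANN/InertialPic3`, `ORD/NSN/*`.
All are consequences of `IsAlgClosed κ` (`ES/KRON/KronInst10.isAlgClosed_residueField`) and `p ∈ 𝔪_A`.
-/
import Mathlib
import Fermat.Agent.ES.KRON.KronInst10

set_option autoImplicit false

namespace Fermat.Agent.ORD.IFACEN.ResidueFacts7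

variable {L : Type*} [Field L] (A : ValuationSubring L)

/-- the residue field of `A` over `p` has characteristic `p`. -/
theorem charP_residueField {p : ℕ} (hp : p.Prime) (hA : A.LiesOverPrime p) :
    CharP (IsLocalRing.ResidueField A) p := by
  rw [CharP.charP_iff_prime_eq_zero hp]
  obtain ⟨hmem, hmax⟩ := ValuationSubring.mem_nonunits_iff_exists_mem_maximalIdeal.mp hA
  have h1 : (⟨(p : L), hmem⟩ : A) = ((p : ℕ) : A) := Subtype.ext (by simp)
  rw [h1, ← IsLocalRing.residue_eq_zero_iff, map_natCast] at hmax
  exact hmax

variable [IsAlgClosed L]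

/-- the residue field of a valuation subring of an algebraically closed field is algebraically
closed. -/
theorem isAlgClosed_residueField : IsAlgClosed (IsLocalRing.ResidueField A) :=
  Fermat.Agent.ES.KRON.KronInst10.isAlgClosed_residueField A

/-- … hence infinite. -/
theorem infinite_residueField : Infinite (IsLocalRing.ResidueField A) := by
  haveI := isAlgClosed_residueField A
  infer_instance

/-- … and perfect. -/
theorem perfectRing_residueField {p : ℕ} (hp : p.Prime) (hA : A.LiesOverPrime p) :
    haveI := charP_residueField A hp hA
    PerfectRing (IsLocalRing.ResidueField A) p := by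
  haveI := charP_residueField A hp hA
  haveI := isAlgClosed_residueField A
  haveI : Fact p.Prime := ⟨hp⟩
  haveI : ExpChar (IsLocalRing.ResidueField A) p := ExpChar.prime hp
  exact PerfectField.toPerfectRing p

end Fermat.Agent.ORD.IFACEN.ResidueFacts7
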