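/-
PROGRAMME ORD (S33), chapter IFACE-N (O6, helper9): **`hmain` of `FINAL/FinalOrd3` from the concrete
pieces of O6** for `X₀(M' p)` along `A = padicPlace p`.

`torsOrd_of_pieces` : `p` odd, `4 ∣ M'`, `p ∤ M'`.  Given
* a description `side2` of the component through the cusp `0` as the Fricke transport of helper1's
  `SideOne1.side1` (`hG2`, `hred2`: `Iff.rfl` / `rfl` for `G2 := G1.comap W`, `red2 := red1 ∘ W`);
* an `AssembleN9.AssemblyData` over `SideOne1.base (padicPlace p)` with components indexed by `Fin 2`,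
  `side 0 = side1`, `side 1 = side2`;
* `IsGen`, (LIFT), (CONN), `Inertial` and centre-equivariance for inertia,
we get `TorsOrd (M' * p) p k (Iv p)`.  The separating inertia-fixed coordinates are `CoordOne9.tBad`
and `CoordTwo9.tBad2`; everything else is `AssembleMainN9.torsOrd_of_assembly'`.
-/
import Mathlib
import Fermat.Agent.ORD.IFACEN.AssembleMainN9
import Fermat.Agent.ORD.IFACEN.CoordTwo9
import Fermat.Agent.ORD.IFACEN.ResidueFacts7

set_option autoImplicit false
set_option linter.unusedSectionVars false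
set_option linter.style.longLine false
set_option synthInstance.maxHeartbeats 400000

open AlgebraicCurve ModularCurve IntermediateField Fermat.Agent.X0.FF Fermat.Agent.RR.LSpace
open Fermat.Agent.ORD.ANN.Side3 Fermat.Agent.ORD.ANN.Inertial3
open Fermat.Agent.ORD.SEMIRED.SemiRedDatum9 Fermat.Agent.ORD.SEMIRED.ToSemiRed9
open Fermat.Agent.ORD.NSN.NSInputN9 Fermat.Agent.ORD.NSN.NSExistsN9
open Fermat.Agent.ORD.IFACEN.SmoothAtlas8 Fermat.Agent.ORD.IFACEN.AssembleN9
open Fermat.Agent.ORD.FINAL.LevelOrd0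
open Fermat.Agent.FF.BASE.Place2 Fermat.Agent.FF.FINAL.Final0 GaloisRep
open Fermat.Agent.TW.FLAT.FlatModule6
open Fermat.Agent.RED.Interface4 Fermat.Agent.ES.RED.ChartIntegralA1
open Fermat.Agent.ORD.IFACEN.GaussBad1 Fermat.Agent.ORD.IFACEN.SideOne1
open Fermat.Agent.ORD.IFACEN.CoordOne9 Fermat.Agent.ORD.IFACEN.CoordTwo9
open Fermat.Agent.ES.N34.FrickeFK8

noncomputable section

namespace Fermat.Agent.ORD.IFACEN.GlueMainN9

local instance (priority := 100000) algKF4 (A : ValuationSubring Qbar) (M : ℕ) [NeZero M] :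
    Algebra (kA A) ↥(modularFunctionFieldFullC (kA A) M) := inferInstance

theorem red_congr {L k F Ft : Type*} [Field L] [Field k] [Field F] [Algebra L F] [Field Ft]
    [Algebra k Ft] {B : Base L k} {S S' : Side B F Ft} (h : S = S') (y : F) (hy : y ∈ S.G) :
    S.red ⟨y, hy⟩ = S'.red ⟨y, h ▸ hy⟩ := by
  subst h; rfl

theorem isSeparable_congr {k Ft : Type*} [Field k] [Field Ft] [Algebra k Ft] {a b : Ft} (h : a = b)
    (hs : Algebra.IsSeparable ↥(k⟮b⟯ : IntermediateField k Ft) Ft) :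
    Algebra.IsSeparable ↥(k⟮a⟯ : IntermediateField k Ft) Ft := by
  subst h; exact hs

variable (p M' : ℕ) [Fact p.Prime] [NeZero M'] (hpM : ¬ p ∣ M') (h4 : 4 ∣ M')

/-- **`hmain` from the concrete pieces.** -/
theorem torsOrd_of_pieces (hp2 : p ≠ 2) (k : ℕ) {E : Type} [Finite E]
    (side2 : Side (base (padicPlace p)) ↥(Fbar (M' * p)) ↥(modularFunctionFieldFullC (kA (padicPlace p)) M'))
    (hG2 : ∀ y : ↥(Fbar (M' * p)), y ∈ side2.G ↔ frickeBar (M' * p) y ∈ G1 p M' (padicPlace p) (liesOverPrime p) hpM h4)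
    (hred2 : ∀ (y : ↥(Fbar (M' * p))) (hy : y ∈ side2.G),
      side2.red ⟨y, hy⟩ = red1 p M' (padicPlace p) (liesOverPrime p) hpM h4 ⟨frickeBar (M' * p) y, (hG2 y).mp hy⟩)
    (𝔇 : AssemblyData (base (padicPlace p)) ↥(Fbar (M' * p))
      ↥(modularFunctionFieldFullC (kA (padicPlace p)) M') (Fin 2) E)
    (hs0 : 𝔇.𝔸.side 0 = side1 p M' (padicPlace p) (liesOverPrime p) hpM h4)
    (hs1 : 𝔇.𝔸.side 1 = side2)
    {x : ↥(Fbar (M' * p))} (hx : IsGen Qbar x)
    (hlift : LiftsMatched 𝔇.toSemiRedDatum) (hconn : GraphConn 𝔇.toSemiRedDatum)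
    (hinert : ∀ γ ∈ Iv p, Inertial (toSemiRed 𝔇.toSemiRedDatum)
      (arithmeticGalois (modularFunctionFieldFull (M' * p)) γ))
    (hcentre : ∀ γ ∈ Iv p, ∀ P : Place Qbar ↥(Fbar (M' * p)),
      𝔇.𝔸.centre (arithmeticGalois (modularFunctionFieldFull (M' * p)) γ • P) = 𝔇.𝔸.centre P) :
    TorsOrd (M' * p) p k (Iv p) := by
  have hp : p.Prime := Fact.out
  haveI : IsAlgClosed (kA (padicPlace p)) :=
    Fermat.Agent.ORD.IFACEN.ResidueFacts7.isAlgClosed_residueField (padicPlace p)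
  haveI : CharP (kA (padicPlace p)) p :=
    Fermat.Agent.ORD.IFACEN.ResidueFacts7.charP_residueField (padicPlace p) hp (liesOverPrime p)
  have hG0 : tBad p M' h4 ∈ (𝔇.𝔸.side 0).G := by
    rw [hs0]; exact (t1 p M' (padicPlace p) (liesOverPrime p) hpM h4).2
  have hG1 : tBad2 p M' h4 ∈ (𝔇.𝔸.side 1).G := by
    rw [hs1]; exact tBad2_mem p M' (padicPlace p) (liesOverPrime p) hpM h4 hG2
  have hr0 : (𝔇.𝔸.side 0).red ⟨tBad p M' h4, hG0⟩ =
      red1 p M' (padicPlace p) (liesOverPrime p) hpM h4 (t1 p M' (padicPlace p) (liesOverPrime p) hpM h4) :=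
    red_congr hs0 _ hG0
  have hr1 : (𝔇.𝔸.side 1).red ⟨tBad2 p M' h4, hG1⟩ =
      side2.red (t2 p M' (padicPlace p) (liesOverPrime p) hpM h4 hG2) :=
    red_congr hs1 _ hG1
  refine Fermat.Agent.ORD.IFACEN.AssembleMainN9.torsOrd_of_assembly' (N := M' * p) hp2
    (B := base (padicPlace p)) rfl 𝔇 hx hlift hconn hinert hcentre
    ![tBad p M' h4, tBad2 p M' h4] (fun v => by fin_cases v; exact hG0; exact hG1) ?_ ?_ ?_
  · intro v
    fin_cases v
    · show IsGen _ ((𝔇.𝔸.side 0).red ⟨tBad p M' h4, hG0⟩)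
      rw [hr0]
      exact isGen_red1_t1 p M' (padicPlace p) (liesOverPrime p) hpM h4
    · show IsGen _ ((𝔇.𝔸.side 1).red ⟨tBad2 p M' h4, hG1⟩)
      rw [hr1]
      exact isGen_red2_t2 p M' (padicPlace p) (liesOverPrime p) hpM h4 side2.red hG2 hred2
  · intro v
    fin_cases v
    · exact isSeparable_congr hr0
        (isSeparable_red1_t1 p M' (padicPlace p) (liesOverPrime p) hpM h4)
    · exact isSeparable_congr hr1
        (isSeparable_red2_t2 p M' (padicPlace p) (liesOverPrime p) hpM h4 side2.red hG2 hred2)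
  · intro v γ _
    fin_cases v
    · exact smul_tBad p M' h4 γ
    · exact smul_tBad2 p M' h4 γ

end Fermat.Agent.ORD.IFACEN.GlueMainN9
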