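/-
Programme ORD (S33), chapter IFACEN (helper7): **(CONN) — a node exists**, abstractly.

For a semistable datum `𝔻` of a curve `F / L` satisfying Riemann's inequality (every divisor of
degree `≥ g` has a nonzero section), a component `v₂` which does not carry all the places must carry
a branch point of some node: otherwise every point of `v₂` is smooth, and a function `f` with poles
only at a place `P₁` off the tube of `v₂` and a zero at a place `P₂` of the tube reduces on `v₂`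
(after Gauss normalisation) to a function without poles and with a zero — impossible.
No Zariski connectedness is needed.

* `exists_branch` : the statement above;
* `nonempty_edges` : two distinct components ⇒ `E` is nonempty;
* `graphConn_of_two` : `NSInputN9.GraphConn 𝔻` for a datum with two components all of whose nodes
  join the first to the second.
-/
import Mathlib
import Fermat.Agent.ORD.SEMIRED.SemiRedDatum9
import Fermat.Agent.ORD.NSN.NSInputN9

set_option autoImplicit false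
set_option linter.unusedSectionVars false
set_option linter.style.longLine false

namespace Fermat.Agent.ORD.IFACEN.GraphConn7

open AlgebraicCurve Fermat.Agent.X0.FF Fermat.Agent.RR.LSpace Fermat.Agent.MW.EMB.Value6
open Fermat.Agent.ORD.SEMIRED.SemiRedDatum9 Fermat.Agent.ORD.NSN.NSInputN9

noncomputable section

variable {L F k Ft : Type*} [Field L] [Field F] [Algebra L F] [Field k] [Field Ft] [Algebra k Ft]
variable {ι E : Type*} (𝔻 : SemiRedDatum L F k Ft ι E)

/-- **A component which does not carry all the places carries a branch point.** -/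
theorem exists_branch (v₂ : ι) (P₁ : Place L F) (hP₁ : ∀ Q, 𝔻.r P₁ ≠ Sum.inl (v₂, Q))
    (hRiem : ∃ g : ℕ, ∀ D : Divisor L F, (g : ℤ) ≤ Divisor.degree D →
      ∃ f : F, f ≠ 0 ∧ ∀ P, -(D P) ≤ P.ord f) :
    ∃ e, 𝔻.src e = v₂ ∨ 𝔻.tgt e = v₂ := by
  classical
  by_contra hno
  push Not at hno
  -- every point of `v₂` is smooth
  have hsm : ∀ Q : Place k Ft, ∃ P, 𝔻.r P = Sum.inl (v₂, Q) := fun Q =>
    𝔻.r_surj v₂ Q (fun e h => (hno e).1 h.1) (fun e h => (hno e).2 h.1)
  obtain ⟨Q₂⟩ := 𝔻.Hk.nonempty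
  obtain ⟨P₂, hP₂⟩ := hsm Q₂
  have hne : P₂ ≠ P₁ := by
    rintro rfl
    exact hP₁ Q₂ hP₂
  -- the function
  obtain ⟨g, hg⟩ := hRiem
  set D₀ : Divisor L F := ((g : ℤ) + 1) • Finsupp.single P₁ (1 : ℤ) - Finsupp.single P₂ (1 : ℤ)
    with hD₀
  have hdeg : (g : ℤ) ≤ Divisor.degree D₀ := by
    rw [hD₀, map_sub, map_zsmul, degree_single 𝔻.HL, degree_single 𝔻.HL]
    simp
  obtain ⟨f, hf, hfD⟩ := hg D₀ hdeg
  have hord : ∀ P, P ≠ P₁ → (if P = P₂ then (1 : ℤ) else 0) ≤ P.ord f := by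
    intro P hP
    have h := hfD P
    rw [hD₀, Finsupp.sub_apply, Finsupp.smul_apply, Finsupp.single_apply, Finsupp.single_apply,
      if_neg (Ne.symm hP)] at h
    by_cases h2 : P = P₂
    · rw [if_pos h2]
      rw [if_pos h2.symm] at h
      simp at h
      omega
    · rw [if_neg h2]
      rw [if_neg (Ne.symm h2)] at h
      simp at h
      omega
  -- Gauss normalisation on `v₂`
  obtain ⟨c, hc0, gG, hgG, hred⟩ := (𝔻.side v₂).norm f hf
  have hordg : ∀ P : Place L F, P.ord (gG : F) = P.ord f := by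
    intro P
    rw [hgG, P.ord_mul ((map_ne_zero _).mpr hc0) hf, ffp_ord_algebraMap, zero_add]
  have hpf : ∀ Q, (𝔻.comp v₂).PoleFree (gG : F) Q := by
    intro Q P hP
    have hP' : 𝔻.r P = Sum.inl (v₂, Q) := (𝔻.comp_r_eq_some_iff).mp hP
    have hPne : P ≠ P₁ := by
      rintro rfl
      exact hP₁ Q hP'
    rw [hordg]
    refine le_trans ?_ (hord P hPne)
    split_ifs <;> norm_num
  have hred' : (𝔻.comp v₂).red gG ≠ 0 := hred
  have h1 : ∀ Q : Place k Ft, 0 ≤ Q.ord ((𝔻.comp v₂).red gG) := fun Q => by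
    obtain ⟨P, hP⟩ := hsm Q
    exact (𝔻.comp v₂).ord_red_nonneg hred' ⟨P, (𝔻.comp_r_eq_some_iff).mpr hP⟩ (hpf Q)
  have h2 : 1 ≤ Q₂.ord ((𝔻.comp v₂).red gG) := by
    have h := (𝔻.comp v₂).ord_le_ord_red hred' (hpf Q₂) ((𝔻.comp_r_eq_some_iff).mpr hP₂)
    rw [hordg] at h
    have h3 := hord P₂ hne
    rw [if_pos rfl] at h3
    omega
  -- the divisor of the reduction is effective of degree zero
  have hD0 : divOf 𝔻.Hk hred' = 0 := by
    refine eq_zero_of_degree_eq_zero 𝔻.Hk (fun Q => ?_) (degree_divOf 𝔻.Hk hred')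
    rw [divOf_apply]
    exact h1 Q
  have h3 : Q₂.ord ((𝔻.comp v₂).red gG) = 0 := by
    rw [← divOf_apply 𝔻.Hk hred', hD0]
    rfl
  omega

include 𝔻 in
/-- **(CONN), existence of a node**: a semistable datum with two distinct components has a node. -/
theorem nonempty_edges (v₁ v₂ : ι) (hne : v₁ ≠ v₂)
    (hRiem : ∃ g : ℕ, ∀ D : Divisor L F, (g : ℤ) ≤ Divisor.degree D →
      ∃ f : F, f ≠ 0 ∧ ∀ P, -(D P) ≤ P.ord f) : Nonempty E := by
  by_contra hE
  have hE' : IsEmpty E := not_nonempty_iff.mp hE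
  obtain ⟨Q₁⟩ := 𝔻.Hk.nonempty
  obtain ⟨P₁, hP₁⟩ := 𝔻.r_surj v₁ Q₁ (fun e => isEmptyElim e) (fun e => isEmptyElim e)
  obtain ⟨e, -⟩ := exists_branch 𝔻 v₂ P₁ (fun Q h => by
    rw [hP₁] at h
    exact hne (congrArg Prod.fst (Sum.inl.inj h))) hRiem
  exact hE ⟨e⟩

/-- **(CONN)** for a datum with two components all of whose nodes join the first to the second. -/
theorem graphConn_of_two (v₁ v₂ : ι) (hne : v₁ ≠ v₂) (hι : ∀ v, v = v₁ ∨ v = v₂)
    (hsrc : ∀ e, 𝔻.src e = v₁) (htgt : ∀ e, 𝔻.tgt e = v₂)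
    (hRiem : ∃ g : ℕ, ∀ D : Divisor L F, (g : ℤ) ≤ Divisor.degree D →
      ∃ f : F, f ≠ 0 ∧ ∀ P, -(D P) ≤ P.ord f) : GraphConn 𝔻 := by
  obtain ⟨e⟩ := nonempty_edges 𝔻 v₁ v₂ hne hRiem
  intro d hd
  refine ⟨d v₁, fun v => ?_⟩
  rcases hι v with rfl | rfl
  · rfl
  · have := hd e
    rw [hsrc, htgt] at this
    exact this.symm

end

end Fermat.Agent.ORD.IFACEN.GraphConn7
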