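/-
Programme ORD (S33), chapter IFACEN (helper7): **Riemann's inequality in the form `hRiem`** used by
`ORD/IFACEN/GraphConn7.{exists_branch, nonempty_edges, graphConn_of_two}`:
for `K` algebraically closed of characteristic `0`, `IsGen K x`, `HasCanonicalDivisor`:
every divisor of degree `≥ genus K F` has a nonzero section.  Also the two corollaries
`nonempty_edges_of_isGen`, `graphConn_of_two_of_isGen` with `hRiem` discharged.
-/
import Mathlib
import Fermat.Agent.MW.ASM.Reps1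
import Fermat.Agent.ORD.IFACEN.GraphConn7

set_option autoImplicit false

namespace Fermat.Agent.ORD.IFACEN.RiemannGE7

open AlgebraicCurve Fermat.Agent.X0.FF Fermat.Agent.RR.LSpace

section

variable {K F : Type*} [Field K] [Field F] [Algebra K F] [IsAlgClosed K] [CharZero K] {x : F}
  [HasCanonicalDivisor (K := K) (F := F)]

/-- `l(D) ≥ 1` for `deg D ≥ g`. -/
theorem exists_section_of_genus_le (hx : IsGen K x) (D : Divisor K F)
    (hD : (genus K F : ℤ) ≤ Divisor.degree D) :
    ∃ f : F, f ≠ 0 ∧ ∀ P : Place K F, -(D P) ≤ P.ord f := by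
  have h := Fermat.Agent.MW.ASM.Reps1.riemann_le hx D
  have hpos : 0 < Module.finrank K (riemannRochSpace D) := by omega
  have : Nontrivial (riemannRochSpace D) := Module.nontrivial_of_finrank_pos hpos
  obtain ⟨f, hf⟩ := exists_ne (0 : riemannRochSpace D)
  have hf0 : (f : F) ≠ 0 := fun h0 => hf (Subtype.ext h0)
  exact ⟨f, hf0, (mem_L_iff hf0).mp f.2⟩

/-- the hypothesis `hRiem` of `GraphConn7`. -/
theorem hRiem_of_isGen (hx : IsGen K x) :
    ∃ g : ℕ, ∀ D : Divisor K F, (g : ℤ) ≤ Divisor.degree D →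
      ∃ f : F, f ≠ 0 ∧ ∀ P, -(D P) ≤ P.ord f :=
  ⟨genus K F, fun D hD => exists_section_of_genus_le hx D hD⟩

end

section

open Fermat.Agent.ORD.SEMIRED.SemiRedDatum9 Fermat.Agent.ORD.NSN.NSInputN9

variable {L F k Ft : Type*} [Field L] [Field F] [Algebra L F] [Field k] [Field Ft] [Algebra k Ft]
  [IsAlgClosed L] [CharZero L] [HasCanonicalDivisor (K := L) (F := F)]
variable {ι E : Type*} (𝔻 : SemiRedDatum L F k Ft ι E) {x : F}

include 𝔻 in
/-- `GraphConn7.nonempty_edges` with Riemann's inequality discharged. -/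
theorem nonempty_edges_of_isGen (hx : IsGen L x) (v₁ v₂ : ι) (hne : v₁ ≠ v₂) : Nonempty E :=
  GraphConn7.nonempty_edges 𝔻 v₁ v₂ hne (hRiem_of_isGen hx)

/-- `GraphConn7.graphConn_of_two` with Riemann's inequality discharged. -/
theorem graphConn_of_two_of_isGen (hx : IsGen L x) (v₁ v₂ : ι) (hne : v₁ ≠ v₂)
    (hι : ∀ v, v = v₁ ∨ v = v₂) (hsrc : ∀ e, 𝔻.src e = v₁) (htgt : ∀ e, 𝔻.tgt e = v₂) :
    GraphConn 𝔻 :=
  GraphConn7.graphConn_of_two 𝔻 v₁ v₂ hne hι hsrc htgt (hRiem_of_isGen hx)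

end

end Fermat.Agent.ORD.IFACEN.RiemannGE7
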