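/-
PROGRAMME ORD (S33), chapter IFACE-N (O6, helper9): `GlueMainN9.torsOrd_of_pieces` specialised to
helper1's `SideTwo1.side2` (`G2 = G1.comap W`, `red2 = red1 ∘ W`): the Fricke-transport hypotheses
`hG2`, `hred2` are discharged.

`torsOrd_of_sides` : an `AssemblyData` over `SideOne1.base (padicPlace p)`, components `Fin 2`,
`side 0 = side1`, `side 1 = side2`, + `IsGen`, (LIFT), (CONN), `Inertial`, centre-equivariance
⟹ `TorsOrd (M' * p) p k (Iv p)` (`= hmain` of `FINAL/FinalOrd3.isOrdinaryAt_of_forall_level`).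
-/
import Mathlib
import Fermat.Agent.ORD.IFACEN.GlueMainN9
import Fermat.Agent.ORD.IFACEN.SideTwo1
import Fermat.Agent.ORD.IFACEN.RiemannGE7
import Fermat.Agent.RED.TOP.FbarFacts20

set_option autoImplicit false
set_option linter.unusedSectionVars false
set_option linter.style.longLine false
set_option synthInstance.maxHeartbeats 400000

open AlgebraicCurve ModularCurve IntermediateField Fermat.Agent.X0.FF Fermat.Agent.RR.LSpace
open Fermat.Agent.ORD.ANN.Side3 Fermat.Agent.ORD.ANN.Inertial3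
open Fermat.Agent.ORD.SEMIRED.SemiRedDatum9 Fermat.Agent.ORD.SEMIRED.ToSemiRed9
open Fermat.Agent.ORD.NSN.NSInputN9
open Fermat.Agent.ORD.IFACEN.SmoothAtlas8 Fermat.Agent.ORD.IFACEN.AssembleN9
open Fermat.Agent.ORD.FINAL.LevelOrd0
open Fermat.Agent.FF.BASE.Place2
open Fermat.Agent.RED.Interface4 Fermat.Agent.ES.RED.ChartIntegralA1
open Fermat.Agent.ORD.IFACEN.GaussBad1 Fermat.Agent.ORD.IFACEN.SideOne1
open Fermat.Agent.ORD.IFACEN.SideTwo1
open Fermat.Agent.ES.N34.FrickeFK8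

noncomputable section

namespace Fermat.Agent.ORD.IFACEN.GlueTwoN9

local instance (priority := 100000) algKF5 (A : ValuationSubring Qbar) (M : ℕ) [NeZero M] :
    Algebra (kA A) ↥(modularFunctionFieldFullC (kA A) M) := inferInstance

variable (p M' : ℕ) [Fact p.Prime] [NeZero M'] (A : ValuationSubring Qbar)
  (hA : A.LiesOverPrime p) (hpM : ¬ p ∣ M') (h4 : 4 ∣ M')

theorem mem_side2_iff (y : ↥(Fbar (M' * p))) :
    y ∈ (side2 p M' A hA hpM h4).G ↔ frickeBar (M' * p) y ∈ G1 p M' A hA hpM h4 := by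
  rw [← W_eq]
  exact Iff.rfl

theorem side2_red_eq (y : ↥(Fbar (M' * p))) (hy : y ∈ (side2 p M' A hA hpM h4).G) :
    (side2 p M' A hA hpM h4).red ⟨y, hy⟩ =
      red1 p M' A hA hpM h4 ⟨frickeBar (M' * p) y, (mem_side2_iff p M' A hA hpM h4 y).mp hy⟩ := by
  show red2 p M' A hA hpM h4 ⟨y, hy⟩ = _
  rw [red2_apply]
  congr 1
  apply Subtype.ext
  show W p M' y = frickeBar (M' * p) y
  rw [W_eq]

variable {p M'}

/-- **`hmain` from the concrete pieces, with helper1's two sides.** -/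
theorem torsOrd_of_sides (hp2 : p ≠ 2) (k : ℕ) {E : Type} [Finite E]
    (𝔇 : AssemblyData (base (padicPlace p)) ↥(Fbar (M' * p))
      ↥(modularFunctionFieldFullC (kA (padicPlace p)) M') (Fin 2) E)
    (hs0 : 𝔇.𝔸.side 0 = side1 p M' (padicPlace p) (liesOverPrime p) hpM h4)
    (hs1 : 𝔇.𝔸.side 1 = side2 p M' (padicPlace p) (liesOverPrime p) hpM h4)
    {x : ↥(Fbar (M' * p))} (hx : IsGen Qbar x)
    (hlift : LiftsMatched 𝔇.toSemiRedDatum) (hconn : GraphConn 𝔇.toSemiRedDatum)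
    (hinert : ∀ γ ∈ Iv p, Inertial (toSemiRed 𝔇.toSemiRedDatum)
      (arithmeticGalois (modularFunctionFieldFull (M' * p)) γ))
    (hcentre : ∀ γ ∈ Iv p, ∀ P : Place Qbar ↥(Fbar (M' * p)),
      𝔇.𝔸.centre (arithmeticGalois (modularFunctionFieldFull (M' * p)) γ • P) = 𝔇.𝔸.centre P) :
    TorsOrd (M' * p) p k (Iv p) :=
  Fermat.Agent.ORD.IFACEN.GlueMainN9.torsOrd_of_pieces p M' hpM h4 hp2 k
    (side2 p M' (padicPlace p) (liesOverPrime p) hpM h4)
    (mem_side2_iff p M' (padicPlace p) (liesOverPrime p) hpM h4)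
    (side2_red_eq p M' (padicPlace p) (liesOverPrime p) hpM h4)
    𝔇 hs0 hs1 hx hlift hconn hinert hcentre

/-- **variant with the graph convention `src ≡ 0` (component through `∞`), `tgt ≡ 1` (component
through the cusp `0`)**: `IsGen` (the `j`-function) and (CONN) (helper7's `RiemannGE7`) discharged. -/
theorem torsOrd_of_sides' (hp2 : p ≠ 2) (k : ℕ) {E : Type} [Finite E]
    (𝔇 : AssemblyData (base (padicPlace p)) ↥(Fbar (M' * p))
      ↥(modularFunctionFieldFullC (kA (padicPlace p)) M') (Fin 2) E)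
    (hs0 : 𝔇.𝔸.side 0 = side1 p M' (padicPlace p) (liesOverPrime p) hpM h4)
    (hs1 : 𝔇.𝔸.side 1 = side2 p M' (padicPlace p) (liesOverPrime p) hpM h4)
    (hsrc : ∀ e, 𝔇.src e = 0) (htgt : ∀ e, 𝔇.tgt e = 1)
    (hlift : LiftsMatched 𝔇.toSemiRedDatum)
    (hinert : ∀ γ ∈ Iv p, Inertial (toSemiRed 𝔇.toSemiRedDatum)
      (arithmeticGalois (modularFunctionFieldFull (M' * p)) γ))
    (hcentre : ∀ γ ∈ Iv p, ∀ P : Place Qbar ↥(Fbar (M' * p)),
      𝔇.𝔸.centre (arithmeticGalois (modularFunctionFieldFull (M' * p)) γ • P) = 𝔇.𝔸.centre P) :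
    TorsOrd (M' * p) p k (Iv p) := by
  haveI := Fermat.Agent.X0.HasCanDivInst.hasCanonicalDivisor (M' * p)
  have hx := Fermat.Agent.RED.TOP.FbarFacts20.isGen_j (M' * p)
  have hconn : GraphConn 𝔇.toSemiRedDatum :=
    Fermat.Agent.ORD.IFACEN.RiemannGE7.graphConn_of_two_of_isGen 𝔇.toSemiRedDatum hx
      (0 : Fin 2) 1 (by decide) (fun v => by fin_cases v <;> simp) hsrc htgt
  exact torsOrd_of_sides hpM h4 hp2 k 𝔇 hs0 hs1 hx hlift hconn hinert hcentre

/-- with this convention the graph has an edge (helper7's `nonempty_edges`). -/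
theorem nonempty_edges {E : Type}
    (𝔇 : AssemblyData (base (padicPlace p)) ↥(Fbar (M' * p))
      ↥(modularFunctionFieldFullC (kA (padicPlace p)) M') (Fin 2) E) : Nonempty E := by
  haveI := Fermat.Agent.X0.HasCanDivInst.hasCanonicalDivisor (M' * p)
  exact Fermat.Agent.ORD.IFACEN.RiemannGE7.nonempty_edges_of_isGen 𝔇.toSemiRedDatum
    (Fermat.Agent.RED.TOP.FbarFacts20.isGen_j (M' * p)) (0 : Fin 2) 1 (by decide)

end Fermat.Agent.ORD.IFACEN.GlueTwoN9
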