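/-
Programme ORD (S33), chapter IFACE-N (helper6): **the concrete top of O6** — the two-component
model of `X₀(M' p)` over `A` in the shape of helper3's `TwoCompAssembly3.TwoCompHyp`, and `hmain`
(`TorsOrd (M' * p) p k (Iv p)`) from it.

* `lHyp_bad`, `lHyp_good` : the `LSpace` hypotheses for `ℚ̄ · F_{M' p}` and for the special fibre
  `k · F̃_{M'}`;
* `tinv`, `twoCompHyp` : `TwoCompHyp (side1 …) (side2 …) chart0 chart1 tB tinv …` from
  reducedness at every closed point (`dich`) and the three local inputs `sm₁ sm₂ nd`;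
  `twoCompHyp_of_family` : reducedness from helper8's `LevelFamily8.LevelFamily` on both charts;
* **`torsOrd_of_twoCompHyp`** : `TwoCompHyp` + `[Finite Nodes]` + reducedness ⟹
  `TorsOrd (M' * p) p k (Iv p)` (`GlueTwoN9.torsOrd_of_sides'` with `hlift` := `PtsLift9.liftsMatched`,
  `hinert` := `InertSide6.inertial_of_two`, `hcentre` := `CentreInert6.hcentre_of_inertSide`).
-/
import Mathlib
import Fermat.Agent.ORD.IFACEN.TwoCompAssembly3
import Fermat.Agent.ORD.IFACEN.PtsLift9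
import Fermat.Agent.ORD.IFACEN.GlueTwoN9
import Fermat.Agent.ORD.IFACEN.CentreInert6
import Fermat.Agent.ORD.IFACEN.ChartTwo1
import Fermat.Agent.FF.IFACE.Inst1
import Fermat.Agent.ES.TOP.ModelAtFinal8

set_option autoImplicit false
set_option linter.unusedSectionVars false
set_option linter.style.longLine false
set_option synthInstance.maxHeartbeats 400000

open AlgebraicCurve ModularCurve

noncomputable section

namespace Fermat.Agent.ORD.IFACEN.TwoCompInst6

open Fermat.Agent.X0.FF Fermat.Agent.RR.LSpace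
open Fermat.Agent.RED.Interface4 Fermat.Agent.ES.RED.ChartIntegralA1
open Fermat.Agent.RED.PUR.ChartGeneric22
open Fermat.Agent.ORD.ANN.Side3 Fermat.Agent.ORD.ANN.Inertial3
open Fermat.Agent.ORD.SEMIRED.SemiRedDatum9 Fermat.Agent.ORD.SEMIRED.ToSemiRed9
open Fermat.Agent.ORD.NSN.NSInputN9
open Fermat.Agent.ORD.FINAL.LevelOrd0
open Fermat.Agent.FF.BASE.Place2
open Fermat.Agent.ORD.IFACEN.LocAt8 Fermat.Agent.ORD.IFACEN.Centre8
  Fermat.Agent.ORD.IFACEN.AtlasPts6 Fermat.Agent.ORD.IFACEN.AssembleN9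
  Fermat.Agent.ORD.IFACEN.PtsDict3 Fermat.Agent.ORD.IFACEN.PtsAssembly3
  Fermat.Agent.ORD.IFACEN.TwoCompAssembly3 Fermat.Agent.ORD.IFACEN.ClosedPtComp6
  Fermat.Agent.ORD.IFACEN.LevelFamily8
  Fermat.Agent.ORD.IFACEN.SideOne1 Fermat.Agent.ORD.IFACEN.SideTwo1
  Fermat.Agent.ORD.IFACEN.ChartOne1 Fermat.Agent.ORD.IFACEN.ChartTwo1

/-- fast instance (the canonical search costs seconds). -/
local instance (priority := 100000) algKF6 (A : ValuationSubring Qbar) (M : ℕ) [NeZero M] :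
    Algebra (kA A) ↥(modularFunctionFieldFullC (kA A) M) := inferInstance

/-! ### the `LSpace` hypotheses -/

/-- upstairs. -/
theorem lHyp_bad (N : ℕ) [NeZero N] : LHyp Qbar ↥(Fbar N) :=
  Fermat.Agent.RR.LHypGen.lHyp_of_isGen (Fermat.Agent.RED.TOP.FbarFacts20.isGen_j N)

/-- on the special fibre of a good level divisible by `4`. -/
theorem lHyp_good (p M' : ℕ) [Fact p.Prime] [NeZero M'] (A : ValuationSubring Qbar)
    (hA : A.LiesOverPrime p) (hpM : ¬ p ∣ M') (h4 : 4 ∣ M') :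
    LHyp (kA A) ↥(modularFunctionFieldFullC (kA A) M') := by
  have : NeZero 4 := ⟨by norm_num⟩
  obtain ⟨x, hx, T, hS0, hS1, hs0, peel0, peel1⟩ :=
    Fermat.Agent.ES.TOP.ModelAtFinal8.modelAt p (Fact.out : p.Prime) A hA 4 8
      Fermat.Agent.RED.BASE.Hauptmodul12.baseHyp_four M' h4 hpM
  exact Fermat.Agent.FF.IFACE.Inst1.lHyp_red 4 8 p hpM
    (Fermat.Agent.RED.BASE.Hauptmodul12.tMem_of_dvd
      Fermat.Agent.RED.BASE.Hauptmodul12.baseHyp_four h4)
    (Fermat.Agent.RED.BASE.Hauptmodul12.tGenBase'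
      Fermat.Agent.RED.BASE.Hauptmodul12.baseHyp_four) A hA T hS0 hS1 hs0 peel0 peel1

/-! ### the two-component model -/

section Model

variable (p M' : ℕ) [Fact p.Prime] [NeZero M'] (A : ValuationSubring Qbar)
  (hA : A.LiesOverPrime p) (hpM : ¬ p ∣ M') (h4 : 4 ∣ M')

/-- the chart `t ≠ ∞` as a subalgebra over `B.A`, `B = base A` (`= chart0`). -/
abbrev B0 : Subalgebra ↥(base A).A ↥(Fbar (M' * p)) := chart0 p M' A h4

/-- the chart `t ≠ 0` as a subalgebra over `B.A`, `B = base A` (`= chart1`). -/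
abbrev B1 : Subalgebra ↥(base A).A ↥(Fbar (M' * p)) := chart1 p M' A h4

/-- `t⁻¹` as an element of the chart `t ≠ 0`. -/
def tinv : ↥(B1 p M' A h4) := ⟨(tB p M' h4)⁻¹, self_mem_chart _⟩

/-- the component through `∞`. -/
abbrev S₁ : Side (base A) ↥(Fbar (M' * p)) ↥(modularFunctionFieldFullC (kA A) M') :=
  side1 p M' A hA hpM h4

/-- the component through the cusp `0`. -/
abbrev S₂ : Side (base A) ↥(Fbar (M' * p)) ↥(modularFunctionFieldFullC (kA A) M') :=
  side2 p M' A hA hpM h4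

theorem le0₁ : ∀ b ∈ B0 p M' A h4, b ∈ (S₁ p M' A hA hpM h4).G :=
  fun _ hb => chart0_le_G1 p M' A hA hpM h4 hb

theorem le1₁ : ∀ b ∈ B1 p M' A h4, b ∈ (S₁ p M' A hA hpM h4).G :=
  fun _ hb => chart1_le_G1 p M' A hA hpM h4 hb

theorem le0₂ : ∀ b ∈ B0 p M' A h4, b ∈ (S₂ p M' A hA hpM h4).G :=
  fun _ hb => chart0_le_G2 p M' A hA hpM h4 hb

theorem le1₂ : ∀ b ∈ B1 p M' A h4, b ∈ (S₂ p M' A hA hpM h4).G :=
  fun _ hb => chart1_le_G2 p M' A hA hpM h4 hb

/-- the closed points of the two-chart model. -/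
abbrev PtsM : Type := Pts (base A).res (B0 p M' A h4) (B1 p M' A h4) (tinv p M' A h4)

/-- the closed point lies on the component through `∞`. -/
abbrev On₁ (x : PtsM p M' A h4) : Prop :=
  OnPts (S₁ p M' A hA hpM h4).red (le0₁ p M' A hA hpM h4) (le1₁ p M' A hA hpM h4) x

/-- the closed point lies on the component through the cusp `0`. -/
abbrev On₂ (x : PtsM p M' A h4) : Prop :=
  OnPts (S₂ p M' A hA hpM h4).red (le0₂ p M' A hA hpM h4) (le1₂ p M' A hA hpM h4) x

/-- the type of the concrete two-component hypotheses. -/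
abbrev Hyp : Prop :=
  TwoCompHyp (S₁ p M' A hA hpM h4) (S₂ p M' A hA hpM h4) (B0 p M' A h4) (B1 p M' A h4)
    (tB p M' h4) (tinv p M' A h4) (le0₁ p M' A hA hpM h4) (le1₁ p M' A hA hpM h4)
    (le0₂ p M' A hA hpM h4) (le1₂ p M' A hA hpM h4)

/-- **reducedness of the special fibre at every closed point of the two charts.** -/
def RedHyp : Prop :=
  (∀ χ : ↥(B0 p M' A h4) →+* kA A,
    (∀ a : ↥(base A).A, χ (algebraMap ↥(base A).A ↥(B0 p M' A h4) a) = (base A).res a) →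
      Reduced (B0 p M' A h4) χ (S₁ p M' A hA hpM h4).red (S₂ p M' A hA hpM h4).red
        (le0₁ p M' A hA hpM h4) (le0₂ p M' A hA hpM h4)) ∧
  (∀ χ : ↥(B1 p M' A h4) →+* kA A,
    (∀ a : ↥(base A).A, χ (algebraMap ↥(base A).A ↥(B1 p M' A h4) a) = (base A).res a) →
      Reduced (B1 p M' A h4) χ (S₁ p M' A hA hpM h4).red (S₂ p M' A hA hpM h4).red
        (le1₁ p M' A hA hpM h4) (le1₂ p M' A hA hpM h4))

variable {p M' A hA hpM h4}

/-- **`dich`** : every closed point lies on one of the two components. -/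
theorem dich (hred : RedHyp p M' A hA hpM h4) (x : PtsM p M' A h4) :
    On₁ p M' A hA hpM h4 x ∨ On₂ p M' A hA hpM h4 x := by
  rcases x with x₀ | y
  · exact on_or_on (hred.1 x₀.χ x₀.const)
  · exact on_or_on (hred.2 y.1.χ y.1.const)

/-- **the concrete `TwoCompHyp`** from reducedness and the three local inputs. -/
theorem hyp (hred : RedHyp p M' A hA hpM h4)
    (sm₁ : ∀ (x : PtsM p M' A h4) (h₁ : On₁ p M' A hA hpM h4 x), ¬ On₂ p M' A hA hpM h4 x →
      ∃ Q : Place (kA A) ↥(modularFunctionFieldFullC (kA A) M'),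
        Fermat.Agent.ORD.IFACEN.DiscSys8.DiscSys (base A).A (base A).res (ringPts x)
          (Fermat.Agent.ORD.IFACEN.SmoothAtlas8.redOn (S₁ p M' A hA hpM h4)
            (ringPts_le_of_onPts (S₁ p M' A hA hpM h4) (le0₁ p M' A hA hpM h4)
              (le1₁ p M' A hA hpM h4) h₁)) (chiPts x) Q)
    (sm₂ : ∀ (x : PtsM p M' A h4) (h₂ : On₂ p M' A hA hpM h4 x), ¬ On₁ p M' A hA hpM h4 x →
      ∃ Q : Place (kA A) ↥(modularFunctionFieldFullC (kA A) M'),
        Fermat.Agent.ORD.IFACEN.DiscSys8.DiscSys (base A).A (base A).res (ringPts x)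
          (Fermat.Agent.ORD.IFACEN.SmoothAtlas8.redOn (S₂ p M' A hA hpM h4)
            (ringPts_le_of_onPts (S₂ p M' A hA hpM h4) (le0₂ p M' A hA hpM h4)
              (le1₂ p M' A hA hpM h4) h₂)) (chiPts x) Q)
    (nd : ∀ x : PtsM p M' A h4, On₁ p M' A hA hpM h4 x → On₂ p M' A hA hpM h4 x →
      ∃ (Q Q' : Place (kA A) ↥(modularFunctionFieldFullC (kA A) M')) (u v w : ringPts x)
        (ϖ : Qbar), Fermat.Agent.ORD.NODE.NodeSys4.NodeSys (base A) (S₁ p M' A hA hpM h4)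
          (S₂ p M' A hA hpM h4) (ringPts x) (chiPts x) Q Q' u v w ϖ) :
    Hyp p M' A hA hpM h4 where
  ht1 := rfl
  ht0 := self_mem_chart _
  htne := by
    have h := red1_tB_ne_zero p M' A hA hpM h4
    intro h0
    apply h
    have : (⟨tB p M' h4, tB_mem_G1 p M' A hA hpM h4⟩ : ↥(G1 p M' A hA hpM h4)) = 0 :=
      Subtype.ext h0
    rw [this, map_zero]
  hB0 := fun _ hb => hb
  hB1 := fun _ hb => hb
  dich := dich hred
  sm₁ := sm₁
  sm₂ := sm₂
  nd := nd

/-- **reducedness from helper8's level families** on the two charts (seen from ANY component: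
e.g. `BadInstTwo8.lf10`, `lf11`). -/
theorem redHyp_of_family
    {s0 : ↥(chart0 p M' A h4)} {s1 : ↥(chart1 p M' A h4)}
    {I0 : Type*} {RK0 FK0 : I0 → Type*} [∀ i, CommRing (RK0 i)] [∀ i, Field (FK0 i)]
    [∀ i, Algebra (RK0 i) (FK0 i)] {BK0 : ∀ i, Subalgebra (RK0 i) (FK0 i)} {πK0 : ∀ i, RK0 i}
    {j0 : ∀ i, FK0 i →+* ↥(Fbar (M' * p))} {Oon0 Ooff0 : ∀ i, ValuationSubring (FK0 i)}
    {I1 : Type*} {RK1 FK1 : I1 → Type*} [∀ i, CommRing (RK1 i)] [∀ i, Field (FK1 i)]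
    [∀ i, Algebra (RK1 i) (FK1 i)] {BK1 : ∀ i, Subalgebra (RK1 i) (FK1 i)} {πK1 : ∀ i, RK1 i}
    {j1 : ∀ i, FK1 i →+* ↥(Fbar (M' * p))} {Oon1 Ooff1 : ∀ i, ValuationSubring (FK1 i)}
    (H0 : LevelFamily (IsLocalRing.residue ↥A) (chart0 p M' A h4) s0
      (G1 p M' A hA hpM h4) (red1 p M' A hA hpM h4) (G2 p M' A hA hpM h4) (red2 p M' A hA hpM h4)
      RK0 FK0 BK0 πK0 j0 Oon0 Ooff0)
    (H1 : LevelFamily (IsLocalRing.residue ↥A) (chart1 p M' A h4) s1
      (G1 p M' A hA hpM h4) (red1 p M' A hA hpM h4) (G2 p M' A hA hpM h4) (red2 p M' A hA hpM h4)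
      RK1 FK1 BK1 πK1 j1 Oon1 Ooff1) :
    RedHyp p M' A hA hpM h4 :=
  ⟨fun χ hχ => Fermat.Agent.ORD.IFACEN.CentreInert6.reduced_of_family H0 χ hχ,
    fun χ hχ => Fermat.Agent.ORD.IFACEN.CentreInert6.reduced_of_family H1 χ hχ⟩

end Model

/-! ### `hmain` -/

section Main

open Fermat.Agent.ORD.IFACEN.InertSide6 Fermat.Agent.ORD.IFACEN.CentreInert6
  Fermat.Agent.ORD.IFACEN.CoordOne9

variable {p M' : ℕ} [Fact p.Prime] [NeZero M'] (hpM : ¬ p ∣ M') (h4 : 4 ∣ M')

/-- **`hmain` from the two-component model**: the concrete `TwoCompHyp` along `padicPlace p` with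
finitely many nodes and a reduced special fibre gives `TorsOrd (M' * p) p k (Iv p)`. -/
theorem torsOrd_of_hyp (hp2 : p ≠ 2) (k : ℕ)
    (H : Hyp p M' (padicPlace p) (liesOverPrime (ℓ := p)) hpM h4) [Finite H.Nodes]
    (hred : RedHyp p M' (padicPlace p) (liesOverPrime (ℓ := p)) hpM h4) :
    TorsOrd (M' * p) p k (Iv p) := by
  have HL : LHyp Qbar ↥(Fbar (M' * p)) := lHyp_bad (M' * p)
  have Hk := lHyp_good p M' (padicPlace p) (liesOverPrime (ℓ := p)) hpM h4
  have : IsAlgClosed (kA (padicPlace p)) :=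
    Fermat.Agent.ES.KRON.KronInst10.isAlgClosed_residueField (padicPlace p)
  have : Infinite (kA (padicPlace p)) := inferInstance
  have : Nonempty H.Nodes := Fermat.Agent.ORD.IFACEN.GlueTwoN9.nonempty_edges (H.assembly HL Hk)
  refine Fermat.Agent.ORD.IFACEN.GlueTwoN9.torsOrd_of_sides' hpM h4 hp2 k (H.assembly HL Hk)
    rfl rfl (fun _ => rfl) (fun _ => rfl) ?_ ?_ ?_
  · exact Fermat.Agent.ORD.IFACEN.PtsLift9.liftsMatched (H.ptsData HL Hk) 0 1 (fun _ => rfl)
      (fun _ => rfl) (fun v => by fin_cases v <;> simp) (fun _ => Iff.rfl) (fun _ => Iff.rfl)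
  · intro γ hγ
    exact inertial_of_two p M' (padicPlace p) (liesOverPrime (ℓ := p)) hpM h4 hγ _ rfl rfl
  · intro γ hγ P
    exact hcentre_of_inertSide (H.ptsData HL Hk) _
      (valuation_base p M' (padicPlace p) hγ)
      (res_of_mem_inertia (padicPlace p) hγ (M' * p))
      (smul_tBad p M' h4 γ)
      (smul_mem_chart0_iff (padicPlace p) hγ p M' h4)
      (smul_mem_chart1_iff (padicPlace p) hγ p M' h4)
      0 1
      (inertSide_side1 p M' (padicPlace p) (liesOverPrime (ℓ := p)) hpM h4 hγ)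
      (inertSide_side2 p M' (padicPlace p) (liesOverPrime (ℓ := p)) hpM h4 hγ)
      hred.1 hred.2 P

end Main

end Fermat.Agent.ORD.IFACEN.TwoCompInst6
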