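/-
Programme ORD (S33), chapter IFACE-N (helper6): **`hmain` from the nodes alone.**

`torsOrd_of_nd` : for `p` odd, `4 ∣ M'`, `p ∤ M'`, the ONLY remaining input of
`TorsOrd (M' * p) p k (Iv p)` is `nd` — a node system (`NodeSys4.NodeSys`) at every closed point of
the two-chart model of `X₀(M' p)` over `padicPlace p` lying on both components — in the literal
shape of helper8's `SmoothPts8.twoCompHyp`.  Everything else is discharged:
`sm₁ sm₂ dich` (helper8 `SmoothPts8`), `Finite Nodes` (helper1 `PtsFinite1`), reducedness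
(`SmoothPts8.reduced0/1`), and `TwoCompInst6.torsOrd_of_hyp` (assembly, LIFT, CONN, `hinert`,
`hcentre`).

`hmain_of_nd` : the same in the shape of `hmain` of `FINAL/FinalOrd3.isOrdinaryAt_of_forall_level`.
-/
import Mathlib
import Fermat.Agent.ORD.IFACEN.TwoCompInst6
import Fermat.Agent.ORD.IFACEN.SmoothPts8
import Fermat.Agent.ORD.IFACEN.PtsFinite1
import Fermat.Agent.ES.N34.ModelEnd4

set_option autoImplicit false
set_option linter.unusedSectionVars false
set_option linter.style.longLine false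
set_option synthInstance.maxHeartbeats 400000

open AlgebraicCurve ModularCurve

noncomputable section

namespace Fermat.Agent.ORD.IFACEN.MainOfNodes6

open Fermat.Agent.X0.FF Fermat.Agent.RR.LSpace
open Fermat.Agent.RED.Interface4 Fermat.Agent.ES.RED.ChartIntegralA1
open Fermat.Agent.ORD.ANN.Side3
open Fermat.Agent.ORD.FINAL.LevelOrd0
open Fermat.Agent.FF.BASE.Place2
open Fermat.Agent.ORD.IFACEN.AtlasPts6 Fermat.Agent.ORD.IFACEN.PtsDict3
  Fermat.Agent.ORD.IFACEN.TwoCompAssembly3
  Fermat.Agent.ORD.IFACEN.SideOne1 Fermat.Agent.ORD.IFACEN.SideTwo1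
  Fermat.Agent.ORD.IFACEN.TwoCompInst6
open Fermat.Agent.ORD.NODE.NodeSys4

/-- fast instance (the canonical search costs seconds). -/
local instance (priority := 100000) algKF6' (A : ValuationSubring Qbar) (M : ℕ) [NeZero M] :
    Algebra (kA A) ↥(modularFunctionFieldFullC (kA A) M) := inferInstance

variable {p M' : ℕ} [Fact p.Prime] [NeZero M'] (hpM : ¬ p ∣ M') (h4 : 4 ∣ M')

/-- **the statement of the last open input**: a node system at every closed point of the two-chart
model lying on both components. -/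
def NodesHyp : Prop :=
  ∀ x : PtsM p M' (padicPlace p) h4,
    On₁ p M' (padicPlace p) (liesOverPrime (ℓ := p)) hpM h4 x →
    On₂ p M' (padicPlace p) (liesOverPrime (ℓ := p)) hpM h4 x →
    ∃ (Q Q' : Place (kA (padicPlace p)) ↥(modularFunctionFieldFullC (kA (padicPlace p)) M'))
      (a b u : ringPts x) (ϖ : Qbar),
      NodeSys (base (padicPlace p)) (S₁ p M' (padicPlace p) (liesOverPrime (ℓ := p)) hpM h4)
        (S₂ p M' (padicPlace p) (liesOverPrime (ℓ := p)) hpM h4) (ringPts x) (chiPts x) Q Q' a b u ϖ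

/-- **`hmain` from the nodes alone.** -/
theorem torsOrd_of_nd (hp2 : p ≠ 2) (k : ℕ) (nd : NodesHyp hpM h4) :
    TorsOrd (M' * p) p k (Iv p) := by
  have hp : p.Prime := Fact.out
  have : NeZero p := ⟨hp.ne_zero⟩
  have MI := Fermat.Agent.ES.N34.ModelEnd4.modelInput_four p M' (padicPlace p) hp hpM hp2 h4
    (liesOverPrime (ℓ := p))
  have H : Hyp p M' (padicPlace p) (liesOverPrime (ℓ := p)) hpM h4 :=
    Fermat.Agent.ORD.IFACEN.SmoothPts8.twoCompHyp p M' (padicPlace p) (liesOverPrime (ℓ := p))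
      hpM h4 MI nd
  have hred : RedHyp p M' (padicPlace p) (liesOverPrime (ℓ := p)) hpM h4 :=
    ⟨fun χ hχ => Fermat.Agent.ORD.IFACEN.SmoothPts8.reduced0 p M' (padicPlace p)
        (liesOverPrime (ℓ := p)) hpM h4 MI χ hχ,
      fun χ hχ => Fermat.Agent.ORD.IFACEN.SmoothPts8.reduced1 p M' (padicPlace p)
        (liesOverPrime (ℓ := p)) hpM h4 MI χ hχ⟩
  have : Finite H.Nodes :=
    Fermat.Agent.ORD.IFACEN.PtsFinite1.finite_edges
      (H.ptsData (lHyp_bad (M' * p))
        (lHyp_good p M' (padicPlace p) (liesOverPrime (ℓ := p)) hpM h4))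
      0 1 (fun _ => rfl) (fun _ => rfl)
  exact torsOrd_of_hyp hpM h4 hp2 k H hred

/-- **`hmain` of `FinalOrd3.isOrdinaryAt_of_forall_level` from the nodes at every level.** -/
theorem hmain_of_nd (p : ℕ) [Fact p.Prime] (hp2 : p ≠ 2)
    (nd : ∀ (M' : ℕ) [NeZero M'] (hpM : ¬ p ∣ M') (h4 : 4 ∣ M'), NodesHyp hpM h4) :
    ∀ (M' : ℕ) [NeZero M'] [NeZero (M' * p)], 4 ∣ M' → ¬ p ∣ M' →
      ∀ k : ℕ, TorsOrd (M' * p) p k (Iv p) :=
  fun M' _ _ h4 hpM k => torsOrd_of_nd hpM h4 hp2 k (nd M' hpM h4)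

end Fermat.Agent.ORD.IFACEN.MainOfNodes6
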