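/-
Programme ORD (S33), chapter IFACE-N (helper6): **`hmain` from (hhor) and (S) alone.**

`torsOrd_of_hor_S` : for `p` odd, `4 ∣ M'`, `p ∤ M'`, `A := padicPlace p`, `MI` any N34 model input,
`TorsOrd (M' * p) p k (Iv p)` follows from

* `Hor0 MI`, `Hor1 MI` : the tube condition (hhor) of helper2's `BadNodes2.nodeSys0/1` at every
  level `i : Lvl (K0 MI)` of the tower for every closed point `χ₀` of `chart A t` / `chart A t⁻¹`
  lying on both components (helper7: `HorTube7.HorHyp.horInt_of_tube`);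
* `Smooth0 MI`, `Smooth1 MI` : (S), a power of the uniformiser lies in the derivative ideal of every
  local ring of the level charts `B0`, `B1` (lead's `SmoothChart0.exists_pow_mem_derIdeal`).

(res) is helper9's `BadRes9.res0/res1`, the nodes are helper2's `BadNodes2.nd`, everything else is
`MainOfNodes6.torsOrd_of_nd`.
-/
import Mathlib
import Fermat.Agent.ORD.IFACEN.MainOfNodes6
import Fermat.Agent.ORD.IFACEN.BadNodes2
import Fermat.Agent.ORD.IFACEN.BadRes9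

set_option autoImplicit false
set_option linter.unusedSectionVars false
set_option linter.style.longLine false
set_option synthInstance.maxHeartbeats 400000

open AlgebraicCurve ModularCurve

noncomputable section

namespace Fermat.Agent.ORD.IFACEN.MainOfHor6

open Fermat.Agent.X0.FF Fermat.Agent.RR.LSpace
open Fermat.Agent.RED.Interface4 Fermat.Agent.ES.RED.ChartIntegralA1
open Fermat.Agent.RED.PUR.ChartGeneric22 Fermat.Agent.RED.DESC.NumberFieldDVR27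
open Fermat.Agent.RED.DESC.PlaceExtend27 Fermat.Agent.RED.DESC
open Fermat.Agent.ES.N34.ModelDefs9 Fermat.Agent.ES.N34.ModelInput13
open Fermat.Agent.ES.N34.NodalSmooth13
open Fermat.Agent.ORD.ANN.Side3
open Fermat.Agent.ORD.FINAL.LevelOrd0
open Fermat.Agent.FF.BASE.Place2
open Fermat.Agent.ORD.IFACEN.LocAt8 Fermat.Agent.ORD.IFACEN.DiscPlaces8
  Fermat.Agent.ORD.IFACEN.SideOne1 Fermat.Agent.ORD.IFACEN.SideTwo1
  Fermat.Agent.ORD.IFACEN.BadLevelOne8 Fermat.Agent.ORD.IFACEN.BadFamily8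
  Fermat.Agent.ORD.IFACEN.BadInstTwo8 Fermat.Agent.ORD.IFACEN.BadNodes2
  Fermat.Agent.ORD.IFACEN.TwoCompInst6 Fermat.Agent.ORD.IFACEN.MainOfNodes6
open Fermat.Agent.ORD.NODE.Term0 Fermat.Agent.ORD.NODE.GoodCoords4

/-- fast instance (the canonical search costs seconds). -/
local instance (priority := 100000) algKF6h (A : ValuationSubring Qbar) (M : ℕ) [NeZero M] :
    Algebra (kA A) ↥(modularFunctionFieldFullC (kA A) M) := inferInstance

/-- shortcut instance (typeclass search takes seconds to find it). -/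
local instance (priority := high) algAKFK6 (A : ValuationSubring Qbar) (M : ℕ)
    (K : IntermediateField ℚ Qbar) : Algebra ↥(AK A K) ↥(FK M K) := inferInstance

section Hyps

variable (p M' : ℕ) [Fact p.Prime] [NeZero M'] (A : ValuationSubring Qbar)
  (hA : A.LiesOverPrime p) (hpM : ¬ p ∣ M') (h4 : 4 ∣ M') (MI : ModelInput 4 8 p M' A)

/-- **(hhor) on the chart `t`**, at every level and every two-branch closed point. -/
def Hor0 : Prop :=
  ∀ χ₀ : ↥(chart ↥A (BadLevelOne8.tB p M' h4)) →+* kA A,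
    (∀ a : ↥A, χ₀ (algebraMap ↥A ↥(chart ↥A (BadLevelOne8.tB p M' h4)) a) =
      IsLocalRing.residue ↥A a) →
    (∀ b : ↥(chart ↥A (BadLevelOne8.tB p M' h4)),
      red1 p M' A hA hpM h4 ⟨(b : ↥(Fbar (M' * p))), chart0_le_G1 p M' A hA hpM h4 b.2⟩ = 0 →
        χ₀ b = 0) →
    (∀ b : ↥(chart ↥A (BadLevelOne8.tB p M' h4)),
      red2 p M' A hA hpM h4 ⟨(b : ↥(Fbar (M' * p))), chart0_le_G2 p M' A hA hpM h4 b.2⟩ = 0 →
        χ₀ b = 0) →
    ∀ (i : Lvl (K0 MI)) (ε : ↥(FK (M' * p) i.K)),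
      (∀ Pl : Place Qbar ↥(Fbar (M' * p)),
        InDisc (locC (chart ↥A (BadLevelOne8.tB p M' h4)) χ₀) Pl →
          baseChangeHom (M' * p) i.K ε ∈ Pl.toValuationSubring) →
      HorInt (piK hA MI i) (B0 A p (htK MI i)) (xK0 p M' A h4 MI χ₀ i) ε

/-- **(hhor) on the chart `t⁻¹`**, at every level and every two-branch closed point. -/
def Hor1 : Prop :=
  ∀ χ₀ : ↥(chart ↥A (BadLevelOne8.tB p M' h4)⁻¹) →+* kA A,
    (∀ a : ↥A, χ₀ (algebraMap ↥A ↥(chart ↥A (BadLevelOne8.tB p M' h4)⁻¹) a) =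
      IsLocalRing.residue ↥A a) →
    (∀ b : ↥(chart ↥A (BadLevelOne8.tB p M' h4)⁻¹),
      red1 p M' A hA hpM h4 ⟨(b : ↥(Fbar (M' * p))), chart1_le_G1 p M' A hA hpM h4 b.2⟩ = 0 →
        χ₀ b = 0) →
    (∀ b : ↥(chart ↥A (BadLevelOne8.tB p M' h4)⁻¹),
      red2 p M' A hA hpM h4 ⟨(b : ↥(Fbar (M' * p))), chart1_le_G2 p M' A hA hpM h4 b.2⟩ = 0 →
        χ₀ b = 0) →
    ∀ (i : Lvl (K0 MI)) (ε : ↥(FK (M' * p) i.K)),
      (∀ Pl : Place Qbar ↥(Fbar (M' * p)),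
        InDisc (locC (chart ↥A (BadLevelOne8.tB p M' h4)⁻¹) χ₀) Pl →
          baseChangeHom (M' * p) i.K ε ∈ Pl.toValuationSubring) →
      HorInt (piK hA MI i) (B1 A p (htK MI i)) (xK1 p M' A h4 MI χ₀ i) ε

/-- **(S) on the level charts `B0`.** -/
def Smooth0 : Prop :=
  ∀ (i : Lvl (K0 MI)) (𝔪 : Ideal ↥(B0 A p (htK MI i))) [𝔪.IsPrime], ∃ N : ℕ,
    algebraMap ↥(AK A i.K) ↥(locSub (B0 A p (htK MI i)) 𝔪) (piK hA MI i) ^ N ∈
      derIdeal ↥(AK A i.K) ↥(locSub (B0 A p (htK MI i)) 𝔪)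

/-- **(S) on the level charts `B1`.** -/
def Smooth1 : Prop :=
  ∀ (i : Lvl (K0 MI)) (𝔪 : Ideal ↥(B1 A p (htK MI i))) [𝔪.IsPrime], ∃ N : ℕ,
    algebraMap ↥(AK A i.K) ↥(locSub (B1 A p (htK MI i)) 𝔪) (piK hA MI i) ^ N ∈
      derIdeal ↥(AK A i.K) ↥(locSub (B1 A p (htK MI i)) 𝔪)

end Hyps

variable {p M' : ℕ} [Fact p.Prime] [NeZero M'] (hpM : ¬ p ∣ M') (h4 : 4 ∣ M')

/-- **`nd` from (hhor) and (S).** -/
theorem nodesHyp_of_hor_S (MI : ModelInput 4 8 p M' (padicPlace p))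
    (hhor0 : Hor0 p M' (padicPlace p) (liesOverPrime (ℓ := p)) hpM h4 MI)
    (hhor1 : Hor1 p M' (padicPlace p) (liesOverPrime (ℓ := p)) hpM h4 MI)
    (hS0 : Smooth0 p M' (padicPlace p) (liesOverPrime (ℓ := p)) MI)
    (hS1 : Smooth1 p M' (padicPlace p) (liesOverPrime (ℓ := p)) MI) :
    NodesHyp hpM h4 := by
  intro x hx1 hx2
  refine BadNodes2.nd p M' (padicPlace p) (liesOverPrime (ℓ := p)) hpM h4 MI
    (TwoCompInst6.tinv p M' (padicPlace p) h4) _ _ _ _ ?_ ?_ hS0 hS1 x hx1 hx2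
  · intro χ₀ hχ₀ hon₁ hon₂
    obtain ⟨K₁, hfd, hres⟩ :=
      Fermat.Agent.ORD.IFACEN.BadRes9.res0 p M' (padicPlace p) h4 MI χ₀ hχ₀
    exact ⟨K₁, hfd, hres, fun i _ => hhor0 χ₀ hχ₀ hon₁ hon₂ i⟩
  · intro χ₀ hχ₀ hon₁ hon₂
    obtain ⟨K₁, hfd, hres⟩ :=
      Fermat.Agent.ORD.IFACEN.BadRes9.res1 p M' (padicPlace p) h4 MI χ₀ hχ₀
    exact ⟨K₁, hfd, hres, fun i _ => hhor1 χ₀ hχ₀ hon₁ hon₂ i⟩

/-- **`hmain` from (hhor) and (S).** -/
theorem torsOrd_of_hor_S (hp2 : p ≠ 2) (k : ℕ) (MI : ModelInput 4 8 p M' (padicPlace p))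
    (hhor0 : Hor0 p M' (padicPlace p) (liesOverPrime (ℓ := p)) hpM h4 MI)
    (hhor1 : Hor1 p M' (padicPlace p) (liesOverPrime (ℓ := p)) hpM h4 MI)
    (hS0 : Smooth0 p M' (padicPlace p) (liesOverPrime (ℓ := p)) MI)
    (hS1 : Smooth1 p M' (padicPlace p) (liesOverPrime (ℓ := p)) MI) :
    TorsOrd (M' * p) p k (Iv p) :=
  torsOrd_of_nd hpM h4 hp2 k (nodesHyp_of_hor_S hpM h4 MI hhor0 hhor1 hS0 hS1)

end Fermat.Agent.ORD.IFACEN.MainOfHor6
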