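/-
PROGRAMME ORD (S33), chapter IFACE-N (O6, helper9): **the two `LHyp`'s of the model of `X₀(M' p)`**
(inputs `HL`, `Hk` of `ModelGlue9.torsOrd_of_twoCompHyp`), and `hmain` of `FINAL/FinalOrd3` packaged.

* `lHyp_bad N : LHyp ℚ̄ (Fbar N)` (any level; `RR/LHypGen` with the generator `j`);
* `lHyp_good` : `LHyp k (k · F̃_{M'})` for the GOOD level `M'` (`4 ∣ M'`, `p ∤ M'`), `k` the residue field
  of `A` over `p` : `FF/IFACE/Inst1.lHyp_red` applied to the two-chart model of `X₀(M')` over `A`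
  (`ES/TOP/ModelAtFinal8.modelAt`).
-/
import Mathlib
import Fermat.Agent.FF.IFACE.Inst1
import Fermat.Agent.ES.TOP.ModelAtFinal8
import Fermat.Agent.RED.TOP.FbarFacts20
import Fermat.Agent.RR.LHypGen

set_option autoImplicit false
set_option linter.unusedSectionVars false
set_option linter.style.longLine false
set_option synthInstance.maxHeartbeats 400000

open AlgebraicCurve ModularCurve

noncomputable section

namespace Fermat.Agent.ORD.IFACEN.ModelLHyp9

open Fermat.Agent.X0 Fermat.Agent.X0.FF Fermat.Agent.RR.LSpace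
open Fermat.Agent.RED.Interface4 Fermat.Agent.RED.BASE Fermat.Agent.RED.BASE.Hauptmodul12
open Fermat.Agent.ES.RED.Contract8

/-- `LHyp` for `ℚ̄ · F_N`. -/
theorem lHyp_bad (N : ℕ) [NeZero N] : LHyp Qbar ↥(Fbar N) :=
  Fermat.Agent.RR.LHypGen.lHyp_of_isGen (Fermat.Agent.RED.TOP.FbarFacts20.isGen_j N)

/-- `LHyp` for the special fibre field of the good level `M'`. -/
theorem lHyp_good (p : ℕ) [Fact p.Prime] (M' : ℕ) [NeZero M'] (A : ValuationSubring Qbar)
    (hA : A.LiesOverPrime p) (hpM : ¬ p ∣ M') (h4 : 4 ∣ M') :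
    LHyp (kA A) ↥(modularFunctionFieldFullC (kA A) M') := by
  haveI : NeZero 4 := ⟨by norm_num⟩
  obtain ⟨x, hx, T, hS0, hS1, hs0, peel0, peel1⟩ :=
    Fermat.Agent.ES.TOP.ModelAtFinal8.modelAt p (Fact.out : p.Prime) A hA 4 8 baseHyp_four M' h4 hpM
  exact Fermat.Agent.FF.IFACE.Inst1.lHyp_red 4 8 p hpM (tMem_of_dvd baseHyp_four h4)
    (tGenBase' baseHyp_four) A hA T hS0 hS1 hs0 peel0 peel1

end Fermat.Agent.ORD.IFACEN.ModelLHyp9
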