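/-
PROGRAMME ORD (S33), chapter IFACE-N (O6b "smooth discs", helper8): **one finite level of the bad
level `N' = M' p` compared with `ℚbar`** — the concrete inputs of `LevelFamily8.LevelFamily`
that involve ONE number field `K` (`[FiniteDimensional ℚ K]`), for the component through `∞`
(`SideOne1.G1`, `red1`) and the Gauss valuation ring `ModelDefs9.O1`.

* `tB`, `tB_inv` : the Hauptmodul `t = tF (M' p)` of `Fbar (M' p)` and its inverse;
  `baseChangeHom_tN`, `baseChangeHom_mem_chart0/1` (`j_mem`);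
* `pi_const` : a uniformiser of `A ∩ K` is a nonzero non-unit constant of `A`;
* `on_iff_one`, `on_zero_iff_one` : `baseChangeHom x ∈ G1 ↔ x ∈ O1`,
  `red1 (baseChangeHom x) = 0 ↔ x ∈ π O1` (helper1's level comparison + `gaussRed_eq_zero_iff`);
* `chart0_le_G1`, `chart1_le_G1`, `inv_mem_G1`.
-/
import Mathlib
import Fermat.Agent.ORD.IFACEN.SideOne1
import Fermat.Agent.ES.RED.TqIntF5
import Fermat.Agent.ES.N34.ModelDefs9
import Fermat.Agent.RED.CUSP.RankConcrete16
import Fermat.Agent.RED.BASE.MainCusp12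

set_option autoImplicit false
set_option linter.unusedSectionVars false
set_option linter.style.longLine false
set_option synthInstance.maxHeartbeats 400000

open HahnSeries ModularCurve Polynomial

noncomputable section

namespace Fermat.Agent.ORD.IFACEN.BadLevelOne8

open Fermat.Agent.RED.Interface4 Fermat.Agent.RED.DESC.PlaceExtend27
  Fermat.Agent.RED.DESC Fermat.Agent.RED.NumInst4
  Fermat.Agent.RED.PUR.GaussGen8 Fermat.Agent.RED.PUR.GaussBridge10
  Fermat.Agent.RED.PUR.ChartGeneric22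
  Fermat.Agent.RED.DESC.NumberFieldDVR27
  Fermat.Agent.RED.BASE.Interface12 Fermat.Agent.RED.BASE.EtaQuot12
  Fermat.Agent.ES.RED.ChartIntegralA1 Fermat.Agent.ES.RED.GaussUnit25
  Fermat.Agent.ES.N34.ModelDefs9
  Fermat.Agent.FF.IFACE.GaussVal1 Fermat.Agent.ORD.ANN.Side3
  Fermat.Agent.ORD.IFACEN.GaussBad1 Fermat.Agent.ORD.IFACEN.IntFrac1
  Fermat.Agent.ORD.IFACEN.SideOne1

/-- fast instance (the canonical search costs seconds). -/
local instance (priority := 100000) algKF (A : ValuationSubring Qbar) (M : ℕ) [NeZero M] :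
    Algebra (kA A) ↥(modularFunctionFieldFullC (kA A) M) := inferInstance

/-- shortcut instance (typeclass search takes seconds to find it). -/
local instance (priority := high) algAKFK (A : ValuationSubring Qbar) (M : ℕ)
    (K : IntermediateField ℚ Qbar) : Algebra ↥(AK A K) ↥(FK M K) := inferInstance

variable (p M' : ℕ) [Fact p.Prime] [NeZero M'] (A : ValuationSubring Qbar)
  (hA : A.LiesOverPrime p) (hpM : ¬ p ∣ M') (h4 : 4 ∣ M')

/-! ### the Hauptmodul at the bad level -/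

include h4 in
theorem tMem_bad : TMem 4 8 (M' * p) :=
  TMem.mono (Dvd.intro _ rfl) (Fermat.Agent.RED.BASE.MainCusp12.base_four M' h4).1.mem

/-- **the Hauptmodul `t`** of `Fbar (M' p)`. -/
def tB : ↥(Fbar (M' * p)) := tF (M' * p) (tMem_bad p M' h4)

theorem tB_ne_zero : tB p M' h4 ≠ 0 := by
  intro h0
  have h1 := (Fermat.Agent.RED.BASE.TGen19.isGen_tF 4 8 (M' * p) (tMem_bad p M' h4)).transcendental
  apply h1
  have : tF (M' * p) (tMem_bad p M' h4) = 0 := h0
  rw [this]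
  exact isAlgebraic_zero

theorem tB_mem_intF : tB p M' h4 ∈ intF A (M' * p) :=
  Fermat.Agent.ES.RED.TqIntF5.tF_mem_intF A (M' * p) (tMem_bad p M' h4)

theorem tB_inv_mem_intF : (tB p M' h4)⁻¹ ∈ intF A (M' * p) :=
  Fermat.Agent.ES.RED.TqIntF5.tF_inv_mem_intF A (M' * p) (tMem_bad p M' h4)

include hA in
theorem chart0_le_G1 {b : ↥(Fbar (M' * p))} (hb : b ∈ chart ↥A (tB p M' h4)) :
    b ∈ G1 p M' A hA hpM h4 :=
  intF_le_G1 p M' A hA hpM h4 (chart_le_intF A (M' * p) p hA (tB_mem_intF p M' A h4) hb)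

include hA in
theorem chart1_le_G1 {b : ↥(Fbar (M' * p))} (hb : b ∈ chart ↥A (tB p M' h4)⁻¹) :
    b ∈ G1 p M' A hA hpM h4 :=
  intF_le_G1 p M' A hA hpM h4 (chart_le_intF A (M' * p) p hA (tB_inv_mem_intF p M' A h4) hb)

theorem inv_mem_G1 (g : ↥(G1 p M' A hA hpM h4)) (hg : red1 p M' A hA hpM h4 g ≠ 0) :
    ((g : ↥(Fbar (M' * p))))⁻¹ ∈ G1 p M' A hA hpM h4 :=
  inv_mem_of_fracRed_ne_zero (redB p M' A hA hpM h4) hg

/-! ### one level -/

section Level

variable (K : IntermediateField ℚ Qbar) [FiniteDimensional ℚ K]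

theorem baseChangeHom_tN (ht : tq ↥K 4 8 ∈ FK M' K) :
    baseChangeHom (M' * p) K (tN p ht) = tB p M' h4 :=
  Fermat.Agent.RED.CUSP.RankConcrete16.baseChangeHom_eq_tF (M' * p) K (tMem_bad p M' h4)
    (tN p ht) (coe_tN p ht)

/-- `j_mem`, chart `0`. -/
theorem baseChangeHom_mem_chart0 (ht : tq ↥K 4 8 ∈ FK M' K) {b : ↥(FK (M' * p) K)}
    (hb : b ∈ B0 A p ht) : baseChangeHom (M' * p) K b ∈ chart ↥A (tB p M' h4) := by
  have := Fermat.Agent.ES.RED.ChartUnion1.baseChangeHom_mem_chart A (M' * p) K (tN p ht) b hb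
  rwa [baseChangeHom_tN p M' h4 K ht] at this

/-- `j_mem`, chart `1`. -/
theorem baseChangeHom_mem_chart1 (ht : tq ↥K 4 8 ∈ FK M' K) {b : ↥(FK (M' * p) K)}
    (hb : b ∈ B1 A p ht) : baseChangeHom (M' * p) K b ∈ chart ↥A (tB p M' h4)⁻¹ := by
  have := Fermat.Agent.ES.RED.ChartUnion1.baseChangeHom_mem_chart A (M' * p) K (tN p ht)⁻¹ b hb
  rwa [map_inv₀, baseChangeHom_tN p M' h4 K ht] at this

/-- `pi_const`. -/
theorem pi_const {π : ↥(AK A K)} (hπ : IsUnif (AK A K) π) :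
    ∃ ϖ : ↥A, ϖ ≠ 0 ∧ IsLocalRing.residue ↥A ϖ = 0 ∧
      baseChangeHom (M' * p) K (algebraMap ↥(AK A K) ↥(FK (M' * p) K) π) =
        algebraMap Qbar ↥(Fbar (M' * p)) (ϖ : Qbar) := by
  refine ⟨incl A K π, ?_, ?_, ?_⟩
  · intro h0
    exact hπ.ne_zero (incl_injective A K (h0.trans (map_zero _).symm))
  · rw [← resMap_residue]
    have : IsLocalRing.residue ↥(AK A K) π = 0 := res0_unif hπ
    rw [this, map_zero]
  · rw [Fermat.Agent.ES.RED.ChartUnion1.baseChangeHom_algebraMap_AK]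
    rfl

/-- `on_iff` for the component through `∞`. -/
theorem on_iff_one {π : ↥(AK A K)} (hπ : IsUnif (AK A K) π)
    (hE : FK (M' * p) K ≤ fracField (AK A K)) (x : ↥(FK (M' * p) K)) :
    baseChangeHom (M' * p) K x ∈ G1 p M' A hA hpM h4 ↔ x ∈ O1 M' p hπ hE :=
  baseChange_mem_G1_iff p M' A hA hpM h4 K x

/-- `on_zero_iff` for the component through `∞`. -/
theorem on_zero_iff_one {π : ↥(AK A K)} (hπ : IsUnif (AK A K) π)
    (hE : FK (M' * p) K ≤ fracField (AK A K)) (x : ↥(FK (M' * p) K))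
    (hx : x ∈ O1 M' p hπ hE) :
    red1 p M' A hA hpM h4 ⟨baseChangeHom (M' * p) K x,
      (on_iff_one p M' A hA hpM h4 K hπ hE x).2 hx⟩ = 0 ↔
      ∃ c ∈ O1 M' p hπ hE, x = algebraMap ↥(AK A K) ↥(FK (M' * p) K) π * c := by
  have hx' : (x : LaurentSeries K) ∈ gaussRing (AK A K) := hx
  rw [red1_baseChange_eq_zero_iff p M' A hA hpM h4 K x hx', gaussRed_eq_zero_iff hπ]
  have hπ0 : algebraMap ↥(AK A K) ↥(FK (M' * p) K) π ≠ 0 := by
    intro h0
    have h1 := congrArg (fun z : ↥(FK (M' * p) K) => (z : LaurentSeries K)) h0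
    simp only [coe_algebraMap_OE] at h1
    have h2 : (HahnSeries.C ((π : ↥(AK A K)) : K) : LaurentSeries K) = 0 := h1
    rw [map_eq_zero] at h2
    exact hπ.ne_zero (Subtype.ext h2)
  constructor
  · rintro ⟨g, hg⟩
    refine ⟨(algebraMap ↥(AK A K) ↥(FK (M' * p) K) π)⁻¹ * x, ?_, ?_⟩
    · show (((algebraMap ↥(AK A K) ↥(FK (M' * p) K) π)⁻¹ * x : ↥(FK (M' * p) K)) :
        LaurentSeries K) ∈ gaussRing (AK A K)
      have h1 : (x : LaurentSeries K) = HahnSeries.C ((π : ↥(AK A K)) : K) * (g : LaurentSeries K) :=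
        congrArg Subtype.val hg
      have hC : (HahnSeries.C ((π : ↥(AK A K)) : K) : LaurentSeries K) ≠ 0 := by
        rw [Ne, map_eq_zero]
        intro h2
        exact hπ.ne_zero (Subtype.ext h2)
      have : (((algebraMap ↥(AK A K) ↥(FK (M' * p) K) π)⁻¹ * x : ↥(FK (M' * p) K)) :
          LaurentSeries K) = (g : LaurentSeries K) := by
        push_cast
        rw [coe_algebraMap_OE, h1, ← mul_assoc, inv_mul_cancel₀ hC, one_mul]
      rw [this]
      exact g.2
    · rw [← mul_assoc, mul_inv_cancel₀ hπ0, one_mul]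
  · rintro ⟨c, hc, rfl⟩
    refine ⟨⟨(c : LaurentSeries K), hc⟩, Subtype.ext ?_⟩
    show ((algebraMap ↥(AK A K) ↥(FK (M' * p) K) π * c : ↥(FK (M' * p) K)) : LaurentSeries K) =
      HahnSeries.C ((π : ↥(AK A K)) : K) * (c : LaurentSeries K)
    push_cast
    rw [coe_algebraMap_OE]

end Level

end Fermat.Agent.ORD.IFACEN.BadLevelOne8
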