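/-
PROGRAMME ORD (S33), chapter IFACE-N (O6c, helper9): **(res) — rationality of the closed points of the
finite levels of the N34 model of `X₀(M' p)`**, hypothesis-free, in the literal shape of helper2's
`BadNodes2.nodeSys0/nodeSys1/nd`.

* `exists_level_res` (any level `N`, any chart `chart A s` with `s` transcendental and `places`): for a
  closed point `χ₀` of `chart A s` there is a number field `K₁` such that for every `K ⊇ K₁`, every
  `(A ∩ K)`-subalgebra `BK ⊂ K·F_N` mapping into the chart and every `b ∈ BK` there is a constant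
  `r ∈ A ∩ K` with `χ₀ (b - r) = 0`.  [`TubeNonempty9.exists_inDisc` gives a place `P` of the tube of
  `χ₀`; `OpenStab12.hasLevel_place` its field of definition `K₁`; `ResRational9.exists_sub_const_mem`
  with `Γ = Gal(ℚ̄ / K)`: `b(P) ∈ A` is `Gal(ℚ̄/K)`-fixed, hence in `A ∩ K`, and `χ₀ b = res (b(P))`.]
* `res0`, `res1` : the hypotheses `hres` of `BadNodes2.nodeSys0`, `nodeSys1` (charts `t`, `t⁻¹`; NO
  hypothesis on the closed point — one-branch or two-branch).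
-/
import Mathlib
import Fermat.Agent.ORD.IFACEN.BadNodes2
import Fermat.Agent.ORD.NODE.ResRational9
import Fermat.Agent.ORD.NODE.TubeNonempty9
import Fermat.Agent.ORD.IFACEN.ModelLHyp9
import Fermat.Agent.ES.GAL.OpenStab12
import Fermat.Agent.ES.N34.GalRational1

set_option autoImplicit false
set_option linter.unusedSectionVars false
set_option linter.unusedVariables false
set_option linter.style.longLine false
set_option linter.style.haveILetI false
set_option synthInstance.maxHeartbeats 400000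

open HahnSeries ModularCurve Polynomial AlgebraicCurve

noncomputable section

namespace Fermat.Agent.ORD.IFACEN.BadRes9

open Fermat.Agent.RED.Interface4 Fermat.Agent.RED.DESC.PlaceExtend27
  Fermat.Agent.RED.DESC
  Fermat.Agent.RED.PUR.ChartGeneric22
  Fermat.Agent.RED.DESC.NumberFieldDVR27
  Fermat.Agent.ES.RED.ChartIntegralA1
  Fermat.Agent.ES.N34.ModelDefs9 Fermat.Agent.ES.N34.ModelInput13
  Fermat.Agent.ORD.IFACEN.BadLevelOne8 Fermat.Agent.ORD.IFACEN.BadFamily8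
  Fermat.Agent.ORD.IFACEN.LocAt8 Fermat.Agent.ORD.IFACEN.DiscPlaces8
  Fermat.Agent.ORD.IFACEN.BadNodes2

/-- shortcut instance (typeclass search takes seconds to find it). -/
local instance (priority := high) algAKFK (A : ValuationSubring Qbar) (M : ℕ)
    (K : IntermediateField ℚ Qbar) : Algebra ↥(AK A K) ↥(FK M K) := inferInstance

/-- **(res) at every large level, for any chart of any level `N`.** -/
theorem exists_level_res (N : ℕ) [NeZero N] (A : ValuationSubring Qbar) (s : ↥(Fbar N))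
    (hs : Transcendental ↥A s)
    (places : ∀ O : ValuationSubring ↥(Fbar N), (∀ c : Qbar, algebraMap Qbar ↥(Fbar N) c ∈ O) →
      O ≠ ⊤ → (∀ b ∈ chart ↥A s, b ∈ O) → ∃ P : Place Qbar ↥(Fbar N), P.toValuationSubring = O)
    (χ₀ : ↥(chart ↥A s) →+* kA A)
    (hχ₀ : ∀ a : ↥A, χ₀ (algebraMap ↥A ↥(chart ↥A s) a) = IsLocalRing.residue ↥A a) :
    ∃ (K₁ : IntermediateField ℚ Qbar) (_ : FiniteDimensional ℚ K₁),
      ∀ K : IntermediateField ℚ Qbar, K₁ ≤ K → ∀ (BK : Subalgebra ↥(AK A K) ↥(FK N K))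
        (j_mem : ∀ b ∈ BK, baseChangeHom N K b ∈ chart ↥A s) (b : ↥BK), ∃ r : ↥(AK A K),
        χ₀ ⟨baseChangeHom N K ((b - algebraMap ↥(AK A K) ↥BK r : ↥BK) : ↥(FK N K)),
          j_mem _ (b - algebraMap ↥(AK A K) ↥BK r).2⟩ = 0 := by
  have hsurj : Function.Surjective (IsLocalRing.residue ↥A) := IsLocalRing.residue_surjective
  have hzero : ∀ a : ↥A, IsLocalRing.residue ↥A a = 0 ↔ ¬ IsUnit a := fun a => by
    rw [IsLocalRing.residue_eq_zero_iff, IsLocalRing.mem_maximalIdeal, mem_nonunits_iff]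
  obtain ⟨P, hP⟩ := Fermat.Agent.ORD.NODE.TubeNonempty9.exists_inDisc (IsLocalRing.residue ↥A) hsurj hs
    χ₀ hχ₀ places
  obtain ⟨K₁, hfd, hK₁⟩ := Fermat.Agent.ES.GAL.OpenStab12.hasLevel_place N P
  refine ⟨K₁, hfd, fun K hK BK j_mem b => ?_⟩
  refine Fermat.Agent.ORD.NODE.ResRational9.exists_sub_const_mem (IsLocalRing.residue ↥A)
    (Fermat.Agent.ORD.IFACEN.ModelLHyp9.lHyp_bad N) hsurj hzero (chart ↥A s) χ₀ hχ₀ BK
    (baseChangeHom N K) j_mem hP
    {g | ∃ σ : Qbar ≃ₐ[ℚ] Qbar, (∀ a ∈ K, σ a = a) ∧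
      g = arithmeticGalois (modularFunctionFieldFull N) σ} ?_ ?_ ?_ b
  · rintro g ⟨σ, hσ, rfl⟩
    exact hK₁ σ (fun a ha => hσ a (hK ha))
  · rintro g ⟨σ, hσ, rfl⟩ c _
    exact Fermat.Agent.ES.N34.GalRational1.smul_baseChangeHom_of_fixed N K σ hσ c
  · intro a ha
    have haK : (a : Qbar) ∈ K := by
      refine Fermat.Agent.ES.N34.GalRational1.mem_of_fixed K _ fun σ hσ => ?_
      have := ha _ ⟨σ, hσ, rfl⟩
      rw [baseAut_arithmeticGalois] at this
      exact this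
    refine ⟨⟨⟨(a : Qbar), haK⟩, (mem_AK_iff A K _).mpr a.2⟩, ?_⟩
    rw [Fermat.Agent.ES.RED.ChartUnion1.baseChangeHom_algebraMap_AK, algebraMap_A_eq]
    rfl

variable (p M' : ℕ) [Fact p.Prime] [NeZero M'] (A : ValuationSubring Qbar)
  (hA : A.LiesOverPrime p) (hpM : ¬ p ∣ M') (h4 : 4 ∣ M')
  (MI : ModelInput 4 8 p M' A)

/-- the Hauptmodul is transcendental over `A`. -/
theorem transcendental_tB : Transcendental ↥A (tB p M' h4) :=
  transcendental_of_field (R := ↥A) (K := Qbar)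
    (Fermat.Agent.RED.BASE.TGen19.isGen_tF 4 8 (M' * p) (tMem_bad p M' h4)).transcendental

/-- the inverse of the Hauptmodul is transcendental over `A`. -/
theorem transcendental_tB_inv : Transcendental ↥A (tB p M' h4)⁻¹ :=
  transcendental_of_field (R := ↥A) (K := Qbar)
    (Fermat.Agent.ES.RED.SpecialFibre13.isGen_inv
      (Fermat.Agent.RED.BASE.TGen19.isGen_tF 4 8 (M' * p) (tMem_bad p M' h4))).transcendental

/-- **the tube of every closed point of `chart A t` is non-empty.** -/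
theorem exists_inDisc0 (χ₀ : ↥(chart ↥A (tB p M' h4)) →+* kA A)
    (hχ₀ : ∀ a : ↥A, χ₀ (algebraMap ↥A ↥(chart ↥A (tB p M' h4)) a) = IsLocalRing.residue ↥A a) :
    ∃ P : Place Qbar ↥(Fbar (M' * p)), InDisc (locC (chart ↥A (tB p M' h4)) χ₀) P :=
  Fermat.Agent.ORD.NODE.TubeNonempty9.exists_inDisc (IsLocalRing.residue ↥A)
    IsLocalRing.residue_surjective (transcendental_tB p M' A h4) χ₀ hχ₀
    (fun O hL hO hB => places_bad p M' h4 O hL hO (Or.inl (hB _ (self_mem_chart _))))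

/-- **the tube of every closed point of `chart A t⁻¹` is non-empty.** -/
theorem exists_inDisc1 (χ₀ : ↥(chart ↥A (tB p M' h4)⁻¹) →+* kA A)
    (hχ₀ : ∀ a : ↥A, χ₀ (algebraMap ↥A ↥(chart ↥A (tB p M' h4)⁻¹) a) = IsLocalRing.residue ↥A a) :
    ∃ P : Place Qbar ↥(Fbar (M' * p)), InDisc (locC (chart ↥A (tB p M' h4)⁻¹) χ₀) P :=
  Fermat.Agent.ORD.NODE.TubeNonempty9.exists_inDisc (IsLocalRing.residue ↥A)
    IsLocalRing.residue_surjective (transcendental_tB_inv p M' A h4) χ₀ hχ₀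
    (fun O hL hO hB => places_bad p M' h4 O hL hO (Or.inr (hB _ (self_mem_chart _))))

/-- **(res) for the chart `t`** : the hypothesis `hres` of `BadNodes2.nodeSys0`. -/
theorem res0 (χ₀ : ↥(chart ↥A (tB p M' h4)) →+* kA A)
    (hχ₀ : ∀ a : ↥A, χ₀ (algebraMap ↥A ↥(chart ↥A (tB p M' h4)) a) = IsLocalRing.residue ↥A a) :
    ∃ (K₁ : IntermediateField ℚ Qbar) (_ : FiniteDimensional ℚ K₁),
      ∀ i : Lvl (K0 MI), K₁ ≤ i.K → ∀ b : ↥(B0 A p (htK MI i)), ∃ r : ↥(AK A i.K),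
        b - algebraMap ↥(AK A i.K) ↥(B0 A p (htK MI i)) r ∈ xK0 p M' A h4 MI χ₀ i := by
  obtain ⟨K₁, hfd, H⟩ := exists_level_res (M' * p) A (tB p M' h4) (transcendental_tB p M' A h4)
    (fun O hL hO hB => places_bad p M' h4 O hL hO (Or.inl (hB _ (self_mem_chart _)))) χ₀ hχ₀
  exact ⟨K₁, hfd, fun i hi b => H i.K hi (B0 A p (htK MI i))
    (fun b hb => baseChangeHom_mem_chart0 p M' A h4 i.K (htK MI i) hb) b⟩

/-- **(res) for the chart `t⁻¹`** : the hypothesis `hres` of `BadNodes2.nodeSys1`. -/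
theorem res1 (χ₀ : ↥(chart ↥A (tB p M' h4)⁻¹) →+* kA A)
    (hχ₀ : ∀ a : ↥A, χ₀ (algebraMap ↥A ↥(chart ↥A (tB p M' h4)⁻¹) a) = IsLocalRing.residue ↥A a) :
    ∃ (K₁ : IntermediateField ℚ Qbar) (_ : FiniteDimensional ℚ K₁),
      ∀ i : Lvl (K0 MI), K₁ ≤ i.K → ∀ b : ↥(B1 A p (htK MI i)), ∃ r : ↥(AK A i.K),
        b - algebraMap ↥(AK A i.K) ↥(B1 A p (htK MI i)) r ∈ xK1 p M' A h4 MI χ₀ i := by
  obtain ⟨K₁, hfd, H⟩ := exists_level_res (M' * p) A (tB p M' h4)⁻¹
    (transcendental_tB_inv p M' A h4)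
    (fun O hL hO hB => places_bad p M' h4 O hL hO (Or.inr (hB _ (self_mem_chart _)))) χ₀ hχ₀
  exact ⟨K₁, hfd, fun i hi b => H i.K hi (B1 A p (htK MI i))
    (fun b hb => baseChangeHom_mem_chart1 p M' A h4 i.K (htK MI i) hb) b⟩

end Fermat.Agent.ORD.IFACEN.BadRes9
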