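/-
PROGRAMME ORD (S33), chapter IFACE-N (O6, helper3): **inertia-equivariance of the centre map**,
abstract over helper8's `Centre8`.

`σ : SemilinearAut L F` over `γ = baseAut σ` with `γ(A) = A` (`hσA`) acting trivially on the residue
field (`hres`: inertia).  Then

* `smul_mem_compVS_iff` : `σ f ∈ compVS (σ P) ↔ f ∈ compVS P` (the composite valuation rings are
  permuted), via `val (σ P) (σ f) = γ (val P f)`;
* for a `σ`-stable chart `BA` (`hσB`): `onChart_smul_iff`, `coe_valP_smul`, `chiP_smul`
  (`χ_{σP}(σ b) = χ_P(b)`); if moreover every closed point of the chart is `σ`-invariant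
  (`hχ : χ (σ b) = χ b`) then `chiP_smul_eq : χ_{σP} = χ_P`;
* `centre_smul` : for the two-chart model (`σ t = t`) `Centre8.centre (σ • P) = Centre8.centre P` — the
  hypothesis `h` of helper9's `AssembleN9.r_smul_of_centre` / `discCompatN_of_centre`;
* `chi_smul_of_red` : the invariance `χ (σ b) = χ b` from (a) `σ` acts trivially on the reductions
  `red_v` on the components (helper5's `GalSide5` for inertia) and (b) a function of the chart with all
  reductions `0` vanishes at every closed point (reducedness of the special fibre: such `b` lies in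
  the radical of `m_A · BA`) — (b) is the hypothesis `hker`.
-/
import Mathlib
import Fermat.Agent.ORD.IFACEN.Centre8
import Fermat.Agent.MW.EMB.GalVal1

set_option autoImplicit false
set_option linter.unusedSectionVars false
set_option linter.style.longLine false

namespace Fermat.Agent.ORD.IFACEN.CentreEquiv3

open AlgebraicCurve Fermat.Agent.X0.FF Fermat.Agent.RR.LSpace Fermat.Agent.MW.EMB.Value6
open Fermat.Agent.ORD.IFACEN.LocAt8 Fermat.Agent.ORD.IFACEN.DiscPlaces8
open Fermat.Agent.ORD.IFACEN.Centre8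

variable {L F k : Type*} [Field L] [Field F] [Algebra L F] [Field k]

/-! ### the composite valuation rings are permuted -/

section Comp

variable (HL : LHyp L F) (A : ValuationSubring L) (σ : SemilinearAut L F)

/-- equivariance of the value map, subtype form. -/
theorem val_smul (P : Place L F) {f : F} (hf : f ∈ P.toValuationSubring)
    (hf' : σ • f ∈ (σ • P).toValuationSubring) :
    val HL (σ • P) ⟨σ • f, hf'⟩ = SemilinearAut.baseAut σ (val HL P ⟨f, hf⟩) := by
  rw [← valF_of_mem HL (σ • P) hf', ← valF_of_mem HL P hf]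
  exact Fermat.Agent.MW.EMB.GalVal1.valF_smul HL σ P f

variable (hσA : ∀ a : L, SemilinearAut.baseAut σ a ∈ A ↔ a ∈ A)
include hσA

/-- **the composite valuation rings are permuted by `σ`.** -/
theorem smul_mem_compVS_iff (P : Place L F) (f : F) :
    σ • f ∈ compVS HL A (σ • P) ↔ f ∈ compVS HL A P := by
  constructor
  · rintro ⟨hf', ha⟩
    have hf : f ∈ P.toValuationSubring :=
      (Fermat.Agent.MW.EMB.GalVal1.smul_mem_smul_iff σ P f).mp hf'
    refine ⟨hf, ?_⟩
    rw [val_smul HL σ P hf hf'] at ha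
    exact (hσA _).mp ha
  · rintro ⟨hf, ha⟩
    have hf' : σ • f ∈ (σ • P).toValuationSubring :=
      (Fermat.Agent.MW.EMB.GalVal1.smul_mem_smul_iff σ P f).mpr hf
    exact ⟨hf', by rw [val_smul HL σ P hf hf']; exact (hσA _).mpr ha⟩

end Comp

/-! ### a stable chart -/

section Chart

variable {A : ValuationSubring L} [Algebra A F] [IsScalarTower A L F]
variable (res : A →+* k) (HL : LHyp L F) (σ : SemilinearAut L F)
variable (hσA : ∀ a : L, SemilinearAut.baseAut σ a ∈ A ↔ a ∈ A)
variable {BA : Subalgebra A F} (hσB : ∀ b : F, σ • b ∈ BA ↔ b ∈ BA)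

include hσA hσB in
/-- **`σ P` is centred on a `σ`-stable chart iff `P` is.** -/
theorem onChart_smul_iff (P : Place L F) : OnChart HL BA (σ • P) ↔ OnChart HL BA P := by
  constructor
  · intro h b hb
    exact (smul_mem_compVS_iff HL A σ hσA P b).mp (h _ ((hσB b).mpr hb))
  · intro h b hb
    have hb' : σ⁻¹ • b ∈ BA := (hσB (σ⁻¹ • b)).mp (by rw [smul_inv_smul]; exact hb)
    have := (smul_mem_compVS_iff HL A σ hσA P (σ⁻¹ • b)).mpr (h _ hb')
    rwa [smul_inv_smul] at this

/-- `σ` as a self-map of a stable chart. -/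
def smulB (b : BA) : BA := ⟨σ • (b : F), (hσB b).mpr b.2⟩

@[simp] theorem coe_smulB (b : BA) : ((smulB σ hσB b : BA) : F) = σ • (b : F) := rfl

variable {HL} {P : Place L F}

/-- `(σ b)(σ P) = γ (b(P))`. -/
theorem coe_valP_smul (h : OnChart HL BA P) (h' : OnChart HL BA (σ • P)) (b : BA) :
    ((valP h' (smulB σ hσB b) : A) : L) = SemilinearAut.baseAut σ ((valP h b : A) : L) := by
  rw [coe_valP, coe_valP]
  exact val_smul HL σ P _ _

variable (hres : ∀ (a : A) (ha : SemilinearAut.baseAut σ (a : L) ∈ A),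
  res ⟨SemilinearAut.baseAut σ (a : L), ha⟩ = res a)

include hσA hres in
/-- `χ_{σP}(σ b) = χ_P(b)` : the centres correspond under `σ`. -/
theorem chiP_smul (h : OnChart HL BA P) (h' : OnChart HL BA (σ • P)) (b : BA) :
    chiP res h' (smulB σ hσB b) = chiP res h b := by
  show res (valP h' (smulB σ hσB b)) = res (valP h b)
  have e : valP h' (smulB σ hσB b) =
      ⟨SemilinearAut.baseAut σ ((valP h b : A) : L), (hσA _).mpr (valP h b).2⟩ :=
    Subtype.ext (coe_valP_smul σ hσB h h' b)
  rw [e, hres]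

include hσA hres in
/-- **the centre of `σ P` is the centre of `P`** when the closed points of the chart are
`σ`-invariant. -/
theorem chiP_smul_eq (hχ : ∀ (x : CPt res BA) (b : BA), x.χ (smulB σ hσB b) = x.χ b)
    (h : OnChart HL BA P) (h' : OnChart HL BA (σ • P)) : chiP res h' = chiP res h := by
  apply RingHom.ext
  intro b
  rw [← chiP_smul res σ hσA hσB hres h h' b]
  exact (hχ (cpt HL h') b).symm

end Chart

/-! ### the two-chart model -/

section TwoCharts

variable {A : ValuationSubring L} [Algebra A F] [IsScalarTower A L F]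
variable {res : A →+* k} (HL : LHyp L F) {B0 B1 : Subalgebra A F} {tinv : B1}
variable {t : F} (ht1 : (tinv : F) = t⁻¹)
  (h0 : ∀ P : Place L F, t ∈ compVS HL A P → OnChart HL B0 P)
  (h1 : ∀ P : Place L F, t⁻¹ ∈ compVS HL A P → OnChart HL B1 P)
  (hzero : ∀ a : A, res a = 0 ↔ ¬ IsUnit a)
variable (σ : SemilinearAut L F)
  (hσA : ∀ a : L, SemilinearAut.baseAut σ a ∈ A ↔ a ∈ A)
  (hres : ∀ (a : A) (ha : SemilinearAut.baseAut σ (a : L) ∈ A),
    res ⟨SemilinearAut.baseAut σ (a : L), ha⟩ = res a)
  (hσt : σ • t = t)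
  (hσB0 : ∀ b : F, σ • b ∈ B0 ↔ b ∈ B0) (hσB1 : ∀ b : F, σ • b ∈ B1 ↔ b ∈ B1)
  (hχ0 : ∀ (x : CPt res B0) (b : B0), x.χ (smulB σ hσB0 b) = x.χ b)
  (hχ1 : ∀ (x : CPt res B1) (b : B1), x.χ (smulB σ hσB1 b) = x.χ b)

include hσA hres hσt hχ0 hχ1 in
/-- **Inertia-equivariance of the centre map** of the two-chart model. -/
theorem centre_smul (P : Place L F) :
    centre HL ht1 h0 h1 hzero (σ • P) = centre HL ht1 h0 h1 hzero P := by
  classical
  have htiff : t ∈ compVS HL A (σ • P) ↔ t ∈ compVS HL A P := by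
    have := smul_mem_compVS_iff HL A σ hσA P t
    rwa [hσt] at this
  unfold centre
  by_cases hP : t ∈ compVS HL A P
  · have hP' : t ∈ compVS HL A (σ • P) := htiff.mpr hP
    rw [dif_pos hP, dif_pos hP']
    congr 1
    apply CPt.ext'
    exact chiP_smul_eq res σ hσA hσB0 hres hχ0 (h0 P hP) (h0 (σ • P) hP')
  · have hP' : t ∉ compVS HL A (σ • P) := fun h => hP (htiff.mp h)
    rw [dif_neg hP, dif_neg hP']
    congr 1
    apply Subtype.ext
    apply CPt.ext'
    exact chiP_smul_eq res σ hσA hσB1 hres hχ1 (h1 P (inv_mem_of_not_mem HL A P hP).1)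
      (h1 (σ • P) (inv_mem_of_not_mem HL A (σ • P) hP').1)

end TwoCharts

/-! ### invariance of the closed points from the reductions -/

section Red

variable {A : ValuationSubring L} [Algebra A F] [IsScalarTower A L F]
variable {res : A →+* k} (σ : SemilinearAut L F)
variable {BA : Subalgebra A F} (hσB : ∀ b : F, σ • b ∈ BA ↔ b ∈ BA)

/-- **closed points are `σ`-invariant** when `σ` acts trivially on the reductions on the components
and the closed point kills the functions of the chart whose reductions all vanish. -/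
theorem chi_smul_of_red {ι : Type*} {R : ι → Type*} [∀ v, Ring (R v)] (G : ι → Subring F)
    (red : ∀ v, G v →+* R v) (hBG : ∀ v (b : F), b ∈ BA → b ∈ G v)
    (hredσ : ∀ v (b : BA), red v ⟨σ • (b : F), hBG v _ (smulB σ hσB b).2⟩ =
      red v ⟨(b : F), hBG v _ b.2⟩)
    (x : CPt res BA)
    (hker : ∀ b : BA, (∀ v, red v ⟨(b : F), hBG v _ b.2⟩ = 0) → x.χ b = 0) (b : BA) :
    x.χ (smulB σ hσB b) = x.χ b := by
  have h0 : x.χ (smulB σ hσB b - b) = 0 := by
    apply hker
    intro v
    have e : (⟨((smulB σ hσB b - b : BA) : F), hBG v _ (smulB σ hσB b - b).2⟩ : G v) =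
        ⟨σ • (b : F), hBG v _ (smulB σ hσB b).2⟩ - ⟨(b : F), hBG v _ b.2⟩ := Subtype.ext rfl
    rw [e, map_sub, hredσ v b, sub_self]
  rwa [map_sub, sub_eq_zero] at h0

end Red

/-! ### the hypotheses `hσA`, `hres` from the shape of `Inertial3.Inertial` -/

section OfInertial

variable (A : ValuationSubring L) (σ : SemilinearAut L F)

/-- `γ(A) = A` from `|γ z| = |z|`. -/
theorem mem_iff_of_val_base
    (hval : ∀ z : L, A.valuation (SemilinearAut.baseAut σ z) = A.valuation z) (a : L) :
    SemilinearAut.baseAut σ a ∈ A ↔ a ∈ A := by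
  rw [← A.valuation_le_one_iff, ← A.valuation_le_one_iff, hval]

/-- `γ` acts trivially on the residue field if `σ` acts trivially on the reduction of one
component. -/
theorem res_eq_of_red_smul {Ft : Type*} [Field Ft] [Algebra k Ft] (res : A →+* k) (G : Subring F)
    (red : G →+* Ft) (const_mem : ∀ a : A, algebraMap L F (a : L) ∈ G)
    (red_const : ∀ a : A, red ⟨algebraMap L F (a : L), const_mem a⟩ = algebraMap k Ft (res a))
    (map_G : ∀ y : F, y ∈ G → σ • y ∈ G)
    (red_smul : ∀ (y : F) (hy : y ∈ G), red ⟨σ • y, map_G y hy⟩ = red ⟨y, hy⟩)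
    (a : A) (ha : SemilinearAut.baseAut σ (a : L) ∈ A) :
    res ⟨SemilinearAut.baseAut σ (a : L), ha⟩ = res a := by
  apply (algebraMap k Ft).injective
  rw [← red_const, ← red_const a, ← red_smul _ (const_mem a)]
  congr 1
  apply Subtype.ext
  exact (SemilinearAut.smul_algebraMap σ (a : L)).symm

end OfInertial

end Fermat.Agent.ORD.IFACEN.CentreEquiv3
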