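/-
PROGRAMME ORD (S33), chapter IFACE-N (O6b "smooth discs", helper8): **the fibre-sum formula (S) and the
good uniformisers (G) on an abstract smooth residue disc**.

`h : DiscSys A res C red χ Q`, `HL : LHyp L F`.

* `sum_ord_eq` : for `c ∈ C` with `red c ≠ 0` and every finite set `W` of places of the disc
  containing the zeros of `c` in the disc, `∑_{P ∈ W} ord_P c = ord_Q (red c)`;
* `sum_ord_frac_eq` : the same for a fraction `g = a / b`, `a, b ∈ C` with nonzero reductions:
  `∑_{P ∈ W} ord_P g = ord_Q (red a) − ord_Q (red b)` for every finite `W` in the disc containing the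
  zeros and poles of `g` in the disc;
* `exists_good` : **(G)** at every place `P` of the disc there is `u ∈ C` with `ord_P u = 1`,
  `ord_Q (red u) = 1`, without poles on the disc and without other zeros on the disc;
* `disc_nonempty` : the disc is not empty (`r` is onto the smooth points).

The proof of `sum_ord_eq` is an induction on `ord_Q (red c)`: (SURJ) produces a zero `P₀` in the disc,
(PEEL) at `P₀` divides `c` by the peeling uniformiser, (SEP) says that the latter has no other zero in
the disc.
-/
import Mathlib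
import Fermat.Agent.ORD.IFACEN.DiscPlaces8

set_option autoImplicit false
set_option linter.unusedSectionVars false
set_option linter.style.longLine false

namespace Fermat.Agent.ORD.IFACEN.DiscSum8

open AlgebraicCurve Fermat.Agent.X0.FF Fermat.Agent.RR.LSpace Fermat.Agent.MW.EMB.Value6
open Fermat.Agent.ORD.IFACEN.DiscSys8 Fermat.Agent.ORD.IFACEN.DiscPlaces8

variable {L F k Ft : Type*} [Field L] [Field F] [Algebra L F] [Field k] [Field Ft] [Algebra k Ft]
variable {A : ValuationSubring L} {res : A →+* k} {C : Subring F} {red : C →+* Ft}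
  {χ : C →+* k} {Q : Place k Ft}

variable (h : DiscSys A res C red χ Q) (HL : LHyp L F)

/-! ### good uniformisers -/

include h HL in
/-- **(G)**: good uniformisers on the disc. -/
theorem exists_good {P : Place L F} (hP : InDisc C P) :
    ∃ u : C, P.ord (u : F) = 1 ∧ Q.ord (red u) = 1 ∧
      ∀ P' : Place L F, InDisc C P' → 0 ≤ P'.ord (u : F) ∧ (P' ≠ P → P'.ord (u : F) = 0) := by
  obtain ⟨u, hu⟩ := exists_peel h HL hP
  refine ⟨u, hu.ord_eq_one, hu.2.1, fun P' hP' => ⟨ord_nonneg hP' u, fun hne => ?_⟩⟩
  apply ord_eq_zero_of_valA_ne_zero h HL hP'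
  intro h0
  exact hne (hu.eq_of_valA_eq_zero hP' h0)

/-! ### the fibre sum -/

include h HL in
/-- **(S)** for the elements of `C`. -/
theorem sum_ord_eq (c : C) (hr : red c ≠ 0) (W : Finset (Place L F))
    (hW : ∀ P ∈ W, InDisc C P)
    (hzero : ∀ P : Place L F, InDisc C P → P.ord (c : F) ≠ 0 → P ∈ W) :
    ∑ P ∈ W, P.ord (c : F) = Q.ord (red c) := by
  classical
  have key : ∀ n : ℕ, ∀ c : C, red c ≠ 0 → Q.ord (red c) = n →
      ∀ W : Finset (Place L F), (∀ P ∈ W, InDisc C P) →
        (∀ P : Place L F, InDisc C P → P.ord (c : F) ≠ 0 → P ∈ W) →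
        ∑ P ∈ W, P.ord (c : F) = n := by
    intro n
    induction n with
    | zero =>
      intro c hr hn W hW _
      have hχ : χ c ≠ 0 := (h.ord_red_eq_zero_iff hr).mp (by simpa using hn)
      rw [Nat.cast_zero]
      exact Finset.sum_eq_zero fun P hP => ord_eq_zero_of_chi h HL (hW P hP) hχ
    | succ n ih =>
      intro c hr hn W hW hzero
      have hχ : χ c = 0 := (h.ord_red_pos_iff hr).mp (by rw [hn]; positivity)
      obtain ⟨P₀, hP₀, hpos⟩ := exists_inDisc_ord_pos h hχ hr
      have hP₀W : P₀ ∈ W := hzero P₀ hP₀ hpos.ne'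
      obtain ⟨u, hu⟩ := exists_peel h HL hP₀
      have hc0 : c ≠ 0 := h.ne_zero_of_red hr
      have hv : valA h HL hP₀ c = 0 := (valA_eq_zero_iff h HL hP₀ c).mpr (Or.inr hpos)
      obtain ⟨c', hc'⟩ := hu.2.2 c hv
      have hr' : red c' ≠ 0 := by
        intro h0
        apply hr
        rw [hc', map_mul, h0, mul_zero]
      have hc'0 : c' ≠ 0 := h.ne_zero_of_red hr'
      have hordQ : Q.ord (red c') = n := by
        have := Q.ord_mul hu.red_ne_zero hr'
        rw [← map_mul, ← hc', hn, hu.2.1] at this
        push_cast at this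
        linarith
      have hsplit : ∀ P : Place L F, P.ord (c : F) = P.ord (u : F) + P.ord (c' : F) := by
        intro P
        rw [hc']
        exact P.ord_mul (h.coe_ne_zero hu.ne_zero) (h.coe_ne_zero hc'0)
      have hzero' : ∀ P : Place L F, InDisc C P → P.ord (c' : F) ≠ 0 → P ∈ W := by
        intro P hP hne
        apply hzero P hP
        rw [hsplit P]
        have h1 := ord_nonneg hP u
        have h2 := ord_nonneg hP c'
        omega
      have hsum' := ih c' hr' hordQ W hW hzero'
      -- the sum of the orders of `u` is `1`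
      have hsumu : ∑ P ∈ W, P.ord (u : F) = 1 := by
        rw [Finset.sum_eq_single_of_mem P₀ hP₀W, hu.ord_eq_one]
        intro P hP hne
        apply ord_eq_zero_of_valA_ne_zero h HL (hW P hP)
        intro h0
        exact hne (hu.eq_of_valA_eq_zero (hW P hP) h0)
      rw [Finset.sum_congr rfl fun P _ => hsplit P, Finset.sum_add_distrib, hsumu, hsum']
      push_cast
      ring
  have hn := h.ord_red_nonneg c
  obtain ⟨n, hn'⟩ := Int.eq_ofNat_of_zero_le hn
  rw [key n c hr hn' W hW hzero, hn']

include h HL in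
/-- **(S)** for fractions. -/
theorem sum_ord_frac_eq (g : F) (a b : C) (hra : red a ≠ 0) (hrb : red b ≠ 0)
    (hab : g * (b : F) = (a : F)) (W : Finset (Place L F))
    (hW : ∀ P ∈ W, InDisc C P)
    (hzero : ∀ P : Place L F, InDisc C P → P.ord g ≠ 0 → P ∈ W) :
    ∑ P ∈ W, P.ord g = Q.ord (red a) - Q.ord (red b) := by
  classical
  have ha0 : (a : F) ≠ 0 := h.coe_ne_zero (h.ne_zero_of_red hra)
  have hb0 : (b : F) ≠ 0 := h.coe_ne_zero (h.ne_zero_of_red hrb)
  have hg0 : g ≠ 0 := by
    rintro rfl
    rw [zero_mul] at hab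
    exact ha0 hab.symm
  obtain ⟨Da, hDa, -⟩ := HL.principal (a : F) ha0
  obtain ⟨Db, hDb, -⟩ := HL.principal (b : F) hb0
  set W' : Finset (Place L F) := W ∪ (Da.support ∪ Db.support).filter (fun P => InDisc C P)
    with hW'def
  have hW' : ∀ P ∈ W', InDisc C P := by
    intro P hP
    rw [hW'def, Finset.mem_union, Finset.mem_filter] at hP
    rcases hP with hP | hP
    · exact hW P hP
    · exact hP.2
  have hsplit : ∀ P : Place L F, P.ord g = P.ord (a : F) - P.ord (b : F) := by
    intro P
    have := P.ord_mul hg0 hb0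
    rw [hab] at this
    linarith
  have hsub : W ⊆ W' := Finset.subset_union_left
  -- the sum over `W'` equals the sum over `W`
  have h1 : ∑ P ∈ W', P.ord g = ∑ P ∈ W, P.ord g := by
    symm
    apply Finset.sum_subset hsub
    intro P hP hPW
    by_contra hne
    exact hPW (hzero P (hW' P hP) hne)
  have hza : ∀ P : Place L F, InDisc C P → P.ord (a : F) ≠ 0 → P ∈ W' := by
    intro P hP hne
    rw [hW'def, Finset.mem_union, Finset.mem_filter]
    right
    refine ⟨Finset.mem_union_left _ ?_, hP⟩
    rw [Finsupp.mem_support_iff, hDa]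
    exact hne
  have hzb : ∀ P : Place L F, InDisc C P → P.ord (b : F) ≠ 0 → P ∈ W' := by
    intro P hP hne
    rw [hW'def, Finset.mem_union, Finset.mem_filter]
    right
    refine ⟨Finset.mem_union_right _ ?_, hP⟩
    rw [Finsupp.mem_support_iff, hDb]
    exact hne
  rw [← h1, Finset.sum_congr rfl fun P _ => hsplit P, Finset.sum_sub_distrib,
    sum_ord_eq h HL a hra W' hW' hza, sum_ord_eq h HL b hrb W' hW' hzb]

/-! ### the disc is not empty -/

include h in
/-- there is an element of `C` vanishing at the closed point with a simple zero of the reduction. -/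
theorem exists_red_unif : ∃ z : C, χ z = 0 ∧ Q.ord (red z) = 1 := by
  obtain ⟨π, hπ⟩ := ffp_exists_irreducible Q
  have hπ1 : Q.ord (π : Ft) = 1 := Q.ord_coe_irreducible hπ
  obtain ⟨z, hz⟩ := (h.mem_Q (π : Ft)).mp π.2
  have hr : red z ≠ 0 := by
    rw [hz]
    exact fun h0 => hπ.ne_zero (Subtype.ext h0)
  refine ⟨z, (h.ord_red_pos_iff hr).mp (by rw [hz, hπ1]; exact one_pos), by rw [hz, hπ1]⟩

include h in
/-- **the residue disc is not empty.** -/
theorem disc_nonempty : ∃ P : Place L F, InDisc C P := by
  obtain ⟨z, hχ, hz⟩ := exists_red_unif h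
  have hr : red z ≠ 0 := by
    intro h0
    rw [h0, Place.ord_zero] at hz
    exact zero_ne_one hz
  obtain ⟨P, hP, -⟩ := exists_inDisc_ord_pos h hχ hr
  exact ⟨P, hP⟩

end Fermat.Agent.ORD.IFACEN.DiscSum8
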