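/-
PROGRAMME ORD (S33), chapter O6 IFACEN (helper2): **(LIFT) from chart-level hypotheses** — the
abstract half of the proof of `NSInputN9.LiftsMatched 𝔻` (every tuple of reduced functions which is
regular at the branches with matched values at the nodes lifts to a function integral on every
component and without poles on the annuli).

`LiftChart 𝔻` : an additive subgroup `B ≤ F` (in the instance: the semilocal ring of the model at the
nodes, at the `ℚ̄` level) with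
* (B1) `B ≤ Gall` and every `b ∈ B` is pole-free on every annulus;
* (B3) CONDUCTOR : for every component `v` and every `f : Ft` vanishing at all branches of `v`, some
  `b ∈ B` reduces to `f` on `v` and to `0` on all other components
  (`(∩_{w ≠ v} 𝔭_w) B_S → (ideal of the branch points of C_v)` is onto: locally `𝔭₁ B_𝔪 = (π, y)` and
  `red₂ y` is a uniformizer at the branch);
* (L4) INTERPOLATION : every family `(a e) ∈ k^E` of values at the nodes is taken by some `b ∈ B`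
  (CRT for the node ideals `𝔪_e` of the chart, residue fields `k`).

`liftsMatched_of_chart : LiftChart 𝔻 → LiftsMatched 𝔻` (`ι` finite; uses helper3's `nodeMatched`).

`LiftChart.ofStar` : when ONE component `v₁` meets every node (the two-component model of `X₀(M'p)`),
(L4) follows from (B2) at `v₁` : every `f : Ft` regular at the branches of `v₁` is `red_{v₁} b`, `b ∈ B`
(`comp_surj` : `B/𝔭₁ ≅ B⁰/π`, localised at the supersingular points), and the existence of functions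
on `C_{v₁}` with prescribed values at finitely many places (`hsep`).
-/
import Mathlib
import Fermat.Agent.ORD.NSN.NSInputN9
import Fermat.Agent.ORD.ANN.MatchedDatum3
import Fermat.Agent.ES.HECKE.WeakApprox25

set_option autoImplicit false
set_option linter.unusedSectionVars false
set_option linter.style.longLine false

namespace Fermat.Agent.ORD.IFACEN.LiftAbs2

open AlgebraicCurve Fermat.Agent.X0.FF Fermat.Agent.RR.LSpace Fermat.Agent.MW.EMB.Value6
open Fermat.Agent.ORD.SEMIRED.SemiRedDatum9 Fermat.Agent.ORD.NSN.NSInputN9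
open Fermat.Agent.ORD.ANN.MatchedDatum3

noncomputable section

variable {L F k Ft : Type*} [Field L] [Field F] [Algebra L F] [Field k] [Field Ft] [Algebra k Ft]
variable {ι E : Type*}

/-- **Chart-level hypotheses for (LIFT).** -/
structure LiftChart (𝔻 : SemiRedDatum L F k Ft ι E) where
  /-- the semilocal ring of the model at the nodes (only its additive structure is used) -/
  B : AddSubgroup F
  /-- (B1) integrality on every component -/
  mem_G : ∀ b ∈ B, ∀ v, b ∈ 𝔻.G v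
  /-- (B1) no poles on the annuli -/
  poleFree : ∀ b ∈ B, ∀ e, 𝔻.PoleFreeAnn b e
  /-- (B3) conductor -/
  conductor : ∀ (v : ι) (f : Ft), (∀ Q, 𝔻.IsBranch v Q → 0 < Q.ord f) →
    ∃ (b : F) (hb : b ∈ B), 𝔻.red v ⟨b, mem_G b hb v⟩ = f ∧
      ∀ w, w ≠ v → 𝔻.red w ⟨b, mem_G b hb w⟩ = 0
  /-- (L4) interpolation at the nodes -/
  interp : ∀ a : E → k, ∃ (b : F) (hb : b ∈ B), ∀ e,
    valF 𝔻.Hk (𝔻.Qs e) (𝔻.red (𝔻.src e) ⟨b, mem_G b hb (𝔻.src e)⟩) = a e

variable {𝔻 : SemiRedDatum L F k Ft ι E}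

/-- the reduction of a sum of integral functions. -/
theorem red_finset_sum {α : Type*} (s : Finset α) (v : ι) (z : α → F) (hz : ∀ a, z a ∈ 𝔻.G v)
    (hs : ∑ a ∈ s, z a ∈ 𝔻.G v) :
    𝔻.red v ⟨∑ a ∈ s, z a, hs⟩ = ∑ a ∈ s, 𝔻.red v ⟨z a, hz a⟩ := by
  have h : (⟨∑ a ∈ s, z a, hs⟩ : 𝔻.G v) = ∑ a ∈ s, (⟨z a, hz a⟩ : 𝔻.G v) := by
    apply Subtype.ext
    rw [← (𝔻.G v).subtype_apply (∑ a ∈ s, (⟨z a, hz a⟩ : 𝔻.G v)), map_sum]
    rfl
  rw [h, map_sum]

/-- **(LIFT) from chart-level hypotheses.** -/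
theorem liftsMatched_of_chart [Finite ι] (C : LiftChart 𝔻) : LiftsMatched 𝔻 := by
  classical
  have : Fintype ι := Fintype.ofFinite ι
  intro f hs ht hm
  -- interpolate the values at the nodes
  obtain ⟨b0, hb0, hval⟩ := C.interp fun e => valF 𝔻.Hk (𝔻.Qs e) (f (𝔻.src e))
  have hG0 := C.mem_G b0 hb0
  have hnode := fun e => nodeMatched 𝔻 e b0 (hG0 (𝔻.src e)) (hG0 (𝔻.tgt e)) (C.poleFree b0 hb0 e)
  -- the difference vanishes at all branches
  set h : ι → Ft := fun v => f v - 𝔻.red v ⟨b0, hG0 v⟩ with hh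
  have hvan : ∀ v, h v ≠ 0 → ∀ Q, 𝔻.IsBranch v Q → 0 < Q.ord (h v) := by
    intro v hv Q hQ
    rcases hQ with ⟨e, hev, heQ⟩ | ⟨e, hev, heQ⟩
    · subst hev
      subst heQ
      obtain ⟨h1, -, -, -⟩ := hnode e
      have hfm : f (𝔻.src e) ∈ (𝔻.Qs e).toValuationSubring := ffp_mem_of_ord_nonneg _ (hs e)
      have hgm : 𝔻.red (𝔻.src e) ⟨b0, hG0 (𝔻.src e)⟩ ∈ (𝔻.Qs e).toValuationSubring :=
        ffp_mem_of_ord_nonneg _ h1
      have hmem : h (𝔻.src e) ∈ (𝔻.Qs e).toValuationSubring := sub_mem hfm hgm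
      have h0 : valF 𝔻.Hk (𝔻.Qs e) (h (𝔻.src e)) = 0 := by
        rw [hh, valF_sub 𝔻.Hk _ hfm hgm, hval e, sub_self]
      rcases (valF_eq_zero_iff 𝔻.Hk _ hmem).mp h0 with h' | h'
      · exact absurd h' hv
      · exact h'
    · subst hev
      subst heQ
      obtain ⟨-, h2, h3, -⟩ := hnode e
      have hfm : f (𝔻.tgt e) ∈ (𝔻.Qt e).toValuationSubring := ffp_mem_of_ord_nonneg _ (ht e)
      have hgm : 𝔻.red (𝔻.tgt e) ⟨b0, hG0 (𝔻.tgt e)⟩ ∈ (𝔻.Qt e).toValuationSubring :=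
        ffp_mem_of_ord_nonneg _ h2
      have hmem : h (𝔻.tgt e) ∈ (𝔻.Qt e).toValuationSubring := sub_mem hfm hgm
      have h0 : valF 𝔻.Hk (𝔻.Qt e) (h (𝔻.tgt e)) = 0 := by
        rw [hh, valF_sub 𝔻.Hk _ hfm hgm, ← h3, ← hm e, hval e, sub_self]
      rcases (valF_eq_zero_iff 𝔻.Hk _ hmem).mp h0 with h' | h'
      · exact absurd h' hv
      · exact h'
  -- the conductor lifts
  have hex : ∀ v, ∃ (z : F) (hz : z ∈ C.B), 𝔻.red v ⟨z, C.mem_G z hz v⟩ = h v ∧
      ∀ w, w ≠ v → 𝔻.red w ⟨z, C.mem_G z hz w⟩ = 0 := by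
    intro v
    by_cases hv : h v = 0
    · refine ⟨0, C.B.zero_mem, ?_, fun w _ => ?_⟩
      · rw [hv]; exact map_zero (𝔻.red v)
      · exact map_zero (𝔻.red w)
    · exact C.conductor v (h v) (hvan v hv)
  choose z hzB hzv hzw using hex
  have hsumB : ∑ v, z v ∈ C.B := C.B.sum_mem fun v _ => hzB v
  have hyB : b0 + ∑ v, z v ∈ C.B := C.B.add_mem hb0 hsumB
  refine ⟨b0 + ∑ v, z v, C.mem_G _ hyB, fun v => ?_, C.poleFree _ hyB⟩
  have hsplit : (⟨b0 + ∑ w, z w, C.mem_G _ hyB v⟩ : 𝔻.G v) =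
      ⟨b0, hG0 v⟩ + ⟨∑ w, z w, C.mem_G _ hsumB v⟩ := rfl
  rw [hsplit, map_add, red_finset_sum Finset.univ v z (fun w => C.mem_G _ (hzB w) v),
    Finset.sum_eq_single v]
  · rw [hzv v, hh]
    ring
  · intro w _ hwv
    exact hzw w v (Ne.symm hwv)
  · intro hv; exact absurd (Finset.mem_univ v) hv

/-! ### prescribed values at finitely many places -/

/-- **Weak approximation, value form**: a function with prescribed values at finitely many places. -/
theorem exists_prescribed_values {K R : Type*} [Field K] [Field R] [Algebra K R] (H : LHyp K R)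
    (S : Finset (Place K R)) (c : Place K R → K) :
    ∃ g : R, ∀ Q ∈ S, 0 ≤ Q.ord g ∧ valF H Q g = c Q := by
  classical
  -- idempotents
  have hex : ∀ Q : Place K R, ∃ ε : R, (Q ∈ S → 0 < Q.ord (ε - 1)) ∧
      ∀ w ∈ S, w ≠ Q → 0 < w.ord ε := by
    intro Q
    obtain ⟨ε, -, -, h1, h2⟩ := Fermat.Agent.ES.HECKE.WeakApprox25.exists_one_zero Q (S.erase Q)
      (Finset.notMem_erase Q S) 1 le_rfl
    refine ⟨ε, fun _ => by norm_num at h1; omega, fun w hw hne => ?_⟩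
    have := h2 w (Finset.mem_erase.mpr ⟨hne, hw⟩)
    norm_num at this
    omega
  choose ε hε1 hε0 using hex
  refine ⟨∑ Q ∈ S, algebraMap K R (c Q) * ε Q, fun Q0 hQ0 => ?_⟩
  -- membership of the terms
  have hmemε : ∀ Q ∈ S, ε Q ∈ Q0.toValuationSubring := by
    intro Q hQ
    by_cases hne : Q0 = Q
    · subst hne
      have h1 : ε Q0 - 1 ∈ Q0.toValuationSubring := ffp_mem_of_ord_nonneg _ (hε1 Q0 hQ0).le
      have : ε Q0 = (ε Q0 - 1) + 1 := by ring
      rw [this]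
      exact add_mem h1 (one_mem _)
    · exact ffp_mem_of_ord_nonneg _ (hε0 Q Q0 hQ0 hne).le
  have hmemc : ∀ Q, algebraMap K R (c Q) ∈ Q0.toValuationSubring := fun Q =>
    ffp_mem_of_ord_nonneg _ (by rw [ffp_ord_algebraMap])
  have hmemt : ∀ Q ∈ S, algebraMap K R (c Q) * ε Q ∈ Q0.toValuationSubring := fun Q hQ =>
    mul_mem (hmemc Q) (hmemε Q hQ)
  refine ⟨ffp_ord_nonneg_of_mem _ (sum_mem hmemt), ?_⟩
  rw [valF_sum H Q0 S _ hmemt, Finset.sum_eq_single Q0]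
  · rw [valF_mul H Q0 (hmemc Q0) (hmemε Q0 hQ0), valF_algebraMap]
    have h1 : ε Q0 - 1 ∈ Q0.toValuationSubring := ffp_mem_of_ord_nonneg _ (hε1 Q0 hQ0).le
    have h2 : valF H Q0 (ε Q0 - 1) = 0 :=
      (valF_eq_zero_iff H Q0 h1).mpr (Or.inr (hε1 Q0 hQ0))
    have h3 : valF H Q0 (ε Q0) = 1 := by
      have : ε Q0 = (ε Q0 - 1) + 1 := by ring
      rw [this, valF_add H Q0 h1 (one_mem _), h2, valF_one, zero_add]
    rw [h3, mul_one]
  · intro Q hQ hne
    rw [valF_mul H Q0 (hmemc Q) (hmemε Q hQ), valF_algebraMap]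
    have h1 : valF H Q0 (ε Q) = 0 :=
      (valF_eq_zero_iff H Q0 (hmemε Q hQ)).mpr (Or.inr (hε0 Q Q0 hQ0 (Ne.symm hne)))
    rw [h1, mul_zero]
  · intro h; exact absurd hQ0 h

/-! ### the star-shaped case -/

/-- **The star-shaped case** (e.g. two components, every node between them): when one component `v₁`
meets every node, (L4) follows from (B2) at `v₁` : every `f : Ft` regular at the branches of `v₁` is the
reduction on `v₁` of some `b ∈ B`. -/
def LiftChart.ofStar [Finite E] (𝔻 : SemiRedDatum L F k Ft ι E) (B : AddSubgroup F)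
    (mem_G : ∀ b ∈ B, ∀ v, b ∈ 𝔻.G v) (poleFree : ∀ b ∈ B, ∀ e, 𝔻.PoleFreeAnn b e)
    (conductor : ∀ (v : ι) (f : Ft), (∀ Q, 𝔻.IsBranch v Q → 0 < Q.ord f) →
      ∃ (b : F) (hb : b ∈ B), 𝔻.red v ⟨b, mem_G b hb v⟩ = f ∧
        ∀ w, w ≠ v → 𝔻.red w ⟨b, mem_G b hb w⟩ = 0)
    (v₁ : ι) (hstar : ∀ e, 𝔻.src e = v₁ ∨ 𝔻.tgt e = v₁)
    (surj₁ : ∀ f : Ft, (∀ Q, 𝔻.IsBranch v₁ Q → 0 ≤ Q.ord f) →
      ∃ (b : F) (hb : b ∈ B), 𝔻.red v₁ ⟨b, mem_G b hb v₁⟩ = f) : LiftChart 𝔻 where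
  B := B
  mem_G := mem_G
  poleFree := poleFree
  conductor := conductor
  interp := by
    classical
    have : Fintype E := Fintype.ofFinite E
    intro a
    -- the branches of `v₁` and the values to interpolate
    set S : Finset (Place k Ft) :=
      (Finset.univ.filter fun e => 𝔻.src e = v₁).image (fun e => 𝔻.Qs e) ∪
        (Finset.univ.filter fun e => 𝔻.tgt e = v₁).image (fun e => 𝔻.Qt e) with hS
    set c : Place k Ft → k := fun Q =>
      ∑ e, if (𝔻.src e = v₁ ∧ 𝔻.Qs e = Q) ∨ (𝔻.tgt e = v₁ ∧ 𝔻.Qt e = Q) then a e else 0 with hc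
    have hcs : ∀ e, 𝔻.src e = v₁ → c (𝔻.Qs e) = a e := by
      intro e he
      rw [hc]
      show (∑ e', if (𝔻.src e' = v₁ ∧ 𝔻.Qs e' = 𝔻.Qs e) ∨ (𝔻.tgt e' = v₁ ∧ 𝔻.Qt e' = 𝔻.Qs e)
        then a e' else 0) = a e
      rw [Finset.sum_eq_single e]
      · rw [if_pos (Or.inl ⟨he, rfl⟩)]
      · intro e' _ hne
        rw [if_neg]
        rintro (⟨h1, h2⟩ | ⟨h1, h2⟩)
        · exact hne (𝔻.branch_s_inj e' e (h1.trans he.symm) h2)
        · exact 𝔻.branch_st e e' (he.trans h1.symm) h2.symm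
      · intro h; exact absurd (Finset.mem_univ e) h
    have hct : ∀ e, 𝔻.tgt e = v₁ → c (𝔻.Qt e) = a e := by
      intro e he
      rw [hc]
      show (∑ e', if (𝔻.src e' = v₁ ∧ 𝔻.Qs e' = 𝔻.Qt e) ∨ (𝔻.tgt e' = v₁ ∧ 𝔻.Qt e' = 𝔻.Qt e)
        then a e' else 0) = a e
      rw [Finset.sum_eq_single e]
      · rw [if_pos (Or.inr ⟨he, rfl⟩)]
      · intro e' _ hne
        rw [if_neg]
        rintro (⟨h1, h2⟩ | ⟨h1, h2⟩)
        · exact 𝔻.branch_st e' e (h1.trans he.symm) h2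
        · exact hne (𝔻.branch_t_inj e' e (h1.trans he.symm) h2)
      · intro h; exact absurd (Finset.mem_univ e) h
    obtain ⟨g, hg⟩ := exists_prescribed_values 𝔻.Hk S c
    have hSs : ∀ e, 𝔻.src e = v₁ → 𝔻.Qs e ∈ S := fun e he =>
      Finset.mem_union_left _ (Finset.mem_image.mpr
        ⟨e, Finset.mem_filter.mpr ⟨Finset.mem_univ e, he⟩, rfl⟩)
    have hSt : ∀ e, 𝔻.tgt e = v₁ → 𝔻.Qt e ∈ S := fun e he =>
      Finset.mem_union_right _ (Finset.mem_image.mpr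
        ⟨e, Finset.mem_filter.mpr ⟨Finset.mem_univ e, he⟩, rfl⟩)
    obtain ⟨b, hb, hbg⟩ := surj₁ g (by
      rintro Q (⟨e, he, rfl⟩ | ⟨e, he, rfl⟩)
      · exact (hg _ (hSs e he)).1
      · exact (hg _ (hSt e he)).1)
    refine ⟨b, hb, fun e => ?_⟩
    have hnode := nodeMatched 𝔻 e b (mem_G b hb (𝔻.src e)) (mem_G b hb (𝔻.tgt e))
      (poleFree b hb e)
    rcases hstar e with he | he
    · have h1 : 𝔻.red (𝔻.src e) ⟨b, mem_G b hb (𝔻.src e)⟩ = g := by
        rw [← hbg]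
        clear_value S c
        clear hnode hSs hSt hcs hct hg
        subst he
        rfl
      rw [h1, (hg _ (hSs e he)).2, hcs e he]
    · have h1 : 𝔻.red (𝔻.tgt e) ⟨b, mem_G b hb (𝔻.tgt e)⟩ = g := by
        rw [← hbg]
        clear_value S c
        clear hnode hSs hSt hcs hct hg
        subst he
        rfl
      rw [hnode.2.2.1, h1, (hg _ (hSt e he)).2, hct e he]

/-- **(LIFT) in the star-shaped case.** -/
theorem liftsMatched_of_star [Finite ι] [Finite E] (𝔻 : SemiRedDatum L F k Ft ι E)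
    (B : AddSubgroup F)
    (mem_G : ∀ b ∈ B, ∀ v, b ∈ 𝔻.G v) (poleFree : ∀ b ∈ B, ∀ e, 𝔻.PoleFreeAnn b e)
    (conductor : ∀ (v : ι) (f : Ft), (∀ Q, 𝔻.IsBranch v Q → 0 < Q.ord f) →
      ∃ (b : F) (hb : b ∈ B), 𝔻.red v ⟨b, mem_G b hb v⟩ = f ∧
        ∀ w, w ≠ v → 𝔻.red w ⟨b, mem_G b hb w⟩ = 0)
    (v₁ : ι) (hstar : ∀ e, 𝔻.src e = v₁ ∨ 𝔻.tgt e = v₁)
    (surj₁ : ∀ f : Ft, (∀ Q, 𝔻.IsBranch v₁ Q → 0 ≤ Q.ord f) →
      ∃ (b : F) (hb : b ∈ B), 𝔻.red v₁ ⟨b, mem_G b hb v₁⟩ = f) : LiftsMatched 𝔻 :=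
  liftsMatched_of_chart (LiftChart.ofStar 𝔻 B mem_G poleFree conductor v₁ hstar surj₁)

end

end Fermat.Agent.ORD.IFACEN.LiftAbs2
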