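/-
PROGRAMME ORD (S33), chapter O6 IFACEN (helper2): **(LIFT) for a two-component model from LOCAL
statements at the nodes of ONE chart ring** — the second abstract layer of the proof of
`NSInputN9.LiftsMatched 𝔻` (the first is `LiftAbs2`).

Setting: two components `v₁ ≠ v₂`, every node oriented `v₁ → v₂` (the model of `X₀(M'p)`), and a
subring `BA ≤ F` (the `ℚ̄`-level chart containing all the nodes) with
* (C0) `BA ≤ G v` for both `v`, and every `b ∈ BA` is pole-free on every annulus.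
The node ideal `𝔪_e` of `BA` is `{d | (red_{v₁} d)(Qs e) = 0}` (a prime ideal, `nodeIdeal`).
* (VAL₁) `val₁` : for every node `e`, every `f : Ft` regular at `Qs e` is `red_{v₁} a / red_{v₁} d`
  with `a, d ∈ BA`, `d ∉ 𝔪_e`   (`red_{v₁}((BA)_{𝔪_e})` is the local ring of `C_{v₁}` at the branch);
* (COND₂) `cond₂` : for every node `e`, every `f : Ft` vanishing at `Qt e` is `red_{v₂} a / red_{v₂} d`
  with `a, d ∈ BA`, `d ∉ 𝔪_e`, `red_{v₁} a = 0`   (`red_{v₂}(𝔭₁ (BA)_{𝔪_e})` is the maximal ideal of the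
  local ring of `C_{v₂}` at the branch).

`liftsMatched_of_two` : then `LiftsMatched 𝔻`.  (Global denominators by prime avoidance; units and
pole-freeness of the denominators from helper3's `nodeMatched`.)

`cond₂_of_val₂` : (COND₂) from (VAL₂) (the analogue of (VAL₁) on `v₂`) and, for every node, a quotient
`ya / yd` (`ya, yd ∈ BA`, `yd ∉ 𝔪_e`, `red_{v₁} ya = 0`) whose reduction on `v₂` is a uniformizer at
`Qt e` (in the instance `ya / yd = π_e / x_e`, the second node coordinate).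

`liftsMatched_of_surj_cond` : the general star-shaped statement behind it (surjectivity on the centre
`v₁`, conductor on the other components).
-/
import Mathlib
import Fermat.Agent.ORD.IFACEN.LiftAbs2

set_option autoImplicit false
set_option linter.unusedSectionVars false
set_option linter.style.longLine false

namespace Fermat.Agent.ORD.IFACEN.LiftTwo2

open AlgebraicCurve Fermat.Agent.X0.FF Fermat.Agent.RR.LSpace Fermat.Agent.MW.EMB.Value6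
open Fermat.Agent.ORD.ANN.Side3
open Fermat.Agent.ORD.SEMIRED.SemiRedDatum9 Fermat.Agent.ORD.NSN.NSInputN9
open Fermat.Agent.ORD.ANN.MatchedDatum3 Fermat.Agent.ORD.IFACEN.LiftAbs2

noncomputable section

variable {L F k Ft : Type*} [Field L] [Field F] [Algebra L F] [Field k] [Field Ft] [Algebra k Ft]
variable {ι E : Type*} {𝔻 : SemiRedDatum L F k Ft ι E}

/-- the reduction does not depend on the name of the component. -/
theorem red_congr {v w : ι} (h : v = w) {b : F} (hv : b ∈ 𝔻.G v) (hw : b ∈ 𝔻.G w) :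
    𝔻.red v ⟨b, hv⟩ = 𝔻.red w ⟨b, hw⟩ := by
  subst h
  rfl

/-! ### the star-shaped case: surjectivity on the centre, conductor on the other components -/

/-- **(LIFT), star-shaped case.**  `v₁` meets every node; `B` an additive subgroup of `Gall`, pole-free
on the annuli, with (B2) at `v₁` and (B3) at every `v ≠ v₁`. -/
theorem liftsMatched_of_surj_cond [Finite ι] (𝔻 : SemiRedDatum L F k Ft ι E) (B : AddSubgroup F)
    (mem_G : ∀ b ∈ B, ∀ v, b ∈ 𝔻.G v) (poleFree : ∀ b ∈ B, ∀ e, 𝔻.PoleFreeAnn b e)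
    (v₁ : ι) (hstar : ∀ e, 𝔻.src e = v₁ ∨ 𝔻.tgt e = v₁)
    (surj₁ : ∀ f : Ft, (∀ Q, 𝔻.IsBranch v₁ Q → 0 ≤ Q.ord f) →
      ∃ (b : F) (hb : b ∈ B), 𝔻.red v₁ ⟨b, mem_G b hb v₁⟩ = f)
    (conductor : ∀ (v : ι), v ≠ v₁ → ∀ f : Ft, (∀ Q, 𝔻.IsBranch v Q → 0 < Q.ord f) →
      ∃ (b : F) (hb : b ∈ B), 𝔻.red v ⟨b, mem_G b hb v⟩ = f ∧
        ∀ w, w ≠ v → 𝔻.red w ⟨b, mem_G b hb w⟩ = 0) : LiftsMatched 𝔻 := by
  classical
  have : Fintype ι := Fintype.ofFinite ι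
  intro f hs ht hm
  -- lift the component on `v₁`
  obtain ⟨b0, hb0, hb0f⟩ := surj₁ (f v₁) (by
    rintro Q (⟨e, he, rfl⟩ | ⟨e, he, rfl⟩)
    · have := hs e; rwa [he] at this
    · have := ht e; rwa [he] at this)
  have hG0 := mem_G b0 hb0
  have hnode := fun e => nodeMatched 𝔻 e b0 (hG0 (𝔻.src e)) (hG0 (𝔻.tgt e)) (poleFree b0 hb0 e)
  have hb0w : ∀ w, w = v₁ → 𝔻.red w ⟨b0, hG0 w⟩ = f w := by
    intro w hw
    subst hw
    exact hb0f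
  -- the difference vanishes at the branches of the other components
  set h : ι → Ft := fun v => f v - 𝔻.red v ⟨b0, hG0 v⟩ with hh
  have hh1 : h v₁ = 0 := by rw [hh]; show f v₁ - _ = 0; rw [hb0f, sub_self]
  have hvan : ∀ v, v ≠ v₁ → h v ≠ 0 → ∀ Q, 𝔻.IsBranch v Q → 0 < Q.ord (h v) := by
    intro v hv1 hv Q hQ
    rcases hQ with ⟨e, hev, heQ⟩ | ⟨e, hev, heQ⟩
    · subst hev
      subst heQ
      have het : 𝔻.tgt e = v₁ := (hstar e).resolve_left hv1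
      obtain ⟨h1, -, h3, -⟩ := hnode e
      have hfm : f (𝔻.src e) ∈ (𝔻.Qs e).toValuationSubring := ffp_mem_of_ord_nonneg _ (hs e)
      have hgm : 𝔻.red (𝔻.src e) ⟨b0, hG0 (𝔻.src e)⟩ ∈ (𝔻.Qs e).toValuationSubring :=
        ffp_mem_of_ord_nonneg _ h1
      have hmem : h (𝔻.src e) ∈ (𝔻.Qs e).toValuationSubring := sub_mem hfm hgm
      have h0 : valF 𝔻.Hk (𝔻.Qs e) (h (𝔻.src e)) = 0 := by
        rw [hh, valF_sub 𝔻.Hk _ hfm hgm, h3, hm e, hb0w _ het, sub_self]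
      rcases (valF_eq_zero_iff 𝔻.Hk _ hmem).mp h0 with h' | h'
      · exact absurd h' hv
      · exact h'
    · subst hev
      subst heQ
      have hes : 𝔻.src e = v₁ := (hstar e).resolve_right hv1
      obtain ⟨-, h2, h3, -⟩ := hnode e
      have hfm : f (𝔻.tgt e) ∈ (𝔻.Qt e).toValuationSubring := ffp_mem_of_ord_nonneg _ (ht e)
      have hgm : 𝔻.red (𝔻.tgt e) ⟨b0, hG0 (𝔻.tgt e)⟩ ∈ (𝔻.Qt e).toValuationSubring :=
        ffp_mem_of_ord_nonneg _ h2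
      have hmem : h (𝔻.tgt e) ∈ (𝔻.Qt e).toValuationSubring := sub_mem hfm hgm
      have h0 : valF 𝔻.Hk (𝔻.Qt e) (h (𝔻.tgt e)) = 0 := by
        rw [hh, valF_sub 𝔻.Hk _ hfm hgm, ← h3, ← hm e, hb0w _ hes, sub_self]
      rcases (valF_eq_zero_iff 𝔻.Hk _ hmem).mp h0 with h' | h'
      · exact absurd h' hv
      · exact h'
  -- the conductor lifts
  have hex : ∀ v, ∃ (z : F) (hz : z ∈ B), 𝔻.red v ⟨z, mem_G z hz v⟩ = h v ∧
      ∀ w, w ≠ v → 𝔻.red w ⟨z, mem_G z hz w⟩ = 0 := by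
    intro v
    by_cases hv : h v = 0
    · refine ⟨0, B.zero_mem, ?_, fun w _ => ?_⟩
      · rw [hv]; exact map_zero (𝔻.red v)
      · exact map_zero (𝔻.red w)
    · have hv1 : v ≠ v₁ := fun h' => hv (h' ▸ hh1)
      exact conductor v hv1 (h v) (hvan v hv1 hv)
  choose z hzB hzv hzw using hex
  have hsumB : ∑ v, z v ∈ B := B.sum_mem fun v _ => hzB v
  have hyB : b0 + ∑ v, z v ∈ B := B.add_mem hb0 hsumB
  refine ⟨b0 + ∑ v, z v, mem_G _ hyB, fun v => ?_, poleFree _ hyB⟩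
  have hsplit : (⟨b0 + ∑ w, z w, mem_G _ hyB v⟩ : 𝔻.G v) =
      ⟨b0, hG0 v⟩ + ⟨∑ w, z w, mem_G _ hsumB v⟩ := rfl
  rw [hsplit, map_add, red_finset_sum Finset.univ v z (fun w => mem_G _ (hzB w) v),
    Finset.sum_eq_single v]
  · rw [hzv v, hh]
    ring
  · intro w _ hwv
    exact hzw w v (Ne.symm hwv)
  · intro hv; exact absurd (Finset.mem_univ v) hv

/-! ### two components, one chart ring -/

section Two

variable (𝔻) (v₁ v₂ : ι) (hsrc : ∀ e, 𝔻.src e = v₁) (htgt : ∀ e, 𝔻.tgt e = v₂)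
  (BA : Subring F) (hG : ∀ b ∈ BA, ∀ v, b ∈ 𝔻.G v) (hpf : ∀ b ∈ BA, ∀ e, 𝔻.PoleFreeAnn b e)

include hsrc htgt hpf

/-- the value of an element of the chart at the node `e` (read on the branch of `v₁`). -/
def nodeVal (e : E) (b : BA) : k := valF 𝔻.Hk (𝔻.Qs e) (𝔻.red v₁ ⟨b, hG b b.2 v₁⟩)

omit htgt in
/-- the reduction on `v₁` of an element of the chart is regular at the branch. -/
theorem red₁_mem (e : E) (b : BA) :
    𝔻.red v₁ ⟨b, hG b b.2 v₁⟩ ∈ (𝔻.Qs e).toValuationSubring := by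
  have h := (nodeMatched 𝔻 e b (hG b b.2 _) (hG b b.2 _) (hpf b b.2 e)).1
  rw [red_congr (hsrc e) (hG b b.2 _) (hG b b.2 v₁)] at h
  exact ffp_mem_of_ord_nonneg _ h

/-- the reduction on `v₂` of an element of the chart is regular at the branch, with the same value. -/
theorem red₂_mem (e : E) (b : BA) :
    𝔻.red v₂ ⟨b, hG b b.2 v₂⟩ ∈ (𝔻.Qt e).toValuationSubring ∧
      valF 𝔻.Hk (𝔻.Qt e) (𝔻.red v₂ ⟨b, hG b b.2 v₂⟩) = nodeVal 𝔻 v₁ BA hG e b := by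
  have h := nodeMatched 𝔻 e b (hG b b.2 _) (hG b b.2 _) (hpf b b.2 e)
  rw [red_congr (hsrc e) (hG b b.2 _) (hG b b.2 v₁),
    red_congr (htgt e) (hG b b.2 _) (hG b b.2 v₂)] at h
  exact ⟨ffp_mem_of_ord_nonneg _ h.2.1, h.2.2.1.symm⟩

omit htgt in
/-- an element of the chart which does not vanish at the node has no zero on the annulus. -/
theorem ord_eq_zero_of_nodeVal_ne_zero {e : E} {d : BA} (hd : nodeVal 𝔻 v₁ BA hG e d ≠ 0)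
    {P : Place L F} (hP : 𝔻.r P = Sum.inr e) : P.ord (d : F) = 0 := by
  have h := nodeMatched 𝔻 e d (hG d d.2 _) (hG d d.2 _) (hpf d d.2 e)
  have h0 : 0 ≤ P.ord (d : F) := hpf d d.2 e P hP
  by_contra hne
  have hpos : 0 < P.ord (d : F) := lt_of_le_of_ne h0 (Ne.symm hne)
  have := h.2.2.2 ⟨P, hP, hpos⟩
  rw [red_congr (hsrc e) (hG d d.2 _) (hG d d.2 v₁)] at this
  exact hd this

/-- **the node ideal** `𝔪_e` of the chart. -/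
def nodeIdeal (e : E) : Ideal BA where
  carrier := {d | nodeVal 𝔻 v₁ BA hG e d = 0}
  zero_mem' := by
    show valF 𝔻.Hk (𝔻.Qs e) (𝔻.red v₁ ⟨((0 : BA) : F), _⟩) = 0
    have : (⟨((0 : BA) : F), hG _ (0 : BA).2 v₁⟩ : 𝔻.G v₁) = 0 := rfl
    rw [this, map_zero, valF_zero]
  add_mem' := by
    intro a b ha hb
    show valF 𝔻.Hk (𝔻.Qs e) (𝔻.red v₁ ⟨((a + b : BA) : F), _⟩) = 0
    have : (⟨((a + b : BA) : F), hG _ (a + b).2 v₁⟩ : 𝔻.G v₁) =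
        ⟨a, hG a a.2 v₁⟩ + ⟨b, hG b b.2 v₁⟩ := rfl
    rw [this, map_add, valF_add 𝔻.Hk _ (red₁_mem 𝔻 v₁ hsrc BA hG hpf e a)
      (red₁_mem 𝔻 v₁ hsrc BA hG hpf e b)]
    have ha' : valF 𝔻.Hk (𝔻.Qs e) (𝔻.red v₁ ⟨a, hG a a.2 v₁⟩) = 0 := ha
    have hb' : valF 𝔻.Hk (𝔻.Qs e) (𝔻.red v₁ ⟨b, hG b b.2 v₁⟩) = 0 := hb
    rw [ha', hb', add_zero]
  smul_mem' := by
    intro c b hb
    show valF 𝔻.Hk (𝔻.Qs e) (𝔻.red v₁ ⟨((c * b : BA) : F), _⟩) = 0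
    have : (⟨((c * b : BA) : F), hG _ (c * b).2 v₁⟩ : 𝔻.G v₁) =
        ⟨c, hG c c.2 v₁⟩ * ⟨b, hG b b.2 v₁⟩ := rfl
    rw [this, map_mul, valF_mul 𝔻.Hk _ (red₁_mem 𝔻 v₁ hsrc BA hG hpf e c)
      (red₁_mem 𝔻 v₁ hsrc BA hG hpf e b)]
    have hb' : valF 𝔻.Hk (𝔻.Qs e) (𝔻.red v₁ ⟨b, hG b b.2 v₁⟩) = 0 := hb
    rw [hb', mul_zero]

omit htgt in
theorem mem_nodeIdeal {e : E} {d : BA} :
    d ∈ nodeIdeal 𝔻 v₁ hsrc BA hG hpf e ↔ nodeVal 𝔻 v₁ BA hG e d = 0 := Iff.rfl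

omit htgt in
theorem nodeVal_mul (e : E) (a b : BA) :
    nodeVal 𝔻 v₁ BA hG e (a * b) = nodeVal 𝔻 v₁ BA hG e a * nodeVal 𝔻 v₁ BA hG e b := by
  show valF 𝔻.Hk (𝔻.Qs e) (𝔻.red v₁ ⟨((a * b : BA) : F), _⟩) = _
  have : (⟨((a * b : BA) : F), hG _ (a * b).2 v₁⟩ : 𝔻.G v₁) =
      ⟨a, hG a a.2 v₁⟩ * ⟨b, hG b b.2 v₁⟩ := rfl
  rw [this, map_mul, valF_mul 𝔻.Hk _ (red₁_mem 𝔻 v₁ hsrc BA hG hpf e a)
    (red₁_mem 𝔻 v₁ hsrc BA hG hpf e b)]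
  rfl

omit htgt in
theorem nodeVal_one (e : E) : nodeVal 𝔻 v₁ BA hG e 1 = 1 := by
  show valF 𝔻.Hk (𝔻.Qs e) (𝔻.red v₁ ⟨((1 : BA) : F), _⟩) = 1
  have : (⟨((1 : BA) : F), hG _ (1 : BA).2 v₁⟩ : 𝔻.G v₁) = 1 := rfl
  rw [this, map_one, valF_one]

omit htgt in
theorem nodeIdeal_isPrime (e : E) : (nodeIdeal 𝔻 v₁ hsrc BA hG hpf e).IsPrime := by
  refine ⟨?_, ?_⟩
  · intro htop
    have h1 : (1 : BA) ∈ nodeIdeal 𝔻 v₁ hsrc BA hG hpf e := by rw [htop]; trivial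
    rw [mem_nodeIdeal, nodeVal_one 𝔻 v₁ hsrc BA hG hpf] at h1
    exact one_ne_zero h1
  · intro a b hab
    rw [mem_nodeIdeal, nodeVal_mul 𝔻 v₁ hsrc BA hG hpf] at hab
    rcases mul_eq_zero.mp hab with h | h
    · exact Or.inl h
    · exact Or.inr h

omit htgt in
/-- **prime avoidance at the nodes**: an ideal of the chart which is contained in no node ideal
contains an element outside all of them. -/
theorem exists_avoiding [Finite E] [Nonempty E] (J : Ideal BA)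
    (hJ : ∀ e, ∃ d ∈ J, nodeVal 𝔻 v₁ BA hG e d ≠ 0) :
    ∃ d ∈ J, ∀ e, nodeVal 𝔻 v₁ BA hG e d ≠ 0 := by
  classical
  have : Fintype E := Fintype.ofFinite E
  by_contra hcon
  push Not at hcon
  have hsub : (J : Set BA) ⊆ ⋃ e ∈ (Finset.univ : Finset E),
      (nodeIdeal 𝔻 v₁ hsrc BA hG hpf e : Set BA) := by
    intro d hd
    obtain ⟨e, he⟩ := hcon d hd
    exact Set.mem_iUnion₂.mpr ⟨e, Finset.mem_univ e, he⟩
  obtain ⟨e, -, hle⟩ := (Ideal.subset_union_prime (s := (Finset.univ : Finset E))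
    (f := fun e => nodeIdeal 𝔻 v₁ hsrc BA hG hpf e) (Classical.arbitrary E)
    (Classical.arbitrary E)
    (fun e _ _ _ => nodeIdeal_isPrime 𝔻 v₁ hsrc BA hG hpf e)).mp hsub
  obtain ⟨d, hdJ, hd⟩ := hJ e
  exact hd (hle hdJ)

/-- a denominator outside all node ideals is a unit of both Gauss rings, without zeros on the annuli:
the quotient `a / d` is integral on every component and pole-free on every annulus. -/
theorem div_mem [Nonempty E] (hι : ∀ v, v = v₁ ∨ v = v₂) (a d : BA)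
    (hd : ∀ e, nodeVal 𝔻 v₁ BA hG e d ≠ 0) :
    (∀ v, 𝔻.red v ⟨d, hG d d.2 v⟩ ≠ 0) ∧ (∀ v, (a : F) / (d : F) ∈ 𝔻.G v) ∧
      ∀ e, 𝔻.PoleFreeAnn ((a : F) / (d : F)) e := by
  obtain ⟨e0⟩ := ‹Nonempty E›
  have hred : ∀ v, 𝔻.red v ⟨d, hG d d.2 v⟩ ≠ 0 := by
    intro v h0
    rcases hι v with rfl | rfl
    · apply hd e0
      show valF 𝔻.Hk (𝔻.Qs e0) (𝔻.red v ⟨d, hG d d.2 v⟩) = 0
      rw [h0, valF_zero]
    · apply hd e0
      rw [← (red₂_mem 𝔻 v₁ v hsrc htgt BA hG hpf e0 d).2, h0, valF_zero]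
  refine ⟨hred, fun v => ?_, fun e P hP => ?_⟩
  · rw [div_eq_mul_inv]
    exact (𝔻.G v).mul_mem (hG a a.2 v) ((𝔻.side v).inv_mem (g := ⟨d, hG d d.2 v⟩) (hred v))
  · have hd0 : (d : F) ≠ 0 := by
      intro h0
      obtain ⟨v⟩ : Nonempty ι := ⟨v₁⟩
      apply hred v
      have : (⟨(d : F), hG d d.2 v⟩ : 𝔻.G v) = 0 := Subtype.ext h0
      rw [this, map_zero]
    rcases eq_or_ne (a : F) 0 with ha0 | ha0
    · rw [ha0, zero_div, Place.ord_zero]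
    rw [div_eq_mul_inv, P.ord_mul ha0 (inv_ne_zero hd0), Place.ord_inv,
      ord_eq_zero_of_nodeVal_ne_zero 𝔻 v₁ hsrc BA hG hpf (hd e) hP, neg_zero, add_zero]
    exact hpf a a.2 e P hP

/-- the reduction of a quotient with admissible denominator. -/
theorem red_div (v : ι) (a d : BA) (hd : 𝔻.red v ⟨d, hG d d.2 v⟩ ≠ 0)
    (hmem : (a : F) / (d : F) ∈ 𝔻.G v) :
    𝔻.red v ⟨(a : F) / (d : F), hmem⟩ = 𝔻.red v ⟨a, hG a a.2 v⟩ / 𝔻.red v ⟨d, hG d d.2 v⟩ := by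
  have h1 : (⟨(a : F) / (d : F), hmem⟩ : 𝔻.G v) =
      ⟨a, hG a a.2 v⟩ * ⟨((⟨d, hG d d.2 v⟩ : 𝔻.G v) : F)⁻¹, (𝔻.side v).inv_mem hd⟩ := by
    apply Subtype.ext
    show (a : F) / (d : F) = (a : F) * (d : F)⁻¹
    rw [div_eq_mul_inv]
  rw [h1, map_mul]
  have h2 := (𝔻.side v).red_inv hd
  rw [show 𝔻.red v = (𝔻.side v).red from rfl, h2, div_eq_mul_inv]

omit htgt in
/-- an element of the chart outside one node ideal is nonzero. -/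
theorem coe_ne_zero_of_nodeVal_ne_zero {e : E} {d : BA} (hd : nodeVal 𝔻 v₁ BA hG e d ≠ 0) :
    (d : F) ≠ 0 := by
  intro h0
  apply hd
  show valF 𝔻.Hk (𝔻.Qs e) (𝔻.red v₁ ⟨(d : F), hG d d.2 v₁⟩) = 0
  have : (⟨(d : F), hG d d.2 v₁⟩ : 𝔻.G v₁) = 0 := Subtype.ext h0
  rw [this, map_zero, valF_zero]

/-- the semilocal ring of the chart at the nodes, as an additive subgroup of `F`. -/
def semiLocal [Nonempty E] : AddSubgroup F where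
  carrier := {y | ∃ a d : BA, (∀ e, nodeVal 𝔻 v₁ BA hG e d ≠ 0) ∧ y = (a : F) / (d : F)}
  zero_mem' := ⟨0, 1, fun e => by rw [nodeVal_one 𝔻 v₁ hsrc BA hG hpf]; exact one_ne_zero, by simp⟩
  add_mem' := by
    rintro y y' ⟨a, d, hd, rfl⟩ ⟨a', d', hd', rfl⟩
    obtain ⟨e0⟩ := ‹Nonempty E›
    refine ⟨a * d' + a' * d, d * d', fun e => ?_, ?_⟩
    · rw [nodeVal_mul 𝔻 v₁ hsrc BA hG hpf]
      exact mul_ne_zero (hd e) (hd' e)
    · have hd0 : (d : F) ≠ 0 := coe_ne_zero_of_nodeVal_ne_zero 𝔻 v₁ hsrc BA hG hpf (hd e0)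
      have hd0' : (d' : F) ≠ 0 := coe_ne_zero_of_nodeVal_ne_zero 𝔻 v₁ hsrc BA hG hpf (hd' e0)
      push_cast
      field_simp
  neg_mem' := by
    rintro y ⟨a, d, hd, rfl⟩
    exact ⟨-a, d, hd, by push_cast; ring⟩

omit hsrc htgt hpf in
/-- the ideal of denominators of `f` on the component `v₁`. -/
def denIdeal₁ (f : Ft) : Ideal BA where
  carrier := {d | ∃ a : BA, 𝔻.red v₁ ⟨a, hG a a.2 v₁⟩ = f * 𝔻.red v₁ ⟨d, hG d d.2 v₁⟩}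
  zero_mem' := ⟨0, by
    have : (⟨((0 : BA) : F), hG _ (0 : BA).2 v₁⟩ : 𝔻.G v₁) = 0 := rfl
    rw [this, map_zero, mul_zero]⟩
  add_mem' := by
    rintro d d' ⟨a, ha⟩ ⟨a', ha'⟩
    refine ⟨a + a', ?_⟩
    have e1 : (⟨((a + a' : BA) : F), hG _ (a + a').2 v₁⟩ : 𝔻.G v₁) =
        ⟨a, hG a a.2 v₁⟩ + ⟨a', hG a' a'.2 v₁⟩ := rfl
    have e2 : (⟨((d + d' : BA) : F), hG _ (d + d').2 v₁⟩ : 𝔻.G v₁) =
        ⟨d, hG d d.2 v₁⟩ + ⟨d', hG d' d'.2 v₁⟩ := rfl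
    rw [e1, e2, map_add, map_add, ha, ha', mul_add]
  smul_mem' := by
    rintro c d ⟨a, ha⟩
    refine ⟨c * a, ?_⟩
    have e1 : (⟨((c * a : BA) : F), hG _ (c * a).2 v₁⟩ : 𝔻.G v₁) =
        ⟨c, hG c c.2 v₁⟩ * ⟨a, hG a a.2 v₁⟩ := rfl
    have e2 : (⟨((c • d : BA) : F), hG _ (c • d).2 v₁⟩ : 𝔻.G v₁) =
        ⟨c, hG c c.2 v₁⟩ * ⟨d, hG d d.2 v₁⟩ := rfl
    rw [e1, e2, map_mul, map_mul, ha]
    ring

omit hsrc htgt hpf in
/-- the ideal of denominators of `f` on the component `v₂`, with numerators vanishing on `v₁`. -/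
def denIdeal₂ (f : Ft) : Ideal BA where
  carrier := {d | ∃ a : BA, 𝔻.red v₁ ⟨a, hG a a.2 v₁⟩ = 0 ∧
    𝔻.red v₂ ⟨a, hG a a.2 v₂⟩ = f * 𝔻.red v₂ ⟨d, hG d d.2 v₂⟩}
  zero_mem' := ⟨0, by
    have e1 : (⟨((0 : BA) : F), hG _ (0 : BA).2 v₁⟩ : 𝔻.G v₁) = 0 := rfl
    have e2 : (⟨((0 : BA) : F), hG _ (0 : BA).2 v₂⟩ : 𝔻.G v₂) = 0 := rfl
    rw [e1, e2, map_zero, map_zero, mul_zero]
    exact ⟨rfl, rfl⟩⟩
  add_mem' := by
    rintro d d' ⟨a, ha0, ha⟩ ⟨a', ha0', ha'⟩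
    refine ⟨a + a', ?_, ?_⟩
    · have e0 : (⟨((a + a' : BA) : F), hG _ (a + a').2 v₁⟩ : 𝔻.G v₁) =
          ⟨a, hG a a.2 v₁⟩ + ⟨a', hG a' a'.2 v₁⟩ := rfl
      rw [e0, map_add, ha0, ha0', add_zero]
    · have e1 : (⟨((a + a' : BA) : F), hG _ (a + a').2 v₂⟩ : 𝔻.G v₂) =
          ⟨a, hG a a.2 v₂⟩ + ⟨a', hG a' a'.2 v₂⟩ := rfl
      have e2 : (⟨((d + d' : BA) : F), hG _ (d + d').2 v₂⟩ : 𝔻.G v₂) =
          ⟨d, hG d d.2 v₂⟩ + ⟨d', hG d' d'.2 v₂⟩ := rfl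
      rw [e1, e2, map_add, map_add, ha, ha', mul_add]
  smul_mem' := by
    rintro c d ⟨a, ha0, ha⟩
    refine ⟨c * a, ?_, ?_⟩
    · have e0 : (⟨((c * a : BA) : F), hG _ (c * a).2 v₁⟩ : 𝔻.G v₁) =
          ⟨c, hG c c.2 v₁⟩ * ⟨a, hG a a.2 v₁⟩ := rfl
      rw [e0, map_mul, ha0, mul_zero]
    · have e1 : (⟨((c * a : BA) : F), hG _ (c * a).2 v₂⟩ : 𝔻.G v₂) =
          ⟨c, hG c c.2 v₂⟩ * ⟨a, hG a a.2 v₂⟩ := rfl
      have e2 : (⟨((c • d : BA) : F), hG _ (c • d).2 v₂⟩ : 𝔻.G v₂) =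
          ⟨c, hG c c.2 v₂⟩ * ⟨d, hG d d.2 v₂⟩ := rfl
      rw [e1, e2, map_mul, map_mul, ha]
      ring

/-- **(LIFT) for a two-component model**, from the local statements (VAL₁) and (COND₂) at the nodes
of one chart ring. -/
theorem liftsMatched_of_two [Finite ι] [Finite E] [Nonempty E] (hι : ∀ v, v = v₁ ∨ v = v₂)
    (val₁ : ∀ (e : E) (f : Ft), 0 ≤ (𝔻.Qs e).ord f → ∃ a d : BA, nodeVal 𝔻 v₁ BA hG e d ≠ 0 ∧
      𝔻.red v₁ ⟨a, hG a a.2 v₁⟩ = f * 𝔻.red v₁ ⟨d, hG d d.2 v₁⟩)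
    (cond₂ : ∀ (e : E) (f : Ft), 0 < (𝔻.Qt e).ord f → ∃ a d : BA, nodeVal 𝔻 v₁ BA hG e d ≠ 0 ∧
      𝔻.red v₁ ⟨a, hG a a.2 v₁⟩ = 0 ∧
      𝔻.red v₂ ⟨a, hG a a.2 v₂⟩ = f * 𝔻.red v₂ ⟨d, hG d d.2 v₂⟩) : LiftsMatched 𝔻 := by
  classical
  have hmemG : ∀ b ∈ semiLocal 𝔻 v₁ hsrc BA hG hpf, ∀ v, b ∈ 𝔻.G v := by
    rintro b ⟨a, d, hd, rfl⟩ v
    exact (div_mem 𝔻 v₁ v₂ hsrc htgt BA hG hpf hι a d hd).2.1 v
  have hpoleFree : ∀ b ∈ semiLocal 𝔻 v₁ hsrc BA hG hpf, ∀ e, 𝔻.PoleFreeAnn b e := by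
    rintro b ⟨a, d, hd, rfl⟩ e
    exact (div_mem 𝔻 v₁ v₂ hsrc htgt BA hG hpf hι a d hd).2.2 e
  refine liftsMatched_of_surj_cond 𝔻 (semiLocal 𝔻 v₁ hsrc BA hG hpf) hmemG hpoleFree v₁
    (fun e => Or.inl (hsrc e)) ?_ ?_
  · -- surjectivity on `v₁`
    intro f hf
    obtain ⟨d, ⟨a, had⟩, hd⟩ := exists_avoiding 𝔻 v₁ hsrc BA hG hpf (denIdeal₁ 𝔻 v₁ BA hG f)
      (fun e => by
        obtain ⟨a, d, hd, had⟩ := val₁ e f (hf _ (Or.inl ⟨e, hsrc e, rfl⟩))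
        exact ⟨d, ⟨a, had⟩, hd⟩)
    obtain ⟨hred, hG', -⟩ := div_mem 𝔻 v₁ v₂ hsrc htgt BA hG hpf hι a d hd
    refine ⟨(a : F) / (d : F), ⟨a, d, hd, rfl⟩, ?_⟩
    rw [red_div 𝔻 v₁ v₂ hsrc htgt BA hG hpf v₁ a d (hred v₁), had, mul_div_assoc,
      div_self (hred v₁), mul_one]
  · -- conductor on `v₂`
    intro v hv f hf
    have hv2 : v = v₂ := (hι v).resolve_left hv
    subst hv2
    obtain ⟨d, ⟨a, ha0, had⟩, hd⟩ := exists_avoiding 𝔻 v₁ hsrc BA hG hpf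
      (denIdeal₂ 𝔻 v₁ v BA hG f)
      (fun e => by
        obtain ⟨a, d, hd, ha0, had⟩ := cond₂ e f (hf _ (Or.inr ⟨e, htgt e, rfl⟩))
        exact ⟨d, ⟨a, ha0, had⟩, hd⟩)
    obtain ⟨hred, hG', -⟩ := div_mem 𝔻 v₁ v hsrc htgt BA hG hpf hι a d hd
    refine ⟨(a : F) / (d : F), ⟨a, d, hd, rfl⟩, ?_, fun w hw => ?_⟩
    · rw [red_div 𝔻 v₁ v hsrc htgt BA hG hpf v a d (hred v), had, mul_div_assoc,
        div_self (hred v), mul_one]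
    · have hw1 : w = v₁ := (hι w).resolve_right hw
      subst hw1
      rw [red_div 𝔻 w v hsrc htgt BA hG hpf w a d (hred w), ha0, zero_div]

/-- **(COND₂) from (VAL₂)** and a second node coordinate: for every node a quotient `ya / yd` of
elements of the chart (`yd` a unit at the node, `ya` vanishing identically on `v₁`) whose reduction on
`v₂` is a uniformizer at the branch `Qt e`. -/
theorem cond₂_of_val₂
    (val₂ : ∀ (e : E) (f : Ft), 0 ≤ (𝔻.Qt e).ord f → ∃ a d : BA, nodeVal 𝔻 v₁ BA hG e d ≠ 0 ∧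
      𝔻.red v₂ ⟨a, hG a a.2 v₂⟩ = f * 𝔻.red v₂ ⟨d, hG d d.2 v₂⟩)
    (unif₂ : ∀ e : E, ∃ ya yd : BA, nodeVal 𝔻 v₁ BA hG e yd ≠ 0 ∧
      𝔻.red v₁ ⟨ya, hG ya ya.2 v₁⟩ = 0 ∧
      (𝔻.Qt e).ord (𝔻.red v₂ ⟨ya, hG ya ya.2 v₂⟩ / 𝔻.red v₂ ⟨yd, hG yd yd.2 v₂⟩) = 1)
    (e : E) (f : Ft) (hf : 0 < (𝔻.Qt e).ord f) : ∃ a d : BA, nodeVal 𝔻 v₁ BA hG e d ≠ 0 ∧
      𝔻.red v₁ ⟨a, hG a a.2 v₁⟩ = 0 ∧
      𝔻.red v₂ ⟨a, hG a a.2 v₂⟩ = f * 𝔻.red v₂ ⟨d, hG d d.2 v₂⟩ := by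
  obtain ⟨ya, yd, hyd, hya0, hu⟩ := unif₂ e
  have hf0 : f ≠ 0 := by
    rintro rfl
    rw [Place.ord_zero] at hf
    exact lt_irrefl _ hf
  -- the reductions of `yd`, `ya` on `v₂` are nonzero
  have hyd2 : 𝔻.red v₂ ⟨yd, hG yd yd.2 v₂⟩ ≠ 0 := by
    intro h0
    apply hyd
    rw [← (red₂_mem 𝔻 v₁ v₂ hsrc htgt BA hG hpf e yd).2, h0, valF_zero]
  have hya2 : 𝔻.red v₂ ⟨ya, hG ya ya.2 v₂⟩ ≠ 0 := by
    intro h0
    rw [h0, zero_div, Place.ord_zero] at hu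
    exact zero_ne_one hu
  set u : Ft := 𝔻.red v₂ ⟨ya, hG ya ya.2 v₂⟩ / 𝔻.red v₂ ⟨yd, hG yd yd.2 v₂⟩ with hu_def
  have hu0 : u ≠ 0 := div_ne_zero hya2 hyd2
  -- `g := f / u` is regular at the branch
  have hg : 0 ≤ (𝔻.Qt e).ord (f / u) := by
    rw [div_eq_mul_inv, (𝔻.Qt e).ord_mul hf0 (inv_ne_zero hu0), Place.ord_inv, hu]
    omega
  obtain ⟨a, d, hd, had⟩ := val₂ e (f / u) hg
  refine ⟨ya * a, yd * d, ?_, ?_, ?_⟩
  · rw [nodeVal_mul 𝔻 v₁ hsrc BA hG hpf]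
    exact mul_ne_zero hyd hd
  · have e0 : (⟨((ya * a : BA) : F), hG _ (ya * a).2 v₁⟩ : 𝔻.G v₁) =
        ⟨ya, hG ya ya.2 v₁⟩ * ⟨a, hG a a.2 v₁⟩ := rfl
    rw [e0, map_mul, hya0, zero_mul]
  · have e1 : (⟨((ya * a : BA) : F), hG _ (ya * a).2 v₂⟩ : 𝔻.G v₂) =
        ⟨ya, hG ya ya.2 v₂⟩ * ⟨a, hG a a.2 v₂⟩ := rfl
    have e2 : (⟨((yd * d : BA) : F), hG _ (yd * d).2 v₂⟩ : 𝔻.G v₂) =
        ⟨yd, hG yd yd.2 v₂⟩ * ⟨d, hG d d.2 v₂⟩ := rfl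
    rw [e1, e2, map_mul, map_mul, had, hu_def]
    field_simp

end Two

end

end Fermat.Agent.ORD.IFACEN.LiftTwo2
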