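/-
PROGRAMME ORD (S33), chapter O6 IFACEN (helper2): **(LIFT) from the local rings of the model at the
nodes, for nodes lying in two charts** — the third abstract layer of the proof of
`NSInputN9.LiftsMatched 𝔻` (after `LiftAbs2`, `LiftTwo2`).

Two components `v₁ ≠ v₂`, every node oriented `v₁ → v₂`.

* `nodeRing 𝔻 e` : the functions integral on every component and pole-free on the annulus of `e`;
  `nv … e : nodeRing 𝔻 e →+* k` the value at the node; `nodeRing` is local with residue map `nv`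
  (`inv_mem_nodeRing`).  `Rmax 𝔻 := ⨅ e, nodeRing 𝔻 e`.
* `liftsMatched_of_nodeRings` : subrings `C e ≤ nodeRing 𝔻 e` (the local rings of the model at the
  nodes) with
  - (LOC) every `c ∈ C e` has a denominator `d ∈ Rmax`, `nv e d ≠ 0`, `d * c ∈ Rmax`,
  - (VAL₁), (VAL₂) `red_{v₁}(C e) ⊇ O_{Qs e}`, `red_{v₂}(C e) ⊇ O_{Qt e}`,
  - (Y) some `y ∈ C e` vanishes identically on `v₁` and is a uniformizer of `Qt e` on `v₂`,
  imply `LiftsMatched 𝔻`.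
* `liftsMatched_of_charts` : (LOC) for the two charts `chart A t`, `chart A t⁻¹` of a model: every
  `C e` is the localisation of one of the two charts (every element of `C e` is a fraction `a / d`
  with `a, d` in the chart and `d` invertible in `C e`).  `k` infinite ⇒ a constant `c₀ ∈ Aˣ` whose
  residue avoids the `t`-values of all nodes; `s := (t - c₀)⁻¹`; the chart `chart A s` (functions
  regular off `t = c₀`) contains all the nodes, lies in `Rmax` (Gauss rings and places are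
  integrally closed), and `s ^ j * b ∈ chart A s` for `b ∈ chart A t`, `(1 + c₀ s) ^ j * b ∈ chart A s`
  for `b ∈ chart A t⁻¹` (`ChartGeneric22.exists_pow_mul_mem_chart`).
-/
import Mathlib
import Fermat.Agent.ORD.IFACEN.LiftTwo2
import Fermat.Agent.RED.PUR.ChartGeneric22

set_option autoImplicit false
set_option linter.unusedSectionVars false
set_option linter.style.longLine false

namespace Fermat.Agent.ORD.IFACEN.LiftMoebius2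

open AlgebraicCurve Fermat.Agent.X0.FF Fermat.Agent.RR.LSpace Fermat.Agent.MW.EMB.Value6
open Fermat.Agent.ORD.ANN.Side3
open Fermat.Agent.ORD.SEMIRED.SemiRedDatum9 Fermat.Agent.ORD.NSN.NSInputN9
open Fermat.Agent.ORD.ANN.MatchedDatum3 Fermat.Agent.ORD.IFACEN.LiftAbs2
open Fermat.Agent.ORD.IFACEN.LiftTwo2
open Fermat.Agent.RED.PUR.ChartGeneric22

noncomputable section

variable {L F k Ft : Type*} [Field L] [Field F] [Algebra L F] [Field k] [Field Ft] [Algebra k Ft]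

/-! ### Gauss rings are valuation rings -/

/-- the Gauss ring of a component is a valuation ring of `F`. -/
theorem side_mem_or_inv_mem {B : Base L k} (S : Side B F Ft) (y : F) : y ∈ S.G ∨ y⁻¹ ∈ S.G := by
  rcases eq_or_ne y 0 with rfl | hy
  · exact Or.inl S.G.zero_mem
  obtain ⟨c, hc0, g, hg, hred⟩ := S.norm y hy
  have hcF : algebraMap L F c ≠ 0 := by rwa [Ne, map_eq_zero]
  rcases B.A.mem_or_inv_mem c with hc | hc
  · right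
    have hginv := S.inv_mem hred
    have : y⁻¹ = algebraMap L F c * (g : F)⁻¹ := by
      rw [hg, mul_inv, ← mul_assoc, mul_inv_cancel₀ hcF, one_mul]
    rw [this]
    exact S.G.mul_mem (S.const_mem ⟨c, hc⟩) hginv
  · left
    have : y = algebraMap L F c⁻¹ * (g : F) := by
      rw [hg, ← mul_assoc, ← map_mul, inv_mul_cancel₀ hc0, map_one, one_mul]
    rw [this]
    exact S.G.mul_mem (S.const_mem ⟨c⁻¹, hc⟩) g.2

/-- the Gauss ring of a component as a valuation subring. -/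
def sideVS {B : Base L k} (S : Side B F Ft) : ValuationSubring F :=
  { S.G with mem_or_inv_mem' := side_mem_or_inv_mem S }

theorem mem_sideVS {B : Base L k} (S : Side B F Ft) {y : F} : y ∈ sideVS S ↔ y ∈ S.G := Iff.rfl

/-! ### affine changes of the chart coordinate -/

section Chart

variable {R : Type*} [CommRing R] {F' : Type*} [Field F'] [Algebra R F']

theorem adjoin_affine (a b : R) (hb : IsUnit b) (x : F') :
    Algebra.adjoin R {algebraMap R F' a + algebraMap R F' b * x} = Algebra.adjoin R {x} := by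
  apply le_antisymm
  · apply Algebra.adjoin_le
    intro y hy
    rw [Set.mem_singleton_iff] at hy
    subst hy
    exact add_mem (Subalgebra.algebraMap_mem _ a)
      (mul_mem (Subalgebra.algebraMap_mem _ b) (Algebra.self_mem_adjoin_singleton R x))
  · apply Algebra.adjoin_le
    intro y hy
    rw [Set.mem_singleton_iff] at hy
    subst hy
    obtain ⟨u, rfl⟩ := hb
    have h1 : y = algebraMap R F' (↑u⁻¹ : R) *
        ((algebraMap R F' a + algebraMap R F' (↑u : R) * y) - algebraMap R F' a) := by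
      rw [add_sub_cancel_left, ← mul_assoc, ← map_mul, Units.inv_mul, map_one, one_mul]
    have h2 : algebraMap R F' (↑u⁻¹ : R) *
        ((algebraMap R F' a + algebraMap R F' (↑u : R) * y) - algebraMap R F' a) ∈
        Algebra.adjoin R {algebraMap R F' a + algebraMap R F' (↑u : R) * y} :=
      mul_mem (Subalgebra.algebraMap_mem _ _)
        (sub_mem (Algebra.self_mem_adjoin_singleton R _) (Subalgebra.algebraMap_mem _ a))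
    rwa [← h1] at h2

theorem mem_chart_congr {x x' : F'} (h : Algebra.adjoin R {x} = Algebra.adjoin R {x'}) {y : F'} :
    y ∈ chart R x ↔ y ∈ chart R x' := by
  rw [mem_chart_iff, mem_chart_iff, isIntegral_subalgebra_iff, isIntegral_subalgebra_iff, h]

theorem mem_chart_affine (a b : R) (hb : IsUnit b) (x : F') {y : F'} :
    y ∈ chart R (algebraMap R F' a + algebraMap R F' b * x) ↔ y ∈ chart R x :=
  mem_chart_congr (adjoin_affine a b hb x)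

/-- the Möbius step: `m⁻¹ = a + b x` with `b` a unit; then a power of `m` carries `chart R x` into
`chart R m`. -/
theorem exists_pow_mul_mem_chart_of_inv_affine (a b : R) (hb : IsUnit b) (x m : F') (hm : m ≠ 0)
    (hmx : m⁻¹ = algebraMap R F' a + algebraMap R F' b * x) {z : F'} (hz : z ∈ chart R x) :
    ∃ j : ℕ, m ^ j * z ∈ chart R m := by
  apply exists_pow_mul_mem_chart hm
  rw [hmx, mem_chart_affine a b hb]
  exact hz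

end Chart

variable {ι E : Type*} (𝔻 : SemiRedDatum L F k Ft ι E)

/-! ### the ring of functions regular on the tube of a node -/

/-- the functions integral on every component and without pole on the annulus of `e`. -/
def nodeRing (e : E) : Subring F where
  carrier := {z | (∀ v, z ∈ 𝔻.G v) ∧ 𝔻.PoleFreeAnn z e}
  zero_mem' := ⟨fun v => (𝔻.G v).zero_mem, fun P _ => by rw [Place.ord_zero]⟩
  one_mem' := ⟨fun v => (𝔻.G v).one_mem, fun P _ => by rw [Place.ord_one]⟩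
  add_mem' := fun {a b} ha hb => ⟨fun v => (𝔻.G v).add_mem (ha.1 v) (hb.1 v), fun P hP =>
    (ffp_mem_iff_ord_nonneg P).mp (P.toValuationSubring.add_mem _ _
      ((ffp_mem_iff_ord_nonneg P).mpr (ha.2 P hP)) ((ffp_mem_iff_ord_nonneg P).mpr (hb.2 P hP)))⟩
  mul_mem' := fun {a b} ha hb => ⟨fun v => (𝔻.G v).mul_mem (ha.1 v) (hb.1 v), fun P hP =>
    (ffp_mem_iff_ord_nonneg P).mp (P.toValuationSubring.mul_mem _ _
      ((ffp_mem_iff_ord_nonneg P).mpr (ha.2 P hP)) ((ffp_mem_iff_ord_nonneg P).mpr (hb.2 P hP)))⟩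
  neg_mem' := fun {a} ha => ⟨fun v => (𝔻.G v).neg_mem (ha.1 v), fun P hP =>
    (ffp_mem_iff_ord_nonneg P).mp (P.toValuationSubring.neg_mem _
      ((ffp_mem_iff_ord_nonneg P).mpr (ha.2 P hP)))⟩

theorem mem_nodeRing {e : E} {z : F} :
    z ∈ nodeRing 𝔻 e ↔ (∀ v, z ∈ 𝔻.G v) ∧ 𝔻.PoleFreeAnn z e := Iff.rfl

/-- constants are regular at every node. -/
theorem const_mem_nodeRing (e : E) (a : 𝔻.B.A) : algebraMap L F (a : L) ∈ nodeRing 𝔻 e :=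
  ⟨fun v => (𝔻.side v).const_mem a, fun P _ =>
    (ffp_mem_iff_ord_nonneg P).mp (P.algebraMap_mem' _)⟩

/-- the functions integral on every component and pole-free on every annulus. -/
def Rmax : Subring F := 𝔻.Gall ⊓ ⨅ e, nodeRing 𝔻 e

theorem mem_Rmax {z : F} : z ∈ Rmax 𝔻 ↔ (∀ v, z ∈ 𝔻.G v) ∧ ∀ e, 𝔻.PoleFreeAnn z e := by
  unfold Rmax
  rw [Subring.mem_inf, 𝔻.mem_Gall, Subring.mem_iInf]
  constructor
  · rintro ⟨h1, h2⟩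
    exact ⟨h1, fun e => (h2 e).2⟩
  · rintro ⟨h1, h2⟩
    exact ⟨h1, fun e => ⟨h1, h2 e⟩⟩

theorem Rmax_le_nodeRing (e : E) : Rmax 𝔻 ≤ nodeRing 𝔻 e := fun z hz =>
  ⟨((mem_Rmax 𝔻).mp hz).1, ((mem_Rmax 𝔻).mp hz).2 e⟩

/-! ### two components: the value at a node -/

section Two

variable (v₁ v₂ : ι) (hsrc : ∀ e, 𝔻.src e = v₁) (htgt : ∀ e, 𝔻.tgt e = v₂)

include hsrc in
/-- the reduction on `v₁` of a function regular on the tube of `e` is regular at the branch. -/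
theorem red₁_reg (e : E) (z : nodeRing 𝔻 e) :
    𝔻.red v₁ ⟨z, z.2.1 v₁⟩ ∈ (𝔻.Qs e).toValuationSubring := by
  have h := (nodeMatched 𝔻 e z (z.2.1 _) (z.2.1 _) z.2.2).1
  rw [red_congr (hsrc e) (z.2.1 _) (z.2.1 v₁)] at h
  exact ffp_mem_of_ord_nonneg _ h

/-- **the value at the node** of a function regular on its tube (read on the branch of `v₁`). -/
def nvFun (e : E) (z : nodeRing 𝔻 e) : k := valF 𝔻.Hk (𝔻.Qs e) (𝔻.red v₁ ⟨z, z.2.1 v₁⟩)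

include hsrc htgt in
/-- the reduction on `v₂` is regular at the branch, with the same value. -/
theorem red₂_reg (e : E) (z : nodeRing 𝔻 e) :
    𝔻.red v₂ ⟨z, z.2.1 v₂⟩ ∈ (𝔻.Qt e).toValuationSubring ∧
      valF 𝔻.Hk (𝔻.Qt e) (𝔻.red v₂ ⟨z, z.2.1 v₂⟩) = nvFun 𝔻 v₁ e z := by
  have h := nodeMatched 𝔻 e z (z.2.1 _) (z.2.1 _) z.2.2
  rw [red_congr (hsrc e) (z.2.1 _) (z.2.1 v₁), red_congr (htgt e) (z.2.1 _) (z.2.1 v₂)] at h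
  exact ⟨ffp_mem_of_ord_nonneg _ h.2.1, h.2.2.1.symm⟩

include hsrc in
/-- a function regular on the tube with nonzero value at the node has no zero on the annulus. -/
theorem ord_eq_zero_of_nvFun_ne_zero {e : E} {z : nodeRing 𝔻 e} (hz : nvFun 𝔻 v₁ e z ≠ 0)
    {P : Place L F} (hP : 𝔻.r P = Sum.inr e) : P.ord (z : F) = 0 := by
  have h := nodeMatched 𝔻 e z (z.2.1 _) (z.2.1 _) z.2.2
  have h0 : 0 ≤ P.ord (z : F) := z.2.2 P hP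
  by_contra hne
  have hpos : 0 < P.ord (z : F) := lt_of_le_of_ne h0 (Ne.symm hne)
  have := h.2.2.2 ⟨P, hP, hpos⟩
  rw [red_congr (hsrc e) (z.2.1 _) (z.2.1 v₁)] at this
  exact hz this

/-- the value at the node, as a ring homomorphism. -/
def nv (e : E) : nodeRing 𝔻 e →+* k where
  toFun := nvFun 𝔻 v₁ e
  map_one' := by
    show valF 𝔻.Hk (𝔻.Qs e) (𝔻.red v₁ ⟨((1 : nodeRing 𝔻 e) : F), _⟩) = 1
    have : (⟨((1 : nodeRing 𝔻 e) : F), (1 : nodeRing 𝔻 e).2.1 v₁⟩ : 𝔻.G v₁) = 1 := rfl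
    rw [this, map_one, valF_one]
  map_mul' a b := by
    show valF 𝔻.Hk (𝔻.Qs e) (𝔻.red v₁ ⟨((a * b : nodeRing 𝔻 e) : F), _⟩) = _
    have : (⟨((a * b : nodeRing 𝔻 e) : F), (a * b).2.1 v₁⟩ : 𝔻.G v₁) =
        ⟨a, a.2.1 v₁⟩ * ⟨b, b.2.1 v₁⟩ := rfl
    rw [this, map_mul, valF_mul 𝔻.Hk _ (red₁_reg 𝔻 v₁ hsrc e a) (red₁_reg 𝔻 v₁ hsrc e b)]
    rfl
  map_zero' := by
    show valF 𝔻.Hk (𝔻.Qs e) (𝔻.red v₁ ⟨((0 : nodeRing 𝔻 e) : F), _⟩) = 0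
    have : (⟨((0 : nodeRing 𝔻 e) : F), (0 : nodeRing 𝔻 e).2.1 v₁⟩ : 𝔻.G v₁) = 0 := rfl
    rw [this, map_zero, valF_zero]
  map_add' a b := by
    show valF 𝔻.Hk (𝔻.Qs e) (𝔻.red v₁ ⟨((a + b : nodeRing 𝔻 e) : F), _⟩) = _
    have : (⟨((a + b : nodeRing 𝔻 e) : F), (a + b).2.1 v₁⟩ : 𝔻.G v₁) =
        ⟨a, a.2.1 v₁⟩ + ⟨b, b.2.1 v₁⟩ := rfl
    rw [this, map_add, valF_add 𝔻.Hk _ (red₁_reg 𝔻 v₁ hsrc e a) (red₁_reg 𝔻 v₁ hsrc e b)]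
    rfl

theorem nv_apply (e : E) (z : nodeRing 𝔻 e) :
    nv 𝔻 v₁ hsrc e z = valF 𝔻.Hk (𝔻.Qs e) (𝔻.red v₁ ⟨z, z.2.1 v₁⟩) := rfl

/-- the value of a constant. -/
theorem nv_const (e : E) (a : 𝔻.B.A) :
    nv 𝔻 v₁ hsrc e ⟨algebraMap L F (a : L), const_mem_nodeRing 𝔻 e a⟩ = 𝔻.B.res a := by
  rw [nv_apply]
  have : 𝔻.red v₁ ⟨algebraMap L F (a : L), (const_mem_nodeRing 𝔻 e a).1 v₁⟩ =
      algebraMap k Ft (𝔻.B.res a) := (𝔻.side v₁).red_const a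
  rw [this, valF_algebraMap]

include htgt in
/-- **`nodeRing` is local with residue map `nv`.** -/
theorem inv_mem_nodeRing (hι : ∀ v, v = v₁ ∨ v = v₂) (e : E) (z : nodeRing 𝔻 e)
    (hz : nv 𝔻 v₁ hsrc e z ≠ 0) : (z : F)⁻¹ ∈ nodeRing 𝔻 e := by
  have hz' : nvFun 𝔻 v₁ e z ≠ 0 := hz
  have hred : ∀ v, 𝔻.red v ⟨z, z.2.1 v⟩ ≠ 0 := by
    intro v h0
    rcases hι v with rfl | rfl
    · apply hz'
      show valF 𝔻.Hk (𝔻.Qs e) (𝔻.red v ⟨z, z.2.1 v⟩) = 0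
      rw [h0, valF_zero]
    · apply hz'
      rw [← (red₂_reg 𝔻 v₁ v hsrc htgt e z).2, h0, valF_zero]
  refine ⟨fun v => (𝔻.side v).inv_mem (g := ⟨z, z.2.1 v⟩) (hred v), fun P hP => ?_⟩
  rw [Place.ord_inv, ord_eq_zero_of_nvFun_ne_zero 𝔻 v₁ hsrc hz' hP, neg_zero]

/-- a unit of `nodeRing` has nonzero value. -/
theorem nv_ne_zero_of_mul_eq_one (e : E) {d d' : F} (hd : d ∈ nodeRing 𝔻 e)
    (hd' : d' ∈ nodeRing 𝔻 e) (h : d * d' = 1) : nv 𝔻 v₁ hsrc e ⟨d, hd⟩ ≠ 0 := by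
  intro h0
  have h1 : (⟨d, hd⟩ : nodeRing 𝔻 e) * ⟨d', hd'⟩ = 1 := Subtype.ext h
  have h2 := congrArg (nv 𝔻 v₁ hsrc e) h1
  rw [map_mul, h0, zero_mul, map_one] at h2
  exact zero_ne_one h2

/-! ### (LIFT) from local rings at the nodes -/

include htgt in
/-- **(LIFT) from the local rings of the model at the nodes.** -/
theorem liftsMatched_of_nodeRings [Finite ι] [Finite E] [Nonempty E]
    (hι : ∀ v, v = v₁ ∨ v = v₂) (C : E → Subring F) (hC : ∀ e, C e ≤ nodeRing 𝔻 e)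
    (hloc : ∀ e, ∀ c ∈ C e, ∃ (d : F) (hd : d ∈ Rmax 𝔻),
      nv 𝔻 v₁ hsrc e ⟨d, Rmax_le_nodeRing 𝔻 e hd⟩ ≠ 0 ∧ d * c ∈ Rmax 𝔻)
    (val₁ : ∀ e (f : Ft), 0 ≤ (𝔻.Qs e).ord f →
      ∃ (c : F) (hc : c ∈ C e), 𝔻.red v₁ ⟨c, (hC e hc).1 v₁⟩ = f)
    (val₂ : ∀ e (f : Ft), 0 ≤ (𝔻.Qt e).ord f →
      ∃ (c : F) (hc : c ∈ C e), 𝔻.red v₂ ⟨c, (hC e hc).1 v₂⟩ = f)
    (unif₂ : ∀ e, ∃ (y : F) (hy : y ∈ C e), 𝔻.red v₁ ⟨y, (hC e hy).1 v₁⟩ = 0 ∧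
      (𝔻.Qt e).ord (𝔻.red v₂ ⟨y, (hC e hy).1 v₂⟩) = 1) : LiftsMatched 𝔻 := by
  have hG : ∀ b ∈ Rmax 𝔻, ∀ v, b ∈ 𝔻.G v := fun b hb v => ((mem_Rmax 𝔻).mp hb).1 v
  have hpf : ∀ b ∈ Rmax 𝔻, ∀ e, 𝔻.PoleFreeAnn b e := fun b hb e => ((mem_Rmax 𝔻).mp hb).2 e
  have key : ∀ (v : ι) (e : E) (c : F) (hc : c ∈ C e) (d : F) (hd : d ∈ Rmax 𝔻)
      (ha : d * c ∈ Rmax 𝔻), 𝔻.red v ⟨d * c, hG _ ha v⟩ =
        𝔻.red v ⟨c, (hC e hc).1 v⟩ * 𝔻.red v ⟨d, hG d hd v⟩ := by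
    intro v e c hc d hd ha
    have : (⟨d * c, hG _ ha v⟩ : 𝔻.G v) = ⟨d, hG d hd v⟩ * ⟨c, (hC e hc).1 v⟩ := rfl
    rw [this, map_mul, mul_comm]
  refine liftsMatched_of_two 𝔻 v₁ v₂ hsrc htgt (Rmax 𝔻) hG hpf hι ?_
    (cond₂_of_val₂ 𝔻 v₁ v₂ hsrc htgt (Rmax 𝔻) hG hpf ?_ ?_)
  · intro e f hf
    obtain ⟨c, hc, hcf⟩ := val₁ e f hf
    obtain ⟨d, hd, hnv, ha⟩ := hloc e c hc
    refine ⟨⟨d * c, ha⟩, ⟨d, hd⟩, hnv, ?_⟩
    show 𝔻.red v₁ ⟨d * c, _⟩ = f * 𝔻.red v₁ ⟨d, _⟩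
    rw [key v₁ e c hc d hd ha, hcf]
  · intro e f hf
    obtain ⟨c, hc, hcf⟩ := val₂ e f hf
    obtain ⟨d, hd, hnv, ha⟩ := hloc e c hc
    refine ⟨⟨d * c, ha⟩, ⟨d, hd⟩, hnv, ?_⟩
    show 𝔻.red v₂ ⟨d * c, _⟩ = f * 𝔻.red v₂ ⟨d, _⟩
    rw [key v₂ e c hc d hd ha, hcf]
  · intro e
    obtain ⟨y, hy, hy1, hy2⟩ := unif₂ e
    obtain ⟨d, hd, hnv, ha⟩ := hloc e y hy
    have hd2 : 𝔻.red v₂ ⟨d, hG d hd v₂⟩ ≠ 0 := by
      intro h0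
      apply hnv
      have h := (red₂_reg 𝔻 v₁ v₂ hsrc htgt e ⟨d, Rmax_le_nodeRing 𝔻 e hd⟩).2
      have h0' : 𝔻.red v₂ ⟨d, (Rmax_le_nodeRing 𝔻 e hd).1 v₂⟩ = 0 := h0
      rw [h0', valF_zero] at h
      exact h.symm
    refine ⟨⟨d * y, ha⟩, ⟨d, hd⟩, hnv, ?_, ?_⟩
    · show 𝔻.red v₁ ⟨d * y, _⟩ = 0
      rw [key v₁ e y hy d hd ha, hy1, zero_mul]
    · show (𝔻.Qt e).ord (𝔻.red v₂ ⟨d * y, _⟩ / 𝔻.red v₂ ⟨d, _⟩) = 1
      rw [key v₂ e y hy d hd ha, mul_div_assoc, div_self hd2, mul_one]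
      exact hy2

end Two

/-! ### (LOC) from the two charts of a model -/

section Charts

variable (v₁ v₂ : ι) (hsrc : ∀ e, 𝔻.src e = v₁) (htgt : ∀ e, 𝔻.tgt e = v₂)

/-- the chart `chart A s` lies in `Rmax` as soon as `s` does (Gauss rings and places are integrally
closed). -/
theorem chart_le_Rmax {s : F} (hs : s ∈ Rmax 𝔻) : ∀ b ∈ chart 𝔻.B.A s, b ∈ Rmax 𝔻 := by
  intro b hb
  obtain ⟨hsG, hspf⟩ := (mem_Rmax 𝔻).mp hs
  rw [mem_Rmax]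
  refine ⟨fun v => ?_, fun e P hP => ?_⟩
  · exact chart_le_valuationSubring (R := 𝔻.B.A) (sideVS (𝔻.side v))
      (fun r => (𝔻.side v).const_mem r) (hsG v) b hb
  · rw [← ffp_mem_iff_ord_nonneg]
    exact chart_le_valuationSubring (R := 𝔻.B.A) P.toValuationSubring
      (fun r => P.algebraMap_mem' (r : L)) ((ffp_mem_iff_ord_nonneg P).mpr (hspf e P hP)) b hb

/-- (LOC) at one node from a chart `chart A x` whose localisation is `C`, and a multiplier `m`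
(a unit at the node) carrying `chart A x` into `chart A s ⊆ Rmax`. -/
theorem loc_of_chart (e : E) (C : Subring F) (hC : C ≤ nodeRing 𝔻 e) (x m s : F)
    (hx : ∀ b ∈ chart 𝔻.B.A x, b ∈ C)
    (hfrac : ∀ c ∈ C, ∃ a d d' : F, a ∈ chart 𝔻.B.A x ∧ d ∈ chart 𝔻.B.A x ∧ d' ∈ C ∧
      d * d' = 1 ∧ c * d = a)
    (hm : m ∈ nodeRing 𝔻 e) (hmnv : nv 𝔻 v₁ hsrc e ⟨m, hm⟩ ≠ 0)
    (hR : ∀ b ∈ chart 𝔻.B.A s, b ∈ Rmax 𝔻) (hms : m ∈ chart 𝔻.B.A s)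
    (hstep : ∀ z ∈ chart 𝔻.B.A x, ∃ j : ℕ, m ^ j * z ∈ chart 𝔻.B.A s)
    (c : F) (hc : c ∈ C) : ∃ (d : F) (hd : d ∈ Rmax 𝔻),
      nv 𝔻 v₁ hsrc e ⟨d, Rmax_le_nodeRing 𝔻 e hd⟩ ≠ 0 ∧ d * c ∈ Rmax 𝔻 := by
  obtain ⟨a, d, d', ha, hd, hd', hdd', hcd⟩ := hfrac c hc
  obtain ⟨j₁, h1⟩ := hstep a ha
  obtain ⟨j₂, h2⟩ := hstep d hd
  have hD : m ^ j₁ * (m ^ j₂ * d) ∈ chart 𝔻.B.A s := mul_mem (pow_mem hms _) h2
  refine ⟨m ^ j₁ * (m ^ j₂ * d), hR _ hD, ?_, ?_⟩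
  · have hdN : d ∈ nodeRing 𝔻 e := hC (hx d hd)
    have hd'N : d' ∈ nodeRing 𝔻 e := hC hd'
    have e1 : (⟨m ^ j₁ * (m ^ j₂ * d), Rmax_le_nodeRing 𝔻 e (hR _ hD)⟩ : nodeRing 𝔻 e) =
        ⟨m, hm⟩ ^ j₁ * (⟨m, hm⟩ ^ j₂ * ⟨d, hdN⟩) := Subtype.ext (by push_cast; rfl)
    rw [e1, map_mul, map_mul, map_pow, map_pow]
    exact mul_ne_zero (pow_ne_zero _ hmnv) (mul_ne_zero (pow_ne_zero _ hmnv)
      (nv_ne_zero_of_mul_eq_one 𝔻 v₁ hsrc e hdN hd'N hdd'))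
  · have : m ^ j₁ * (m ^ j₂ * d) * c = m ^ j₂ * (m ^ j₁ * a) := by rw [← hcd]; ring
    rw [this]
    exact hR _ (mul_mem (pow_mem hms _) h1)

include hsrc htgt in
/-- **(LIFT) for the two charts of a nodal model.** -/
theorem liftsMatched_of_charts [Finite ι] [Finite E] [Nonempty E] [Infinite k]
    (hι : ∀ v, v = v₁ ∨ v = v₂) (t : F) (ht0 : t ≠ 0)
    (C : E → Subring F) (hC : ∀ e, C e ≤ nodeRing 𝔻 e)
    (hkind : ∀ e,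
      ((∀ b ∈ chart 𝔻.B.A t, b ∈ C e) ∧ ∀ c ∈ C e, ∃ a d d' : F, a ∈ chart 𝔻.B.A t ∧
        d ∈ chart 𝔻.B.A t ∧ d' ∈ C e ∧ d * d' = 1 ∧ c * d = a) ∨
      ((∀ b ∈ chart 𝔻.B.A t⁻¹, b ∈ C e) ∧ ∀ c ∈ C e, ∃ a d d' : F, a ∈ chart 𝔻.B.A t⁻¹ ∧
        d ∈ chart 𝔻.B.A t⁻¹ ∧ d' ∈ C e ∧ d * d' = 1 ∧ c * d = a))
    (val₁ : ∀ e (f : Ft), 0 ≤ (𝔻.Qs e).ord f →
      ∃ (c : F) (hc : c ∈ C e), 𝔻.red v₁ ⟨c, (hC e hc).1 v₁⟩ = f)
    (val₂ : ∀ e (f : Ft), 0 ≤ (𝔻.Qt e).ord f →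
      ∃ (c : F) (hc : c ∈ C e), 𝔻.red v₂ ⟨c, (hC e hc).1 v₂⟩ = f)
    (unif₂ : ∀ e, ∃ (y : F) (hy : y ∈ C e), 𝔻.red v₁ ⟨y, (hC e hy).1 v₁⟩ = 0 ∧
      (𝔻.Qt e).ord (𝔻.red v₂ ⟨y, (hC e hy).1 v₂⟩) = 1) : LiftsMatched 𝔻 := by
  classical
  have : Fintype E := Fintype.ofFinite E
  -- the total value function
  let nvT : E → F → k := fun e z =>
    if h : z ∈ nodeRing 𝔻 e then nv 𝔻 v₁ hsrc e ⟨z, h⟩ else 0
  have hnvT : ∀ e z (h : z ∈ nodeRing 𝔻 e), nvT e z = nv 𝔻 v₁ hsrc e ⟨z, h⟩ :=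
    fun e z h => dif_pos h
  -- a residue avoiding the `t`-values of the nodes
  let bad : Finset k := insert 0 (Finset.univ.image (fun e => nvT e t) ∪
    Finset.univ.image (fun e => (nvT e t⁻¹)⁻¹))
  obtain ⟨κ, hκ⟩ := Infinite.exists_notMem_finset bad
  have hκ0 : κ ≠ 0 := fun h => hκ (h ▸ Finset.mem_insert_self _ _)
  have hκt : ∀ e, κ ≠ nvT e t := fun e h => hκ (Finset.mem_insert_of_mem
    (Finset.mem_union_left _ (Finset.mem_image.mpr ⟨e, Finset.mem_univ _, h.symm⟩)))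
  have hκu : ∀ e, κ ≠ (nvT e t⁻¹)⁻¹ := fun e h => hκ (Finset.mem_insert_of_mem
    (Finset.mem_union_right _ (Finset.mem_image.mpr ⟨e, Finset.mem_univ _, h.symm⟩)))
  obtain ⟨c₀, hc₀⟩ := 𝔻.B.res_surj κ
  have hunit : IsUnit c₀ := by
    by_contra h
    exact hκ0 (hc₀ ▸ (𝔻.B.res_eq_zero_iff c₀).mpr h)
  obtain ⟨c₀', hc₀'⟩ := isUnit_iff_exists_inv.mp hunit
  have hc₀L : (c₀ : L) * (c₀' : L) = 1 := congrArg Subtype.val hc₀'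
  set γ : F := algebraMap L F (c₀ : L) with hγ
  set γ' : F := algebraMap L F (c₀' : L) with hγ'
  have hγγ' : γ * γ' = 1 := by rw [hγ, hγ', ← map_mul, hc₀L, map_one]
  have hγ0 : γ ≠ 0 := left_ne_zero_of_mul_eq_one hγγ'
  have hγN : ∀ e, γ ∈ nodeRing 𝔻 e := fun e => const_mem_nodeRing 𝔻 e c₀
  have hγ'N : ∀ e, γ' ∈ nodeRing 𝔻 e := fun e => const_mem_nodeRing 𝔻 e c₀'
  have hnvγ : ∀ e, nv 𝔻 v₁ hsrc e ⟨γ, hγN e⟩ = κ := fun e => by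
    rw [← hc₀]; exact nv_const 𝔻 v₁ hsrc e c₀
  have hAγ : algebraMap 𝔻.B.A F c₀ = γ := rfl
  set τ : F := t - γ with hτ
  set s : F := τ⁻¹ with hs
  set σ : F := 1 + γ * s with hσ
  -- the node-wise facts
  have hnode : ∀ e, τ ≠ 0 ∧ s ∈ nodeRing 𝔻 e ∧
      (((∀ b ∈ chart 𝔻.B.A t, b ∈ C e) → ∃ hsN : s ∈ nodeRing 𝔻 e,
        nv 𝔻 v₁ hsrc e ⟨s, hsN⟩ ≠ 0) ∧
      ((∀ b ∈ chart 𝔻.B.A t⁻¹, b ∈ C e) → σ ≠ 0 ∧ σ⁻¹ = 1 - γ * t⁻¹ ∧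
        ∃ hσN : σ ∈ nodeRing 𝔻 e, nv 𝔻 v₁ hsrc e ⟨σ, hσN⟩ ≠ 0)) := by
    intro e
    have kind0 : (∀ b ∈ chart 𝔻.B.A t, b ∈ C e) → τ ≠ 0 ∧ ∃ hsN : s ∈ nodeRing 𝔻 e,
        nv 𝔻 v₁ hsrc e ⟨s, hsN⟩ ≠ 0 := by
      intro h0
      have htN : t ∈ nodeRing 𝔻 e := hC e (h0 t (self_mem_chart t))
      have hτN : τ ∈ nodeRing 𝔻 e := sub_mem htN (hγN e)
      have hnvτ : nv 𝔻 v₁ hsrc e ⟨τ, hτN⟩ ≠ 0 := by
        have e1 : (⟨τ, hτN⟩ : nodeRing 𝔻 e) = ⟨t, htN⟩ - ⟨γ, hγN e⟩ := rfl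
        rw [e1, map_sub, hnvγ, ← hnvT e t htN]
        exact fun h => hκt e (sub_eq_zero.mp h).symm
      have hτ0 : τ ≠ 0 := by
        intro h
        apply hnvτ
        have : (⟨τ, hτN⟩ : nodeRing 𝔻 e) = 0 := Subtype.ext h
        rw [this, map_zero]
      have hsN : s ∈ nodeRing 𝔻 e :=
        inv_mem_nodeRing 𝔻 v₁ v₂ hsrc htgt hι e ⟨τ, hτN⟩ hnvτ
      exact ⟨hτ0, hsN, nv_ne_zero_of_mul_eq_one 𝔻 v₁ hsrc e hsN hτN (inv_mul_cancel₀ hτ0)⟩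
    have kind1 : (∀ b ∈ chart 𝔻.B.A t⁻¹, b ∈ C e) → τ ≠ 0 ∧ s ∈ nodeRing 𝔻 e ∧ σ ≠ 0 ∧
        σ⁻¹ = 1 - γ * t⁻¹ ∧ ∃ hσN : σ ∈ nodeRing 𝔻 e, nv 𝔻 v₁ hsrc e ⟨σ, hσN⟩ ≠ 0 := by
      intro h1
      have huN : t⁻¹ ∈ nodeRing 𝔻 e := hC e (h1 t⁻¹ (self_mem_chart t⁻¹))
      have hwN : 1 - γ * t⁻¹ ∈ nodeRing 𝔻 e :=
        sub_mem (one_mem _) (mul_mem (hγN e) huN)
      have hnvw : nv 𝔻 v₁ hsrc e ⟨1 - γ * t⁻¹, hwN⟩ ≠ 0 := by
        have e1 : (⟨1 - γ * t⁻¹, hwN⟩ : nodeRing 𝔻 e) = 1 - ⟨γ, hγN e⟩ * ⟨t⁻¹, huN⟩ := rfl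
        rw [e1, map_sub, map_one, map_mul, hnvγ, ← hnvT e t⁻¹ huN]
        intro h
        have h2 : κ * nvT e t⁻¹ = 1 := (sub_eq_zero.mp h).symm
        exact hκu e (eq_inv_of_mul_eq_one_left h2)
      have hw0 : 1 - γ * t⁻¹ ≠ 0 := by
        intro h
        apply hnvw
        have : (⟨1 - γ * t⁻¹, hwN⟩ : nodeRing 𝔻 e) = 0 := Subtype.ext h
        rw [this, map_zero]
      have hτw : τ = t * (1 - γ * t⁻¹) := by
        rw [hτ]; field_simp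
      have hτ0 : τ ≠ 0 := by rw [hτw]; exact mul_ne_zero ht0 hw0
      have hσw : σ * (1 - γ * t⁻¹) = 1 := by
        rw [hσ, hs]
        have : t - γ ≠ 0 := hτ0
        field_simp
        ring
      have hσ0 : σ ≠ 0 := left_ne_zero_of_mul_eq_one hσw
      have hσinv : σ⁻¹ = 1 - γ * t⁻¹ := inv_eq_of_mul_eq_one_right hσw
      have hσN : σ ∈ nodeRing 𝔻 e := by
        have h2 : σ = (1 - γ * t⁻¹)⁻¹ := eq_inv_of_mul_eq_one_left hσw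
        rw [h2]
        exact inv_mem_nodeRing 𝔻 v₁ v₂ hsrc htgt hι e ⟨_, hwN⟩ hnvw
      have hsN : s ∈ nodeRing 𝔻 e := by
        have h2 : s = γ' * (σ - 1) := by
          rw [hσ, add_sub_cancel_left, ← mul_assoc, mul_comm γ' γ, hγγ', one_mul]
        rw [h2]
        exact mul_mem (hγ'N e) (sub_mem hσN (one_mem _))
      exact ⟨hτ0, hsN, hσ0, hσinv, hσN, nv_ne_zero_of_mul_eq_one 𝔻 v₁ hsrc e hσN hwN hσw⟩
    rcases hkind e with ⟨h0, -⟩ | ⟨h1, -⟩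
    · obtain ⟨hτ0, hsN, hnvs⟩ := kind0 h0
      exact ⟨hτ0, hsN, fun _ => ⟨hsN, hnvs⟩, fun h1 => (kind1 h1).2.2⟩
    · obtain ⟨hτ0, hsN, hrest⟩ := kind1 h1
      exact ⟨hτ0, hsN, fun h0 => (kind0 h0).2, fun _ => hrest⟩
  obtain ⟨e₀⟩ := ‹Nonempty E›
  have hτ0 : τ ≠ 0 := (hnode e₀).1
  have hs0 : s ≠ 0 := inv_ne_zero hτ0
  have hsR : s ∈ Rmax 𝔻 := by
    rw [mem_Rmax]
    exact ⟨fun v => (hnode e₀).2.1.1 v, fun e => (hnode e).2.1.2⟩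
  have hR := chart_le_Rmax 𝔻 hsR
  -- the two Möbius steps
  have hstep0 : ∀ z ∈ chart 𝔻.B.A t, ∃ j : ℕ, s ^ j * z ∈ chart 𝔻.B.A s := by
    intro z hz
    refine exists_pow_mul_mem_chart_of_inv_affine (-c₀) 1 isUnit_one t s hs0 ?_ hz
    rw [hs, inv_inv, map_neg, map_one, one_mul, hAγ, hτ]
    ring
  have hσs : σ ∈ chart 𝔻.B.A s :=
    add_mem (one_mem _) (mul_mem ((chart 𝔻.B.A s).algebraMap_mem c₀) (self_mem_chart s))
  have hstep1 : ∀ e, (∀ b ∈ chart 𝔻.B.A t⁻¹, b ∈ C e) → ∀ z ∈ chart 𝔻.B.A t⁻¹,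
      ∃ j : ℕ, σ ^ j * z ∈ chart 𝔻.B.A s := by
    intro e h1 z hz
    obtain ⟨hσ0, hσinv, -⟩ := (hnode e).2.2.2 h1
    obtain ⟨j, hj⟩ := exists_pow_mul_mem_chart_of_inv_affine (1 : 𝔻.B.A) (-c₀) hunit.neg t⁻¹ σ hσ0
      (by rw [hσinv, map_neg, map_one, hAγ]; ring) hz
    refine ⟨j, ?_⟩
    have h3 : σ = algebraMap 𝔻.B.A F 1 + algebraMap 𝔻.B.A F c₀ * s := by
      rw [map_one, hAγ]
    rw [h3, mem_chart_affine 1 c₀ hunit s] at hj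
    rw [h3]
    exact hj
  -- (LOC)
  have hloc : ∀ e, ∀ c ∈ C e, ∃ (d : F) (hd : d ∈ Rmax 𝔻),
      nv 𝔻 v₁ hsrc e ⟨d, Rmax_le_nodeRing 𝔻 e hd⟩ ≠ 0 ∧ d * c ∈ Rmax 𝔻 := by
    intro e c hc
    rcases hkind e with ⟨h0, hfrac⟩ | ⟨h1, hfrac⟩
    · obtain ⟨hsN, hnvs⟩ := (hnode e).2.2.1 h0
      exact loc_of_chart 𝔻 v₁ hsrc e (C e) (hC e) t s s h0 hfrac hsN hnvs hR (self_mem_chart s)
        hstep0 c hc
    · obtain ⟨-, -, hσN, hnvσ⟩ := (hnode e).2.2.2 h1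
      exact loc_of_chart 𝔻 v₁ hsrc e (C e) (hC e) t⁻¹ σ s h1 hfrac hσN hnvσ hR hσs
        (hstep1 e h1) c hc
  exact liftsMatched_of_nodeRings 𝔻 v₁ v₂ hsrc htgt hι C hC hloc val₁ val₂ unif₂

end Charts

end

end Fermat.Agent.ORD.IFACEN.LiftMoebius2
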