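/-
PROGRAMME ORD (S33), chapter O6 IFACEN (helper2): **(LIFT) from helper4's node systems** — the bridge
between `NODE/NodeSys4.NodeSys` (the abstract node at the level of the big field) and
`LiftMoebius2.liftsMatched_of_charts`.

Two components `v₁ ≠ v₂`, every node oriented `v₁ → v₂`.  For every node `e` a node system
`NodeSys 𝔻.B (𝔻.side v₁) (𝔻.side v₂) (C e) (χ e) (Q e) (Q' e) (x e) (y e) (u e) (ϖ e)` whose branches are
the branches of the datum (`𝔻.Qs e = Q e`, `𝔻.Qt e = Q' e`), whose tube contains the annulus of the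
datum (`𝔻.r P = inr e → InDisc (C e) P`), and such that `C e` is the localisation of one of the two
charts `chart A t`, `chart A t⁻¹` (every `c ∈ C e` is a fraction `a / d`, `a, d` in the chart, `d`
invertible in `C e`).  Then `LiftsMatched 𝔻`.

(VAL₁), (VAL₂) are `LocSide.mem_Q`; the second coordinate is `y e` (`x y = ϖ u`, `|ϖ| < 1`,
`red_{v₁} x ≠ 0` ⇒ `red_{v₁} y = 0`; `ord_{Q'} (red_{v₂} y) = 1`).
-/
import Mathlib
import Fermat.Agent.ORD.IFACEN.LiftMoebius2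
import Fermat.Agent.ORD.NODE.NodeSys4
import Fermat.Agent.ORD.IFACEN.LocAt8

set_option autoImplicit false
set_option linter.unusedSectionVars false
set_option linter.style.longLine false

namespace Fermat.Agent.ORD.IFACEN.LiftNodeSys2

open AlgebraicCurve Fermat.Agent.X0.FF Fermat.Agent.RR.LSpace Fermat.Agent.MW.EMB.Value6
open Fermat.Agent.ORD.ANN.Side3
open Fermat.Agent.ORD.SEMIRED.SemiRedDatum9 Fermat.Agent.ORD.NSN.NSInputN9
open Fermat.Agent.ORD.IFACEN.LiftMoebius2 Fermat.Agent.ORD.IFACEN.DiscPlaces8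
open Fermat.Agent.ORD.NODE.NodeSys4
open Fermat.Agent.RED.PUR.ChartGeneric22

noncomputable section

variable {L F k Ft : Type*} [Field L] [Field F] [Algebra L F] [Field k] [Field Ft] [Algebra k Ft]
variable {ι E : Type*}

/-- the chart hypothesis of `liftsMatched_of_nodeSys` for `C = LocAt8.locC BA χ₀`, the local ring of a
chart `BA` at a closed point `χ₀`. -/
theorem kind_locC {A : ValuationSubring L} (BA : Subalgebra A F) (χ₀ : BA →+* k) :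
    (∀ b ∈ BA, b ∈ LocAt8.locC BA χ₀) ∧ ∀ c ∈ LocAt8.locC BA χ₀, ∃ a d d' : F, a ∈ BA ∧
      d ∈ BA ∧ d' ∈ LocAt8.locC BA χ₀ ∧ d * d' = 1 ∧ c * d = a := by
  refine ⟨fun b hb => LocAt8.le_locC BA χ₀ hb, fun c hc => ?_⟩
  obtain ⟨a, d, hd, e⟩ := LocAt8.exists_rep BA χ₀ ⟨c, hc⟩
  have hd0 : (d : F) ≠ 0 := by
    intro h0
    apply hd
    have : d = 0 := Subtype.ext h0
    rw [this, map_zero]
  have hinv : ((LocAt8.ofBA BA χ₀ d : LocAt8.locC BA χ₀) : F)⁻¹ ∈ LocAt8.locC BA χ₀ :=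
    LocAt8.inv_mem_locC BA χ₀ (LocAt8.ofBA BA χ₀ d) (by rw [LocAt8.chiC_ofBA]; exact hd)
  exact ⟨(a : F), (d : F), (d : F)⁻¹, a.2, d.2, hinv, mul_inv_cancel₀ hd0, e⟩

/-- **(LIFT) from node systems at the nodes of the two charts of a nodal model.** -/
theorem liftsMatched_of_nodeSys [Finite ι] [Finite E] [Nonempty E] [Infinite k]
    (𝔻 : SemiRedDatum L F k Ft ι E) (v₁ v₂ : ι) (hsrc : ∀ e, 𝔻.src e = v₁)
    (htgt : ∀ e, 𝔻.tgt e = v₂) (hι : ∀ v, v = v₁ ∨ v = v₂) (t : F) (ht0 : t ≠ 0)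
    (C : E → Subring F) (χ : ∀ e, C e →+* k) (Q Q' : E → Place k Ft)
    (x y u : ∀ e, C e) (ϖ : E → L)
    (hNS : ∀ e, NodeSys 𝔻.B (𝔻.side v₁) (𝔻.side v₂) (C e) (χ e) (Q e) (Q' e) (x e) (y e) (u e) (ϖ e))
    (hQ : ∀ e, 𝔻.Qs e = Q e) (hQ' : ∀ e, 𝔻.Qt e = Q' e)
    (hann : ∀ e P, 𝔻.r P = Sum.inr e → InDisc (C e) P)
    (hkind : ∀ e,
      ((∀ b ∈ chart 𝔻.B.A t, b ∈ C e) ∧ ∀ c ∈ C e, ∃ a d d' : F, a ∈ chart 𝔻.B.A t ∧
        d ∈ chart 𝔻.B.A t ∧ d' ∈ C e ∧ d * d' = 1 ∧ c * d = a) ∨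
      ((∀ b ∈ chart 𝔻.B.A t⁻¹, b ∈ C e) ∧ ∀ c ∈ C e, ∃ a d d' : F, a ∈ chart 𝔻.B.A t⁻¹ ∧
        d ∈ chart 𝔻.B.A t⁻¹ ∧ d' ∈ C e ∧ d * d' = 1 ∧ c * d = a)) :
    LiftsMatched 𝔻 := by
  have hC : ∀ e, C e ≤ nodeRing 𝔻 e := by
    intro e c hc
    refine ⟨fun v => ?_, fun P hP => ffp_ord_nonneg_of_mem P (hann e P hP c hc)⟩
    rcases hι v with rfl | rfl
    · exact (hNS e).side.le_G c hc
    · exact (hNS e).side'.le_G c hc
  refine liftsMatched_of_charts 𝔻 v₁ v₂ hsrc htgt hι t ht0 C hC hkind ?_ ?_ ?_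
  · intro e f hf
    rw [hQ e] at hf
    obtain ⟨c, hc⟩ := ((hNS e).side.mem_Q f).mp (ffp_mem_of_ord_nonneg _ hf)
    exact ⟨(c : F), c.2, hc⟩
  · intro e f hf
    rw [hQ' e] at hf
    obtain ⟨c, hc⟩ := ((hNS e).side'.mem_Q f).mp (ffp_mem_of_ord_nonneg _ hf)
    exact ⟨(c : F), c.2, hc⟩
  · intro e
    have h := hNS e
    refine ⟨((y e : C e) : F), (y e).2, ?_, ?_⟩
    · -- `red_{v₁} y = 0`
      have e1 := congrArg h.side.redC h.mulC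
      rw [map_mul, map_mul, h.side.redC_const h.base, h.res_piA, map_zero, zero_mul] at e1
      rcases mul_eq_zero.mp e1 with h0 | h0
      · exact absurd h0 h.redx_ne
      · exact h0
    · rw [hQ' e]
      exact h.ord_y

/-- **(LIFT) from node systems**, variant with the node systems stated on the components
`𝔻.src e`, `𝔻.tgt e` and the annuli given as the `ann` of the node charts (the shapes of
`AssembleN9.AssemblyData` with `node e := (hNS e).nodeChart …`). -/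
theorem liftsMatched_of_nodeSys' [Finite ι] [Finite E] [Nonempty E] [Infinite k]
    (𝔻 : SemiRedDatum L F k Ft ι E) (v₁ v₂ : ι) (hsrc : ∀ e, 𝔻.src e = v₁)
    (htgt : ∀ e, 𝔻.tgt e = v₂) (hι : ∀ v, v = v₁ ∨ v = v₂) (t : F) (ht0 : t ≠ 0)
    (C : E → Subring F) (χ : ∀ e, C e →+* k) (Q Q' : E → Place k Ft)
    (x y u : ∀ e, C e) (ϖ : E → L)
    (hNS : ∀ e, NodeSys 𝔻.B (𝔻.side (𝔻.src e)) (𝔻.side (𝔻.tgt e)) (C e) (χ e) (Q e) (Q' e)
      (x e) (y e) (u e) (ϖ e))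
    (hQ : ∀ e, (𝔻.node e).Q = Q e) (hQ' : ∀ e, (𝔻.node e).Q' = Q' e)
    (hann : ∀ e P, P ∈ (𝔻.node e).ann → InDisc (C e) P)
    (hkind : ∀ e,
      ((∀ b ∈ chart 𝔻.B.A t, b ∈ C e) ∧ ∀ c ∈ C e, ∃ a d d' : F, a ∈ chart 𝔻.B.A t ∧
        d ∈ chart 𝔻.B.A t ∧ d' ∈ C e ∧ d * d' = 1 ∧ c * d = a) ∨
      ((∀ b ∈ chart 𝔻.B.A t⁻¹, b ∈ C e) ∧ ∀ c ∈ C e, ∃ a d d' : F, a ∈ chart 𝔻.B.A t⁻¹ ∧
        d ∈ chart 𝔻.B.A t⁻¹ ∧ d' ∈ C e ∧ d * d' = 1 ∧ c * d = a)) :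
    LiftsMatched 𝔻 :=
  liftsMatched_of_nodeSys 𝔻 v₁ v₂ hsrc htgt hι t ht0 C χ Q Q' x y u ϖ
    (fun e => by
      have h := hNS e
      rwa [hsrc e, htgt e] at h)
    hQ hQ' (fun e P hP => hann e P ((𝔻.r_ann e P).mpr hP)) hkind

end

end Fermat.Agent.ORD.IFACEN.LiftNodeSys2
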