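/-
PROGRAMME ORD (S33), chapter IFACE-N (O6, helper9): **(LIFT), (CONN) and `hcentre` for the datum
assembled from helper3's `PtsAssembly3.PtsData`** (two-chart model with its one-branch points and
nodes), by composing helper2's `LiftNodeSys2.liftsMatched_of_nodeSys'`, helper7's `GraphConn7` and
helper6's `CentreGal6.centre_smul`.

`𝔓 : PtsData B F Ft ι E`, all nodes joining `v₁` to `v₂` (`src ≡ v₁`, `tgt ≡ v₂`, `ι = {v₁, v₂}`),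
charts `B0 = chart A t`, `B1 = chart A t⁻¹` as sets (`hB0`, `hB1`, stated with the canonical `A`-algebra
structure `chartC` used by `LiftNodeSys2`).

* `liftsMatched` : `LiftsMatched 𝔓.toAssemblyData.toSemiRedDatum`;
* `centre_smul` : `𝔸.centre (σ • P) = 𝔸.centre P` for every `σ` which stabilises `A`, acts trivially on
  the residue field, fixes `t`, stabilises the two charts and fixes their closed points.
-/
import Mathlib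
import Fermat.Agent.ORD.IFACEN.PtsAssembly3
import Fermat.Agent.ORD.IFACEN.LiftNodeSys2
import Fermat.Agent.ORD.IFACEN.CentreGal6

set_option autoImplicit false
set_option linter.unusedSectionVars false
set_option linter.style.longLine false

namespace Fermat.Agent.ORD.IFACEN.PtsLift9

open AlgebraicCurve Fermat.Agent.X0.FF Fermat.Agent.RR.LSpace Fermat.Agent.MW.EMB.Value6
open Fermat.Agent.ORD.ANN.Side3 Fermat.Agent.ORD.ANN.Node3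
open Fermat.Agent.ORD.SEMIRED.SemiRedDatum9 Fermat.Agent.ORD.NSN.NSInputN9
open Fermat.Agent.ORD.IFACEN.DiscSys8 Fermat.Agent.ORD.IFACEN.DiscPlaces8
  Fermat.Agent.ORD.IFACEN.LocAt8 Fermat.Agent.ORD.IFACEN.Centre8
  Fermat.Agent.ORD.IFACEN.SmoothAtlas8 Fermat.Agent.ORD.IFACEN.AtlasSplit6
  Fermat.Agent.ORD.IFACEN.AtlasPts6 Fermat.Agent.ORD.IFACEN.AssembleN9
  Fermat.Agent.ORD.IFACEN.PtsDict3 Fermat.Agent.ORD.IFACEN.PtsAssembly3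
open Fermat.Agent.ORD.NODE.NodeSys4
open Fermat.Agent.RED.PUR.ChartGeneric22

noncomputable section

section Canon

variable {L F : Type*} [Field L] [Field F] [Algebra L F]

/-- the chart `chart A t` with the CANONICAL `A`-algebra structure of `F` (the one used by
`LiftNodeSys2`). -/
abbrev chartC (A : ValuationSubring L) (t : F) : Subalgebra A F := chart A t

end Canon

universe uL uk uF uFt uι uE uP

variable {L : Type uL} {k : Type uk} [Field L] [Field k]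
variable {B : Base L k} {F : Type uF} {Ft : Type uFt} [Field F] [Algebra L F]
  [Field Ft] [Algebra k Ft] [Algebra B.A F] [IsScalarTower B.A L F] {ι : Type uι} {E : Type uE}
  (𝔓 : PtsData.{uL, uk, uF, uFt, uι, uE, uP} B F Ft ι E)

/-- every element of the local ring of a chart at a closed point is a fraction of elements of the
chart with denominator invertible in the local ring (`LiftNodeSys2.kind_locC` for an arbitrary
`A`-algebra structure). -/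
theorem kind_locC' (BA : Subalgebra B.A F) (χ₀ : BA →+* k) :
    (∀ b ∈ BA, b ∈ locC BA χ₀) ∧ ∀ c ∈ locC BA χ₀, ∃ a d d' : F, a ∈ BA ∧
      d ∈ BA ∧ d' ∈ locC BA χ₀ ∧ d * d' = 1 ∧ c * d = a := by
  refine ⟨fun b hb => le_locC BA χ₀ hb, fun c hc => ?_⟩
  obtain ⟨a, d, hd, e⟩ := exists_rep BA χ₀ ⟨c, hc⟩
  have hd0 : (d : F) ≠ 0 := by
    intro h0
    apply hd
    have : d = 0 := Subtype.ext h0
    rw [this, map_zero]
  have hinv : ((ofBA BA χ₀ d : locC BA χ₀) : F)⁻¹ ∈ locC BA χ₀ :=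
    inv_mem_locC BA χ₀ (ofBA BA χ₀ d) (by rw [chiC_ofBA]; exact hd)
  exact ⟨(a : F), (d : F), (d : F)⁻¹, a.2, d.2, hinv, mul_inv_cancel₀ hd0, e⟩

/-- the chart hypothesis of `LiftNodeSys2.liftsMatched_of_nodeSys'` at a closed point of the
two-chart model with `B0 = chart A t`, `B1 = chart A t⁻¹`. -/
theorem kind_ringPts (hB0 : ∀ b, b ∈ chartC B.A 𝔓.t ↔ b ∈ 𝔓.B0)
    (hB1 : ∀ b, b ∈ chartC B.A 𝔓.t⁻¹ ↔ b ∈ 𝔓.B1) (x : Pts B.res 𝔓.B0 𝔓.B1 𝔓.tinv) :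
    ((∀ b ∈ chartC B.A 𝔓.t, b ∈ ringPts x) ∧ ∀ c ∈ ringPts x, ∃ a d d' : F, a ∈ chartC B.A 𝔓.t ∧
        d ∈ chartC B.A 𝔓.t ∧ d' ∈ ringPts x ∧ d * d' = 1 ∧ c * d = a) ∨
      ((∀ b ∈ chartC B.A 𝔓.t⁻¹, b ∈ ringPts x) ∧ ∀ c ∈ ringPts x, ∃ a d d' : F,
        a ∈ chartC B.A 𝔓.t⁻¹ ∧ d ∈ chartC B.A 𝔓.t⁻¹ ∧ d' ∈ ringPts x ∧ d * d' = 1 ∧ c * d = a) := by
  rcases x with x₀ | y
  · left
    obtain ⟨h1, h2⟩ := kind_locC' 𝔓.B0 x₀.χ
    refine ⟨fun b hb => h1 b ((hB0 b).mp hb), fun c hc => ?_⟩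
    obtain ⟨a, d, d', ha, hd, hd', e1, e2⟩ := h2 c hc
    exact ⟨a, d, d', (hB0 a).mpr ha, (hB0 d).mpr hd, hd', e1, e2⟩
  · right
    obtain ⟨h1, h2⟩ := kind_locC' 𝔓.B1 y.1.χ
    refine ⟨fun b hb => h1 b ((hB1 b).mp hb), fun c hc => ?_⟩
    obtain ⟨a, d, d', ha, hd, hd', e1, e2⟩ := h2 c hc
    exact ⟨a, d, d', (hB1 a).mpr ha, (hB1 d).mpr hd, hd', e1, e2⟩

/-- **(LIFT) for the assembled datum.** -/
theorem liftsMatched [Finite ι] [Finite E] [Nonempty E] [Infinite k] (v₁ v₂ : ι)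
    (hsrc : ∀ e, 𝔓.src e = v₁) (htgt : ∀ e, 𝔓.tgt e = v₂) (hι : ∀ v, v = v₁ ∨ v = v₂)
    (hB0 : ∀ b, b ∈ chartC B.A 𝔓.t ↔ b ∈ 𝔓.B0) (hB1 : ∀ b, b ∈ chartC B.A 𝔓.t⁻¹ ↔ b ∈ 𝔓.B1) :
    LiftsMatched 𝔓.toAssemblyData.toSemiRedDatum :=
  Fermat.Agent.ORD.IFACEN.LiftNodeSys2.liftsMatched_of_nodeSys' 𝔓.toAssemblyData.toSemiRedDatum
    v₁ v₂ hsrc htgt hι 𝔓.t 𝔓.htne
    (fun n => ringPts (𝔓.e.symm (Sum.inr n))) (fun n => chiPts (𝔓.e.symm (Sum.inr n)))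
    𝔓.Qs 𝔓.Qt 𝔓.xn 𝔓.yn 𝔓.un 𝔓.pin 𝔓.nsys' (fun _ => rfl) (fun _ => rfl)
    (fun _ _ h => h) (fun n => kind_ringPts 𝔓 hB0 hB1 _)

/-- **`hcentre` for the assembled datum** (helper6's `CentreGal6.centre_smul`). -/
theorem centre_smul (σ : SemilinearAut L F)
    (hA : ∀ z : L, z ∈ B.A ↔ SemilinearAut.baseAut σ z ∈ B.A)
    (hres : ∀ (a : B.A) (ha : SemilinearAut.baseAut σ (a : L) ∈ B.A),
      B.res ⟨SemilinearAut.baseAut σ (a : L), ha⟩ = B.res a)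
    (hσt : σ • 𝔓.t = 𝔓.t)
    (hB0 : ∀ b : F, b ∈ 𝔓.B0 ↔ σ • b ∈ 𝔓.B0) (hB1 : ∀ b : F, b ∈ 𝔓.B1 ↔ σ • b ∈ 𝔓.B1)
    (hχ0 : ∀ χ : 𝔓.B0 →+* k, (∀ a : B.A, χ (algebraMap B.A 𝔓.B0 a) = B.res a) →
      ∀ (b : 𝔓.B0) (hb' : σ • (b : F) ∈ 𝔓.B0), χ ⟨σ • (b : F), hb'⟩ = χ b)
    (hχ1 : ∀ χ : 𝔓.B1 →+* k, (∀ a : B.A, χ (algebraMap B.A 𝔓.B1 a) = B.res a) →
      ∀ (b : 𝔓.B1) (hb' : σ • (b : F) ∈ 𝔓.B1), χ ⟨σ • (b : F), hb'⟩ = χ b)
    (P : Place L F) :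
    𝔓.toAssemblyData.𝔸.centre (σ • P) = 𝔓.toAssemblyData.𝔸.centre P :=
  𝔓.centre_smul_of σ (fun P => Fermat.Agent.ORD.IFACEN.CentreGal6.centre_smul 𝔓.HL 𝔓.ht1 𝔓.h0 𝔓.h1
    B.res_eq_zero_iff σ hA hres hσt hB0 hB1 hχ0 hχ1 P) P

end

end Fermat.Agent.ORD.IFACEN.PtsLift9
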