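/-
PROGRAMME ORD (S33), chapter IFACE-N (O6, helper9): **THE CHECKED TODO LIST OF O6.**

`torsOrd_of_twoCompHyp` : for `p` odd, `4 ∣ M'`, `p ∤ M'`, `A = padicPlace p`, `F = Fbar (M' * p)`,
`Ft = k · F̃_{M'}`, the two sides `SideOne1.side1`, `SideTwo1.side2` and the two charts
`ChartOne1.chart0 = chart A t`, `ChartOne1.chart1 = chart A t⁻¹` (`t = tB` the Hauptmodul of `X₀(4)`):

* `H : TwoCompAssembly3.TwoCompHyp side1 side2 chart0 chart1 tB tinv …` (helper3: dichotomy of the
  closed points, disc systems at the one-branch points (helper8), node systems at the nodes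
  (helper4));
* `[Finite H.Nodes]` (helper7, `FiniteEdges7`);
* `hcentre` : inertia does not move the two-chart centre map (helper6, `CentreGal6` +
  `ClosedPtComp6`)

give `TorsOrd (M' * p) p k (Iv p)`, i.e. `hmain` of `FINAL/FinalOrd3.isOrdinaryAt_of_forall_level`.
Inside: the assembly (`TwoCompAssembly3.assembly`, `AssembleN9`), (LIFT) (`PtsLift9.liftsMatched`),
(CONN) and an edge (`RiemannGE7`), `Inertial` (`InertSide6.inertial_of_two`), the inertia-fixed
separating coordinates (`CoordOne9`, `CoordTwo9`), `GlueTwoN9.torsOrd_of_sides'`.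
-/
import Mathlib
import Fermat.Agent.ORD.IFACEN.GlueTwoN9
import Fermat.Agent.ORD.IFACEN.TwoCompAssembly3
import Fermat.Agent.ORD.IFACEN.PtsLift9
import Fermat.Agent.ORD.IFACEN.InertSide6
import Fermat.Agent.ORD.IFACEN.ChartTwo1

set_option autoImplicit false
set_option linter.unusedSectionVars false
set_option linter.style.longLine false
set_option synthInstance.maxHeartbeats 400000

open AlgebraicCurve ModularCurve IntermediateField Fermat.Agent.X0.FF Fermat.Agent.RR.LSpace
open Fermat.Agent.ORD.ANN.Side3 Fermat.Agent.ORD.ANN.Inertial3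
open Fermat.Agent.ORD.SEMIRED.SemiRedDatum9 Fermat.Agent.ORD.SEMIRED.ToSemiRed9
open Fermat.Agent.ORD.NSN.NSInputN9
open Fermat.Agent.ORD.IFACEN.SmoothAtlas8 Fermat.Agent.ORD.IFACEN.AssembleN9
open Fermat.Agent.ORD.IFACEN.Centre8 Fermat.Agent.ORD.IFACEN.PtsAssembly3
open Fermat.Agent.ORD.IFACEN.TwoCompAssembly3
open Fermat.Agent.ORD.FINAL.LevelOrd0
open Fermat.Agent.FF.BASE.Place2
open Fermat.Agent.RED.Interface4 Fermat.Agent.ES.RED.ChartIntegralA1
open Fermat.Agent.RED.PUR.ChartGeneric22
open Fermat.Agent.ORD.IFACEN.GaussBad1 Fermat.Agent.ORD.IFACEN.SideOne1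
open Fermat.Agent.ORD.IFACEN.SideTwo1 Fermat.Agent.ORD.IFACEN.ChartOne1
open Fermat.Agent.ORD.IFACEN.ChartTwo1

noncomputable section

namespace Fermat.Agent.ORD.IFACEN.ModelGlue9

local instance (priority := 100000) algKF6 (A : ValuationSubring Qbar) (M : ℕ) [NeZero M] :
    Algebra (kA A) ↥(modularFunctionFieldFullC (kA A) M) := inferInstance

/-- the `A`-algebra structure of `F` for the valuation ring of `SideOne1.base A` (`(base A).A = A` is
not visible to instance search). -/
local instance (priority := 100000) algBaseF (A : ValuationSubring Qbar) (N : ℕ) :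
    Algebra ↥(base A).A ↥(Fbar N) :=
  (inferInstance : Algebra ↥A ↥(Fbar N))

/-- the scalar tower `A → ℚ̄ → F` for the valuation ring of `SideOne1.base A`. -/
local instance (priority := 100000) istBase (A : ValuationSubring Qbar) (N : ℕ) :
    @IsScalarTower ↥(base A).A Qbar ↥(Fbar N)
      (ValuationSubring.instAlgebraSubtypeMem (base A).A).toSMul _ (algBaseF A N).toSMul :=
  (inferInstance : IsScalarTower ↥A Qbar ↥(Fbar N))

variable {p M' : ℕ} [Fact p.Prime] [NeZero M'] (hpM : ¬ p ∣ M') (h4 : 4 ∣ M')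

/-- **the checked TODO list of O6.** -/
theorem torsOrd_of_twoCompHyp (hp2 : p ≠ 2) (k : ℕ)
    (HL : LHyp Qbar ↥(Fbar (M' * p)))
    (Hk : LHyp (kA (padicPlace p)) ↥(modularFunctionFieldFullC (kA (padicPlace p)) M'))
    (tinv : ↥(chart1 p M' (padicPlace p) h4))
    (H : TwoCompHyp (B := base (padicPlace p))
      (side1 p M' (padicPlace p) (liesOverPrime p) hpM h4)
      (side2 p M' (padicPlace p) (liesOverPrime p) hpM h4)
      (chart0 p M' (padicPlace p) h4) (chart1 p M' (padicPlace p) h4) (tB p M' h4) tinv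
      (fun _ hb => chart0_le_G1 p M' (padicPlace p) (liesOverPrime p) hpM h4 hb)
      (fun _ hb => chart1_le_G1 p M' (padicPlace p) (liesOverPrime p) hpM h4 hb)
      (fun _ hb => chart0_le_G2 p M' (padicPlace p) (liesOverPrime p) hpM h4 hb)
      (fun _ hb => chart1_le_G2 p M' (padicPlace p) (liesOverPrime p) hpM h4 hb))
    [Finite H.Nodes]
    (hcentre : ∀ γ ∈ Iv p, ∀ P : Place Qbar ↥(Fbar (M' * p)),
      (H.ptsData HL Hk).c (arithmeticGalois (modularFunctionFieldFull (M' * p)) γ • P) =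
        (H.ptsData HL Hk).c P) :
    TorsOrd (M' * p) p k (Iv p) := by
  have hcl : IsAlgClosed (kA (padicPlace p)) :=
    Fermat.Agent.ORD.IFACEN.ResidueFacts7.isAlgClosed_residueField (padicPlace p)
  have hinf : Infinite (kA (padicPlace p)) := inferInstance
  have hne : Nonempty H.Nodes :=
    Fermat.Agent.ORD.IFACEN.GlueTwoN9.nonempty_edges (H.assembly HL Hk)
  have hlift : LiftsMatched (H.assembly HL Hk).toSemiRedDatum :=
    Fermat.Agent.ORD.IFACEN.PtsLift9.liftsMatched (H.ptsData HL Hk) 0 1 (fun _ => rfl)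
      (fun _ => rfl) (fun v => by fin_cases v <;> simp) (fun b => Iff.rfl) (fun b => Iff.rfl)
  exact Fermat.Agent.ORD.IFACEN.GlueTwoN9.torsOrd_of_sides' hpM h4 hp2 k (H.assembly HL Hk) rfl rfl
    (fun _ => rfl) (fun _ => rfl) hlift
    (fun γ hγ => Fermat.Agent.ORD.IFACEN.InertSide6.inertial_of_two p M' (padicPlace p)
      (liesOverPrime p) hpM h4 hγ _ rfl rfl)
    (fun γ hγ P => H.assembly_centre_smul HL Hk _ (hcentre γ hγ) P)

end Fermat.Agent.ORD.IFACEN.ModelGlue9
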