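/-
Programme ORD (S33), chapter IFACE-N (helper6): **the last input `nd` chart by chart.**

`MainOfNodes6.NodesHyp` (a node system at every closed point of the two-chart model of `X₀(M' p)`
lying on both components) from the two per-chart statements

* `NodesAt0` : every closed point `χ₀` of the chart `t ≠ ∞` lying on both components carries a node
  system on `locC chart0 χ₀`, `chiC chart0 χ₀`;
* `NodesAt1` : the same for the chart `t ≠ 0` (only the points with `χ₀ t⁻¹ = 0` are needed),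

in the literal output shape of helper2's `GoodFamily2.exists_nodeSys_of_cofinal'` with
`B := base A`, `S := side1`, `S' := side2`, `BA := chart0 / chart1`.
-/
import Mathlib
import Fermat.Agent.ORD.IFACEN.MainOfNodes6

set_option autoImplicit false
set_option linter.unusedSectionVars false
set_option linter.style.longLine false
set_option synthInstance.maxHeartbeats 400000

open AlgebraicCurve ModularCurve

noncomputable section

namespace Fermat.Agent.ORD.IFACEN.NodesWiring6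

open Fermat.Agent.X0.FF Fermat.Agent.RR.LSpace
open Fermat.Agent.RED.Interface4 Fermat.Agent.ES.RED.ChartIntegralA1
open Fermat.Agent.ORD.ANN.Side3
open Fermat.Agent.ORD.FINAL.LevelOrd0
open Fermat.Agent.FF.BASE.Place2
open Fermat.Agent.ORD.IFACEN.LocAt8 Fermat.Agent.ORD.IFACEN.Centre8
  Fermat.Agent.ORD.IFACEN.AtlasPts6 Fermat.Agent.ORD.IFACEN.PtsDict3
  Fermat.Agent.ORD.IFACEN.SideOne1 Fermat.Agent.ORD.IFACEN.SideTwo1
  Fermat.Agent.ORD.IFACEN.TwoCompInst6 Fermat.Agent.ORD.IFACEN.MainOfNodes6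
open Fermat.Agent.ORD.NODE.NodeSys4

/-- fast instance (the canonical search costs seconds). -/
local instance (priority := 100000) algKF6'' (A : ValuationSubring Qbar) (M : ℕ) [NeZero M] :
    Algebra (kA A) ↥(modularFunctionFieldFullC (kA A) M) := inferInstance

section Charts

variable (p M' : ℕ) [Fact p.Prime] [NeZero M'] (A : ValuationSubring Qbar)
  (hA : A.LiesOverPrime p) (hpM : ¬ p ∣ M') (h4 : 4 ∣ M')

/-- **the nodes of the chart `t ≠ ∞`**: every closed point lying on both components carries a node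
system. -/
def NodesAt0 : Prop :=
  ∀ χ₀ : ↥(B0 p M' A h4) →+* kA A,
    (∀ a : ↥(base A).A, χ₀ (algebraMap ↥(base A).A ↥(B0 p M' A h4) a) = (base A).res a) →
    (∀ b : ↥(B0 p M' A h4), (S₁ p M' A hA hpM h4).red
      ⟨(b : ↥(Fbar (M' * p))), le0₁ p M' A hA hpM h4 b b.2⟩ = 0 → χ₀ b = 0) →
    (∀ b : ↥(B0 p M' A h4), (S₂ p M' A hA hpM h4).red
      ⟨(b : ↥(Fbar (M' * p))), le0₂ p M' A hA hpM h4 b b.2⟩ = 0 → χ₀ b = 0) →
    ∃ (Q Q' : Place (kA A) ↥(modularFunctionFieldFullC (kA A) M'))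
      (x y u : locC (B0 p M' A h4) χ₀) (ϖ : Qbar),
      NodeSys (base A) (S₁ p M' A hA hpM h4) (S₂ p M' A hA hpM h4)
        (locC (B0 p M' A h4) χ₀) (chiC (B0 p M' A h4) χ₀) Q Q' x y u ϖ

/-- **the nodes of the chart `t ≠ 0`** (at `t = ∞`). -/
def NodesAt1 : Prop :=
  ∀ χ₀ : ↥(B1 p M' A h4) →+* kA A,
    (∀ a : ↥(base A).A, χ₀ (algebraMap ↥(base A).A ↥(B1 p M' A h4) a) = (base A).res a) →
    χ₀ (tinv p M' A h4) = 0 →
    (∀ b : ↥(B1 p M' A h4), (S₁ p M' A hA hpM h4).red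
      ⟨(b : ↥(Fbar (M' * p))), le1₁ p M' A hA hpM h4 b b.2⟩ = 0 → χ₀ b = 0) →
    (∀ b : ↥(B1 p M' A h4), (S₂ p M' A hA hpM h4).red
      ⟨(b : ↥(Fbar (M' * p))), le1₂ p M' A hA hpM h4 b b.2⟩ = 0 → χ₀ b = 0) →
    ∃ (Q Q' : Place (kA A) ↥(modularFunctionFieldFullC (kA A) M'))
      (x y u : locC (B1 p M' A h4) χ₀) (ϖ : Qbar),
      NodeSys (base A) (S₁ p M' A hA hpM h4) (S₂ p M' A hA hpM h4)
        (locC (B1 p M' A h4) χ₀) (chiC (B1 p M' A h4) χ₀) Q Q' x y u ϖ

end Charts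

variable {p M' : ℕ} [Fact p.Prime] [NeZero M'] (hpM : ¬ p ∣ M') (h4 : 4 ∣ M')

/-- **`nd` from the two charts.** -/
theorem nodesHyp_of_charts
    (h0 : NodesAt0 p M' (padicPlace p) (liesOverPrime (ℓ := p)) hpM h4)
    (h1 : NodesAt1 p M' (padicPlace p) (liesOverPrime (ℓ := p)) hpM h4) :
    NodesHyp hpM h4 := by
  intro x hx1 hx2
  rcases x with x₀ | y
  · exact h0 x₀.χ x₀.const hx1 hx2
  · exact h1 y.1.χ y.1.const y.2 hx1 hx2

/-- **`hmain` from the nodes of the two charts.** -/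
theorem torsOrd_of_charts (hp2 : p ≠ 2) (k : ℕ)
    (h0 : NodesAt0 p M' (padicPlace p) (liesOverPrime (ℓ := p)) hpM h4)
    (h1 : NodesAt1 p M' (padicPlace p) (liesOverPrime (ℓ := p)) hpM h4) :
    TorsOrd (M' * p) p k (Iv p) :=
  torsOrd_of_nd hpM h4 hp2 k (nodesHyp_of_charts hpM h4 h0 h1)

end Fermat.Agent.ORD.IFACEN.NodesWiring6
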