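/-
PROGRAMME ORD (S33), chapter IFACE-N (O6, helper3): **finiteness of the set of nodes of the
two-component model** (`[Finite H.Nodes]` of `ModelGlue9.torsOrd_of_twoCompHyp`) from ONE separator
per chart: `g₀ ∈ B0`, `g₁ ∈ B1` with `red₁ g ≠ 0 = red₂ g`.

A node `n` on the chart `B_i` lies on the second component, so `χ_n g_i = 0`; by the residue formula
(`PtsDict3.IsBranch.ord_redC_pos`) `red₁ g_i` vanishes at the source branch `Qs n`; distinct nodes have
distinct source branches (`PtsData.eq_of_branch`); a nonzero function has finitely many zeros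
(`FiniteEdges7.finite_of_zeros`).
-/
import Mathlib
import Fermat.Agent.ORD.IFACEN.TwoCompAssembly3
import Fermat.Agent.ORD.IFACEN.FiniteEdges7

set_option autoImplicit false
set_option linter.unusedSectionVars false
set_option linter.unusedVariables false
set_option linter.style.longLine false

namespace Fermat.Agent.ORD.IFACEN.TwoCompFinite3

open AlgebraicCurve Fermat.Agent.X0.FF Fermat.Agent.RR.LSpace Fermat.Agent.MW.EMB.Value6
open Fermat.Agent.ORD.ANN.Side3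
open Fermat.Agent.ORD.IFACEN.LocAt8 Fermat.Agent.ORD.IFACEN.Centre8
  Fermat.Agent.ORD.IFACEN.AtlasPts6
  Fermat.Agent.ORD.IFACEN.PtsDict3 Fermat.Agent.ORD.IFACEN.PtsAssembly3
  Fermat.Agent.ORD.IFACEN.TwoCompAssembly3

noncomputable section

universe uL uk uF uFt

variable {L : Type uL} {k : Type uk} [Field L] [Field k]
variable {B : Base L k} {F : Type uF} {Ft : Type uFt} [Field F] [Algebra L F]
  [Field Ft] [Algebra k Ft] [Algebra B.A F] [IsScalarTower B.A L F]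

variable {S₁ S₂ : Side B F Ft} {B0 B1 : Subalgebra B.A F} {t : F} {tinv : B1}
  {le0₁ : ∀ b ∈ B0, b ∈ S₁.G} {le1₁ : ∀ b ∈ B1, b ∈ S₁.G}
  {le0₂ : ∀ b ∈ B0, b ∈ S₂.G} {le1₂ : ∀ b ∈ B1, b ∈ S₂.G}
  (H : TwoCompHyp S₁ S₂ B0 B1 t tinv le0₁ le1₁ le0₂ le1₂)

/-- the source branches of distinct nodes are distinct. -/
theorem Qs_injective (HL : LHyp L F) (Hk : LHyp k Ft) :
    Function.Injective (H.ptsData HL Hk).Qs := by
  intro n n' hQ
  have h := (H.ptsData HL Hk).eq_of_branch (v := 0) ((H.ptsData HL Hk).branch_src n)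
    ((H.ptsData HL Hk).branch_src n') hQ
  exact Sum.inr.inj ((H.ptsData HL Hk).e.symm.injective h)

/-- **the set of nodes is finite.** -/
theorem finite_nodes (HL : LHyp L F) (Hk : LHyp k Ft) (g₀ : B0) (g₁ : B1)
    (hg₀ : S₁.red ⟨(g₀ : F), le0₁ g₀ g₀.2⟩ ≠ 0) (hg₀' : S₂.red ⟨(g₀ : F), le0₂ g₀ g₀.2⟩ = 0)
    (hg₁ : S₁.red ⟨(g₁ : F), le1₁ g₁ g₁.2⟩ ≠ 0) (hg₁' : S₂.red ⟨(g₁ : F), le1₂ g₁ g₁.2⟩ = 0) :
    Finite H.Nodes := by
  classical
  refine Fermat.Agent.ORD.IFACEN.FiniteEdges7.finite_of_zeros Hk (H.ptsData HL Hk).Qs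
    (Qs_injective H HL Hk)
    {S₁.red ⟨(g₀ : F), le0₁ g₀ g₀.2⟩, S₁.red ⟨(g₁ : F), le1₁ g₁ g₁.2⟩} ?_ ?_
  · intro f hf
    rcases Finset.mem_insert.mp hf with rfl | hf
    · exact hg₀
    · rw [Finset.mem_singleton.mp hf]; exact hg₁
  · intro n
    have hbr : IsBranch B.A B.res S₁.G S₁.red (ringPts n.1) (chiPts n.1)
        ((H.ptsData HL Hk).Qs n) := (H.ptsData HL Hk).branch_src n
    obtain ⟨p, hp⟩ := n
    rcases p with x₀ | y
    · refine ⟨_, Finset.mem_insert_self _ _, ?_⟩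
      have hχ : chiC B0 x₀.χ (ofBA B0 x₀.χ g₀) = 0 := by
        rw [chiC_ofBA]; exact hp.2 g₀ hg₀'
      have := hbr.ord_redC_pos (c := ofBA B0 x₀.χ g₀) hχ hg₀
      exact this.ne'
    · refine ⟨_, Finset.mem_insert_of_mem (Finset.mem_singleton_self _), ?_⟩
      have hχ : chiC B1 y.1.χ (ofBA B1 y.1.χ g₁) = 0 := by
        rw [chiC_ofBA]; exact hp.2 g₁ hg₁'
      have := hbr.ord_redC_pos (c := ofBA B1 y.1.χ g₁) hχ hg₁
      exact this.ne'

end

end Fermat.Agent.ORD.IFACEN.TwoCompFinite3
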