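/-
PROGRAMME ORD (S33), chapter IFACE-N (O6, helper3): **(LIFT) for the two-component assembly**
`TwoCompAssembly3.TwoCompHyp.assembly` over the charts `chart A t`, `chart A t⁻¹`: helper2's
`LiftNodeSys2.liftsMatched_of_nodeSys'` applied to the node systems chosen in
`PtsAssembly3.PtsData` (`C e = ringPts e`, the localisation of one of the two charts).
-/
import Mathlib
import Fermat.Agent.ORD.IFACEN.TwoCompAssembly3
import Fermat.Agent.ORD.IFACEN.LiftNodeSys2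

set_option autoImplicit false
set_option linter.unusedSectionVars false
set_option linter.unusedVariables false
set_option linter.style.longLine false

namespace Fermat.Agent.ORD.IFACEN.TwoCompLift3

open AlgebraicCurve Fermat.Agent.X0.FF Fermat.Agent.RR.LSpace Fermat.Agent.MW.EMB.Value6
open Fermat.Agent.ORD.ANN.Side3 Fermat.Agent.ORD.ANN.Node3
open Fermat.Agent.ORD.SEMIRED.SemiRedDatum9 Fermat.Agent.ORD.NSN.NSInputN9
open Fermat.Agent.ORD.IFACEN.DiscSys8 Fermat.Agent.ORD.IFACEN.DiscPlaces8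
  Fermat.Agent.ORD.IFACEN.LocAt8 Fermat.Agent.ORD.IFACEN.Centre8
  Fermat.Agent.ORD.IFACEN.SmoothAtlas8 Fermat.Agent.ORD.IFACEN.AtlasSplit6
  Fermat.Agent.ORD.IFACEN.AtlasPts6 Fermat.Agent.ORD.IFACEN.AssembleN9
  Fermat.Agent.ORD.IFACEN.PtsDict3 Fermat.Agent.ORD.IFACEN.PtsAssembly3
  Fermat.Agent.ORD.IFACEN.TwoCompAssembly3
open Fermat.Agent.ORD.NODE.NodeSys4
open Fermat.Agent.RED.PUR.ChartGeneric22

noncomputable section

universe uL uk uF uFt

variable {L : Type uL} {k : Type uk} [Field L] [Field k]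
variable {B : Base L k} {F : Type uF} {Ft : Type uFt} [Field F] [Algebra L F]
  [Field Ft] [Algebra k Ft]

/- NB: here `Algebra B.A F` is the canonical instance `Algebra.ofSubsemiring B.A` (the one used in
`LiftMoebius2` / `LiftNodeSys2` and in `ChartOne1.chart0/chart1`). -/

variable {S₁ S₂ : Side B F Ft} {t : F} {tinv : chart B.A t⁻¹}
  {le0₁ : ∀ b ∈ chart B.A t, b ∈ S₁.G} {le1₁ : ∀ b ∈ chart B.A t⁻¹, b ∈ S₁.G}
  {le0₂ : ∀ b ∈ chart B.A t, b ∈ S₂.G} {le1₂ : ∀ b ∈ chart B.A t⁻¹, b ∈ S₂.G}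
  (H : TwoCompHyp S₁ S₂ (chart B.A t) (chart B.A t⁻¹) t tinv le0₁ le1₁ le0₂ le1₂)

/-- the local ring of a closed point is the localisation of one of the two charts. -/
theorem kind_ringPts (p : Pts B.res (chart B.A t) (chart B.A t⁻¹) tinv) :
    ((∀ b ∈ chart B.A t, b ∈ ringPts p) ∧ ∀ c ∈ ringPts p, ∃ a d d' : F, a ∈ chart B.A t ∧
        d ∈ chart B.A t ∧ d' ∈ ringPts p ∧ d * d' = 1 ∧ c * d = a) ∨
      ((∀ b ∈ chart B.A t⁻¹, b ∈ ringPts p) ∧ ∀ c ∈ ringPts p, ∃ a d d' : F, a ∈ chart B.A t⁻¹ ∧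
        d ∈ chart B.A t⁻¹ ∧ d' ∈ ringPts p ∧ d * d' = 1 ∧ c * d = a) := by
  rcases p with x₀ | y
  · exact Or.inl (Fermat.Agent.ORD.IFACEN.LiftNodeSys2.kind_locC (chart B.A t) x₀.χ)
  · exact Or.inr (Fermat.Agent.ORD.IFACEN.LiftNodeSys2.kind_locC (chart B.A t⁻¹) y.1.χ)

/-- **(LIFT) for the two-component assembly.** -/
theorem liftsMatched (HL : LHyp L F) (Hk : LHyp k Ft) [Finite H.Nodes] [Nonempty H.Nodes]
    [Infinite k] : LiftsMatched (H.assembly HL Hk).toSemiRedDatum := by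
  set 𝔓 := H.ptsData HL Hk with h𝔓
  refine Fermat.Agent.ORD.IFACEN.LiftNodeSys2.liftsMatched_of_nodeSys'
    (H.assembly HL Hk).toSemiRedDatum (0 : Fin 2) 1 (fun _ => rfl) (fun _ => rfl)
    (fun v => by fin_cases v <;> simp) t H.htne
    (fun n => ringPts (𝔓.e.symm (Sum.inr n))) (fun n => chiPts (𝔓.e.symm (Sum.inr n)))
    𝔓.Qs 𝔓.Qt 𝔓.xn 𝔓.yn 𝔓.un 𝔓.pin (fun n => 𝔓.nsys' n) (fun _ => rfl) (fun _ => rfl)
    (fun n P hP => hP) (fun n => kind_ringPts _)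

end

end Fermat.Agent.ORD.IFACEN.TwoCompLift3
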