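/-
PROGRAMME ORD (S33), chapter IFACE-N (O6, helper9): **rational uniformizers off a finite set, for a
semistable datum** (`hunif` of `FINAL/FinalOrd2.torsOrd_of_datum`, of `FAMN/CloseMainN3` and of
`INSTN/MainN7.exists_admissible`) — the `N`-component version of `FF/IFACE/TameUnif8.exists_bad_unif`.

`𝔻 : SemiRedDatum L F k Ft ι E`, `k` algebraically closed, `ι` finite.  For every component `v` let
`t v ∈ G_v` be an integral function whose reduction on the component `v` is a separating
transcendental generator of `Ft / k` (for `X₀(M'p)`: the Hauptmodul coordinate of level `M'` on the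
component `∞`, and its Fricke transform on the component `0`).  `Fix : F → Prop` any predicate closed
under subtraction (in the application `γ • u = u` for all `γ` in the inertia group) with `Fix (t v)`,
such that every `c : k` has a `Fix`-lift to `A` (Teichmüller lifts, `FF/IFACE/Teich8`).

Then off a FINITE set `Bad` of points of the special fibre, `u := t v - a(Q)` is an integral function
with `Fix u`, pole-free on the disc of the smooth point `(v, Q)`, whose reduction `t̃ - t̃(Q)` is a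
uniformizer at `Q`.  NO chart hypothesis is needed: the discs on which `t v` has a pole are finite in
number (`OrthN9.finite_not_poleFree`) and go into `Bad`.
-/
import Mathlib
import Fermat.Agent.ORD.NSN.OrthN9
import Fermat.Agent.FF.IFACE.TameBad8

set_option autoImplicit false
set_option linter.unusedSectionVars false
set_option linter.style.longLine false

open AlgebraicCurve IntermediateField

noncomputable section

namespace Fermat.Agent.ORD.IFACEN.UnifN9

open Fermat.Agent.X0 Fermat.Agent.X0.FF Fermat.Agent.RR.LSpace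
open Fermat.Agent.ORD.SEMIRED.SemiRedDatum9 Fermat.Agent.ORD.REDN.DiscC9
open Fermat.Agent.ORD.NSN.OrthN9 Fermat.Agent.FF.IFACE.TameBad8

variable {L F k Ft : Type*} [Field L] [Field F] [Algebra L F] [Field k] [Field Ft] [Algebra k Ft]
variable {ι E : Type*}

/-- **Rational uniformizers off a finite set, one component.** -/
theorem exists_bad_unif_comp [IsAlgClosed k] (𝔻 : SemiRedDatum L F k Ft ι E) (v : ι) (t : 𝔻.G v)
    (hgen : IsGen k (𝔻.red v t)) [Algebra.IsSeparable k⟮𝔻.red v t⟯ Ft]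
    (Fix : F → Prop) (hsub : ∀ a b : F, Fix a → Fix b → Fix (a - b)) (ht : Fix (t : F))
    (hteich : ∀ c : k, ∃ a : 𝔻.B.A, 𝔻.B.res a = c ∧ Fix (algebraMap L F (a : L))) :
    ∃ Bad : Set (Place k Ft), Bad.Finite ∧ ∀ Q : Place k Ft, Q ∉ Bad →
      ∃ u : 𝔻.G v, 𝔻.PoleFree (u : F) v Q ∧ Q.ord (𝔻.red v u) = 1 ∧ Fix (u : F) := by
  obtain ⟨Bad, hBad⟩ := exists_finset_bad' hgen
  have hfin := finite_not_poleFree (𝔻.comp v) (t : F)
  refine ⟨(Bad : Set (Place k Ft)) ∪ {Q | ¬ (𝔻.comp v).PoleFree (t : F) Q},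
    Bad.finite_toSet.union hfin, fun Q hQ => ?_⟩
  rw [Set.mem_union, not_or] at hQ
  obtain ⟨hQ1, hQ2⟩ := hQ
  have hpf : (𝔻.comp v).PoleFree (t : F) Q := by
    by_contra h
    exact hQ2 h
  obtain ⟨-, c, hc⟩ := hBad Q (by simpa using hQ1)
  obtain ⟨a, ha, hafix⟩ := hteich c
  refine ⟨t - (𝔻.side v).const a, ?_, ?_, ?_⟩
  · have : ((t - (𝔻.side v).const a : 𝔻.G v) : F) = (t : F) - algebraMap L F (a : L) := rfl
    rw [this, ← 𝔻.comp_poleFree_iff]
    exact poleFree_sub (𝔻.comp v) hpf (poleFree_const (𝔻.comp v) _ Q)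
  · rw [map_sub, (𝔻.side v).red_const', ha]
    exact hc
  · have : ((t - (𝔻.side v).const a : 𝔻.G v) : F) = (t : F) - algebraMap L F (a : L) := rfl
    rw [this]
    exact hsub _ _ ht hafix

/-- **Rational uniformizers off a finite set** (`hunif`, with `Bad` finite). -/
theorem exists_bad_unifN [IsAlgClosed k] [Finite ι] (𝔻 : SemiRedDatum L F k Ft ι E)
    (t : ∀ v, 𝔻.G v) (hgen : ∀ v, IsGen k (𝔻.red v (t v)))
    (hsep : ∀ v, Algebra.IsSeparable k⟮𝔻.red v (t v)⟯ Ft)
    (Fix : F → Prop) (hsub : ∀ a b : F, Fix a → Fix b → Fix (a - b)) (ht : ∀ v, Fix (t v : F))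
    (hteich : ∀ c : k, ∃ a : 𝔻.B.A, 𝔻.B.res a = c ∧ Fix (algebraMap L F (a : L))) :
    ∃ Bad : Set (ι × Place k Ft), Bad.Finite ∧ ∀ (v : ι) (Q : Place k Ft), (v, Q) ∉ Bad →
      ∃ u : 𝔻.G v, 𝔻.PoleFree (u : F) v Q ∧ Q.ord (𝔻.red v u) = 1 ∧ Fix (u : F) := by
  have h := fun v => by
    haveI := hsep v
    exact exists_bad_unif_comp 𝔻 v (t v) (hgen v) Fix hsub (ht v) hteich
  choose Bad hfin hBad using h
  refine ⟨⋃ v, (fun Q => (v, Q)) '' Bad v, Set.finite_iUnion fun v => (hfin v).image _,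
    fun v Q hQ => hBad v Q fun hmem => hQ ?_⟩
  exact Set.mem_iUnion.mpr ⟨v, Q, hmem, rfl⟩

end Fermat.Agent.ORD.IFACEN.UnifN9
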